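import Mathlib
import Fermat.Prelude.Def_GroupCohomology_ContinuousUnramified
import Fermat.Agent.Bridge.Defs
import Fermat.Agent.PT.Bridge.LocGrpE

/-!
# W3-PT / PT-GLOB-K (helper47): frozen leaf statements, part 1 (Kummer side)

Language: RELATIVE cochains, as in `PT/Loc/Basic.lean` (helper48): a cochain of
`U = L.fixingSubgroup` is a TOTAL function on `GQ = Gal(ℚ̄/ℚ)`; every condition is required on
`U` only. Places of `L` above `q` are given by valuation subrings `A` of `ℚ̄` over `q`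
(equivalently by `g : GQ`, `A = g⁻¹ • padicPlace q`, local field `h23b_localField q (L.map g)`).

Every `def … : Prop` below is a leaf, to be proved as `theorem <yourprefix>_<name> : <Name>` in
its own file `Fermat/Agent/PT/Glob/<Tag><Name>.lean`.

* `KKumBasic`, `KKumRam`, `KKumRamConv`, `KKumClass` : global Kummer theory inside `ℚ̄`.
* `KSel`     : order of the Selmer group `K(S,p)` (abstract number field).
* `KLocDeg`  : `∑_{v ∣ q} [L_v : ℚ_q] = [L : ℚ]`.
* `KCheb`    : Chebotarev-lite for a character of `U`.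
* `KIso`     : an isotropic subspace has at most half the dimension.
-/

set_option autoImplicit false

open NumberField IsDedekindDomain
open scoped Pointwise

namespace Fermat.Agent.PT.Glob

open Fermat.Agent.Bridge

noncomputable section

/-! ## Kummer theory in `ℚ̄` -/

/-- The Kummer function of `B` with respect to `ζ`: `g B = ζ ^ (kumQ g) · B`
(`0` if there is no such exponent). Same definition as `Loc.kum`. -/
def kumQ (n : ℕ) (ζ B : Qb) (g : GQ) : ZMod n :=
  open scoped Classical in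
  if h : ∃ k : ZMod n, g B = ζ ^ k.val * B then h.choose else 0

/-- K-KUM (a): the Kummer function of an `n`-th root `B` of an element of `L` (`μ_n ⊆ L`) is a
character of `U = G_L`, constant on the cosets of `G_{L(B)}`, and it vanishes on `U` iff
`B ∈ L`. -/
def KKumBasic : Prop :=
  ∀ (n : ℕ) [NeZero n] (L : IntermediateField ℚ Qb) (ζ B : Qb),
    ζ ∈ L → IsPrimitiveRoot ζ n → B ≠ 0 → B ^ n ∈ L →
    (∀ g ∈ L.fixingSubgroup, g B = ζ ^ (kumQ n ζ B g).val * B) ∧
    (∀ g ∈ L.fixingSubgroup, ∀ h ∈ L.fixingSubgroup,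
      kumQ n ζ B (g * h) = kumQ n ζ B g + kumQ n ζ B h) ∧
    (∀ g : GQ, ∀ s ∈ (L ⊔ IntermediateField.adjoin ℚ {B}).fixingSubgroup,
      kumQ n ζ B (g * s) = kumQ n ζ B g) ∧
    ((∀ g ∈ L.fixingSubgroup, kumQ n ζ B g = 0) ↔ B ∈ L)

/-- `n` divides the valuation of `a` at the place of `L` below `A`: `a = πⁿ u` with `π ∈ L` and
`u` a unit of `A`. -/
def DvdValAt (n : ℕ) (L : IntermediateField ℚ Qb) (A : ValuationSubring Qb) (a : Qb) : Prop :=
  ∃ π : Qb, π ∈ L ∧ π ≠ 0 ∧ ∃ u : Qb, u ∈ A ∧ u⁻¹ ∈ A ∧ a = π ^ n * u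

/-- K-KUM (b), ramification criterion: if all prime divisors of `n` are in `S`, `L` is unramified
outside `S`, `Bⁿ = a ∈ L` and `n ∣ v(a)` at every place of `L` outside `S`, then `B` lies in a
finite normal extension of `ℚ` unramified outside `S` containing `L`.
(No root of unity is assumed in `L`.) -/
def KKumRam : Prop :=
  ∀ (n : ℕ) (S : Finset Nat.Primes) (L : IntermediateField ℚ Qb) (B : Qb),
    0 < n → (∀ q : Nat.Primes, (q : ℕ) ∣ n → q ∈ S) → L.IsUnramifiedOutside S →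
    B ≠ 0 → B ^ n ∈ L →
    (∀ q : Nat.Primes, q ∉ S → ∀ A : ValuationSubring Qb, A.LiesOverPrime (q : ℕ) →
      DvdValAt n L A (B ^ n)) →
    ∃ F : IntermediateField ℚ Qb, F.IsUnramifiedOutside S ∧ Normal ℚ F ∧ L ≤ F ∧ B ∈ F

/-- K-KUM (c), converse of the ramification criterion for `n = p` prime, `μ_p ⊆ L`: if `L(B)`
lies in an extension unramified outside `S` then `p ∣ v(Bᵖ)` at every place of `L` outside `S`. -/
def KKumRamConv : Prop :=
  ∀ (p : ℕ) [Fact p.Prime] (S : Finset Nat.Primes) (L F : IntermediateField ℚ Qb) (ζ B : Qb),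
    FiniteDimensional ℚ L → ζ ∈ L → IsPrimitiveRoot ζ p → B ≠ 0 → B ^ p ∈ L →
    F.IsUnramifiedOutside S → L ≤ F → B ∈ F →
    ∀ q : Nat.Primes, q ∉ S → ∀ A : ValuationSubring Qb, A.LiesOverPrime (q : ℕ) →
      DvdValAt p L A (B ^ p)

/-- K-KUM (d), Kummer classification: every continuous character `U → 𝔽_p` is a Kummer
character (`μ_p ⊆ L`, `L` finite). -/
def KKumClass : Prop :=
  ∀ (p : ℕ) [Fact p.Prime] (L F : IntermediateField ℚ Qb) (ζ : Qb),
    FiniteDimensional ℚ F → L ≤ F → ζ ∈ L → IsPrimitiveRoot ζ p →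
    ∀ χ : GQ → ZMod p,
      (∀ g ∈ L.fixingSubgroup, ∀ h ∈ L.fixingSubgroup, χ (g * h) = χ g + χ h) →
      (∀ g ∈ L.fixingSubgroup, ∀ s ∈ F.fixingSubgroup, χ (g * s) = χ g) →
      ∃ B : Qb, B ≠ 0 ∧ B ^ p ∈ L ∧ B ∈ F ∧ ∀ g ∈ L.fixingSubgroup, χ g = kumQ p ζ B g

/-! ## The Selmer group -/

section Sel

variable (K : Type) [Field K] [NumberField K]

/-- The class of a prime. -/
def kPrimeClass (v : HeightOneSpectrum (𝓞 K)) : ClassGroup (𝓞 K) :=
  ClassGroup.mk0 ⟨v.asIdeal, mem_nonZeroDivisors_of_ne_zero v.ne_bot⟩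

/-- The subgroup of the class group generated by the classes of the primes in `S`. -/
def clSsub (S : Set (HeightOneSpectrum (𝓞 K))) : Subgroup (ClassGroup (𝓞 K)) :=
  Subgroup.closure (kPrimeClass K '' S)

/-- The `S`-class group `Cl_S(K) = Cl(K) / ⟨classes of the primes in S⟩`. -/
abbrev ClS (S : Set (HeightOneSpectrum (𝓞 K))) : Type := ClassGroup (𝓞 K) ⧸ clSsub K S

/-- `# (Cl_S(K) / p)`. -/
def clSmodP (S : Set (HeightOneSpectrum (𝓞 K))) (p : ℕ) : ℕ :=
  (powMonoidHom p : ClS K S →* ClS K S).range.index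

end Sel

/-- K-SEL: the order of the Selmer group `K(S,p) = {a ∈ Kˣ/Kˣᵖ : p ∣ v(a) ∀ v ∉ S}` is
`p ^ (rank 𝓞ˣ + #S + 1) · #(Cl_S/p)` when `μ_p ⊆ K`. -/
def KSel : Prop :=
  ∀ (p : ℕ) [Fact p.Prime] (K : Type) [Field K] [NumberField K] (ζ : K), IsPrimitiveRoot ζ p →
    ∀ S : Set (HeightOneSpectrum (𝓞 K)), S.Finite →
      Nat.card (selmerGroup (R := 𝓞 K) (K := K) (S := S) (n := p)) =
        p ^ (Units.rank K + Nat.card S + 1) * clSmodP K S p

/-! ## Local degrees -/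

/-- K-LOCDEG: for a prime `q` and a finite `L ⊆ ℚ̄` there is a finite system `g i` of
representatives of the places of `L` above `q` (place of `g` = `primeUnder (g⁻¹ • padicPlace q) L`,
local field `= ℚ_q(ι (g L))`) and `∑ [L_v : ℚ_q] = [L : ℚ]`. -/
def KLocDeg : Prop :=
  ∀ (q : ℕ) [Fact q.Prime] (L : IntermediateField ℚ Qb), FiniteDimensional ℚ L →
    ∃ (m : ℕ) (g : Fin m → GQ),
      (∀ i j, primeUnder ((g i)⁻¹ • padicPlace q) L = primeUnder ((g j)⁻¹ • padicPlace q) L →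
        i = j) ∧
      (∀ A : ValuationSubring Qb, A.LiesOverPrime q →
        ∃ i, primeUnder A L = primeUnder ((g i)⁻¹ • padicPlace q) L) ∧
      (∀ i, FiniteDimensional ℚ_[q]
        (Fermat.Agent.PT.Bridge.h23b_localField q (L.map ((g i : Qb ≃ₐ[ℚ] Qb) : Qb →ₐ[ℚ] Qb)))) ∧
      ∑ i, Module.finrank ℚ_[q]
        (Fermat.Agent.PT.Bridge.h23b_localField q (L.map ((g i : Qb ≃ₐ[ℚ] Qb) : Qb →ₐ[ℚ] Qb))) =
        Module.finrank ℚ L

/-! ## Chebotarev-lite -/

/-- K-CHEB: a nonzero continuous character `χ` of `U = G_L` is nonzero on a Frobenius element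
`σ ∈ U` at a valuation subring over a prime `q ∉ T`, unramified in `F`. -/
def KCheb : Prop :=
  ∀ (p : ℕ) [Fact p.Prime] (L F : IntermediateField ℚ Qb), FiniteDimensional ℚ F → L ≤ F →
    ∀ χ : GQ → ZMod p,
      (∀ g ∈ L.fixingSubgroup, ∀ h ∈ L.fixingSubgroup, χ (g * h) = χ g + χ h) →
      (∀ g ∈ L.fixingSubgroup, ∀ s ∈ F.fixingSubgroup, χ (g * s) = χ g) →
      (∃ g ∈ L.fixingSubgroup, χ g ≠ 0) →
      ∀ T : Finset ℕ, ∃ (q : ℕ) (A : ValuationSubring Qb) (σ : GQ),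
        q.Prime ∧ q ∉ T ∧ A.LiesOverPrime q ∧ σ ∈ L.fixingSubgroup ∧ A.IsFrobeniusAt σ q ∧
        χ σ ≠ 0 ∧ ∀ g ∈ A.inertiaSubgroupIn ℚ, g ∈ F.fixingSubgroup

/-! ## Linear algebra -/

/-- K-ISO: a subspace which is isotropic for a bilinear form with trivial left kernel has at most
half the dimension. -/
def KIso : Prop :=
  ∀ (k V : Type) [Field k] [AddCommGroup V] [Module k V] [FiniteDimensional k V]
    (B : V →ₗ[k] V →ₗ[k] k) (W : Submodule k V),
    (∀ v, (∀ w, B v w = 0) → v = 0) → (∀ w ∈ W, ∀ w' ∈ W, B w w' = 0) →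
    2 * Module.finrank k W ≤ Module.finrank k V

end

end Fermat.Agent.PT.Glob
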