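/-
W3-PT (S55), PT-GLOB-K, leaf K-KUM (c) (helper96): converse of the ramification criterion.

`h96k_kKumRamConv : KKumRamConv` : if `B` lies in a field `F ⊇ L` unramified outside `S`, then at
every place `A` over `q ∉ S` the element `Bᵖ` is `πᵖ · unit` with `π ∈ L` (in fact `π = q ^ j`).
Proof: the local field `ℚ_q(ι (g F))` is fixed by the local inertia group, hence lies in some
`ℚ_q(μ_{q^n - 1})` (helper23, `h23b_le_QurFin_of_inert`), whose value group is that of `ℚ_q`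
(`URVal`, helper66/helper34).  (Neither `ζ` nor the primality of `p` nor the finiteness of `L`
is used.)
-/
import Mathlib
import Fermat.Agent.PT.Glob.KIface
import Fermat.Agent.PT.Bridge.Unram
import Fermat.Agent.PT.Loc.H66URVal
import Fermat.Agent.PT.Loc.H34LFTeich

set_option autoImplicit false

namespace Fermat.Agent.PT.Glob

open Fermat.Agent.Bridge Fermat.Agent.PT.Bridge

/-- `ℚ_q(μ_{q^n-1})` is contained in the unramified extension `Kur ⊥ n` of PT-LOC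
(whatever `resCard ⊥ = q ^ f` is). -/
theorem h96k_QurFin_le_Kur (q : ℕ) [Fact q.Prime] (n : ℕ) :
    h23b_QurFin q n ≤ Loc.Kur (⊥ : Loc.LF q) n := by
  obtain ⟨-, ⟨f, hf, hN⟩, -⟩ := Loc.h34lf_lfTeich q (⊥ : Loc.LF q)
  unfold h23b_QurFin Loc.Kur
  refine le_trans ?_ le_sup_right
  refine IntermediateField.adjoin.mono _ _ _ fun w hw => ?_
  have hw' : w ^ (q ^ n - 1) = 1 := hw
  show w ^ (Loc.resCard (⊥ : Loc.LF q) ^ n - 1) = 1
  rw [hN, ← pow_mul, mul_comm f n, pow_mul]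
  obtain ⟨c, hc⟩ : q ^ n - 1 ∣ (q ^ n) ^ f - 1 := Nat.sub_one_dvd_pow_sub_one ..
  rw [hc, pow_mul, hw', one_pow]

/-- Non-zero elements of a finite extension of `ℚ_q` fixed by the inertia group have norm in
`q ^ ℤ`. -/
theorem h96k_norm_of_inert (q : ℕ) [Fact q.Prime] (E : Loc.LF q) [FiniteDimensional ℚ_[q] E]
    (hE : ∀ g : PadicAlgCl q ≃ₐ[ℚ_[q]] PadicAlgCl q,
      (∀ (w : PadicAlgCl q) (m : ℕ), 0 < m → ¬ q ∣ m → w ^ m = 1 → g w = w) →
        g ∈ E.fixingSubgroup)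
    {x : PadicAlgCl q} (hx : x ∈ E) (hx0 : x ≠ 0) : ∃ j : ℤ, ‖x‖ = ((q : ℝ)⁻¹) ^ j := by
  obtain ⟨n, hn, hle⟩ := h23b_le_QurFin_of_inert q E hE
  have hval := Loc.h66v_urVal Loc.h34lf_lfTeich q (⊥ : Loc.LF q) n hn
  obtain ⟨y, hy, hxy⟩ := hval.2.1 x (h96k_QurFin_le_Kur q n (hle hx))
  obtain ⟨y₀, rfl⟩ := IntermediateField.mem_bot.mp hy
  have hy0 : y₀ ≠ 0 := by
    rintro rfl
    rw [map_zero, norm_zero, norm_eq_zero] at hxy
    exact hx0 hxy
  refine ⟨y₀.valuation, ?_⟩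
  rw [hxy, norm_algebraMap', Padic.norm_eq_zpow_neg_valuation hy0, inv_zpow, zpow_neg]

/-- **K-KUM (c).** Converse of the ramification criterion. -/
theorem h96k_kKumRamConv : KKumRamConv := by
  intro p _ S L F ζ B _ _ _ hB0 _ hF _ hBF q hqS A hA
  have hqF : Fact (q : ℕ).Prime := ⟨q.2⟩
  obtain ⟨g, rfl⟩ := h23b_exists_smul_padicPlace (q : ℕ) hA
  rw [h23b_dvdValAt_iff (q : ℕ) p L g (B ^ p) (pow_ne_zero _ hB0)]
  have hFfin : FiniteDimensional ℚ F := hF.1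
  have hFgfin : FiniteDimensional ℚ (F.map (g : Qb →ₐ[ℚ] Qb)) :=
    (pt79_isUnramifiedOutside_map hF g).1
  have hEfin : FiniteDimensional ℚ_[(q : ℕ)]
      (h23b_localField (q : ℕ) (F.map (g : Qb →ₐ[ℚ] Qb))) :=
    h23b_finiteDimensional_localField (q : ℕ) _
  have hqS' : (⟨(q : ℕ), Fact.out⟩ : Nat.Primes) ∉ S := hqS
  have hgB : g B ∈ F.map (g : Qb →ₐ[ℚ] Qb) := ⟨B, hBF, rfl⟩
  have hgB0 : padicEmbedding (q : ℕ) (g B) ≠ 0 := by
    intro h0
    apply hB0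
    have := (h23b_padicEmbedding_injective (q : ℕ)) (by rw [h0, map_zero] :
      padicEmbedding (q : ℕ) (g B) = padicEmbedding (q : ℕ) 0)
    exact (map_eq_zero g).mp this
  obtain ⟨j, hj⟩ := h96k_norm_of_inert (q : ℕ)
    (h23b_localField (q : ℕ) (F.map (g : Qb →ₐ[ℚ] Qb)))
    (fun h hh => h23b_mem_fixingSubgroup_localField_of_inert (q : ℕ) hF hqS' g hh)
    (h23b_padicEmbedding_mem_localField (q : ℕ) hgB) hgB0
  have hq0 : (((q : ℕ) : ℚ) : Qb) ≠ 0 := by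
    have : ((q : ℕ) : ℚ) ≠ 0 := by exact_mod_cast q.2.ne_zero
    simpa using this
  refine ⟨(algebraMap ℚ Qb ((q : ℕ) : ℚ)) ^ j, ?_, ?_, ?_⟩
  · exact zpow_mem (L.algebraMap_mem _) j
  · exact zpow_ne_zero _ (by simpa using hq0)
  · rw [map_pow, map_pow, norm_pow, hj, map_zpow₀, map_zpow₀, norm_zpow]
    congr 2
    rw [AlgEquiv.commutes, map_natCast, map_natCast]
    exact (h23b_norm_natCast_prime (q : ℕ)).symm

end Fermat.Agent.PT.Glob
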