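/-
W3-PT (S55), PT-GLOB-K, leaf K-N2-INERTVAL (helper55): an element of `ℚ̄ˣ` fixed by the inertia
group of a valuation subring `A` over `q` is `q ^ j` times a unit of `A`.

Proof: `A = g⁻¹ • padicPlace q`; the local field `ℚ_q(ι (g x))` is fixed by the local inertia
group (`h23b_mem_inertia_conj_iff`), hence its non-zero elements have norm in `q ^ ℤ`
(`h96k_norm_of_inert`, helper96/helper23/helper66/helper34); so `x / q ^ j` is a unit of `A`
(`h23b_isUnit_conj_iff`).
-/
import Mathlib
import Fermat.Agent.PT.Glob.KIface4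
import Fermat.Agent.PT.Glob.H96KKumRamConv

set_option autoImplicit false
set_option linter.style.haveILetI false

namespace Fermat.Agent.PT.Glob

open Fermat.Agent.Bridge Fermat.Agent.PT.Bridge

open scoped Pointwise

/-- **K-N2-INERTVAL.** -/
theorem h55v_kInertVal : KInertVal := by
  intro q hq A hA x hx0 hfix
  haveI hqF : Fact q.Prime := ⟨hq⟩
  obtain ⟨g, rfl⟩ := h23b_exists_smul_padicPlace q hA
  set F : IntermediateField ℚ Qb := IntermediateField.adjoin ℚ {g x} with hF
  have hint : IsIntegral ℚ (g x) :=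
    ((AlgebraicClosure.isAlgebraic ℚ).isAlgebraic (g x)).isIntegral
  haveI hFfin : FiniteDimensional ℚ F := IntermediateField.adjoin.finiteDimensional hint
  haveI hEfin : FiniteDimensional ℚ_[q] (h23b_localField q F) :=
    h23b_finiteDimensional_localField q F
  have hgxF : g x ∈ F := IntermediateField.mem_adjoin_simple_self ℚ (g x)
  have hgx0 : padicEmbedding q (g x) ≠ 0 := by
    intro h0
    apply hx0
    have := (h23b_padicEmbedding_injective q) (by rw [h0, map_zero] :
      padicEmbedding q (g x) = padicEmbedding q 0)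
    exact (map_eq_zero g).mp this
  have hinert : ∀ h : PadicAlgCl q ≃ₐ[ℚ_[q]] PadicAlgCl q,
      (∀ (w : PadicAlgCl q) (m : ℕ), 0 < m → ¬ q ∣ m → w ^ m = 1 → h w = w) →
        h ∈ (h23b_localField q F).fixingSubgroup := by
    intro h hh
    rw [h23b_mem_fixingSubgroup_localField_iff, hF, h23b_mem_fixingSubgroup_adjoin_iff]
    intro y hy
    rw [Set.mem_singleton_iff] at hy
    subst hy
    have h1 : g⁻¹ * localGaloisToGlobal q h * g ∈ (g⁻¹ • padicPlace q).inertiaSubgroupIn ℚ :=
      (h23b_mem_inertia_conj_iff q g _).mpr ⟨h, hh, rfl⟩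
    have h2 := hfix _ h1
    have h3 : g ((g⁻¹ * localGaloisToGlobal q h * g) x) = localGaloisToGlobal q h (g x) := by
      simp [AlgEquiv.mul_apply]
    rw [← h3, h2]
  obtain ⟨j, hj⟩ := h96k_norm_of_inert q (h23b_localField q F) hinert
    (h23b_padicEmbedding_mem_localField q hgxF) hgx0
  have hq0 : ((q : ℕ) : Qb) ≠ 0 := by exact_mod_cast hq.ne_zero
  have hu0 : x * ((q : Qb) ^ j)⁻¹ ≠ 0 := mul_ne_zero hx0 (inv_ne_zero (zpow_ne_zero _ hq0))
  have hnorm : ‖padicEmbedding q (g (x * ((q : Qb) ^ j)⁻¹))‖ = 1 := by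
    rw [map_mul, map_mul, norm_mul, hj, map_inv₀, map_inv₀, norm_inv, map_zpow₀, map_zpow₀,
      norm_zpow, map_natCast, map_natCast, h23b_norm_natCast_prime]
    exact mul_inv_cancel₀ (zpow_ne_zero _ (inv_ne_zero (by exact_mod_cast hq.ne_zero)))
  obtain ⟨hu, hu'⟩ := (h23b_isUnit_conj_iff q g _ hu0).mpr hnorm
  refine ⟨j, x * ((q : Qb) ^ j)⁻¹, hu, hu', ?_⟩
  field_simp

end Fermat.Agent.PT.Glob
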