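import Mathlib
import Fermat.Agent.PT.Shap.ShapIface
import Fermat.Agent.PT.Loc.Iface
import Fermat.Agent.PT.Glob.KIface

/-!
# W3-PT / PT-GLOB (helper47): frozen interface, part 2 — the global base case over `L`

Target: `h56s_ArithBaseL` (PT/Shap/ShapIface.lean), global clause: for `U = G_L` open in
`levQ S` with `χ|_U = 1`, the restricted datum `D_U = h56s_restr (DQ p S) U sd` with trivial
coefficients satisfies `VV` and `Perf1` for the restricted trace.

* `TrSys p`   : a COHERENT system of traces `tr S` (one for every `S`) with `S`-independent local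
                invariants `inv q` (`invAt (tr S) q = inv q`).  [constructed by PT-GLOB-BR]
* `USD U`     : UNIFORM Shapiro data (a section of `G_ℚ → G_ℚ/U` and orbit data of every local
                group `Gal(ℚ̄_q/ℚ_q)`, `q` ANY prime, on `G_ℚ/U`); `DU`, `trU` the restricted datum
                and trace for these choices.  Uniformity makes the comparison `S ⊆ S'` literal.
* `KPerfAsm`  : pure algebra: `Perf1` of the trivial module from (d') + (c2) + local injectivity +
                `dim Ш² ≤ dim Ш¹`.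
* `KLeft`     : (d') left nondegeneracy of `Ш¹ × Ш² → 𝔽_p`              [PT-GLOB-K]
* `KCountD`   : (d)  `#(Cl_S(L)/p) ≤ #Ш¹_S(L, 𝔽_p)`                     [PT-GLOB-K]
* `BrCountH`  : (h)  `#Ш²_S(L, 𝔽_p) ≤ #(Cl_S(L)/p)`                     [PT-GLOB-BR]
* `BrHyper`   : (c2) the image of `λ²` is the hyperplane `∑ inv = 0`      [PT-GLOB-BR]
* `BrVV`      : `H¹(G_{L,S}, 𝔽_p)` finite and `H³(G_{L,S}, 𝔽_p) = 0`     [PT-GLOB-BR]
* `LocInj`, `LocNondeg`, `LocDim`, `TrGen` : the local inputs, in the language of the restricted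
                datum.
-/

set_option autoImplicit false

open ExtCitation NumberField IsDedekindDomain

namespace Fermat.Agent.PT.Glob

open Fermat.Agent.PT Fermat.Agent.PT.Shap

local notation "GQ₀" => (AlgebraicClosure ℚ ≃ₐ[ℚ] AlgebraicClosure ℚ)

noncomputable section

/-! ## Pure algebra: the assembly of `Perf1` for the trivial module -/

/-- PERF1-ASM: for a good datum with trivial character, `Perf1` of the trivial module follows
from (d') left nondegeneracy on `Ш`, (c2) the hyperplane property, injectivity of the local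
invariants on `H²_v` and `dim Ш² ≤ dim Ш¹`. -/
def KPerfAsm : Prop :=
  ∀ (k : Type) [Field k] (D : Datum k) (tr : D.CC3 k →ₗ[k] k), D.Good → D.TrOK tr →
    (∀ g, D.chi g = 1) →
    (∀ z ∈ D.ZC1 (Representation.trivial k D.G k),
      (∀ y ∈ D.ZSha2 (Representation.trivial k D.G k),
        D.pair1 (Representation.trivial k D.G k) tr (LinearMap.mul k k) z y = 0) → z.1 = 0) →
    (∀ b : D.P → k,
      (∀ y ∈ Z2 D.lev (Representation.trivial k D.G k),
        ∑ v, b v * D.invAt tr v (res2 k k (D.loc v) y) = 0) → ∃ α : k, ∀ v, b v = α) →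
    (∀ v, ∀ c ∈ Z2 (D.levH v) (D.repAt (Representation.trivial k D.G k) v),
      D.invAt tr v c = 0 → c ∈ B2 (D.levH v) (D.repAt (Representation.trivial k D.G k) v)) →
    Module.Finite k (D.Sha1 (Representation.trivial k D.G k)) →
    Module.Finite k (D.Sha2 (Representation.trivial k D.G k)) →
    Module.finrank k (D.Sha2 (Representation.trivial k D.G k)) ≤
      Module.finrank k (D.Sha1 (Representation.trivial k D.G k)) →
    D.Perf1 (Representation.trivial k D.G k) (Representation.trivial k D.G k) tr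
      (LinearMap.mul k k)

/-! ## Trace systems and uniform Shapiro data -/

/-- A coherent system of traces: one trace for every `S`, with local invariants independent
of `S`. -/
structure TrSys (p : ℕ) [Fact p.Prime] where
  /-- the local invariant at `q` (a functional on all `2`-cochains of `Gal(ℚ̄_q/ℚ_q)`) -/
  inv : ∀ q : Nat.Primes,
    (primeLocalGaloisGroup q × primeLocalGaloisGroup q → ZMod p) →ₗ[ZMod p] ZMod p
  /-- the trace of `DQ p S` -/
  tr : ∀ S : Finset Nat.Primes, (DQ p S).CC3 (ZMod p) →ₗ[ZMod p] ZMod p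
  trOK : ∀ S : Finset Nat.Primes, pPrime p ∈ S → (DQ p S).TrOK (tr S)
  invAt_eq : ∀ (S : Finset Nat.Primes) (q : ↥S), (DQ p S).invAt (tr S) q = inv q.1

/-- The action of the local group at `q` on `G_ℚ/U`. -/
@[reducible] def locActQ (U : Subgroup GQ₀) (q : Nat.Primes) :
    MulAction (primeLocalGaloisGroup q) (GQ₀ ⧸ U) :=
  MulAction.compHom (GQ₀ ⧸ U) (primeLocalToGlobal q)

/-- Uniform Shapiro data for `U`: a section of `G_ℚ → G_ℚ/U` and orbit data for the local group
at EVERY prime `q`. -/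
structure USD (U : Subgroup GQ₀) where
  /-- the section -/
  sec : h56s_Sec GQ₀ U
  /-- orbit data at every prime -/
  od : ∀ q : Nat.Primes, @h56s_OrbitData (primeLocalGaloisGroup q) (GQ₀ ⧸ U) _ (locActQ U q)

theorem USD.nonempty (U : Subgroup GQ₀) : Nonempty (USD U) :=
  ⟨{ sec := (h56s_Sec.nonempty GQ₀ U).some
     od := fun q => (@h56s_OrbitData.nonempty (primeLocalGaloisGroup q) (GQ₀ ⧸ U) _
       (locActQ U q)).some }⟩

variable {p : ℕ} [Fact p.Prime]

/-- The Shapiro data of `DQ p S` induced by uniform data. -/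
def USD.sd {U : Subgroup GQ₀} (u : USD U) (p : ℕ) [Fact p.Prime] (S : Finset Nat.Primes) :
    h56s_ShapData (DQ p S) U where
  sec := u.sec
  od := fun v => u.od v.1

/-- The restricted datum `D_U` over `L = ℚ̄^U`. -/
def DU (p : ℕ) [Fact p.Prime] (S : Finset Nat.Primes) (U : Subgroup GQ₀)
    [hU : U.FiniteIndex] (u : USD U) : Datum (ZMod p) :=
  @h56s_restr (ZMod p) _ (DQ p S) U hU (u.sd p S)

/-- The restricted trace. -/
def trU (TS : TrSys p) (S : Finset Nat.Primes) (U : Subgroup GQ₀) [hU : U.FiniteIndex]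
    (u : USD U) : (DU p S U u).CC3 (ZMod p) →ₗ[ZMod p] ZMod p :=
  @h56s_trR (ZMod p) _ (DQ p S) U (u.sd p S) hU (TS.tr S)

/-- The trivial module of `D_U`. -/
abbrev trivU (p : ℕ) [Fact p.Prime] (S : Finset Nat.Primes) (U : Subgroup GQ₀) [U.FiniteIndex]
    (u : USD U) : Representation (ZMod p) (DU p S U u).G (ZMod p) :=
  Representation.trivial (ZMod p) (DU p S U u).G (ZMod p)

/-- The number field `L = ℚ̄^U`. -/
abbrev fieldOf (U : Subgroup GQ₀) : IntermediateField ℚ (AlgebraicClosure ℚ) :=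
  IntermediateField.fixedField U

/-- The primes of `𝓞 L` above `S`. -/
def primesAbove (L : IntermediateField ℚ (AlgebraicClosure ℚ)) (S : Finset Nat.Primes) :
    Set (HeightOneSpectrum (𝓞 L)) :=
  {v | ∃ q ∈ S, ((q : ℕ) : 𝓞 L) ∈ v.asIdeal}

/-- The standing hypotheses on `(S, U)`: `p ∈ S`, `U` open in `levQ S`, `χ|_U = 1`. -/
structure Adm (p : ℕ) [Fact p.Prime] (S : Finset Nat.Primes) (U : Subgroup GQ₀) : Prop where
  odd : p ≠ 2
  mem : pPrime p ∈ S
  isOpen : (levQ S).IsOpen U
  chi : ∀ u ∈ U, cycloChar p u = 1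

/-! ## The local inputs (owner: PT-LOC + PT-SHAP + PT-GLOB-BR) -/

/-- TR-GEN: the local invariant at a prime `q ≠ p` with `μ_p ⊆ ℚ_q` does not vanish on the
standard generators `κ_ϖ ∪ χ_ur` of `H²(ℚ_q, 𝔽_p)`. -/
def TrGen (TS : TrSys p) : Prop :=
  ∀ (q : Nat.Primes), (q : ℕ) ≠ p → letI : Fact (q : ℕ).Prime := ⟨q.2⟩
    ∀ (ζ : Loc.Om (q : ℕ)), ζ ∈ (⊥ : Loc.LF (q : ℕ)) → IsPrimitiveRoot ζ p →
    ∀ c₀ : Loc.Gq (q : ℕ) × Loc.Gq (q : ℕ) → ZMod p, Loc.IsGen p ⊥ ζ c₀ → TS.inv q c₀ ≠ 0

/-- LOC-INJ: the restricted local invariants are injective on `H²` of the local groups of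
`D_U`. -/
def LocInj (TS : TrSys p) : Prop :=
  ∀ (S : Finset Nat.Primes) (U : Subgroup GQ₀) [U.FiniteIndex] (u : USD U), Adm p S U →
    ∀ v, ∀ c ∈ Z2 ((DU p S U u).levH v) ((DU p S U u).repAt (trivU p S U u) v),
      (DU p S U u).invAt (trU TS S U u) v c = 0 →
      c ∈ B2 ((DU p S U u).levH v) ((DU p S U u).repAt (trivU p S U u) v)

/-- LOC-NONDEG: the local cup product pairing `H¹ × H¹ → 𝔽_p` of every local group of `D_U` has
trivial left kernel (Hilbert symbol). -/
def LocNondeg (TS : TrSys p) : Prop :=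
  ∀ (S : Finset Nat.Primes) (U : Subgroup GQ₀) [U.FiniteIndex] (u : USD U), Adm p S U →
    ∀ v, ∀ χ ∈ Z1 ((DU p S U u).levH v) ((DU p S U u).repAt (trivU p S U u) v),
      (∀ ψ ∈ Z1 ((DU p S U u).levH v) ((DU p S U u).repAt (trivU p S U u) v),
        (DU p S U u).invAt (trU TS S U u) v
          (cup11 (LinearMap.mul (ZMod p) (ZMod p))
            ((DU p S U u).repAt (trivU p S U u) v) χ ψ) = 0) → χ = 0

/-- LOC-DIM: `∑_w dim H¹(L_w, 𝔽_p) = 2 #{w ∣ S} + [L : ℚ]`. -/
def LocDim : Prop :=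
  ∀ (p : ℕ) [Fact p.Prime] (S : Finset Nat.Primes) (U : Subgroup GQ₀) [U.FiniteIndex]
    (u : USD U), Adm p S U →
    (∀ v, Module.Finite (ZMod p)
      (Z1 ((DU p S U u).levH v) ((DU p S U u).repAt (trivU p S U u) v))) ∧
    ∑ v, Module.finrank (ZMod p)
      (Z1 ((DU p S U u).levH v) ((DU p S U u).repAt (trivU p S U u) v)) =
      2 * Fintype.card (DU p S U u).P + Module.finrank ℚ (fieldOf U)

/-- PLACES: the places of `D_U` are in bijection with the primes of `𝓞 L` above `S`. -/
def PlacesCard : Prop :=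
  ∀ (p : ℕ) [Fact p.Prime] (S : Finset Nat.Primes) (U : Subgroup GQ₀) [U.FiniteIndex]
    [NumberField (fieldOf U)] (u : USD U), Adm p S U →
    Fintype.card (DU p S U u).P = Nat.card (primesAbove (fieldOf U) S)

/-! ## The global inputs of PT-GLOB-BR -/

/-- (b) + finiteness: `H¹(G_{L,S}, 𝔽_p)` is finite and `H³(G_{L,S}, 𝔽_p) = 0`. -/
def BrVV : Prop :=
  ∀ (p : ℕ) [Fact p.Prime] (S : Finset Nat.Primes) (U : Subgroup GQ₀) [U.FiniteIndex]
    (u : USD U), Adm p S U → (DU p S U u).VV (trivU p S U u)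

/-- (c2): the only linear relation between the local invariants on `H²(G_{L,S}, 𝔽_p)` is the
reciprocity law. -/
def BrHyper (TS : TrSys p) : Prop :=
  ∀ (S : Finset Nat.Primes) (U : Subgroup GQ₀) [U.FiniteIndex] (u : USD U), Adm p S U →
    ∀ b : (DU p S U u).P → ZMod p,
      (∀ y ∈ Z2 (DU p S U u).lev (trivU p S U u),
        ∑ v, b v * (DU p S U u).invAt (trU TS S U u) v
          (res2 (ZMod p) (ZMod p) ((DU p S U u).loc v) y) = 0) →
      ∃ α : ZMod p, ∀ v, b v = α

/-- (h): `Ш²_S(L, 𝔽_p)` is finite of order at most `#(Cl_S(L)/p)`. -/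
def BrCountH : Prop :=
  ∀ (p : ℕ) [Fact p.Prime] (S : Finset Nat.Primes) (U : Subgroup GQ₀) [U.FiniteIndex]
    [NumberField (fieldOf U)] (u : USD U), Adm p S U →
    Module.Finite (ZMod p) ((DU p S U u).Sha2 (trivU p S U u)) ∧
    p ^ Module.finrank (ZMod p) ((DU p S U u).Sha2 (trivU p S U u)) ≤
      clSmodP (fieldOf U) (primesAbove (fieldOf U) S) p

/-! ## The deliverables of PT-GLOB-K -/

/-- (d'): left nondegeneracy of the pairing `Ш¹ × Ш² → 𝔽_p`. -/
def KLeft (TS : TrSys p) : Prop :=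
  ∀ (S : Finset Nat.Primes) (U : Subgroup GQ₀) [U.FiniteIndex] (u : USD U), Adm p S U →
    ∀ z ∈ (DU p S U u).ZC1 (trivU p S U u),
      (∀ y ∈ (DU p S U u).ZSha2 (trivU p S U u),
        (DU p S U u).pair1 (trivU p S U u) (trU TS S U u)
          (LinearMap.mul (ZMod p) (ZMod p)) z y = 0) → z.1 = 0

/-- (d): `Ш¹_S(L, 𝔽_p)` is finite of order at least `#(Cl_S(L)/p)`. -/
def KCountD : Prop :=
  ∀ (p : ℕ) [Fact p.Prime] (S : Finset Nat.Primes) (U : Subgroup GQ₀) [U.FiniteIndex]
    [NumberField (fieldOf U)] (u : USD U), Adm p S U →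
    Module.Finite (ZMod p) ((DU p S U u).Sha1 (trivU p S U u)) ∧
    clSmodP (fieldOf U) (primesAbove (fieldOf U) S) p ≤
      p ^ Module.finrank (ZMod p) ((DU p S U u).Sha1 (trivU p S U u))

/-- The global clause of `h56s_ArithBaseL` for the trace system `TS`. -/
def GlobBase (TS : TrSys p) : Prop :=
  ∀ (S : Finset Nat.Primes) (U : Subgroup GQ₀) [U.FiniteIndex] (u : USD U), Adm p S U →
    (DU p S U u).VV (trivU p S U u) ∧
    (DU p S U u).Perf1 (trivU p S U u) (trivU p S U u) (trU TS S U u)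
      (LinearMap.mul (ZMod p) (ZMod p))

end

end Fermat.Agent.PT.Glob
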