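import Mathlib
import Fermat.Agent.PT.Arith.Iface
import Fermat.Agent.PT.Glob.KIface2

/-!
# W3-PT / PT-GLOB (helper47): frozen interface, part 3 — `GlobBaseFor` via uniform local data

Target: `GlobBaseFor p inv` of `PT/Arith/Iface.lean` (helper98), i.e. for EVERY trace `tr` of
`DQ p S` with `TrOK` and local invariants `inv q`: `VV` and `Perf1` for the permutation modules.
By Shapiro (`h56s_ShapGlobal`) this is `GlobBaseL inv` below (restricted datum `DU p S U u`,
trivial module, restricted trace `trUt S U u tr`).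

Uniform local objects at an orbit representative `w : (u.od q).W` (`q` ANY prime, no `S`):
* `VW u q w`   : the local group `Gal(ℚ̄_q / L_w)` = stabiliser of `w` in `Gal(ℚ̄_q/ℚ_q)`;
* `levW u q w` : its levels;   `locW u q w : VW →* U`, `h ↦ gsec(w)⁻¹ · loc_q(h) · gsec(w)`;
* `invW inv u q w` : the local invariant of `L_w` (`= inv q ∘ cor`, untwisted by `gsec w`).
`KInvW` : `invAt (trUt S U u tr) ⟨⟨q,_⟩,w⟩ = invW inv u q w` for every `S ∋ q` and every trace
with local invariants `inv` (so the local invariants of `D_U` do not depend on `S`, `tr`).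
-/

set_option autoImplicit false

open ExtCitation NumberField IsDedekindDomain MulAction

namespace Fermat.Agent.PT.Glob

open Fermat.Agent.PT Fermat.Agent.PT.Shap

local notation "GQ₀" => (AlgebraicClosure ℚ ≃ₐ[ℚ] AlgebraicClosure ℚ)

noncomputable section

attribute [local instance] locActQ

variable {p : ℕ} [Fact p.Prime] {U : Subgroup GQ₀}

/-! ## Traces with prescribed local invariants -/

/-- `tr` is a trace of `DQ p S` with local invariants `inv`. -/
structure TrFor (inv : InvFam p) (S : Finset Nat.Primes)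
    (tr : (DQ p S).CC3 (ZMod p) →ₗ[ZMod p] ZMod p) : Prop where
  ok : (DQ p S).TrOK tr
  inv_eq : ∀ q : (DQ p S).P, (DQ p S).invAt tr q = inv q.1

/-- The purely local trace `(α, β) ↦ ∑_{q ∈ S} inv_q (β_q)` (not `TrOK`; only used to define
`invW`). -/
def trLoc (inv : InvFam p) (S : Finset Nat.Primes) : (DQ p S).CC3 (ZMod p) →ₗ[ZMod p] ZMod p :=
  h98a_Sig (DQ p S) (fun v => inv v.1) ∘ₗ LinearMap.snd (ZMod p) _ _

/-- The restricted trace of an arbitrary trace of `DQ p S`. -/
def trUt (S : Finset Nat.Primes) (U : Subgroup GQ₀) [hU : U.FiniteIndex] (u : USD U)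
    (tr : (DQ p S).CC3 (ZMod p) →ₗ[ZMod p] ZMod p) :
    (DU p S U u).CC3 (ZMod p) →ₗ[ZMod p] ZMod p :=
  @h56s_trR (ZMod p) _ (DQ p S) U (u.sd p S) hU tr

/-! ## Uniform local objects -/

/-- The local group at the orbit representative `w`: the stabiliser of `w`. -/
abbrev VW (u : USD U) (q : Nat.Primes) (w : (u.od q).W) : Subgroup (primeLocalGaloisGroup q) :=
  stabilizer (primeLocalGaloisGroup q) w.1

/-- The levels of the local group at `w`. -/
def levW (u : USD U) (q : Nat.Primes) (w : (u.od q).W) : Lev ↥(VW u q w) :=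
  (levLoc q).comap (VW u q w).subtype

/-- Local to global at `w`: `h ↦ gsec(w)⁻¹ · loc_q(h) · gsec(w)`. -/
def locW (u : USD U) (q : Nat.Primes) (w : (u.od q).W) : ↥(VW u q w) →* ↥U where
  toFun h := ⟨(u.sec.gsec w.1)⁻¹ * primeLocalToGlobal q h * u.sec.gsec w.1,
    u.sec.conj_mem_of_fixed _ _ (mem_stabilizer_iff.1 h.2)⟩
  map_one' := by
    apply Subtype.ext
    simp
  map_mul' h h' := by
    apply Subtype.ext
    simp [mul_assoc]

/-- The place of `D_U` (for `S ∋ q`) attached to `w`. -/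
def plc [U.FiniteIndex] (u : USD U) (S : Finset Nat.Primes) (q : Nat.Primes) (hq : q ∈ S)
    (w : (u.od q).W) : (DU p S U u).P :=
  @Sigma.mk (DQ p S).P (fun v => (@h56s_OrbitData.W ((DQ p S).H v) ((DQ p S).G ⧸ U) _
    (h56s_locAct (DQ p S) U v) ((u.sd p S).od v))) ⟨q, hq⟩ w

/-- The local invariant at `w` (defined through the singleton `S = {q}` and the purely local
trace; see `KInvW`). -/
def invW [U.FiniteIndex] (inv : InvFam p) (u : USD U) (q : Nat.Primes) (w : (u.od q).W) :
    (↥(VW u q w) × ↥(VW u q w) → ZMod p) →ₗ[ZMod p] ZMod p :=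
  (DU p {q} U u).invAt (trUt {q} U u (trLoc inv {q}))
    (plc u {q} q (Finset.mem_singleton_self q) w)

/-- The trivial module of the local group at `w`. -/
abbrev trivW (p : ℕ) (u : USD U) (q : Nat.Primes) (w : (u.od q).W) :
    Representation (ZMod p) ↥(VW u q w) (ZMod p) :=
  Representation.trivial (ZMod p) ↥(VW u q w) (ZMod p)

/-- The orbit representatives form a finite type. -/
instance wFintype [U.FiniteIndex] (u : USD U) (q : Nat.Primes) : Fintype (u.od q).W :=
  Fintype.ofFinite _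

/-- The standing hypotheses on `U` alone: `U` is open (for the finite levels) and `χ|_U = 1`. -/
structure AdmU (p : ℕ) [Fact p.Prime] (U : Subgroup GQ₀) : Prop where
  isOpen : levFin.IsOpen U
  chi : ∀ u ∈ U, cycloChar p u = 1

/-- K-INVW: the local invariants of `D_U` are the uniform ones: for every `S ∋ q` and every
trace `tr` of `DQ p S` with local invariants `inv`,
`invAt (trUt S U u tr) ⟨⟨q,_⟩, w⟩ c = invW inv u q w c`; moreover the local groups, levels and
localisation maps of `D_U` are the uniform ones. -/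
def KInvW : Prop :=
  ∀ (p : ℕ) [Fact p.Prime] (inv : InvFam p) (U : Subgroup GQ₀) [U.FiniteIndex] (u : USD U)
    (S : Finset Nat.Primes) (tr : (DQ p S).CC3 (ZMod p) →ₗ[ZMod p] ZMod p),
    (∀ q : (DQ p S).P, (DQ p S).invAt tr q = inv q.1) →
    ∀ (q : Nat.Primes) (hq : q ∈ S) (w : (u.od q).W)
      (c : ↥(VW u q w) × ↥(VW u q w) → ZMod p),
      (DU p S U u).invAt (trUt S U u tr) (plc u S q hq w) c = invW inv u q w c

/-- The sum over the places of `D_U` is the double sum over `q ∈ S` and the orbit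
representatives (for any family of numbers indexed by `(q, w)`). -/
def KSumPlc : Prop :=
  ∀ (p : ℕ) [Fact p.Prime] (U : Subgroup GQ₀) [U.FiniteIndex] (u : USD U)
    (S : Finset Nat.Primes) (F : ∀ q : Nat.Primes, (u.od q).W → ZMod p)
    (G : (DU p S U u).P → ZMod p), (∀ q (hq : q ∈ S) w, G (plc u S q hq w) = F q w) →
      ∑ P, G P = ∑ q ∈ S, ∑ w, F q w

/-! ## The local inputs, uniform form (owner: PT-LOC + PT-SHAP) -/

/-- W-OK: the local invariant at `w` kills the continuous `2`-coboundaries. -/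
def InvWOK (inv : InvFam p) : Prop :=
  ∀ (U : Subgroup GQ₀) [U.FiniteIndex] (u : USD U), AdmU p U →
    ∀ (q : Nat.Primes) (w : (u.od q).W), ∀ c ∈ B2 (levW u q w) (trivW p u q w),
      invW inv u q w c = 0

/-- W-INJ: the local invariant at `w` is injective on `H²(L_w, 𝔽_p)`. -/
def LocInjW (inv : InvFam p) : Prop :=
  ∀ (U : Subgroup GQ₀) [U.FiniteIndex] (u : USD U), AdmU p U →
    ∀ (q : Nat.Primes) (w : (u.od q).W), ∀ c ∈ Z2 (levW u q w) (trivW p u q w),
      invW inv u q w c = 0 → c ∈ B2 (levW u q w) (trivW p u q w)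

/-- W-NONDEG: the local cup product pairing `H¹ × H¹ → 𝔽_p` at `w` has trivial left kernel. -/
def LocNondegW (inv : InvFam p) : Prop :=
  ∀ (U : Subgroup GQ₀) [U.FiniteIndex] (u : USD U), AdmU p U →
    ∀ (q : Nat.Primes) (w : (u.od q).W), ∀ χ ∈ Z1 (levW u q w) (trivW p u q w),
      (∀ ψ ∈ Z1 (levW u q w) (trivW p u q w),
        invW inv u q w (cup11 (LinearMap.mul (ZMod p) (ZMod p)) (trivW p u q w) χ ψ) = 0) →
      χ = 0

/-- W-DIM: `dim H¹(L_w, 𝔽_p) = 2 + [L_w : ℚ_p]` if `q = p`, `= 2` otherwise (`μ_p ⊆ L`, `p` odd);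
and the sum of the local degrees over the places above `p` is `[L : ℚ]`. -/
def LocDimW : Prop :=
  ∀ (p : ℕ) [Fact p.Prime], p ≠ 2 → ∀ (U : Subgroup GQ₀) [U.FiniteIndex] (u : USD U),
    AdmU p U →
    ∃ deg : (u.od (pPrime p)).W → ℕ,
      (∀ (q : Nat.Primes) (w : (u.od q).W),
        Module.Finite (ZMod p) ↥(Z1 (levW u q w) (trivW p u q w))) ∧
      (∀ (q : Nat.Primes) (w : (u.od q).W), q ≠ pPrime p →
        Module.finrank (ZMod p) ↥(Z1 (levW u q w) (trivW p u q w)) = 2) ∧
      (∀ w : (u.od (pPrime p)).W,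
        Module.finrank (ZMod p) ↥(Z1 (levW u (pPrime p) w) (trivW p u (pPrime p) w)) =
          2 + deg w) ∧
      ∑ w, deg w = Module.finrank ℚ (fieldOf U)

/-! ## The global base case in terms of the restricted datum -/

/-- (d') for every trace with local invariants `inv`. -/
def KLeftFor (inv : InvFam p) : Prop :=
  ∀ (S : Finset Nat.Primes) (U : Subgroup GQ₀) [U.FiniteIndex] (u : USD U)
    (tr : (DQ p S).CC3 (ZMod p) →ₗ[ZMod p] ZMod p), Adm p S U → TrFor inv S tr →
    ∀ z ∈ (DU p S U u).ZC1 (trivU p S U u),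
      (∀ y ∈ (DU p S U u).ZSha2 (trivU p S U u),
        (DU p S U u).pair1 (trivU p S U u) (trUt S U u tr)
          (LinearMap.mul (ZMod p) (ZMod p)) z y = 0) → z.1 = 0

/-- (c2) for every trace with local invariants `inv`. -/
def BrHyperFor (inv : InvFam p) : Prop :=
  ∀ (S : Finset Nat.Primes) (U : Subgroup GQ₀) [U.FiniteIndex] (u : USD U)
    (tr : (DQ p S).CC3 (ZMod p) →ₗ[ZMod p] ZMod p), Adm p S U → TrFor inv S tr →
    ∀ b : (DU p S U u).P → ZMod p,
      (∀ y ∈ Z2 (DU p S U u).lev (trivU p S U u),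
        ∑ v, b v * (DU p S U u).invAt (trUt S U u tr) v
          (res2 (ZMod p) (ZMod p) ((DU p S U u).loc v) y) = 0) →
      ∃ α : ZMod p, ∀ v, b v = α

/-- The global base case over `L`, for every trace with local invariants `inv`. -/
def GlobBaseL (inv : InvFam p) : Prop :=
  ∀ (S : Finset Nat.Primes) (U : Subgroup GQ₀) [U.FiniteIndex] (u : USD U)
    (tr : (DQ p S).CC3 (ZMod p) →ₗ[ZMod p] ZMod p), Adm p S U → TrFor inv S tr →
    (DU p S U u).VV (trivU p S U u) ∧
    (DU p S U u).Perf1 (trivU p S U u) (trivU p S U u) (trUt S U u tr)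
      (LinearMap.mul (ZMod p) (ZMod p))

/-- GLOB-ASM (a): Shapiro: `GlobBaseL inv → GlobBaseFor p inv` (`p` odd). -/
def KGlobShap : Prop :=
  ∀ (p : ℕ) [Fact p.Prime] (inv : InvFam p), p ≠ 2 → h56s_ShapGlobal → DQGood →
    GlobBaseL inv → GlobBaseFor p inv

/-- GLOB-ASM (b): the assembly of the global base case over `L`. -/
def KGlobAsm : Prop :=
  ∀ (p : ℕ) [Fact p.Prime] (inv : InvFam p), KPerfAsm → h56s_ShapTrOK → DQGood → KInvW →
    BrVV → BrCountH → KCountD → BrHyperFor inv → LocInjW inv → KLeftFor inv → GlobBaseL inv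

end

end Fermat.Agent.PT.Glob
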