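import Mathlib
import Fermat.Agent.PT.Alg.Chi2Iface
import Fermat.Agent.PT.Glob.KIface3

/-!
# W3-PT / PT-GLOB-K (helper47): frozen interface, part 4 — (N1), (N2) and (d)

Design = helper14's PT-GLOB design v1 (findings 791), inputs of the count owned by PT-GLOB-K.
`U`-side vocabulary of `PT/Alg/Chi2Iface.lean`: `U ≤ G_ℚ` open in `levQ S`, `χ|_U = 1`,
`L = fieldOf U`, group `↥U`, levels `levU S U = (levQ S).comap U.subtype`, coefficients
`trivF p U` (the trivial module `𝔽_p`).  These are definitionally the levels / trivial module of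
the restricted datum `DU p S U u`.

* (N1) `KN1`  : `h¹(G_{L,S}, 𝔽_p) = r₂ + #S_L + dim Cl_S/p`.
    leaves `KKumZ1` (Kummer parametrisation of `Z¹`), `KZ1Sel` (`#Z¹ = #` Selmer group),
    `KRankCM` (`2 (rank 𝓞ˣ + 1) = [L : ℚ]`), `KPrimesFin`, assembly `KN1Asm`.
* (N2) `KN2`  : `dim Cl_S/p ≤ h²(G_{L,S}, 𝔽_p)`; core `KN2Core` : explicit classes
    `y_i = d¹ ζ'_i ∈ ZШ²`, linearly independent modulo `B²`.
    `zetaP p k ξ γ` : the Bockstein–Kummer cochain `σ ↦` top digit of `m(σ)`,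
    `σ γ = ξ^{m(σ)} γ` (`γ^{p^{k+1}} = α ∈ L`, `ξ` a primitive `p^{k+1}`-th root of unity).
    leaves `KClassIndepAbs`, `KClassIndep`, `KBockLev`, `KBockLoc`, `KInertVal`,
    assemblies `KN2Asm`, `KN2Lin`, `KN2ShaLin`.
* (d)  `KCountDAsm` : the isotropy count `⇒ KCountD`.
-/

set_option autoImplicit false

open ExtCitation NumberField IsDedekindDomain MulAction

namespace Fermat.Agent.PT.Glob

open Fermat.Agent.PT Fermat.Agent.PT.Shap Fermat.Agent.Bridge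

local notation "GQ₀" => (AlgebraicClosure ℚ ≃ₐ[ℚ] AlgebraicClosure ℚ)

noncomputable section

/-! ## Vocabulary -/

/-- The levels of `U = G_L` (level `S`). -/
abbrev levU (S : Finset Nat.Primes) (U : Subgroup GQ₀) : Lev ↥U := chi2Lev (levQ S) U

/-- The trivial module `𝔽_p` of `U`. -/
abbrev trivF (p : ℕ) [Fact p.Prime] (U : Subgroup GQ₀) : Representation (ZMod p) ↥U (ZMod p) :=
  chi2Triv (ZMod p) U

/-- `n` divides the valuation of `a` at every place of `L` above a prime `q ∉ S`. -/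
def DvdValOut (n : ℕ) (S : Finset Nat.Primes) (L : IntermediateField ℚ Qb) (a : Qb) : Prop :=
  ∀ q : Nat.Primes, q ∉ S → ∀ A : ValuationSubring Qb, A.LiesOverPrime (q : ℕ) →
    DvdValAt n L A a

/-! ## (N1) -/

/-- (N1-K) Kummer parametrisation of `Z¹(G_{L,S}, 𝔽_p)`: the Kummer characters of the `B` with
`Bᵖ ∈ L`, `p ∣ v(Bᵖ)` outside `S`, are cocycles of level `S`, and every cocycle of level `S` is
of this form.  (From `KKumBasic`, `KKumRam`, `KKumRamConv`, `KKumClass`, `h23b_isOpen_levQ_iff`.) -/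
def KKumZ1 : Prop :=
  ∀ (p : ℕ) [Fact p.Prime] (S : Finset Nat.Primes) (U : Subgroup GQ₀) (ζ : Qb),
    Adm p S U → ζ ∈ fieldOf U → IsPrimitiveRoot ζ p →
    (∀ B : Qb, B ≠ 0 → B ^ p ∈ fieldOf U → DvdValOut p S (fieldOf U) (B ^ p) →
      (fun g : ↥U => kumQ p ζ B g) ∈ Z1 (levU S U) (trivF p U)) ∧
    (∀ χ ∈ Z1 (levU S U) (trivF p U), ∃ B : Qb, B ≠ 0 ∧ B ^ p ∈ fieldOf U ∧
      DvdValOut p S (fieldOf U) (B ^ p) ∧ ∀ g : ↥U, χ g = kumQ p ζ B g)

/-- The primes of `𝓞 L` above `S` are finite in number. -/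
def KPrimesFin : Prop :=
  ∀ (L : IntermediateField ℚ Qb) [NumberField L] (S : Finset Nat.Primes),
    (primesAbove L S).Finite

/-- (N1-S) `Z¹(G_{L,S}, 𝔽_p)` is finite, of the order of the Selmer group `L(S, p)`
(bijection `χ = κ_B ↦ Bᵖ`; dictionary `h23b_dvdValAt_iff_valuation`). -/
def KZ1Sel : Prop :=
  ∀ (p : ℕ) [Fact p.Prime] (S : Finset Nat.Primes) (U : Subgroup GQ₀) [U.FiniteIndex]
    [NumberField (fieldOf U)], Adm p S U →
    Finite ↥(Z1 (levU S U) (trivF p U)) ∧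
    Nat.card ↥(Z1 (levU S U) (trivF p U)) =
      Nat.card (selmerGroup (R := 𝓞 (fieldOf U)) (K := fieldOf U)
        (S := primesAbove (fieldOf U) S) (n := p))

/-- A number field containing a primitive `p`-th root of unity, `p` odd, is totally complex:
`2 (rank 𝓞ˣ + 1) = [K : ℚ]`. -/
def KRankCM : Prop :=
  ∀ (p : ℕ) [Fact p.Prime], p ≠ 2 → ∀ (K : Type) [Field K] [NumberField K] (ζ : K),
    IsPrimitiveRoot ζ p → 2 * (Units.rank K + 1) = Module.finrank ℚ K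

/-- **(N1)** `h¹(G_{L,S}, 𝔽_p) = r₂ + #S_L + dim Cl_S/p`, stated as
`p^(2 h¹) = p^([L:ℚ] + 2 #S_L) · #(Cl_S/p)²`. -/
def KN1 : Prop :=
  ∀ (p : ℕ) [Fact p.Prime] (S : Finset Nat.Primes) (U : Subgroup GQ₀) [U.FiniteIndex]
    [NumberField (fieldOf U)], Adm p S U →
    Module.Finite (ZMod p) (HH1 (levU S U) (trivF p U)) ∧
    p ^ (2 * Module.finrank (ZMod p) (HH1 (levU S U) (trivF p U))) =
      p ^ (Module.finrank ℚ (fieldOf U) + 2 * Nat.card (primesAbove (fieldOf U) S)) *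
        clSmodP (fieldOf U) (primesAbove (fieldOf U) S) p ^ 2

/-- Assembly of (N1). -/
def KN1Asm : Prop := KZ1Sel → KRankCM → KPrimesFin → KSel → KN1

/-! ## (N2) -/

/-- The top digit in base `p` of `m ∈ ℤ/p^{k+1}`. -/
def topDig (p k : ℕ) (m : ZMod (p ^ (k + 1))) : ZMod p := ((m.val / p ^ k : ℕ) : ZMod p)

/-- The Bockstein–Kummer cochain of `γ`: `σ ↦` top digit of `m(σ)`, `σ γ = ξ^{m(σ)} γ`. -/
def zetaP (p k : ℕ) (ξ γ : Qb) (g : GQ₀) : ZMod p := topDig p k (kumQ (p ^ (k + 1)) ξ γ g)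

/-- (N2-a), abstract number field: there are `n = dim Cl_S/p` elements `α i` with
`p^k ∣ v(α i)` outside `S` (`(α i) = 𝔞_i^{p^k}` up to `S`) which are independent in the sense
that `p^{k+1} ∣ v(∏ α_i^{a_i} / b^{p^k})` outside `S` forces `a = 0`. -/
def KClassIndepAbs : Prop :=
  ∀ (p : ℕ) [Fact p.Prime] (K : Type) [Field K] [NumberField K]
    (S : Set (HeightOneSpectrum (𝓞 K))),
    ∃ (n k : ℕ) (α : Fin n → K), p ^ n = clSmodP K S p ∧
      (∀ i, α i ≠ 0 ∧ ∀ v : HeightOneSpectrum (𝓞 K), v ∉ S →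
        ∃ j : ℤ, v.valuation K (α i) = WithZero.exp (((p ^ k : ℕ) : ℤ) * j)) ∧
      ∀ (a : Fin n → ZMod p) (b : K), b ≠ 0 →
        (∀ v : HeightOneSpectrum (𝓞 K), v ∉ S →
          ∃ j : ℤ, v.valuation K ((∏ i, α i ^ (a i).val) / b ^ p ^ k) =
            WithZero.exp (((p ^ (k + 1) : ℕ) : ℤ) * j)) →
        a = 0

/-- (N2-a) in `ℚ̄`-language (from `KClassIndepAbs` and the dictionary of `PT/Bridge/NFDict`). -/
def KClassIndep : Prop :=
  ∀ (p : ℕ) [Fact p.Prime] (S : Finset Nat.Primes) (L : IntermediateField ℚ Qb)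
    [NumberField L],
    ∃ (n k : ℕ) (α : Fin n → Qb), p ^ n = clSmodP L (primesAbove L S) p ∧
      (∀ i, α i ∈ L ∧ α i ≠ 0 ∧ DvdValOut (p ^ k) S L (α i)) ∧
      ∀ (a : Fin n → ZMod p) (b : Qb), b ∈ L → b ≠ 0 →
        DvdValOut (p ^ (k + 1)) S L ((∏ i, α i ^ (a i).val) / b ^ p ^ k) → a = 0

/-- (N2-b) the coboundary of the Bockstein–Kummer cochain is a `2`-cocycle of level `S`
(`(d¹ζ')(σ, τ) = - top (lo σ + χ(σ) lo τ)` depends only on the action on `γᵖ` and on `ξ`). -/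
def KBockLev : Prop :=
  ∀ (p : ℕ) [Fact p.Prime] (S : Finset Nat.Primes) (U : Subgroup GQ₀) (k : ℕ) (ξ γ : Qb),
    Adm p S U → IsPrimitiveRoot ξ (p ^ (k + 1)) → γ ≠ 0 → γ ^ p ^ (k + 1) ∈ fieldOf U →
    DvdValOut (p ^ k) S (fieldOf U) (γ ^ p ^ (k + 1)) →
    d1 (trivF p U) (fun g : ↥U => zetaP p k ξ γ g) ∈ Z2 (levU S U) (trivF p U)

/-- (N2-b') it is locally trivial at the places of `D_U`. -/
def KBockLoc : Prop :=
  ∀ (p : ℕ) [Fact p.Prime] (S : Finset Nat.Primes) (U : Subgroup GQ₀) [U.FiniteIndex]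
    (u : USD U) (k : ℕ) (ξ γ : Qb),
    Adm p S U → IsPrimitiveRoot ξ (p ^ (k + 1)) → γ ≠ 0 → γ ^ p ^ (k + 1) ∈ fieldOf U →
    DvdValOut (p ^ k) S (fieldOf U) (γ ^ p ^ (k + 1)) →
    d1 (trivF p U) (fun g : ↥U => zetaP p k ξ γ g) ∈ (DU p S U u).ZSha2 (trivU p S U u)

/-- (N2-c) an element of `ℚ̄ˣ` fixed by the inertia group of `A` has valuation in `v(ℚˣ)`. -/
def KInertVal : Prop :=
  ∀ (q : ℕ), q.Prime → ∀ A : ValuationSubring Qb, A.LiesOverPrime q → ∀ x : Qb, x ≠ 0 →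
    (∀ ι ∈ A.inertiaSubgroupIn ℚ, ι x = x) →
    ∃ (j : ℤ) (u : Qb), u ∈ A ∧ u⁻¹ ∈ A ∧ x = (q : Qb) ^ j * u

/-- (N2) core: `n = dim Cl_S/p` explicit classes of `Ш²`, linearly independent modulo the
coboundaries of level `S`. -/
def KN2Core : Prop :=
  ∀ (p : ℕ) [Fact p.Prime] (S : Finset Nat.Primes) (U : Subgroup GQ₀) [U.FiniteIndex]
    [NumberField (fieldOf U)] (u : USD U), Adm p S U →
    ∃ (n : ℕ) (y : Fin n → ↥U × ↥U → ZMod p),
      p ^ n = clSmodP (fieldOf U) (primesAbove (fieldOf U) S) p ∧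
      (∀ i, y i ∈ (DU p S U u).ZSha2 (trivU p S U u)) ∧
      ∀ a : Fin n → ZMod p, (∑ i, a i • y i) ∈ B2 (levU S U) (trivF p U) → a = 0

/-- Assembly of the core of (N2). -/
def KN2Asm : Prop :=
  KClassIndep → KBockLoc → KKumClass → KKumBasic → KKumRam → KInertVal → KN2Core

/-- **(N2)** `#(Cl_S/p) ≤ p^{h²}`. -/
def KN2 : Prop :=
  ∀ (p : ℕ) [Fact p.Prime] (S : Finset Nat.Primes) (U : Subgroup GQ₀) [U.FiniteIndex]
    [NumberField (fieldOf U)], Adm p S U →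
    Module.Finite (ZMod p) (HH2 (levU S U) (trivF p U)) →
    clSmodP (fieldOf U) (primesAbove (fieldOf U) S) p ≤
      p ^ Module.finrank (ZMod p) (HH2 (levU S U) (trivF p U))

/-- (N2) for `Ш²`: `#(Cl_S/p) ≤ p^{dim Ш²}`. -/
def KN2Sha : Prop :=
  ∀ (p : ℕ) [Fact p.Prime] (S : Finset Nat.Primes) (U : Subgroup GQ₀) [U.FiniteIndex]
    [NumberField (fieldOf U)] (u : USD U), Adm p S U →
    Module.Finite (ZMod p) ((DU p S U u).Sha2 (trivU p S U u)) →
    clSmodP (fieldOf U) (primesAbove (fieldOf U) S) p ≤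
      p ^ Module.finrank (ZMod p) ((DU p S U u).Sha2 (trivU p S U u))

/-- Linear algebra: the core gives (N2). -/
def KN2Lin : Prop := KN2Core → KN2

/-- Linear algebra: the core gives (N2) for `Ш²`. -/
def KN2ShaLin : Prop := KN2Core → KN2Sha

/-! ## (d) -/

/-- Assembly of (d): `Ш¹ = ker (Z¹(G_{L,S}) → ∏_w Z¹(L_w))`, the image is isotropic for the sum
of the local pairings (reciprocity = `TrOK` of the restricted trace applied to `a ∪ a'`), the
local pairings are nondegenerate, so `2 dim(image) ≤ ∑_w dim Z¹(L_w) = 2 #S_L + [L:ℚ]`, and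
`h¹` is given by (N1). -/
def KCountDAsm : Prop :=
  (∀ (p : ℕ) [Fact p.Prime], p ≠ 2 →
    ∃ inv : InvFam p, LocInvOK p inv ∧ RecQFor p inv ∧ LocNondegW inv) →
  h56s_ShapTrOK → DQGood → KInvW → KSumPlc → LocDimW → PlacesCard → KIso → KN1 → KCountD

end

end Fermat.Agent.PT.Glob
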