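import Mathlib
import Fermat.Agent.PT.Glob.KIface4
import Fermat.Agent.PT.Alg.Chi2Iface

/-!
# W3-PT / PT-GLOB-BR (helper14): frozen interface, part 2 — the COUNT over `L`

Design v1 (findings 791), in the vocabulary of `KIface2/3/4.lean` and `Chi2Iface.lean`:
`U ≤ G_ℚ` with `Adm p S U`, `L = fieldOf U`, group `↥U`, levels `levU S U = chi2Lev (levQ S) U`
(`= (DU p S U u).lev` by `rfl`), trivial coefficients `trivF p U = chi2Triv (ZMod p) U`.

Numbers: `h^i = dim HH^i (levU S U) (trivF p U)`, `nS = #primesAbove L S`,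
`#(Cl_S(L)/p) = clSmodP = p ^ c`, `x_L := h² + 1 - c - nS`.

Inputs of the count:
* `KN1` (N1), `KN2` (N2)    : PT-GLOB-K (`KIface4.lean`);
* `BrN3`  (N3)              : `H²` finite and `p · #H² ≤ #(Cl_S/p) · p ^ nS`;
* `H93Tower` (N4)           : `H93Tower.lean` (DONE);
* `Chi2Ineq`, `Chi2Van`     : ALG-CHI2 (`Chi2Iface.lean`);
* `BrNF`, `BrDeg`           : `L` is a number field; degrees multiply in a step of index `p`.
Output: `BrVV` (`KIface2.lean`) and `BrEq` : `p · #H² = #(Cl_S/p) · p ^ nS`.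

Pure linear algebra over an abstract datum with trivial character:
* `BrAlgA` : `Ш² ⊆ H²`, `h² + 1 ≤ dim Ш² + #P` (reciprocity + local injectivity)   [⇒ `BrN3`];
* `BrAlgB` : `dim Ш¹ ≤ dim Ш²` from the left nondegeneracy (d')       [alternative route to N2];
* `BrAlgC` : `dim Ш² + #P ≤ h² + 1 ⇒` the hyperplane property (c2)          [⇒ `BrHyperFor`].
`LocInjFor inv`, `TrEx inv`, `BrDUGood` : the inputs in the language of `D_U`.
-/

set_option autoImplicit false

open ExtCitation NumberField IsDedekindDomain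

namespace Fermat.Agent.PT.Glob

open Fermat.Agent.PT Fermat.Agent.PT.Shap

local notation "GQ₀" => (AlgebraicClosure ℚ ≃ₐ[ℚ] AlgebraicClosure ℚ)

noncomputable section

/-! ## Field theoretic leaves -/

/-- (NF) the fixed field of an admissible `U` is a number field. -/
def BrNF : Prop :=
  ∀ (p : ℕ) [Fact p.Prime] (S : Finset Nat.Primes) (U : Subgroup GQ₀), Adm p S U →
    NumberField (fieldOf U)

/-- (DEG) the degree is multiplied by `p` in a step of index `p`. -/
def BrDeg : Prop :=
  ∀ (p : ℕ) [Fact p.Prime] (S : Finset Nat.Primes) (U V : Subgroup GQ₀), Adm p S U →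
    V ≤ U → (levQ S).IsOpen V → V.relIndex U = p →
    Module.finrank ℚ (fieldOf V) = p * Module.finrank ℚ (fieldOf U)

/-! ## The arithmetic leaf (N3) and the result of the count -/

/-- (N3): `H²(G_{L,S}, 𝔽_p)` is finite and `p · #H² ≤ #(Cl_S/p) · p ^ nS`. -/
def BrN3 : Prop :=
  ∀ (p : ℕ) [Fact p.Prime] (S : Finset Nat.Primes) (U : Subgroup GQ₀) [U.FiniteIndex]
    [NumberField (fieldOf U)], Adm p S U →
    Module.Finite (ZMod p) (HH2 (levU S U) (trivF p U)) ∧
    p ^ (Module.finrank (ZMod p) (HH2 (levU S U) (trivF p U)) + 1) ≤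
      clSmodP (fieldOf U) (primesAbove (fieldOf U) S) p *
        p ^ Nat.card (primesAbove (fieldOf U) S)

/-- The result of the count: `p · #H² = #(Cl_S/p) · p ^ nS`. -/
def BrEq : Prop :=
  ∀ (p : ℕ) [Fact p.Prime] (S : Finset Nat.Primes) (U : Subgroup GQ₀) [U.FiniteIndex]
    [NumberField (fieldOf U)], Adm p S U →
    Module.Finite (ZMod p) (HH2 (levU S U) (trivF p U)) ∧
    p ^ (Module.finrank (ZMod p) (HH2 (levU S U) (trivF p U)) + 1) =
      clSmodP (fieldOf U) (primesAbove (fieldOf U) S) p *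
        p ^ Nat.card (primesAbove (fieldOf U) S)

/-! ## Pure linear algebra over an abstract datum -/

/-- (ALG-A) for a good datum with trivial character, a trace with `TrOK` and injective local
invariants: `H²` is finite if `Ш²` is, `dim Ш² ≤ h²` and `h² + 1 ≤ dim Ш² + #P`
(the image of `λ²` lies in the hyperplane `∑ inv = 0`). -/
def BrAlgA : Prop :=
  ∀ (k : Type) [Field k] (D : Datum k) (tr : D.CC3 k →ₗ[k] k), D.Good → D.TrOK tr →
    (∀ g, D.chi g = 1) →
    (∀ v, ∀ c ∈ Z2 (D.levH v) (D.repAt (Representation.trivial k D.G k) v),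
      D.invAt tr v c = 0 → c ∈ B2 (D.levH v) (D.repAt (Representation.trivial k D.G k) v)) →
    Module.Finite k (D.Sha2 (Representation.trivial k D.G k)) →
    Module.Finite k (HH2 D.lev (Representation.trivial k D.G k)) ∧
    Module.finrank k (D.Sha2 (Representation.trivial k D.G k)) ≤
      Module.finrank k (HH2 D.lev (Representation.trivial k D.G k)) ∧
    Module.finrank k (HH2 D.lev (Representation.trivial k D.G k)) + 1 ≤
      Module.finrank k (D.Sha2 (Representation.trivial k D.G k)) + Fintype.card D.P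

/-- (ALG-B) left nondegeneracy (d') of `Ш¹ × Ш² → k` gives `dim Ш¹ ≤ dim Ш²`. -/
def BrAlgB : Prop :=
  ∀ (k : Type) [Field k] (D : Datum k) (tr : D.CC3 k →ₗ[k] k), D.Good → D.TrOK tr →
    (∀ g, D.chi g = 1) →
    (∀ z ∈ D.ZC1 (Representation.trivial k D.G k),
      (∀ y ∈ D.ZSha2 (Representation.trivial k D.G k),
        D.pair1 (Representation.trivial k D.G k) tr (LinearMap.mul k k) z y = 0) → z.1 = 0) →
    Module.Finite k (D.Sha1 (Representation.trivial k D.G k)) →
    Module.Finite k (D.Sha2 (Representation.trivial k D.G k)) →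
    Module.finrank k (D.Sha1 (Representation.trivial k D.G k)) ≤
      Module.finrank k (D.Sha2 (Representation.trivial k D.G k))

/-- (ALG-C) the hyperplane property (c2) from the count `dim Ш² + #P ≤ h² + 1`. -/
def BrAlgC : Prop :=
  ∀ (k : Type) [Field k] (D : Datum k) (tr : D.CC3 k →ₗ[k] k), D.Good → D.TrOK tr →
    (∀ g, D.chi g = 1) →
    (∀ v, ∀ c ∈ Z2 (D.levH v) (D.repAt (Representation.trivial k D.G k) v),
      D.invAt tr v c = 0 → c ∈ B2 (D.levH v) (D.repAt (Representation.trivial k D.G k) v)) →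
    Module.Finite k (D.Sha2 (Representation.trivial k D.G k)) →
    Module.Finite k (HH2 D.lev (Representation.trivial k D.G k)) →
    Module.finrank k (D.Sha2 (Representation.trivial k D.G k)) + Fintype.card D.P ≤
      Module.finrank k (HH2 D.lev (Representation.trivial k D.G k)) + 1 →
    ∀ b : D.P → k,
      (∀ y ∈ Z2 D.lev (Representation.trivial k D.G k),
        ∑ v, b v * D.invAt tr v (res2 k k (D.loc v) y) = 0) → ∃ α : k, ∀ v, b v = α

/-! ## The inputs in the language of `D_U` -/

variable {p : ℕ} [Fact p.Prime]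

/-- Traces with local invariants `inv` exist for every `S ∋ p`
(`h98a_exists_tr` + `LocInvOK` + `RecQFor`). -/
def TrEx (inv : InvFam p) : Prop :=
  ∀ S : Finset Nat.Primes, pPrime p ∈ S →
    ∃ tr : (DQ p S).CC3 (ZMod p) →ₗ[ZMod p] ZMod p, TrFor inv S tr

/-- LOC-INJ for every trace with local invariants `inv`, in the language of `D_U`
(from `KInvW` + `LocInjW inv`). -/
def LocInjFor (inv : InvFam p) : Prop :=
  ∀ (S : Finset Nat.Primes) (U : Subgroup GQ₀) [U.FiniteIndex] (u : USD U)
    (tr : (DQ p S).CC3 (ZMod p) →ₗ[ZMod p] ZMod p), Adm p S U → TrFor inv S tr →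
    ∀ v, ∀ c ∈ Z2 ((DU p S U u).levH v) ((DU p S U u).repAt (trivU p S U u) v),
      (DU p S U u).invAt (trUt S U u tr) v c = 0 →
      c ∈ B2 ((DU p S U u).levH v) ((DU p S U u).repAt (trivU p S U u) v)

/-- The restricted datum of an admissible `U` is good, with trivial character. -/
def BrDUGood : Prop :=
  ∀ (p : ℕ) [Fact p.Prime] (S : Finset Nat.Primes) (U : Subgroup GQ₀) [U.FiniteIndex]
    (u : USD U), Adm p S U → (DU p S U u).Good ∧ ∀ g, (DU p S U u).chi g = 1

end

end Fermat.Agent.PT.Glob
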