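import Mathlib

/-!
# W3-PT / PT-GLOB, GLOB-TOWER (N4): the number of primes above `S` in a field containing `μ_{p^M}`

For a number field `F` of degree `d` containing a primitive `p ^ (M+1)`-th root of unity:

* `h93w_prod_absNorm_dvd`   : for distinct primes `P ∋ q` with `q ∈ P ^ e P`,
                              `∏ N(P) ^ e P ∣ q ^ d`;
* `h93w_dvd_absNorm_sub_one`: if `N ∉ P` and `F` contains a primitive `N`-th root of unity then
                              `N ∣ N(P) - 1`;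
* `h93w_prime_mem_pow`      : `p ∈ P ^ φ(p ^ (M+1))` for every prime `P ∋ p`;
* `h93w_card_le_of_ne`      : `#{P ∋ q} * (M + 1) ≤ q * d` for `q ≠ p`;
* `h93w_card_le_of_eq`      : `#{P ∋ p} * φ(p ^ (M+1)) ≤ d`.
-/

set_option autoImplicit false
set_option linter.style.haveILetI false
set_option linter.unusedSectionVars false

open NumberField Ideal Polynomial

namespace Fermat.Agent.PT.Glob

section Core

variable (F : Type*) [Field F] [NumberField F]

/-- distinct maximal ideals have coprime powers. -/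
lemma h93w_isCoprime_pow {P Q : Ideal (𝓞 F)} (hP : P.IsMaximal) (hQ : Q.IsMaximal) (h : P ≠ Q)
    (m n : ℕ) : IsCoprime (P ^ m) (Q ^ n) :=
  (Ideal.isCoprime_of_isMaximal h).pow

/-- for distinct primes `P ∋ q` with `q ∈ P ^ e P`: `∏ N(P) ^ e P ∣ q ^ d`. -/
theorem h93w_prod_absNorm_dvd (q : ℕ) (T : Finset (Ideal (𝓞 F))) (e : Ideal (𝓞 F) → ℕ)
    (hT : ∀ P ∈ T, P.IsMaximal ∧ (q : 𝓞 F) ∈ P ^ e P) :
    ∏ P ∈ T, absNorm P ^ e P ∣ q ^ Module.finrank ℚ F := by
  have hcop : (T : Set (Ideal (𝓞 F))).Pairwise (Function.onFun IsCoprime fun P => P ^ e P) := by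
    intro P hP Q hQ hPQ
    exact h93w_isCoprime_pow F (hT P hP).1 (hT Q hQ).1 hPQ _ _
  have hle : Ideal.span {(q : 𝓞 F)} ≤ ∏ P ∈ T, P ^ e P := by
    rw [Ideal.prod_eq_iInf_of_pairwise_isCoprime hcop]
    refine le_iInf₂ fun P hP => ?_
    rw [Ideal.span_singleton_le_iff_mem]
    exact (hT P hP).2
  have h1 := Ideal.absNorm_dvd_absNorm_of_le hle
  rw [Ideal.absNorm_span_natCast, RingOfIntegers.rank, map_prod] at h1
  simpa only [map_pow] using h1

/-- a maximal ideal of `𝓞 F` is nonzero. -/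
lemma h93w_ne_bot {P : Ideal (𝓞 F)} (hP : P.IsMaximal) : P ≠ ⊥ :=
  Ring.ne_bot_of_isMaximal_of_not_isField hP (RingOfIntegers.not_isField F)

/-- if `N ∉ P` and `F` contains a primitive `N`-th root of unity then `N ∣ N(P) - 1`. -/
theorem h93w_dvd_absNorm_sub_one (N : ℕ) (ζ : F) (hζ : IsPrimitiveRoot ζ N)
    (P : Ideal (𝓞 F)) (hP : P.IsMaximal) (hN : (N : 𝓞 F) ∉ P) : N ∣ absNorm P - 1 := by
  classical
  have hN0 : N ≠ 0 := by
    rintro rfl
    exact hN (by simp)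
  haveI : NeZero N := ⟨hN0⟩
  letI : Field (𝓞 F ⧸ P) := Ideal.Quotient.field P
  haveI : Finite (𝓞 F ⧸ P) := Ideal.finiteQuotientOfFreeOfNeBot P (h93w_ne_bot F hP)
  haveI : Fintype (𝓞 F ⧸ P) := Fintype.ofFinite _
  -- the reduction of `ζ` is a primitive root
  have hζ' : IsPrimitiveRoot hζ.toInteger N := hζ.toInteger_isPrimitiveRoot
  haveI : NeZero ((N : ℕ) : 𝓞 F) := ⟨by exact_mod_cast hN0⟩
  have hroot : IsRoot (cyclotomic N (𝓞 F)) hζ.toInteger := isRoot_cyclotomic_iff.mpr hζ'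
  have hroot' : IsRoot (cyclotomic N (𝓞 F ⧸ P)) (Ideal.Quotient.mk P hζ.toInteger) := by
    have := hroot.map (f := Ideal.Quotient.mk P)
    rwa [map_cyclotomic] at this
  haveI : NeZero ((N : ℕ) : 𝓞 F ⧸ P) := ⟨by
    intro h
    apply hN
    rw [← Ideal.Quotient.eq_zero_iff_mem]
    simpa using h⟩
  have hprim : IsPrimitiveRoot (Ideal.Quotient.mk P hζ.toInteger) N :=
    isRoot_cyclotomic_iff.mp hroot'
  have hne : Ideal.Quotient.mk P hζ.toInteger ≠ 0 := hprim.ne_zero hN0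
  have hpow := FiniteField.pow_card_sub_one_eq_one _ hne
  have hdvd := hprim.dvd_of_pow_eq_one _ hpow
  have hcard : Fintype.card (𝓞 F ⧸ P) = absNorm P := by
    rw [Ideal.absNorm_apply, Submodule.cardQuot_apply, Nat.card_eq_fintype_card]
  rwa [hcard] at hdvd

/-- the norm of a maximal ideal is at least `2`. -/
lemma h93w_two_le_absNorm {P : Ideal (𝓞 F)} (hP : P.IsMaximal) : 2 ≤ absNorm P := by
  have h0 : absNorm P ≠ 0 := by
    rw [Ne, Ideal.absNorm_eq_zero_iff]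
    exact h93w_ne_bot F hP
  have h1 : absNorm P ≠ 1 := by
    rw [Ne, Ideal.absNorm_eq_one_iff]
    exact hP.ne_top
  omega

/-- `p ∈ P ^ φ(p ^ (M+1))` for every prime `P ∋ p`, if `F ∋ ζ_{p^(M+1)}`. -/
theorem h93w_prime_mem_pow (p : ℕ) [hp : Fact p.Prime] (M : ℕ) (ζ : F)
    (hζ : IsPrimitiveRoot ζ (p ^ (M + 1))) (P : Ideal (𝓞 F)) (hP : P.IsPrime)
    (hpP : (p : 𝓞 F) ∈ P) : (p : 𝓞 F) ∈ P ^ Nat.totient (p ^ (M + 1)) := by
  classical
  haveI : NeZero (p ^ (M + 1)) := ⟨pow_ne_zero _ hp.out.ne_zero⟩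
  have hζ' : IsPrimitiveRoot hζ.toInteger (p ^ (M + 1)) := hζ.toInteger_isPrimitiveRoot
  have hprod := cyclotomic_eq_prod_X_sub_primitiveRoots hζ'
  have heval : (p : 𝓞 F) = ∏ η ∈ primitiveRoots (p ^ (M + 1)) (𝓞 F), (1 - η) := by
    have h1 := eval_one_cyclotomic_prime_pow (R := 𝓞 F) (p := p) M
    rw [hprod, eval_prod] at h1
    rw [← h1]
    refine Finset.prod_congr rfl (fun η _ => ?_)
    simp
  -- each factor lies in `P`
  have hmem : ∀ η ∈ primitiveRoots (p ^ (M + 1)) (𝓞 F), (1 - η) ∈ P := by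
    intro η hη
    have hη' : IsPrimitiveRoot η (p ^ (M + 1)) :=
      (mem_primitiveRoots (pow_pos hp.out.pos _)).mp hη
    haveI : IsDomain (𝓞 F ⧸ P) := Ideal.Quotient.isDomain P
    haveI : CharP (𝓞 F ⧸ P) p := by
      refine (CharP.charP_iff_prime_eq_zero hp.out).mpr ?_
      have : (Ideal.Quotient.mk P (p : 𝓞 F)) = 0 := Ideal.Quotient.eq_zero_iff_mem.mpr hpP
      simpa using this
    have h1 : (Ideal.Quotient.mk P η - 1) ^ p ^ (M + 1) = 0 := by
      rw [sub_pow_char_pow, one_pow, ← map_pow, hη'.pow_eq_one, map_one, sub_self]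
    have h2 : Ideal.Quotient.mk P η - 1 = 0 := pow_eq_zero_iff (pow_ne_zero _ hp.out.ne_zero)
      |>.mp h1
    have h3 : Ideal.Quotient.mk P (1 - η) = 0 := by
      rw [map_sub, map_one, ← neg_sub, h2, neg_zero]
    exact Ideal.Quotient.eq_zero_iff_mem.mp h3
  rw [heval, ← hζ'.card_primitiveRoots, ← Finset.prod_const]
  exact Ideal.prod_mem_prod hmem

/-- `#{P ∋ q} * (M + 1) ≤ q * d` for `q ≠ p`. -/
theorem h93w_card_le_of_ne (p : ℕ) [hp : Fact p.Prime] (M : ℕ) (ζ : F)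
    (hζ : IsPrimitiveRoot ζ (p ^ (M + 1))) (q : ℕ) (hq : q.Prime) (hqp : q ≠ p)
    (T : Finset (Ideal (𝓞 F))) (hT : ∀ P ∈ T, P.IsMaximal ∧ (q : 𝓞 F) ∈ P) :
    T.card * (M + 1) ≤ q * Module.finrank ℚ F := by
  have hdvd := h93w_prod_absNorm_dvd F q T (fun _ => 1)
    (fun P hP => ⟨(hT P hP).1, by rw [pow_one]; exact (hT P hP).2⟩)
  simp only [pow_one] at hdvd
  -- each norm is `> p ^ (M + 1)`
  have hbig : ∀ P ∈ T, p ^ (M + 1) ≤ absNorm P := by
    intro P hP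
    have hN : ((p ^ (M + 1) : ℕ) : 𝓞 F) ∉ P := by
      intro h
      rw [Nat.cast_pow] at h
      have hpP : (p : 𝓞 F) ∈ P := (hT P hP).1.isPrime.mem_of_pow_mem _ h
      -- `p` and `q` both in `P`: contradiction
      have hcop : Nat.Coprime p q := (Nat.coprime_primes hp.out hq).mpr (Ne.symm hqp)
      obtain ⟨a, b, hab⟩ := Nat.Coprime.isCoprime hcop
      have h1 : ((a * p + b * q : ℤ) : 𝓞 F) ∈ P := by
        push_cast
        exact P.add_mem (P.mul_mem_left _ hpP) (P.mul_mem_left _ (hT P hP).2)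
      rw [hab] at h1
      exact (hT P hP).1.ne_top ((Ideal.eq_top_iff_one P).mpr (by simpa using h1))
    have h2 := h93w_dvd_absNorm_sub_one F _ ζ hζ P (hT P hP).1 hN
    have h3 := h93w_two_le_absNorm F (hT P hP).1
    have h4 : p ^ (M + 1) ≤ absNorm P - 1 := Nat.le_of_dvd (by omega) h2
    omega
  have h5 : (p ^ (M + 1)) ^ T.card ≤ ∏ P ∈ T, absNorm P := by
    rw [← Finset.prod_const]
    exact Finset.prod_le_prod' hbig
  have h6 : ∏ P ∈ T, absNorm P ≤ q ^ Module.finrank ℚ F :=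
    Nat.le_of_dvd (pow_pos hq.pos _) hdvd
  have h7 : q ≤ p ^ q := (Nat.lt_pow_self hp.out.one_lt).le
  have h8 : p ^ ((M + 1) * T.card) ≤ p ^ (q * Module.finrank ℚ F) := by
    calc p ^ ((M + 1) * T.card) = (p ^ (M + 1)) ^ T.card := pow_mul _ _ _
      _ ≤ q ^ Module.finrank ℚ F := h5.trans h6
      _ ≤ (p ^ q) ^ Module.finrank ℚ F := Nat.pow_le_pow_left h7 _
      _ = p ^ (q * Module.finrank ℚ F) := (pow_mul _ _ _).symm
  have h9 := (Nat.pow_le_pow_iff_right hp.out.one_lt).mp h8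
  rw [mul_comm]
  exact h9

/-- `#{P ∋ p} * φ(p ^ (M+1)) ≤ d`. -/
theorem h93w_card_le_of_eq (p : ℕ) [hp : Fact p.Prime] (M : ℕ) (ζ : F)
    (hζ : IsPrimitiveRoot ζ (p ^ (M + 1)))
    (T : Finset (Ideal (𝓞 F))) (hT : ∀ P ∈ T, P.IsMaximal ∧ (p : 𝓞 F) ∈ P) :
    T.card * Nat.totient (p ^ (M + 1)) ≤ Module.finrank ℚ F := by
  have hdvd := h93w_prod_absNorm_dvd F p T (fun _ => Nat.totient (p ^ (M + 1)))
    (fun P hP => ⟨(hT P hP).1,
      h93w_prime_mem_pow F p M ζ hζ P (hT P hP).1.isPrime (hT P hP).2⟩)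
  -- each norm is `≥ p`
  have hbig : ∀ P ∈ T, p ≤ absNorm P := by
    intro P hP
    have h1 : absNorm P ∣ p ^ Module.finrank ℚ F := by
      have := h93w_prod_absNorm_dvd F p {P} (fun _ => 1)
        (fun Q hQ => by
          rw [Finset.mem_singleton] at hQ
          subst hQ
          exact ⟨(hT Q hP).1, by rw [pow_one]; exact (hT Q hP).2⟩)
      simpa using this
    obtain ⟨k, -, hk⟩ := (Nat.dvd_prime_pow hp.out).mp h1
    have h2 := h93w_two_le_absNorm F (hT P hP).1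
    rw [hk] at h2 ⊢
    rcases Nat.eq_zero_or_pos k with h0 | h0
    · rw [h0, pow_zero] at h2
      omega
    · calc p = p ^ 1 := (pow_one p).symm
        _ ≤ p ^ k := Nat.pow_le_pow_right hp.out.pos h0
  have h5 : (p ^ Nat.totient (p ^ (M + 1))) ^ T.card ≤
      ∏ P ∈ T, absNorm P ^ Nat.totient (p ^ (M + 1)) := by
    rw [← Finset.prod_const]
    exact Finset.prod_le_prod' (fun P hP => Nat.pow_le_pow_left (hbig P hP) _)
  have h6 := Nat.le_of_dvd (pow_pos hp.out.pos _) hdvd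
  have h8 : p ^ (Nat.totient (p ^ (M + 1)) * T.card) ≤ p ^ Module.finrank ℚ F := by
    rw [pow_mul]
    exact h5.trans h6
  have h9 := (Nat.pow_le_pow_iff_right hp.out.one_lt).mp h8
  rw [mul_comm]
  exact h9

end Core

end Fermat.Agent.PT.Glob
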