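/-
W3-PT (S55), PT-GLOB, GLOB-TOWER (N4) (helper93): the group-theoretic chain lemma.

If `V ≤ U` are subgroups of a group `G`, all commutators of elements of `U` lie in `V` and
`V.relIndex U = p ^ n`, then there is a chain `U = c 0 ≥ c 1 ≥ … ≥ c n = V` whose steps are
normal of index `p`.  Mathlib only.
-/
import Mathlib

set_option autoImplicit false
set_option linter.style.haveILetI false

namespace Fermat.Agent.PT.Glob

variable {G : Type*} [Group G]

/-- if the commutators of `U` lie in `V ≤ Y` then `Y` is normalised by `U`. -/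
lemma h93w_normal_of_comm {U V X Y : Subgroup G} (hVY : V ≤ Y) (_hYX : Y ≤ X) (hXU : X ≤ U)
    (hcomm : ∀ a ∈ U, ∀ b ∈ U, a * b * a⁻¹ * b⁻¹ ∈ V) : (Y.subgroupOf X).Normal := by
  refine ⟨fun y hy g => ?_⟩
  rw [Subgroup.mem_subgroupOf] at hy ⊢
  have h1 : (g : G) * (y : G) * (g : G)⁻¹ * (y : G)⁻¹ ∈ V :=
    hcomm _ (hXU g.2) _ (hXU y.2)
  have h2 : (g : G) * (y : G) * (g : G)⁻¹ =
      ((g : G) * (y : G) * (g : G)⁻¹ * (y : G)⁻¹) * (y : G) := by group
  simp only [Subgroup.coe_mul, Subgroup.coe_inv]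
  rw [h2]
  exact Y.mul_mem (hVY h1) hy

/-- an intermediate subgroup of relative index `p`. -/
lemma h93w_exists_step (p : ℕ) [hp : Fact p.Prime] {U V : Subgroup G} (hVU : V ≤ U)
    (hcomm : ∀ a ∈ U, ∀ b ∈ U, a * b * a⁻¹ * b⁻¹ ∈ V) (n : ℕ)
    (hidx : V.relIndex U = p ^ (n + 1)) :
    ∃ Y : Subgroup G, V ≤ Y ∧ Y ≤ U ∧ Y.relIndex U = p ∧ V.relIndex Y = p ^ n := by
  classical
  haveI hN : (V.subgroupOf U).Normal := h93w_normal_of_comm le_rfl hVU le_rfl hcomm
  have hcard : Nat.card (↥U ⧸ V.subgroupOf U) = p ^ (n + 1) := by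
    rw [← Subgroup.index_eq_card]
    exact hidx
  haveI : Finite (↥U ⧸ V.subgroupOf U) :=
    Nat.finite_of_card_ne_zero (by rw [hcard]; exact pow_ne_zero _ hp.out.ne_zero)
  obtain ⟨H, hH⟩ := Sylow.exists_subgroup_card_pow_prime (G := ↥U ⧸ V.subgroupOf U) p
    (n := n) (by rw [hcard]; exact pow_dvd_pow p (Nat.le_succ n))
  have hHidx : H.index = p := by
    have h1 := H.card_mul_index
    rw [hH, hcard, pow_succ] at h1
    exact Nat.eq_of_mul_eq_mul_left (pow_pos hp.out.pos n) h1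
  set Y' : Subgroup ↥U := H.comap (QuotientGroup.mk' (V.subgroupOf U)) with hY'
  have hY'idx : Y'.index = p := by
    rw [hY', Subgroup.index_comap_of_surjective _ (QuotientGroup.mk'_surjective _)]
    exact hHidx
  have hNY' : V.subgroupOf U ≤ Y' := by
    intro x hx
    rw [hY', Subgroup.mem_comap]
    have : QuotientGroup.mk' (V.subgroupOf U) x = 1 := by
      rw [QuotientGroup.mk'_apply, QuotientGroup.eq_one_iff]
      exact hx
    rw [this]
    exact H.one_mem
  refine ⟨Y'.map U.subtype, ?_, Subgroup.map_subtype_le Y', ?_, ?_⟩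
  · intro v hv
    exact ⟨⟨v, hVU hv⟩, hNY' (Subgroup.mem_subgroupOf.2 hv), rfl⟩
  · have h1 : (Y'.map U.subtype).subgroupOf U = Y' := by
      ext x
      rw [Subgroup.mem_subgroupOf]
      constructor
      · rintro ⟨y, hy, hyx⟩
        have : y = x := Subtype.ext hyx
        rwa [← this]
      · intro hx
        exact ⟨x, hx, rfl⟩
    rw [Subgroup.relIndex, h1]
    exact hY'idx
  · have hVY : V ≤ Y'.map U.subtype := by
      intro v hv
      exact ⟨⟨v, hVU hv⟩, hNY' (Subgroup.mem_subgroupOf.2 hv), rfl⟩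
    have h1 : (Y'.map U.subtype).subgroupOf U = Y' := by
      ext x
      rw [Subgroup.mem_subgroupOf]
      constructor
      · rintro ⟨y, hy, hyx⟩
        have : y = x := Subtype.ext hyx
        rwa [← this]
      · intro hx
        exact ⟨x, hx, rfl⟩
    have h2 := Subgroup.relIndex_mul_relIndex V (Y'.map U.subtype) U hVY
      (Subgroup.map_subtype_le Y')
    have h3 : (Y'.map U.subtype).relIndex U = p := by
      rw [Subgroup.relIndex, h1]
      exact hY'idx
    rw [h3, hidx, pow_succ] at h2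
    exact Nat.eq_of_mul_eq_mul_right hp.out.pos h2

/-- the chain lemma. -/
theorem h93w_chain (p : ℕ) [hp : Fact p.Prime] (V : Subgroup G) :
    ∀ (n : ℕ) (U : Subgroup G), V ≤ U → (∀ a ∈ U, ∀ b ∈ U, a * b * a⁻¹ * b⁻¹ ∈ V) →
      V.relIndex U = p ^ n →
      ∃ c : ℕ → Subgroup G, c 0 = U ∧ c n = V ∧ (∀ i ≤ n, V ≤ c i ∧ c i ≤ U) ∧
        ∀ i < n, c (i + 1) ≤ c i ∧ ((c (i + 1)).subgroupOf (c i)).Normal ∧
          (c (i + 1)).relIndex (c i) = p := by
  intro n
  induction n with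
  | zero =>
    intro U hVU _ hidx
    rw [pow_zero, Subgroup.relIndex_eq_one] at hidx
    have hUV : U = V := le_antisymm hidx hVU
    refine ⟨fun _ => U, rfl, hUV, fun i _ => ⟨hVU, le_rfl⟩, fun i hi => ?_⟩
    omega
  | succ n ih =>
    intro U hVU hcomm hidx
    obtain ⟨Y, hVY, hYU, hYidx, hVYidx⟩ := h93w_exists_step p hVU hcomm n hidx
    obtain ⟨c', hc0, hcn, hcb, hcs⟩ := ih Y hVY
      (fun a ha b hb => hcomm a (hYU ha) b (hYU hb)) hVYidx
    refine ⟨fun i => Nat.casesOn i U c', rfl, hcn, ?_, ?_⟩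
    · intro i hi
      cases i with
      | zero => exact ⟨hVU, le_rfl⟩
      | succ j => exact ⟨(hcb j (by omega)).1, (hcb j (by omega)).2.trans hYU⟩
    · intro i hi
      cases i with
      | zero =>
        change c' 0 ≤ U ∧ ((c' 0).subgroupOf U).Normal ∧ (c' 0).relIndex U = p
        rw [hc0]
        exact ⟨hYU, h93w_normal_of_comm hVY hYU le_rfl hcomm, hYidx⟩
      | succ j =>
        exact hcs j (by omega)

end Fermat.Agent.PT.Glob
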