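/-
W3-PT (S55), PT-GLOB-K, leaf K-KUM (b) (helper96): the ramification criterion for `n`-th roots.

`h96k_kKumRam : KKumRam` : if all prime divisors of `n` lie in `S`, `L` is unramified outside
`S`, `Bⁿ ∈ L` and `n ∣ v(Bⁿ)` at every place of `L` outside `S`, then `B` lies in a finite normal
extension of `ℚ` unramified outside `S` which contains `L` (namely the normal closure of `L(B)`).
-/
import Mathlib
import Fermat.Agent.PT.Glob.KIface
import Fermat.Agent.PT.Bridge.DQGood

set_option autoImplicit false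

open scoped Pointwise

namespace Fermat.Agent.PT.Glob

open Fermat.Agent.Bridge Fermat.Agent.PT.Bridge

/-- A root of unity of order prime to the residue characteristic which is `≡ 1` modulo the
maximal ideal of a valuation subring is `1`. -/
theorem h96k_root_eq_one (A : ValuationSubring Qb) {q n : ℕ} (hq : q.Prime)
    (hA : A.LiesOverPrime q) (hn : ¬ q ∣ n) {ω : Qb} (hω : ω ^ n = 1)
    (h : ω - 1 ∈ A.nonunits) : ω = 1 := by
  by_contra h1
  have h2 : (n : Qb) ∈ A.nonunits := h23b_natCast_mem_nonunits_of_sub_one_mem A hω h1 h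
  have h3 : ¬ ((q : ℤ) ∣ (n : ℤ)) := fun hd => hn (Int.natCast_dvd_natCast.mp hd)
  have h4 := Fermat.Agent.S54.intCast_not_mem_nonunits A hq hA h3
  apply h4
  simpa using h2

/-- An element a power of which lies in a valuation subring lies in the valuation subring. -/
theorem h96k_mem_of_pow_mem (A : ValuationSubring Qb) {n : ℕ} (hn : 0 < n) {β : Qb}
    (h : β ^ n ∈ A) : β ∈ A := by
  by_contra hβ
  have h1 : 1 < A.valuation β := by
    rw [← not_le, A.valuation_le_one_iff]
    exact hβ
  have h2 : 1 < A.valuation (β ^ n) := by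
    rw [map_pow]
    exact one_lt_pow₀ h1 hn.ne'
  rw [← not_le, A.valuation_le_one_iff] at h2
  exact h2 h

/-- The product of a non-unit and an element of a valuation subring is a non-unit. -/
theorem h96k_mul_mem_nonunits (A : ValuationSubring Qb) {x y : Qb} (hx : x ∈ A.nonunits)
    (hy : y ∈ A) : x * y ∈ A.nonunits := by
  rw [ValuationSubring.mem_nonunits_iff] at hx ⊢
  rw [map_mul]
  exact mul_lt_one_of_nonneg_of_lt_one_left zero_le hx ((A.valuation_le_one_iff _).mpr hy)

/-- The key local statement: inertia at a place outside `S` fixes `L` and `B`. -/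
theorem h96k_inertia_fix {n : ℕ} {S : Finset Nat.Primes} {L : IntermediateField ℚ Qb} {B : Qb}
    (hn : 0 < n) (hS : ∀ q : Nat.Primes, (q : ℕ) ∣ n → q ∈ S) (hL : L.IsUnramifiedOutside S)
    (hB : B ≠ 0) (hBn : B ^ n ∈ L)
    {q : Nat.Primes} (hq : q ∉ S) {A : ValuationSubring Qb} (hA : A.LiesOverPrime (q : ℕ))
    (hv : DvdValAt n L A (B ^ n))
    {τ : GQ} (hτ : τ ∈ A.inertiaSubgroupIn ℚ) : τ ∈ L.fixingSubgroup ∧ τ B = B := by
  have hτL : τ ∈ L.fixingSubgroup := hL.2 q hq A hA hτ
  refine ⟨hτL, ?_⟩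
  have hfix : ∀ x ∈ L, τ x = x := fun x hx =>
    (IntermediateField.mem_fixingSubgroup_iff L τ).mp hτL x hx
  obtain ⟨π, hπL, hπ0, u, hu, hu', hBu⟩ := hv
  -- `β = B / π` is a unit of `A`
  set β : Qb := B / π with hβdef
  have hβn : β ^ n = u := by
    rw [hβdef, div_pow, hBu]
    field_simp
  have hβ0 : β ≠ 0 := div_ne_zero hB hπ0
  have hβA : β ∈ A := h96k_mem_of_pow_mem A hn (by rw [hβn]; exact hu)
  have hβA' : β⁻¹ ∈ A := h96k_mem_of_pow_mem A hn (by rw [inv_pow, hβn]; exact hu')
  -- `ω = τ B / B` is an `n`-th root of unity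
  set ω : Qb := τ B / B with hωdef
  have hωn : ω ^ n = 1 := by
    rw [hωdef, div_pow, ← map_pow, hfix _ hBn, div_self (pow_ne_zero _ hB)]
  have hτβ : τ β = ω * β := by
    rw [hβdef, hωdef, map_div₀, hfix _ hπL]
    field_simp
  have h1 : τ β - β ∈ A.nonunits := h23b_inertia_sub_mem A hτ hβA
  have h2 : ω - 1 ∈ A.nonunits := by
    have e : ω - 1 = (τ β - β) * β⁻¹ := by
      rw [hτβ]
      field_simp
    rw [e]
    exact h96k_mul_mem_nonunits A h1 hβA'
  have hqn : ¬ (q : ℕ) ∣ n := fun hd => hq (hS q hd)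
  have hω1 : ω = 1 := h96k_root_eq_one A q.2 hA hqn hωn h2
  have : τ B = ω * B := by
    rw [hωdef]
    field_simp
  rw [this, hω1, one_mul]

/-- A translate of a valuation subring over `q` lies over `q`. -/
theorem h96k_liesOver_smul {q : ℕ} {A : ValuationSubring Qb} (hA : A.LiesOverPrime q) (f : GQ) :
    (f • A).LiesOverPrime q := by
  show (q : Qb) ∈ (f • A).nonunits
  rw [M2_mem_nonunits_smul]
  have : f⁻¹ (q : Qb) = (q : Qb) := map_natCast f⁻¹ q
  rw [this]
  exact hA

/-- The field of fixed points of an automorphism. -/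
noncomputable def h96k_fixField (σ : GQ) : IntermediateField ℚ Qb where
  toSubalgebra := AlgHom.equalizer (σ : Qb →ₐ[ℚ] Qb) (AlgHom.id ℚ Qb)
  inv_mem' := by
    intro x hx
    have hx' : σ x = x := hx
    show σ x⁻¹ = x⁻¹
    rw [map_inv₀, hx']

theorem h96k_mem_fixField {σ : GQ} {x : Qb} : x ∈ h96k_fixField σ ↔ σ x = x := Iff.rfl

theorem h96k_mem_fixingSubgroup_of_le {σ : GQ} {F : IntermediateField ℚ Qb}
    (h : F ≤ h96k_fixField σ) : σ ∈ F.fixingSubgroup :=
  (IntermediateField.mem_fixingSubgroup_iff F σ).mpr fun _ hx => h hx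

/-- **K-KUM (b).** The ramification criterion for `n`-th roots. -/
theorem h96k_kKumRam : KKumRam := by
  intro n S L B hn hS hL hB hBn hv
  have : FiniteDimensional ℚ L := hL.1
  have : Normal ℚ Qb := by
    have := h23b_isGalois_Qb
    infer_instance
  have hBint : IsIntegral ℚ B := (Algebra.IsAlgebraic.isAlgebraic B).isIntegral
  have : FiniteDimensional ℚ (IntermediateField.adjoin ℚ {B}) :=
    IntermediateField.adjoin.finiteDimensional hBint
  obtain ⟨K, hK⟩ : ∃ K : IntermediateField ℚ Qb, K = L ⊔ IntermediateField.adjoin ℚ {B} :=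
    ⟨_, rfl⟩
  have hKfin : FiniteDimensional ℚ K := by
    rw [hK]
    exact IntermediateField.finiteDimensional_sup L _
  refine ⟨IntermediateField.normalClosure ℚ K Qb, ⟨inferInstance, ?_⟩,
    normalClosure.normal ℚ K Qb, ?_, ?_⟩
  · intro q hq A hA σ hσ
    apply h96k_mem_fixingSubgroup_of_le
    refine le_trans (le_of_eq (IntermediateField.normalClosure_def'' K)) (iSup_le fun f => ?_)
    -- the conjugate `τ = f⁻¹ σ f` lies in the inertia group of `f⁻¹ • A`
    have hA' : (f⁻¹ • A).LiesOverPrime (q : ℕ) := h96k_liesOver_smul hA f⁻¹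
    have hτ : f⁻¹ * σ * f ∈ (f⁻¹ • A).inertiaSubgroupIn ℚ := by
      rw [mem_inertiaSubgroupIn_smul_iff]
      simpa [mul_assoc] using hσ
    obtain ⟨h1, h2⟩ := h96k_inertia_fix hn hS hL hB hBn hq hA' (hv q hq _ hA') hτ
    have hfix : ∀ x ∈ L, (f⁻¹ * σ * f) x = x := fun x hx =>
      (IntermediateField.mem_fixingSubgroup_iff L _).mp h1 x hx
    have key : ∀ x : Qb, (f⁻¹ * σ * f) x = x → σ (f x) = f x := by
      intro x hx
      have : f ((f⁻¹ * σ * f) x) = f x := by rw [hx]
      simpa [AlgEquiv.mul_apply] using this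
    rintro _ ⟨x, hx, rfl⟩
    show σ (f x) = f x
    apply key
    -- `x ∈ K = L(B)` is fixed by `τ`
    have hle : K ≤ h96k_fixField (f⁻¹ * σ * f) := by
      rw [hK]
      refine sup_le (fun y hy => hfix y hy) ?_
      rw [IntermediateField.adjoin_le_iff]
      rintro y hy
      rw [Set.mem_singleton_iff] at hy
      subst hy
      exact h2
    exact hle hx
  · refine le_trans ?_ (IntermediateField.le_normalClosure K)
    rw [hK]
    exact le_sup_left
  · refine IntermediateField.le_normalClosure K ?_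
    rw [hK]
    exact (le_sup_right (a := L)) (IntermediateField.mem_adjoin_simple_self ℚ B)

end Fermat.Agent.PT.Glob
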