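/-
W3-PT (S55), PT-GLOB, GLOB-TOWER (N4) (helper93): the cyclotomic `p`-tower.

`h93_tower : H93Tower` : for `Adm p S U` (`U = G_L` open in `levQ S`, `χ|_U = 1`) there is a chain
`U = c 0 ≥ c 1 ≥ … ≥ c n` of subgroups, every `c i` admissible, every step normal of index `p`,
such that the number of primes above `S` of the fixed field of `c n` is at most `p ^ n`.

Construction: `c n = G_K`, `K = L(ζ)`, `ζ` a primitive `p ^ (M + 1)`-th root of unity with
`M = (∑_{q ∈ S} q) · [L : ℚ]`.  Then `Gal(K/L)` is an abelian `p`-group (chain lemma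
`h93w_chain`), `K` is unramified outside `S` (`h96k_kKumRam`), and a prime `q` has at most
`q · [K : ℚ] / (M + 1)` primes above it in `K` (`H93TowerCore.lean`).
-/
import Mathlib
import Fermat.Agent.PT.Glob.H93TowerGrp
import Fermat.Agent.PT.Glob.H93TowerCore
import Fermat.Agent.PT.Glob.KIface2
import Fermat.Agent.PT.Glob.H96KKumRam
import Fermat.Agent.PT.Bridge.Open

set_option autoImplicit false
set_option linter.style.haveILetI false

open NumberField IsDedekindDomain ExtCitation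

namespace Fermat.Agent.PT.Glob

open Fermat.Agent.PT.Bridge Fermat.Agent.PT

local notation "Qb₀" => AlgebraicClosure ℚ
local notation "GQ₁" => (AlgebraicClosure ℚ ≃ₐ[ℚ] AlgebraicClosure ℚ)

/-- if the cyclotomic exponent of `g` is `1` then `g` fixes `ζ`. -/
lemma h93w_fix_of_autToPow {N : ℕ} [NeZero N] {ζ : Qb₀} (hζ : IsPrimitiveRoot ζ N) (g : GQ₁)
    (h : hζ.autToPow ℚ g = 1) : g ζ = ζ := by
  have h1 := hζ.autToPow_spec ℚ g
  rw [h, Units.val_one, ZMod.val_one_eq_one_mod] at h1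
  rw [← h1]
  rcases Nat.lt_or_ge 1 N with hN | hN
  · rw [Nat.mod_eq_of_lt hN, pow_one]
  · have hN1 : N = 1 := by
      have := NeZero.ne N
      omega
    subst hN1
    rw [IsPrimitiveRoot.one_right_iff] at hζ
    rw [hζ, one_pow]

/-- commutators fix roots of unity. -/
lemma h93w_comm_fix {N : ℕ} [NeZero N] {ζ : Qb₀} (hζ : IsPrimitiveRoot ζ N) (a b : GQ₁) :
    (a * b * a⁻¹ * b⁻¹) ζ = ζ := by
  apply h93w_fix_of_autToPow hζ
  simp only [map_mul, map_inv]
  rw [mul_comm (hζ.autToPow ℚ a) (hζ.autToPow ℚ b)]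
  group

/-- membership in the fixing subgroup of `L(ζ)`. -/
lemma h93w_mem_fixing_sup (L : IntermediateField ℚ Qb₀) (ζ : Qb₀) (g : GQ₁) :
    g ∈ (L ⊔ IntermediateField.adjoin ℚ {ζ}).fixingSubgroup ↔
      g ∈ L.fixingSubgroup ∧ g ζ = ζ := by
  rw [IntermediateField.fixingSubgroup_sup, Subgroup.mem_inf]
  refine and_congr Iff.rfl ?_
  constructor
  · intro h
    exact (IntermediateField.mem_fixingSubgroup_iff _ g).1 h ζ
      (IntermediateField.mem_adjoin_simple_self ℚ ζ)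
  · intro h
    rw [IntermediateField.mem_fixingSubgroup_iff]
    have hle : IntermediateField.adjoin ℚ {ζ} ≤
        IntermediateField.fixedField (Subgroup.zpowers g) := by
      rw [IntermediateField.adjoin_simple_le_iff, IntermediateField.mem_fixedField_iff]
      intro f hf
      obtain ⟨k, rfl⟩ := Subgroup.mem_zpowers_iff.1 hf
      have hg : g ∈ MulAction.stabilizer GQ₁ ζ := h
      have : g ^ k ∈ MulAction.stabilizer GQ₁ ζ := Subgroup.zpow_mem _ hg k
      exact this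
    intro x hx
    have := hle hx
    rw [IntermediateField.mem_fixedField_iff] at this
    exact this g (Subgroup.mem_zpowers g)

/-- the `p ^ M`-th power of an automorphism fixing `ζ ^ (p ^ M)` fixes `ζ`. -/
lemma h93w_pow_fix (p : ℕ) [hp : Fact p.Prime] (M : ℕ) {ζ : Qb₀}
    (hζ : IsPrimitiveRoot ζ (p ^ (M + 1))) (u : GQ₁) (hu : u (ζ ^ (p ^ M)) = ζ ^ (p ^ M)) :
    (u ^ (p ^ M)) ζ = ζ := by
  haveI : NeZero (p ^ (M + 1)) := ⟨pow_ne_zero _ hp.out.ne_zero⟩
  apply h93w_fix_of_autToPow hζ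
  rw [map_pow]
  set a : ℕ := (hζ.autToPow ℚ u : ZMod (p ^ (M + 1))).val with ha
  have h1 : ζ ^ a = u ζ := hζ.autToPow_spec ℚ u
  -- `a ≡ 1 mod p`
  have h2 : ζ ^ (a * p ^ M) = ζ ^ (p ^ M) := by
    rw [pow_mul, h1, ← map_pow, hu]
  have h3 : a * p ^ M ≡ p ^ M [MOD p ^ (M + 1)] := by
    have hfin : IsOfFinOrder ζ :=
      isOfFinOrder_iff_pow_eq_one.2 ⟨p ^ (M + 1), pow_pos hp.out.pos _, hζ.pow_eq_one⟩
    have := hfin.pow_eq_pow_iff_modEq.1 h2
    rwa [← hζ.eq_orderOf] at this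
  have h4 : a ≡ 1 [MOD p] := by
    have h5 : p ^ M * a ≡ p ^ M * 1 [MOD p ^ M * p] := by
      rw [mul_one, mul_comm (p ^ M) a, ← pow_succ]
      exact h3
    exact Nat.ModEq.mul_left_cancel' (pow_ne_zero _ hp.out.ne_zero) h5
  have h6 : ((p : ℤ) ^ (M + 1)) ∣ (a : ℤ) ^ p ^ M - 1 ^ p ^ M := by
    apply dvd_sub_pow_of_dvd_sub
    have := (Nat.modEq_iff_dvd.1 h4.symm)
    simpa using this
  rw [one_pow] at h6
  have h7 : ((a : ZMod (p ^ (M + 1))) ^ p ^ M) = 1 := by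
    have h8 : (((a : ℤ) ^ p ^ M - 1 : ℤ) : ZMod (p ^ (M + 1))) = 0 := by
      rw [ZMod.intCast_zmod_eq_zero_iff_dvd]
      exact_mod_cast h6
    push_cast at h8
    exact sub_eq_zero.1 h8
  apply Units.ext
  rw [Units.val_pow_eq_pow_val, Units.val_one, ← h7, ha, ZMod.natCast_zmod_val]

/-- the unified bound on the number of primes above `q` in a field containing `ζ_{p^(M+1)}`. -/
theorem h93w_card_le (F : Type*) [Field F] [NumberField F] (p : ℕ) [hp : Fact p.Prime] (M : ℕ)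
    (ζ : F) (hζ : IsPrimitiveRoot ζ (p ^ (M + 1))) (q : ℕ) (hq : q.Prime)
    (T : Finset (Ideal (𝓞 F))) (hT : ∀ P ∈ T, P.IsMaximal ∧ (q : 𝓞 F) ∈ P) :
    T.card * (M + 1) ≤ q * Module.finrank ℚ F := by
  by_cases hqp : q = p
  · subst hqp
    have h1 := h93w_card_le_of_eq F q M ζ hζ T hT
    have h2 : M + 1 ≤ Nat.totient (q ^ (M + 1)) := by
      rw [Nat.totient_prime_pow_succ hq]
      have h3 : M + 1 ≤ q ^ M :=
        calc M + 1 ≤ 2 ^ M := Nat.lt_two_pow_self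
          _ ≤ q ^ M := Nat.pow_le_pow_left hq.two_le M
      have h4 : 1 ≤ q - 1 := by have := hq.two_le; omega
      calc M + 1 ≤ q ^ M * 1 := by rw [mul_one]; exact h3
        _ ≤ q ^ M * (q - 1) := Nat.mul_le_mul_left _ h4
    calc T.card * (M + 1) ≤ T.card * Nat.totient (q ^ (M + 1)) := Nat.mul_le_mul_left _ h2
      _ ≤ Module.finrank ℚ F := h1
      _ = 1 * Module.finrank ℚ F := (one_mul _).symm
      _ ≤ q * Module.finrank ℚ F := Nat.mul_le_mul_right _ hq.one_lt.le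
  · exact h93w_card_le_of_ne F p M ζ hζ q hq hqp T hT

/-- the number of primes of `𝓞 F` containing `q`. -/
theorem h93w_card_primes_le (F : Type*) [Field F] [NumberField F] (p : ℕ) [hp : Fact p.Prime]
    (M : ℕ) (ζ : F) (hζ : IsPrimitiveRoot ζ (p ^ (M + 1))) (q : ℕ) (hq : q.Prime)
    (X : Finset (HeightOneSpectrum (𝓞 F))) (hX : ∀ v ∈ X, (q : 𝓞 F) ∈ v.asIdeal) :
    X.card * (M + 1) ≤ q * Module.finrank ℚ F := by
  classical
  have hinj : Function.Injective (fun v : HeightOneSpectrum (𝓞 F) => v.asIdeal) :=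
    fun v w h => HeightOneSpectrum.ext h
  have h1 := h93w_card_le F p M ζ hζ q hq (X.image fun v => v.asIdeal) (by
    intro P hP
    obtain ⟨v, hv, rfl⟩ := Finset.mem_image.1 hP
    exact ⟨v.isMaximal, hX v hv⟩)
  rwa [Finset.card_image_of_injective _ hinj] at h1

/-- the count in `K ∋ ζ`. -/
theorem h93w_count (p : ℕ) [hp : Fact p.Prime] (M : ℕ) {ζ : Qb₀}
    (hζ : IsPrimitiveRoot ζ (p ^ (M + 1))) (K : IntermediateField ℚ Qb₀)
    [FiniteDimensional ℚ K] (hζK : ζ ∈ K) (S : Finset Nat.Primes) (B : ℕ)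
    (hB : (∑ q ∈ S, (q : ℕ)) * Module.finrank ℚ K ≤ B * (M + 1)) :
    Nat.card (primesAbove K S) ≤ B := by
  classical
  haveI : NumberField K := { to_charZero := inferInstance, to_finiteDimensional := inferInstance }
  have hζ' : IsPrimitiveRoot (⟨ζ, hζK⟩ : K) (p ^ (M + 1)) :=
    IsPrimitiveRoot.coe_submonoidClass_iff.1 hζ
  have hfin : ∀ q : Nat.Primes,
      {v : HeightOneSpectrum (𝓞 K) | ((q : ℕ) : 𝓞 K) ∈ v.asIdeal}.Finite := by
    intro q
    have hne : Ideal.span {((q : ℕ) : 𝓞 K)} ≠ 0 := by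
      rw [Ne, Ideal.zero_eq_bot, Ideal.span_singleton_eq_bot]
      exact_mod_cast q.2.ne_zero
    refine (Ideal.finite_factors hne).subset ?_
    intro v hv
    rw [Set.mem_ofPred_eq, Ideal.dvd_iff_le, Ideal.span_singleton_le_iff_mem]
    exact hv
  set X : Nat.Primes → Finset (HeightOneSpectrum (𝓞 K)) := fun q => (hfin q).toFinset with hX
  have hXmem : ∀ q v, v ∈ X q ↔ ((q : ℕ) : 𝓞 K) ∈ v.asIdeal := by
    intro q v
    rw [hX, Set.Finite.mem_toFinset, Set.mem_ofPred_eq]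
  have hset : primesAbove K S = ↑(S.biUnion X) := by
    ext v
    rw [primesAbove, Set.mem_ofPred_eq, Finset.mem_coe, Finset.mem_biUnion]
    exact exists_congr fun q => and_congr Iff.rfl (hXmem q v).symm
  rw [hset, Nat.card_coe_set_eq, Set.ncard_coe_finset]
  have h1 : (S.biUnion X).card ≤ ∑ q ∈ S, (X q).card := Finset.card_biUnion_le
  have h2 : ∀ q ∈ S, (X q).card * (M + 1) ≤ (q : ℕ) * Module.finrank ℚ K := by
    intro q _
    exact h93w_card_primes_le K p M ⟨ζ, hζK⟩ hζ' q q.2 (X q) (fun v hv => (hXmem q v).1 hv)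
  have h3 : (∑ q ∈ S, (X q).card) * (M + 1) ≤ (∑ q ∈ S, (q : ℕ)) * Module.finrank ℚ K := by
    rw [Finset.sum_mul, Finset.sum_mul]
    exact Finset.sum_le_sum h2
  have h4 : (S.biUnion X).card * (M + 1) ≤ B * (M + 1) :=
    ((Nat.mul_le_mul_right _ h1).trans h3).trans hB
  exact Nat.le_of_mul_le_mul_right h4 (Nat.succ_pos M)

/-- the group-theoretic facts about `V = G_{L(ζ)} ≤ U = G_L`. -/
theorem h93w_grp (p : ℕ) [hp : Fact p.Prime] (M : ℕ) {ζ : Qb₀}
    (hζ : IsPrimitiveRoot ζ (p ^ (M + 1))) (L : IntermediateField ℚ Qb₀)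
    [FiniteDimensional ℚ L] (hL : ζ ^ (p ^ M) ∈ L) :
    (L ⊔ IntermediateField.adjoin ℚ {ζ}).fixingSubgroup ≤ L.fixingSubgroup ∧
    (∀ a ∈ L.fixingSubgroup, ∀ b ∈ L.fixingSubgroup,
      a * b * a⁻¹ * b⁻¹ ∈ (L ⊔ IntermediateField.adjoin ℚ {ζ}).fixingSubgroup) ∧
    FiniteDimensional ℚ ↥(L ⊔ IntermediateField.adjoin ℚ {ζ}) ∧
    ∃ n, (L ⊔ IntermediateField.adjoin ℚ {ζ}).fixingSubgroup.relIndex L.fixingSubgroup
      = p ^ n := by
  classical
  haveI : NeZero (p ^ (M + 1)) := ⟨pow_ne_zero _ hp.out.ne_zero⟩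
  set U := L.fixingSubgroup with hU
  set V := (L ⊔ IntermediateField.adjoin ℚ {ζ}).fixingSubgroup with hV
  have hVU : V ≤ U := IntermediateField.fixingSubgroup_antitone le_sup_left
  have hcomm : ∀ a ∈ U, ∀ b ∈ U, a * b * a⁻¹ * b⁻¹ ∈ V := by
    intro a ha b hb
    rw [hV, h93w_mem_fixing_sup]
    exact ⟨U.mul_mem (U.mul_mem (U.mul_mem ha hb) (U.inv_mem ha)) (U.inv_mem hb),
      h93w_comm_fix hζ a b⟩
  have hint : IsIntegral ℚ ζ :=
    (hζ.isIntegral (pow_pos hp.out.pos _)).tower_top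
  haveI : FiniteDimensional ℚ ↥(IntermediateField.adjoin ℚ {ζ}) :=
    IntermediateField.adjoin.finiteDimensional hint
  haveI hfin : FiniteDimensional ℚ ↥(L ⊔ IntermediateField.adjoin ℚ {ζ}) :=
    IntermediateField.finiteDimensional_sup _ _
  refine ⟨hVU, hcomm, hfin, ?_⟩
  haveI hN : (V.subgroupOf U).Normal := h93w_normal_of_comm le_rfl hVU le_rfl hcomm
  have hVidx : V.index ≠ 0 := by
    rw [hV, h23b_index_fixingSubgroup]
    exact Module.finrank_pos.ne'
  have hrel : V.relIndex U ≠ 0 := by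
    intro h0
    apply hVidx
    rw [← Subgroup.relIndex_mul_index hVU, h0, zero_mul]
  haveI : Finite (↥U ⧸ V.subgroupOf U) := by
    apply Nat.finite_of_card_ne_zero
    rw [← Subgroup.index_eq_card]
    exact hrel
  have hpg : IsPGroup p (↥U ⧸ V.subgroupOf U) := by
    intro g
    obtain ⟨u, rfl⟩ := QuotientGroup.mk_surjective g
    refine ⟨M, ?_⟩
    rw [← QuotientGroup.mk_pow, QuotientGroup.eq_one_iff, Subgroup.mem_subgroupOf,
      Subgroup.coe_pow, hV, h93w_mem_fixing_sup]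
    refine ⟨U.pow_mem u.2 _, h93w_pow_fix p M hζ u ?_⟩
    exact (IntermediateField.mem_fixingSubgroup_iff _ _).1 u.2 _ hL
  obtain ⟨n, hn⟩ := IsPGroup.iff_card.1 hpg
  exact ⟨n, by rw [Subgroup.relIndex, Subgroup.index_eq_card, hn]⟩

/-- the statement of GLOB-TOWER (N4). -/
def H93Tower : Prop :=
  ∀ (p : ℕ) [Fact p.Prime] (S : Finset Nat.Primes) (U : Subgroup GQ₁), Adm p S U →
    ∃ (n : ℕ) (c : ℕ → Subgroup GQ₁), c 0 = U ∧ (∀ i ≤ n, Adm p S (c i)) ∧
      (∀ i < n, c (i + 1) ≤ c i ∧ ((c (i + 1)).subgroupOf (c i)).Normal ∧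
        (c (i + 1)).relIndex (c i) = p) ∧
      Nat.card (primesAbove (fieldOf (c n)) S) ≤ p ^ n

theorem h93_tower : H93Tower := by
  intro p hp S U hU
  classical
  haveI := h23b_isGalois_Qb
  obtain ⟨L, hLur, hUL⟩ := (h23b_isOpen_levQ_iff S U).1 hU.isOpen
  haveI hLfin : FiniteDimensional ℚ L := hLur.1
  set d := Module.finrank ℚ L with hd
  set σ := ∑ q ∈ S, (q : ℕ) with hσ
  set M := σ * d with hM
  haveI : NeZero (p ^ (M + 1)) := ⟨pow_ne_zero _ hp.out.ne_zero⟩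
  obtain ⟨ζ, hζ⟩ := HasEnoughRootsOfUnity.exists_primitiveRoot Qb₀ (p ^ (M + 1))
  have hζp : IsPrimitiveRoot (ζ ^ (p ^ M)) p :=
    hζ.pow (pow_pos hp.out.pos _) (pow_succ p M)
  have hζL : ζ ^ (p ^ M) ∈ L := by
    rw [← h23b_cycloChar_trivial_iff p L hζp, ← hUL]
    exact hU.chi
  obtain ⟨hVU, hcomm, hKfin, n, hn⟩ := h93w_grp p M hζ L hζL
  set K := L ⊔ IntermediateField.adjoin ℚ {ζ} with hK
  -- `K` is unramified outside `S`
  have hKur : K.IsUnramifiedOutside S := by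
    obtain ⟨F, hFur, -, hLF, hζF⟩ := h96k_kKumRam (p ^ (M + 1)) S L ζ (pow_pos hp.out.pos _)
      (by
        intro q hq
        have h1 : (q : ℕ) ∣ p := q.2.dvd_of_dvd_pow hq
        have h2 : (q : ℕ) = p := (Nat.prime_dvd_prime_iff_eq q.2 hp.out).1 h1
        have h3 : q = pPrime p := Subtype.ext h2
        rw [h3]
        exact hU.mem)
      hLur (hζ.ne_zero (NeZero.ne _)) (by rw [hζ.pow_eq_one]; exact one_mem _)
      (by
        intro q _ A _
        refine ⟨1, one_mem _, one_ne_zero, 1, A.one_mem, ?_, ?_⟩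
        · rw [inv_one]; exact A.one_mem
        · rw [hζ.pow_eq_one, one_pow, one_mul])
    refine hFur.of_le (sup_le hLF ?_)
    rw [IntermediateField.adjoin_simple_le_iff]
    exact hζF
  rw [← hUL] at hVU hcomm hn
  obtain ⟨c, hc0, hcn, hcb, hcs⟩ := h93w_chain p K.fixingSubgroup n U hVU hcomm hn
  refine ⟨n, c, hc0, ?_, hcs, ?_⟩
  · intro i hi
    obtain ⟨h1, h2⟩ := hcb i hi
    obtain ⟨L', hL'K, -, hL'⟩ := h23b_exists_fixingSubgroup_eq K (c i) h1
    exact ⟨hU.odd, hU.mem, (h23b_isOpen_levQ_iff S (c i)).2 ⟨L', hKur.of_le hL'K, hL'.symm⟩,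
      fun u hu => hU.chi u (h2 hu)⟩
  · have hfield : fieldOf (c n) = K := by
      rw [hcn]
      exact InfiniteGalois.fixedField_fixingSubgroup K
    rw [hfield]
    apply h93w_count p M hζ K (le_sup_right (a := L) (IntermediateField.mem_adjoin_simple_self ℚ ζ)) S
    have h1 : Module.finrank ℚ K = p ^ n * d := by
      rw [← h23b_index_fixingSubgroup K, ← Subgroup.relIndex_mul_index hVU, hn, hUL,
        h23b_index_fixingSubgroup L]
    rw [h1]
    calc σ * (p ^ n * d) = p ^ n * (σ * d) := by ring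
      _ ≤ p ^ n * (M + 1) := Nat.mul_le_mul_left _ (Nat.le_succ _)

end Fermat.Agent.PT.Glob
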