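import Mathlib
import Fermat.Agent.PT.Glob.BrIface2
import Fermat.Agent.PT.Glob.H93Tower

/-!
# W3-PT / PT-GLOB-BR (helper14): the COUNT

`brCount : DQGood → Chi2Ineq → Chi2Van → BrNF → BrDeg → KN1 → KN2 → BrN3 → H93Tower →
  BrVV ∧ BrEq`.

With `x_U := h² + 1 - c - nS` (`#(Cl_S/p) = p ^ c`): `2 χ₂(U) = 2 x_U - [L : ℚ]` by (N1), so
`χ₂(V) ≤ p χ₂(U)` gives `x_V ≤ p x_U` in a step of index `p`; (N2) gives `x ≥ 1 - nS`, the tower
(N4) gives `pⁿ x_U ≥ x_{Uₙ} ≥ 1 - pⁿ`, hence `x_U ≥ 0`; (N3) is `x_U ≤ 0`.  So `x_U = 0` for all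
admissible `U`, `χ₂` is multiplicative and `H³ = 0` by `Chi2Van`.
-/

set_option autoImplicit false

open ExtCitation NumberField IsDedekindDomain

namespace Fermat.Agent.PT.Glob

open Fermat.Agent.PT Fermat.Agent.PT.Shap

local notation "GQ₀" => (AlgebraicClosure ℚ ≃ₐ[ℚ] AlgebraicClosure ℚ)

/-- `#(Cl_S(K)/p)` is a power of `p`. -/
theorem h14c_clSmodP_pow (p : ℕ) [Fact p.Prime] (K : Type) [Field K] [NumberField K]
    (S : Set (HeightOneSpectrum (𝓞 K))) : ∃ c : ℕ, clSmodP K S p = p ^ c := by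
  classical
  haveI : Finite (ClS K S) := inferInstance
  set R : Subgroup (ClS K S) := (powMonoidHom p : ClS K S →* ClS K S).range with hR
  have hpg : IsPGroup p (ClS K S ⧸ R) := by
    intro x
    refine ⟨1, ?_⟩
    obtain ⟨y, rfl⟩ := QuotientGroup.mk_surjective x
    rw [pow_one, ← QuotientGroup.mk_pow, QuotientGroup.eq_one_iff]
    exact ⟨y, rfl⟩
  obtain ⟨c, hc⟩ := IsPGroup.iff_card.1 hpg
  exact ⟨c, by rw [clSmodP, Subgroup.index_eq_card, hc]⟩

noncomputable section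

/-- The facts about one admissible `U`. -/
structure h14c_Facts (p : ℕ) [Fact p.Prime] (S : Finset Nat.Primes) (U : Subgroup GQ₀)
    (c : ℕ) : Prop where
  nf : NumberField (fieldOf U)
  fin12 : FinH12 (chi2Lev (levQ S) U) (chi2Triv (ZMod p) U)
  cl : ∀ _ : NumberField (fieldOf U), clSmodP (fieldOf U) (primesAbove (fieldOf U) S) p = p ^ c
  n1 : 2 * Module.finrank (ZMod p) (HH1 (levU S U) (trivF p U)) =
    Module.finrank ℚ (fieldOf U) + 2 * Nat.card (primesAbove (fieldOf U) S) + 2 * c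
  n2 : c ≤ Module.finrank (ZMod p) (HH2 (levU S U) (trivF p U))
  n3 : Module.finrank (ZMod p) (HH2 (levU S U) (trivF p U)) + 1 ≤
    c + Nat.card (primesAbove (fieldOf U) S)

theorem h14c_facts (hD : DQGood) (hNF : BrNF) (h1 : KN1) (h2 : KN2) (h3 : BrN3)
    (p : ℕ) [Fact p.Prime] (S : Finset Nat.Primes) (U : Subgroup GQ₀) (hA : Adm p S U) :
    ∃ c : ℕ, h14c_Facts p S U c := by
  have hp : p.Prime := Fact.out
  haveI : NumberField (fieldOf U) := hNF p S U hA
  haveI : U.FiniteIndex := h56s_finiteIndex_of_isOpen (hD p S hA.mem).1 hA.isOpen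
  obtain ⟨c, hc⟩ := h14c_clSmodP_pow p (fieldOf U) (primesAbove (fieldOf U) S)
  obtain ⟨hf1, e1⟩ := h1 p S U hA
  obtain ⟨hf2, e3⟩ := h3 p S U hA
  have e2 := h2 p S U hA hf2
  rw [hc] at e1 e2 e3
  refine ⟨c, ‹_›, ⟨hf1, hf2⟩, fun _ => hc, ?_, ?_, ?_⟩
  · rw [← pow_mul, ← pow_add] at e1
    have := Nat.pow_right_injective hp.two_le e1
    omega
  · exact (Nat.pow_le_pow_iff_right hp.one_lt).1 e2
  · rw [← pow_add] at e3
    exact (Nat.pow_le_pow_iff_right hp.one_lt).1 e3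

/-- The defect `x_U = h² + 1 - c - nS`. -/
def h14c_x (p : ℕ) [Fact p.Prime] (S : Finset Nat.Primes) (U : Subgroup GQ₀) (c : ℕ) : ℤ :=
  (Module.finrank (ZMod p) (HH2 (levU S U) (trivF p U)) : ℤ) + 1 - c -
    Nat.card (primesAbove (fieldOf U) S)

theorem h14c_two_chi2 {p : ℕ} [Fact p.Prime] {S : Finset Nat.Primes} {U : Subgroup GQ₀}
    {c : ℕ} (h : h14c_Facts p S U c) :
    2 * chi2U (ZMod p) (levQ S) U = 2 * h14c_x p S U c - (Module.finrank ℚ (fieldOf U) : ℤ) := by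
  have := h.n1
  unfold chi2U h14c_x
  have e : (2 * Module.finrank (ZMod p) (HH1 (levU S U) (trivF p U)) : ℤ) =
      (Module.finrank ℚ (fieldOf U) : ℤ) + 2 * Nat.card (primesAbove (fieldOf U) S) + 2 * c := by
    exact_mod_cast this
  show 2 * ((1 : ℤ) - (Module.finrank (ZMod p) (HH1 (levU S U) (trivF p U)) : ℤ)
      + (Module.finrank (ZMod p) (HH2 (levU S U) (trivF p U)) : ℤ)) = _
  linarith

theorem h14c_x_nonpos {p : ℕ} [Fact p.Prime] {S : Finset Nat.Primes} {U : Subgroup GQ₀}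
    {c : ℕ} (h : h14c_Facts p S U c) : h14c_x p S U c ≤ 0 := by
  have := h.n3
  unfold h14c_x
  omega

theorem h14c_x_lower {p : ℕ} [Fact p.Prime] {S : Finset Nat.Primes} {U : Subgroup GQ₀}
    {c : ℕ} (h : h14c_Facts p S U c) :
    1 - (Nat.card (primesAbove (fieldOf U) S) : ℤ) ≤ h14c_x p S U c := by
  have := h.n2
  unfold h14c_x
  omega

/-- One step of index `p`: `x_V ≤ p x_U`. -/
theorem h14c_step (hD : DQGood) (hI : Chi2Ineq) (hDeg : BrDeg)
    {p : ℕ} [Fact p.Prime] {S : Finset Nat.Primes} {U V : Subgroup GQ₀} {c c' : ℕ}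
    (hA : Adm p S U) (hU : h14c_Facts p S U c) (hV : h14c_Facts p S V c')
    (hVU : V ≤ U) (hVo : (levQ S).IsOpen V) (hn : (V.subgroupOf U).Normal)
    (hi : V.relIndex U = p) : h14c_x p S V c' ≤ p * h14c_x p S U c := by
  have h := (hI p (ZMod p) GQ₀ (levQ S) (hD p S hA.mem).1 U V hVU hVo hn hi hU.fin12).2
  have e1 := h14c_two_chi2 hU
  have e2 := h14c_two_chi2 hV
  have e3 : (Module.finrank ℚ (fieldOf V) : ℤ) = p * Module.finrank ℚ (fieldOf U) := by
    exact_mod_cast hDeg p S U V hA hVU hVo hi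
  have h2 : 2 * chi2U (ZMod p) (levQ S) V ≤ (p : ℤ) * (2 * chi2U (ZMod p) (levQ S) U) := by
    linarith
  rw [e1, e2, e3] at h2
  linarith

/-- The defect vanishes. -/
theorem h14c_x_zero (hD : DQGood) (hI : Chi2Ineq) (hNF : BrNF) (hDeg : BrDeg) (h1 : KN1)
    (h2 : KN2) (h3 : BrN3) (hT : H93Tower)
    {p : ℕ} [Fact p.Prime] {S : Finset Nat.Primes} {U : Subgroup GQ₀} {c : ℕ}
    (hA : Adm p S U) (hU : h14c_Facts p S U c) : h14c_x p S U c = 0 := by
  have hp : p.Prime := Fact.out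
  refine le_antisymm (h14c_x_nonpos hU) ?_
  obtain ⟨n, ch, h0, hadm, hstep, hcard⟩ := hT p S U hA
  -- induction along the tower
  have key : ∀ i, i ≤ n → ∀ c', h14c_Facts p S (ch i) c' →
      h14c_x p S (ch i) c' ≤ (p : ℤ) ^ i * h14c_x p S U c := by
    intro i
    induction i with
    | zero =>
      intro _ c' hc'
      rw [pow_zero, one_mul]
      have hcc : c' = c := by
        have e1 := hc'.cl hc'.nf
        have e2 := hU.cl hU.nf
        subst h0
        exact Nat.pow_right_injective hp.two_le (e1.symm.trans e2)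
      subst hcc
      subst h0
      exact le_rfl
    | succ i ih =>
      intro hi c' hc'
      obtain ⟨c'', hc''⟩ := h14c_facts hD hNF h1 h2 h3 p S (ch i) (hadm i (by omega))
      obtain ⟨hle, hn, hidx⟩ := hstep i (by omega)
      have s1 := h14c_step hD hI hDeg (hadm i (by omega)) hc'' hc' hle
        (hadm (i + 1) hi).isOpen hn hidx
      have s2 := ih (by omega) c'' hc''
      have hp0 : (0 : ℤ) ≤ p := Int.natCast_nonneg p
      calc h14c_x p S (ch (i + 1)) c' ≤ p * h14c_x p S (ch i) c'' := s1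
        _ ≤ p * ((p : ℤ) ^ i * h14c_x p S U c) := mul_le_mul_of_nonneg_left s2 hp0
        _ = (p : ℤ) ^ (i + 1) * h14c_x p S U c := by ring
  obtain ⟨cn, hcn⟩ := h14c_facts hD hNF h1 h2 h3 p S (ch n) (hadm n le_rfl)
  have hk := key n le_rfl cn hcn
  have hl := h14c_x_lower hcn
  have hc : (Nat.card (primesAbove (fieldOf (ch n)) S) : ℤ) ≤ (p : ℤ) ^ n := by
    exact_mod_cast hcard
  have hpos : (0 : ℤ) < (p : ℤ) ^ n := pow_pos (by exact_mod_cast hp.pos) n
  -- `pⁿ (x + 1) ≥ 1`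
  have h4 : 0 < (p : ℤ) ^ n * (h14c_x p S U c + 1) := by
    have : (p : ℤ) ^ n * (h14c_x p S U c + 1) = (p : ℤ) ^ n * h14c_x p S U c + (p : ℤ) ^ n := by
      ring
    rw [this]
    linarith
  have h5 : 0 < h14c_x p S U c + 1 := by
    by_contra hcon
    push_neg at hcon
    have := mul_nonpos_of_nonneg_of_nonpos hpos.le hcon
    linarith
  omega

/-- **The count**: `H¹` finite, `H³ = 0` and `p · #H² = #(Cl_S/p) · p ^ nS` over every
admissible `L`. -/
theorem brCount (hD : DQGood) (hI : Chi2Ineq) (hV : Chi2Van) (hNF : BrNF) (hDeg : BrDeg)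
    (h1 : KN1) (h2 : KN2) (h3 : BrN3) (hT : H93Tower) : BrVV ∧ BrEq := by
  have hzero : ∀ (p : ℕ) [Fact p.Prime] (S : Finset Nat.Primes) (U : Subgroup GQ₀) (c : ℕ),
      Adm p S U → h14c_Facts p S U c → h14c_x p S U c = 0 :=
    fun p _ S U c hA hU => h14c_x_zero hD hI hNF hDeg h1 h2 h3 hT hA hU
  constructor
  · -- `BrVV`
    intro p _ S U _ u hA
    obtain ⟨c, hU⟩ := h14c_facts hD hNF h1 h2 h3 p S U hA
    refine ⟨hU.fin12.1, ?_⟩
    refine hV p (ZMod p) GQ₀ (levQ S) (hD p S hA.mem).1 {W | Adm p S W}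
      (fun W hW => hW.isOpen)
      (fun W hW V hVW hVo => ⟨hW.odd, hW.mem, hVo, fun v hv => hW.chi v (hVW hv)⟩)
      (fun W hW => by
        obtain ⟨c', hW'⟩ := h14c_facts hD hNF h1 h2 h3 p S W hW
        exact hW'.fin12)
      (fun W hW V hVW hVo hn hi => ?_) U hA
    have hVA : Adm p S V := ⟨hW.odd, hW.mem, hVo, fun v hv => hW.chi v (hVW hv)⟩
    obtain ⟨c', hW'⟩ := h14c_facts hD hNF h1 h2 h3 p S W hW
    obtain ⟨c'', hV'⟩ := h14c_facts hD hNF h1 h2 h3 p S V hVA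
    have e1 := h14c_two_chi2 hW'
    have e2 := h14c_two_chi2 hV'
    rw [hzero p S W c' hW hW'] at e1
    rw [hzero p S V c'' hVA hV'] at e2
    have e3 : (Module.finrank ℚ (fieldOf V) : ℤ) = p * Module.finrank ℚ (fieldOf W) := by
      exact_mod_cast hDeg p S W V hW hVW hVo hi
    rw [e3] at e2
    have e4 : (p : ℤ) * (2 * chi2U (ZMod p) (levQ S) W) =
        (p : ℤ) * (2 * 0 - (Module.finrank ℚ (fieldOf W) : ℤ)) := by rw [e1]
    have : 2 * chi2U (ZMod p) (levQ S) V = 2 * ((p : ℤ) * chi2U (ZMod p) (levQ S) W) := by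
      linarith
    linarith
  · -- `BrEq`
    intro p _ S U _ _ hA
    obtain ⟨c, hU⟩ := h14c_facts hD hNF h1 h2 h3 p S U hA
    refine ⟨hU.fin12.2, ?_⟩
    have hx := hzero p S U c hA hU
    unfold h14c_x at hx
    rw [hU.cl _, ← pow_add]
    congr 1
    omega

end

end Fermat.Agent.PT.Glob
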