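/-
W3-PT (S55), PT-GLOB leaf PLACES (helper23): `h23_placesCard : PlacesCard`.

The places of the restricted datum `D_U` (pairs `(q, w)`, `q ∈ S`, `w` an orbit representative of
`Gal(ℚ̄_q/ℚ_q)` on `G_ℚ/U`) are in bijection with the primes of `𝓞 L` above `S`, `L = ℚ̄^U`:
`(q, xU) ↦ primeUnder (x⁻¹ • padicPlace q) L`.
-/
import Mathlib
import Fermat.Agent.PT.Glob.KIface2
import Fermat.Agent.PT.Bridge.NFDict

set_option autoImplicit false
set_option linter.style.haveILetI false
set_option linter.unusedSectionVars false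

open ExtCitation NumberField IsDedekindDomain
open scoped Pointwise

namespace Fermat.Agent.PT.Glob

open Fermat.Agent.Bridge Fermat.Agent.PT.Bridge Fermat.Agent.PT Fermat.Agent.PT.Shap

attribute [local instance] locActQ

/-- A prime of `𝓞 L` contains at most one prime number. -/
theorem h23_prime_unique (L : IntermediateField ℚ Qb) (P : Ideal (𝓞 L)) [P.IsPrime]
    {q q' : ℕ} (hq : q.Prime) (hq' : q'.Prime) (h : ((q : ℕ) : 𝓞 L) ∈ P)
    (h' : ((q' : ℕ) : 𝓞 L) ∈ P) : q = q' := by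
  by_contra hne
  have hcop : Nat.Coprime q q' := (Nat.coprime_primes hq hq').mpr hne
  have hcop' : IsCoprime (q : ℤ) (q' : ℤ) := Nat.isCoprime_iff_coprime.mpr hcop
  obtain ⟨a, b, hab⟩ := hcop'
  have h1 : ((a : ℤ) : 𝓞 L) * ((q : ℕ) : 𝓞 L) + ((b : ℤ) : 𝓞 L) * ((q' : ℕ) : 𝓞 L) = 1 := by
    have := congrArg (Int.cast : ℤ → 𝓞 L) hab
    push_cast at this
    exact this
  have h2 : (1 : 𝓞 L) ∈ P := by
    rw [← h1]
    exact P.add_mem (P.mul_mem_left _ h) (P.mul_mem_left _ h')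
  exact (Ideal.IsPrime.ne_top inferInstance) ((Ideal.eq_top_iff_one P).mpr h2)

/-- The orbit representatives of the local group at `q` on `G_ℚ/G_L` are in bijection with the
primes of `𝓞 L` over `q`. -/
theorem h23_places_bij (q : Nat.Primes) (L : IntermediateField ℚ Qb) [NumberField L]
    (od : h56s_OrbitData (primeLocalGaloisGroup q) (GQ ⧸ L.fixingSubgroup)) :
    ∃ f : od.W → {v : HeightOneSpectrum (𝓞 L) // ((q : ℕ) : 𝓞 L) ∈ v.asIdeal},
      Function.Bijective f := by
  haveI : Fact (q : ℕ).Prime := ⟨q.2⟩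
  have hmem : ∀ g : GQ, ((q : ℕ) : 𝓞 L) ∈ primeUnder (g⁻¹ • padicPlace (q : ℕ)) L :=
    fun g => h23b_natCast_mem_primeUnder (q : ℕ) L g
  have hne : ∀ g : GQ, primeUnder (g⁻¹ • padicPlace (q : ℕ)) L ≠ ⊥ := by
    intro g h
    have h1 := hmem g
    rw [h, Ideal.mem_bot] at h1
    have : ((q : ℕ) : ℕ) = 0 := by exact_mod_cast h1
    exact q.2.ne_zero this
  have hsmul : ∀ (h : primeLocalGaloisGroup q) (x : GQ),
      h • (QuotientGroup.mk x : GQ ⧸ L.fixingSubgroup) =
        QuotientGroup.mk (localGaloisToGlobal (q : ℕ) h * x) := fun h x => rfl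
  have hout : ∀ t : GQ ⧸ L.fixingSubgroup, (QuotientGroup.mk (Quotient.out t) : GQ ⧸ _) = t :=
    fun t => Quotient.out_eq' t
  refine ⟨fun w => ⟨⟨primeUnder ((Quotient.out w.1)⁻¹ • padicPlace (q : ℕ)) L, inferInstance,
    hne _⟩, hmem _⟩, ?_, ?_⟩
  · rintro ⟨w, hw⟩ ⟨w', hw'⟩ h
    have h1 : primeUnder ((Quotient.out w)⁻¹ • padicPlace (q : ℕ)) L =
        primeUnder ((Quotient.out w')⁻¹ • padicPlace (q : ℕ)) L := by
      have := congrArg (fun v => (v.1 : HeightOneSpectrum (𝓞 L)).asIdeal) h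
      exact this
    obtain ⟨τ, u, hu, huv⟩ := (h23b_primeUnder_eq_iff (q : ℕ) L _ _).mp h1
    let τ' : primeLocalGaloisGroup q := τ
    have h2 : w' = τ' • w := by
      conv_lhs => rw [← hout w', huv]
      conv_rhs => rw [← hout w, hsmul]
      apply QuotientGroup.eq.mpr
      have : (localGaloisToGlobal (q : ℕ) τ * Quotient.out w * u)⁻¹ *
          (localGaloisToGlobal (q : ℕ) τ * Quotient.out w) = u⁻¹ := by group
      rw [this]
      exact inv_mem hu
    apply Subtype.ext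
    show w = w'
    rw [← hw, ← hw', h2, od.rep_smul]
  · rintro ⟨v, hv⟩
    haveI := v.isPrime
    obtain ⟨g, hg⟩ := h23b_exists_primeUnder_eq (q : ℕ) L v.asIdeal hv
    refine ⟨od.repW (QuotientGroup.mk g), ?_⟩
    apply Subtype.ext
    apply HeightOneSpectrum.ext
    show primeUnder ((Quotient.out (od.rep (QuotientGroup.mk g)))⁻¹ • padicPlace (q : ℕ)) L =
      v.asIdeal
    rw [← hg]
    apply (h23b_primeUnder_eq_iff (q : ℕ) L _ _).mpr
    have h1 := od.sec_smul (QuotientGroup.mk g)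
    conv_lhs at h1 => rw [← hout (od.rep (QuotientGroup.mk g)), hsmul]
    have h2 := QuotientGroup.eq.mp h1
    exact ⟨od.sec (QuotientGroup.mk g), _, h2, by group⟩

/-- The places of the restricted datum versus the primes above `S`, for `U = G_L`. -/
theorem h23_places_card_aux (S : Finset Nat.Primes) (L : IntermediateField ℚ Qb)
    [NumberField L] (U : Subgroup GQ) (hU : L.fixingSubgroup = U)
    (od : ∀ q : Nat.Primes, h56s_OrbitData (primeLocalGaloisGroup q) (GQ ⧸ U)) :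
    Nat.card (Σ v : ↥S, (od v.1).W) = Nat.card (primesAbove L S) := by
  subst hU
  choose f hf using fun q : Nat.Primes => h23_places_bij q L (od q)
  let e1 : (Σ v : ↥S, (od v.1).W) ≃
      (Σ v : ↥S, {w : HeightOneSpectrum (𝓞 L) // ((v.1 : ℕ) : 𝓞 L) ∈ w.asIdeal}) :=
    Equiv.sigmaCongrRight fun v => Equiv.ofBijective (f v.1) (hf v.1)
  let F : (Σ v : ↥S, {w : HeightOneSpectrum (𝓞 L) // ((v.1 : ℕ) : 𝓞 L) ∈ w.asIdeal}) →
      primesAbove L S := fun x => ⟨x.2.1, x.1.1, x.1.2, x.2.2⟩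
  have hF : Function.Bijective F := by
    constructor
    · rintro ⟨v, w, hw⟩ ⟨v', w', hw'⟩ h
      have h1 : w = w' := congrArg Subtype.val h
      subst h1
      haveI := w.isPrime
      have h2 : (v.1 : ℕ) = (v'.1 : ℕ) := h23_prime_unique L w.asIdeal v.1.2 v'.1.2 hw hw'
      have h3 : v = v' := Subtype.ext (Subtype.ext h2)
      subst h3
      rfl
    · rintro ⟨w, q, hq, hw⟩
      exact ⟨⟨⟨q, hq⟩, w, hw⟩, rfl⟩
  rw [Nat.card_congr e1, Nat.card_congr (Equiv.ofBijective F hF)]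

/-- **PLACES.** -/
theorem h23_placesCard : PlacesCard := by
  intro p _ S U _ _ u hAdm
  obtain ⟨L, -, hL⟩ := (h23b_isOpen_levQ_iff S U).mp hAdm.isOpen
  haveI := h23b_isGalois_Qb
  have hfix : (fieldOf U).fixingSubgroup = U := by
    rw [hL]
    show (IntermediateField.fixedField L.fixingSubgroup).fixingSubgroup = L.fixingSubgroup
    rw [InfiniteGalois.fixedField_fixingSubgroup L]
  rw [← Nat.card_eq_fintype_card]
  exact h23_places_card_aux S (fieldOf U) U hfix u.od

end Fermat.Agent.PT.Glob
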