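import Mathlib
import Fermat.Agent.PT.Glob.KIface3

/-!
# W3-PT / PT-GLOB-K, dictionary leaf K-SUMPLC (helper36): `KSumPlc`

The sum over the places of the restricted datum `D_U = DU p S U u` is the double sum over
`q ∈ S` and the orbit representatives `w : (u.od q).W`.

Main result: `h36s_kSumPlc : KSumPlc`.
-/

set_option autoImplicit false

open ExtCitation NumberField IsDedekindDomain MulAction

namespace Fermat.Agent.PT.Glob

open Fermat.Agent.PT Fermat.Agent.PT.Shap

attribute [local instance] locActQ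

/-- a sum over a fintype does not depend on the `Fintype` instance. -/
theorem h36s_sum_inst {α M : Type*} [AddCommMonoid M] (i₁ i₂ : Fintype α) (f : α → M) :
    (@Finset.univ α i₁).sum f = (@Finset.univ α i₂).sum f := by
  rw [Subsingleton.elim i₁ i₂]

/-- the sum over a sigma type (any `Fintype` instances) is the iterated sum. -/
theorem h36s_sum_sigma {M : Type*} [AddCommMonoid M] (T : Type) (iT : Fintype T) (W : T → Type)
    (iW : ∀ t, Fintype (W t)) (iS : Fintype ((t : T) × W t)) (G' : ((t : T) × W t) → M) :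
    (@Finset.univ _ iS).sum G' = (@Finset.univ _ iT).sum (fun t => (@Finset.univ _ (iW t)).sum
        (fun w => G' ⟨t, w⟩)) := by
  rw [h36s_sum_inst iS Sigma.instFintype]
  exact Fintype.sum_sigma G'

/-- **K-SUMPLC.** -/
theorem h36s_kSumPlc : KSumPlc := by
  intro p _ U _ u S F G hG
  have h1 := h36s_sum_sigma (↥S) (DQ p S).fin (fun v => (u.od v.1).W)
    (fun v => wFintype u v.1) (DU p S U u).fin G
  have h2 : ∀ t : ↥S, (∑ w : (u.od t.1).W, G ⟨t, w⟩) = ∑ w : (u.od t.1).W, F t.1 w := by
    intro t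
    refine Finset.sum_congr rfl fun w _ => ?_
    exact hG t.1 t.2 w
  calc ∑ P, G P = ∑ t : ↥S, ∑ w : (u.od t.1).W, G ⟨t, w⟩ := h1
    _ = ∑ t : ↥S, ∑ w : (u.od t.1).W, F t.1 w := Finset.sum_congr rfl fun t _ => h2 t
    _ = ∑ q ∈ S, ∑ w, F q w := Finset.sum_coe_sort S (fun q => ∑ w, F q w)

end Fermat.Agent.PT.Glob
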