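import Mathlib
import Fermat.Agent.PT.Glob.KIface

/-!
# W3-PT / PT-GLOB-K leaf K-ISO (helper47): isotropic subspaces have at most half the dimension
-/

set_option autoImplicit false

namespace Fermat.Agent.PT.Glob

theorem h47_kIso : KIso := by
  intro k V _ _ _ _ B W hB hW
  -- the map `W → Dual (V ⧸ W)` induced by `B` is injective
  have hle : ∀ w : W, W ≤ LinearMap.ker (B (w : V)) := by
    intro w x hx
    exact hW w w.2 x hx
  let φ : W →ₗ[k] Module.Dual k (V ⧸ W) :=
    { toFun := fun w => W.liftQ (B (w : V)) (hle w)
      map_add' := by
        intro w w'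
        apply Submodule.linearMap_qext
        ext x
        simp
      map_smul' := by
        intro c w
        apply Submodule.linearMap_qext
        ext x
        simp }
  have hφ : Function.Injective φ := by
    rw [← LinearMap.ker_eq_bot, LinearMap.ker_eq_bot']
    intro w hw
    have h0 : (w : V) = 0 := by
      apply hB
      intro x
      have := congrArg (fun f : Module.Dual k (V ⧸ W) => f (Submodule.Quotient.mk x)) hw
      simpa [φ] using this
    exact Subtype.ext h0
  have h1 : Module.finrank k W ≤ Module.finrank k (Module.Dual k (V ⧸ W)) :=
    LinearMap.finrank_le_finrank_of_injective hφ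
  have h2 : Module.finrank k (Module.Dual k (V ⧸ W)) = Module.finrank k (V ⧸ W) :=
    Subspace.dual_finrank_eq
  have h3 : Module.finrank k (V ⧸ W) + Module.finrank k W = Module.finrank k V :=
    Submodule.finrank_quotient_add_finrank W
  omega

end Fermat.Agent.PT.Glob
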