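/-
W3-PT (S55), PT-GLOB-K, leaf K-KUM (a) (helper96): basic properties of the global Kummer
function `kumQ n ζ B`.

`h96k_kKumBasic : KKumBasic` : for `ζ ∈ L` a primitive `n`-th root of unity and `Bⁿ ∈ L`,
`B ≠ 0`, the function `kumQ n ζ B` satisfies `g B = ζ ^ (kumQ g) · B` on `U = G_L`, is additive
on `U`, is constant on the cosets `g · G_{L(B)}` (for every `g`), and vanishes on `U` iff `B ∈ L`.
-/
import Mathlib
import Fermat.Agent.PT.Glob.KIface
import Fermat.Agent.PT.Bridge.DQGood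

set_option autoImplicit false

namespace Fermat.Agent.PT.Glob

open Fermat.Agent.Bridge Fermat.Agent.PT.Bridge

section

/-- `kumQ` only depends on the value `g B`. -/
theorem h96k_kumQ_congr {n : ℕ} {ζ B : Qb} {g g' : GQ} (h : g B = g' B) :
    kumQ n ζ B g = kumQ n ζ B g' := by
  have e : ∀ (x : Qb) (g : GQ), g B = x → kumQ n ζ B g =
      (open scoped Classical in
        if h : ∃ k : ZMod n, x = ζ ^ k.val * B then h.choose else 0) := by
    rintro _ g rfl
    rfl
  rw [e (g' B) g h, e (g' B) g' rfl]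

/-- The defining property of `kumQ`, whenever an exponent exists. -/
theorem h96k_kumQ_spec {n : ℕ} {ζ B : Qb} {g : GQ} (h : ∃ k : ZMod n, g B = ζ ^ k.val * B) :
    g B = ζ ^ (kumQ n ζ B g).val * B := by
  unfold kumQ
  rw [dif_pos h]
  exact h.choose_spec

variable {n : ℕ} [NeZero n] {ζ B : Qb}

/-- Uniqueness of the Kummer exponent. -/
theorem h96k_exp_unique (hζ : IsPrimitiveRoot ζ n) (hB : B ≠ 0) {k k' : ZMod n}
    (h : ζ ^ k.val * B = ζ ^ k'.val * B) : k = k' := by
  have h1 : ζ ^ k.val = ζ ^ k'.val := mul_right_cancel₀ hB h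
  have h2 : k.val ≡ k'.val [MOD n] := h23b_modEq_of_pow_eq hζ (Nat.pos_of_ne_zero (NeZero.ne n)) h1
  have h3 : ((k.val : ℕ) : ZMod n) = ((k'.val : ℕ) : ZMod n) :=
    (ZMod.natCast_eq_natCast_iff _ _ _).mpr h2
  rwa [ZMod.natCast_val, ZMod.natCast_val, ZMod.cast_id, ZMod.cast_id] at h3

/-- `kumQ` is the unique exponent. -/
theorem h96k_kumQ_eq (hζ : IsPrimitiveRoot ζ n) (hB : B ≠ 0) {g : GQ} {k : ZMod n}
    (h : g B = ζ ^ k.val * B) : kumQ n ζ B g = k := by
  have h1 := h96k_kumQ_spec (n := n) (ζ := ζ) (B := B) (g := g) ⟨k, h⟩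
  exact h96k_exp_unique hζ hB (h1.symm.trans h)

/-- `kumQ` with a natural number exponent. -/
theorem h96k_kumQ_eq_natCast (hζ : IsPrimitiveRoot ζ n) (hB : B ≠ 0) {g : GQ} {i : ℕ}
    (h : g B = ζ ^ i * B) : kumQ n ζ B g = (i : ZMod n) := by
  apply h96k_kumQ_eq hζ hB
  rw [h]
  congr 1
  rw [ZMod.val_natCast]
  have h1 : ζ ^ i = ζ ^ (i % n + n * (i / n)) := by rw [Nat.mod_add_div]
  rw [h1, pow_add, pow_mul, hζ.pow_eq_one, one_pow, mul_one]

/-- Existence of the Kummer exponent for automorphisms fixing `Bⁿ`. -/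
theorem h96k_exists_exp (hζ : IsPrimitiveRoot ζ n) (hB : B ≠ 0) {g : GQ}
    (hg : g (B ^ n) = B ^ n) : ∃ k : ZMod n, g B = ζ ^ k.val * B := by
  have h1 : (g B / B) ^ n = 1 := by
    rw [div_pow, ← map_pow, hg, div_self (pow_ne_zero _ hB)]
  obtain ⟨i, hi, hi'⟩ := hζ.eq_pow_of_pow_eq_one h1
  refine ⟨(i : ZMod n), ?_⟩
  rw [ZMod.val_natCast, Nat.mod_eq_of_lt hi, hi']
  field_simp

end

/-- **K-KUM (a).** Basic properties of the global Kummer function. -/
theorem h96k_kKumBasic : KKumBasic := by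
  intro n _ L ζ B hζL hζ hB hBn
  have hIsGal : IsGalois ℚ Qb := h23b_isGalois_Qb
  have hfixL : ∀ g ∈ L.fixingSubgroup, ∀ x ∈ L, g x = x := fun g hg x hx =>
    (IntermediateField.mem_fixingSubgroup_iff L g).mp hg x hx
  have hex : ∀ g ∈ L.fixingSubgroup, ∃ k : ZMod n, g B = ζ ^ k.val * B := fun g hg =>
    h96k_exists_exp hζ hB (hfixL g hg _ hBn)
  have hspec : ∀ g ∈ L.fixingSubgroup, g B = ζ ^ (kumQ n ζ B g).val * B := fun g hg =>
    h96k_kumQ_spec (hex g hg)
  refine ⟨hspec, ?_, ?_, ?_⟩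
  · intro g hg h hh
    have h1 : (g * h) B = ζ ^ ((kumQ n ζ B g).val + (kumQ n ζ B h).val) * B := by
      rw [AlgEquiv.mul_apply, hspec h hh, map_mul, map_pow, hfixL g hg ζ hζL, hspec g hg,
        pow_add]
      ring
    rw [h96k_kumQ_eq_natCast hζ hB h1]
    push_cast
    rw [ZMod.natCast_val, ZMod.natCast_val, ZMod.cast_id, ZMod.cast_id]
  · intro g s hs
    have hsB : s B = B := by
      refine (IntermediateField.mem_fixingSubgroup_iff _ s).mp hs B ?_
      exact (le_sup_right (a := L)) (IntermediateField.mem_adjoin_simple_self ℚ B)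
    apply h96k_kumQ_congr
    rw [AlgEquiv.mul_apply, hsB]
  · constructor
    · intro h
      have h1 : ∀ g ∈ L.fixingSubgroup, g B = B := by
        intro g hg
        have := hspec g hg
        rw [h g hg, ZMod.val_zero, pow_zero, one_mul] at this
        exact this
      have h2 : B ∈ IntermediateField.fixedField L.fixingSubgroup := by
        rintro ⟨g, hg⟩
        exact h1 g hg
      rwa [InfiniteGalois.fixedField_fixingSubgroup] at h2
    · intro hBL g hg
      apply h96k_kumQ_eq hζ hB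
      rw [ZMod.val_zero, pow_zero, one_mul]
      exact hfixL g hg B hBL

end Fermat.Agent.PT.Glob
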