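/-
W3-PT (S55), PT-GLOB-K, leaf K-KUM (d) (helper96): Kummer classification.

`h96k_kKumClass : KKumClass` : if `μ_p ⊆ L`, every character `χ : U = G_L → 𝔽_p` which is
constant on the cosets of `G_F` (`F ⊇ L` finite over `ℚ`) is the Kummer character of some
`B ∈ F`, `B ≠ 0`, `Bᵖ ∈ L`.  Proof: Lagrange resolvent + Dedekind independence of characters.
-/
import Mathlib
import Fermat.Agent.PT.Glob.KIface
import Fermat.Agent.PT.Glob.H96KKumBasic
import Fermat.Agent.PT.Bridge.Open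

set_option autoImplicit false

namespace Fermat.Agent.PT.Glob

open Fermat.Agent.Bridge Fermat.Agent.PT.Bridge

/-- The Lagrange resolvent `∑_{i<p} ζ⁻ⁱ σⁱ θ`. -/
noncomputable def h96k_resolvent (p : ℕ) (ζ : Qb) (σ : GQ) (θ : Qb) : Qb :=
  ∑ i ∈ Finset.range p, (ζ⁻¹) ^ i * (σ ^ i) θ

/-- `σ` multiplies the Lagrange resolvent by `ζ` (if `σ ζ = ζ`, `ζᵖ = 1`, `σᵖ θ = θ`). -/
theorem h96k_resolvent_apply {p : ℕ} {ζ : Qb} {σ : GQ} {θ : Qb} (hζ0 : ζ ≠ 0)
    (hζp : ζ ^ p = 1) (hσζ : σ ζ = ζ) (hσθ : (σ ^ p) θ = θ) :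
    σ (h96k_resolvent p ζ σ θ) = ζ * h96k_resolvent p ζ σ θ := by
  unfold h96k_resolvent
  rw [map_sum]
  have hinv : σ ζ⁻¹ = ζ⁻¹ := by rw [map_inv₀, hσζ]
  have h1 : ∀ i ∈ Finset.range p, σ ((ζ⁻¹) ^ i * (σ ^ i) θ) =
      ζ * ((ζ⁻¹) ^ (i + 1) * (σ ^ (i + 1)) θ) := by
    intro i _
    rw [map_mul, map_pow, hinv, pow_succ (ζ⁻¹) i, pow_succ' σ i, AlgEquiv.mul_apply]
    field_simp
  rw [Finset.sum_congr rfl h1, ← Finset.mul_sum]
  congr 1
  have h2 := Finset.sum_range_succ (fun i => (ζ⁻¹) ^ i * (σ ^ i) θ) p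
  have h3 := Finset.sum_range_succ' (fun i => (ζ⁻¹) ^ i * (σ ^ i) θ) p
  have h4 : (ζ⁻¹) ^ p * (σ ^ p) θ = (ζ⁻¹) ^ 0 * (σ ^ 0) θ := by
    rw [inv_pow, hζp, hσθ]
    simp
  rw [h3, h4] at h2
  exact add_right_cancel h2

/-- Iterating: `σⁱ` multiplies by `ζⁱ`. -/
theorem h96k_pow_apply_of_apply {ζ B : Qb} {σ : GQ} (hσζ : σ ζ = ζ) (hσB : σ B = ζ * B)
    (i : ℕ) : (σ ^ i) B = ζ ^ i * B := by
  induction i with
  | zero => simp
  | succ i ih =>
    rw [pow_succ' σ i, AlgEquiv.mul_apply, ih, map_mul, map_pow, hσζ, hσB, pow_succ]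
    ring

/-- **K-KUM (d).** Kummer classification. -/
theorem h96k_kKumClass : KKumClass := by
  intro p _ L F ζ hFfin hLF hζL hζ χ hadd hinv
  have hp : p.Prime := Fact.out
  have hNZ : NeZero p := ⟨hp.ne_zero⟩
  have hIsGal : IsGalois ℚ Qb := h23b_isGalois_Qb
  have hζ0 : ζ ≠ 0 := hζ.ne_zero hp.ne_zero
  have hfixL : ∀ g ∈ L.fixingSubgroup, ∀ x ∈ L, g x = x := fun g hg x hx =>
    (IntermediateField.mem_fixingSubgroup_iff L g).mp hg x hx
  have hone : χ 1 = 0 := by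
    have h := hadd 1 (one_mem _) 1 (one_mem _)
    rw [mul_one] at h
    exact left_eq_add.mp h
  have hFU : F.fixingSubgroup ≤ L.fixingSubgroup := IntermediateField.fixingSubgroup_antitone hLF
  by_cases hχ : ∀ g ∈ L.fixingSubgroup, χ g = 0
  · -- trivial character: `B = 1`
    refine ⟨1, one_ne_zero, by rw [one_pow]; exact one_mem _, one_mem _, fun g hg => ?_⟩
    rw [hχ g hg]
    symm
    apply h96k_kumQ_eq hζ one_ne_zero
    simp
  · push Not at hχ
    obtain ⟨g₀, hg₀, hc⟩ := hχ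
    -- the kernel of `χ` on `U`
    let H : Subgroup GQ :=
      { carrier := {g | g ∈ L.fixingSubgroup ∧ χ g = 0}
        one_mem' := ⟨one_mem _, hone⟩
        mul_mem' := by
          rintro a b ⟨ha, ha'⟩ ⟨hb, hb'⟩
          exact ⟨mul_mem ha hb, by rw [hadd a ha b hb, ha', hb', add_zero]⟩
        inv_mem' := by
          rintro a ⟨ha, ha'⟩
          refine ⟨inv_mem ha, ?_⟩
          have h := hadd a ha a⁻¹ (inv_mem ha)
          rw [mul_inv_cancel, hone, ha', zero_add] at h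
          exact h.symm }
    have hHmem : ∀ g, g ∈ H ↔ g ∈ L.fixingSubgroup ∧ χ g = 0 := fun g => Iff.rfl
    have hFH : F.fixingSubgroup ≤ H := by
      intro s hs
      refine ⟨hFU hs, ?_⟩
      have h := hinv 1 (one_mem _) s hs
      rwa [one_mul, hone] at h
    obtain ⟨E, _, _, hEH⟩ := h23b_exists_fixingSubgroup_eq F H hFH
    have hEfix : ∀ h ∈ H, ∀ x ∈ E, h x = x := by
      intro h hh x hx
      rw [← hEH] at hh
      exact (IntermediateField.mem_fixingSubgroup_iff E h).mp hh x hx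
    -- powers
    have hpow : ∀ g ∈ L.fixingSubgroup, ∀ m : ℕ, χ (g ^ m) = m • χ g := by
      intro g hg m
      induction m with
      | zero => simp [hone]
      | succ m ih => rw [pow_succ, hadd _ (pow_mem hg m) g hg, ih, succ_nsmul]
    -- an element `σ ∈ U` with `χ σ = 1`
    obtain ⟨σ, hσU, hσ1⟩ : ∃ σ ∈ L.fixingSubgroup, χ σ = 1 := by
      refine ⟨g₀ ^ ((χ g₀)⁻¹).val, pow_mem hg₀ _, ?_⟩
      rw [hpow g₀ hg₀, nsmul_eq_mul, ZMod.natCast_val, ZMod.cast_id]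
      exact inv_mul_cancel₀ hc
    have hσζ : σ ζ = ζ := hfixL σ hσU ζ hζL
    have hχpow : ∀ m : ℕ, χ (σ ^ m) = (m : ZMod p) := by
      intro m
      rw [hpow σ hσU, hσ1, nsmul_eq_mul, mul_one]
    have hσpH : σ ^ p ∈ H := ⟨pow_mem hσU p, by rw [hχpow]; exact ZMod.natCast_self p⟩
    -- Dedekind independence: some resolvent is non-zero
    obtain ⟨θ, hθE, hθ⟩ : ∃ θ ∈ E, h96k_resolvent p ζ σ θ ≠ 0 := by
      by_contra hcon
      push Not at hcon
      let f : Fin p → (E →* Qb) := fun i =>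
        (((σ ^ (i : ℕ) : GQ) : Qb →ₐ[ℚ] Qb).comp E.val : E →+* Qb)
      have hfapp : ∀ (i : Fin p) (x : E), f i x = (σ ^ (i : ℕ)) (x : Qb) := fun _ _ => rfl
      have hfinj : Function.Injective f := by
        intro i j hij
        have h1 : ∀ x ∈ E, ((σ ^ (i : ℕ))⁻¹ * σ ^ (j : ℕ)) x = x := by
          intro x hx
          have h2 : f i ⟨x, hx⟩ = f j ⟨x, hx⟩ := by rw [hij]
          rw [hfapp, hfapp] at h2
          rw [AlgEquiv.mul_apply, ← h2]
          exact (σ ^ (i : ℕ)).symm_apply_apply x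
        have h3 : (σ ^ (i : ℕ))⁻¹ * σ ^ (j : ℕ) ∈ H := by
          rw [← hEH]
          exact (IntermediateField.mem_fixingSubgroup_iff E _).mpr h1
        have h4 : χ ((σ ^ (i : ℕ))⁻¹ * σ ^ (j : ℕ)) = 0 := h3.2
        have h5 : χ (σ ^ (j : ℕ)) = χ (σ ^ (i : ℕ)) := by
          have h6 := hadd (σ ^ (i : ℕ)) (pow_mem hσU _) ((σ ^ (i : ℕ))⁻¹ * σ ^ (j : ℕ)) h3.1
          rw [mul_inv_cancel_left, h4, add_zero] at h6
          exact h6
        rw [hχpow, hχpow] at h5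
        have h7 : ((j : ℕ) : ZMod p) = ((i : ℕ) : ZMod p) := h5
        rw [ZMod.natCast_eq_natCast_iff'] at h7
        rw [Nat.mod_eq_of_lt j.2, Nat.mod_eq_of_lt i.2] at h7
        exact Fin.ext h7.symm
      have hli : LinearIndependent Qb (fun i : Fin p => (f i : E → Qb)) :=
        (linearIndependent_monoidHom E Qb).comp f hfinj
      have hzero : ∑ i : Fin p, ((ζ⁻¹) ^ (i : ℕ)) • (f i : E → Qb) = 0 := by
        funext x
        have h1 := hcon x x.2
        unfold h96k_resolvent at h1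
        rw [Finset.sum_apply, Pi.zero_apply, ← h1, ← Fin.sum_univ_eq_sum_range
          (fun i => (ζ⁻¹) ^ i * (σ ^ i) (x : Qb)) p]
        rfl
      have h0 := (Fintype.linearIndependent_iff.mp hli) _ hzero ⟨0, hp.pos⟩
      simp at h0
    -- the Kummer generator
    set B : Qb := h96k_resolvent p ζ σ θ with hBdef
    have hσB : σ B = ζ * B :=
      h96k_resolvent_apply hζ0 hζ.pow_eq_one hσζ (hEfix _ hσpH θ hθE)
    -- `H` fixes `B`
    have hHB : ∀ h ∈ H, h B = B := by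
      intro h hh
      rw [hBdef]
      unfold h96k_resolvent
      rw [map_sum]
      refine Finset.sum_congr rfl fun i _ => ?_
      rw [map_mul, map_pow, map_inv₀, hfixL h hh.1 ζ hζL]
      congr 1
      have h1 : (σ ^ i)⁻¹ * h * σ ^ i ∈ H := by
        refine ⟨mul_mem (mul_mem (inv_mem (pow_mem hσU i)) hh.1) (pow_mem hσU i), ?_⟩
        rw [hadd _ (mul_mem (inv_mem (pow_mem hσU i)) hh.1) _ (pow_mem hσU i),
          hadd _ (inv_mem (pow_mem hσU i)) _ hh.1, hh.2, add_zero]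
        have h2 := hadd ((σ ^ i)⁻¹) (inv_mem (pow_mem hσU i)) (σ ^ i) (pow_mem hσU i)
        rw [inv_mul_cancel, hone] at h2
        exact h2.symm
      have h2 := hEfix _ h1 θ hθE
      rw [AlgEquiv.mul_apply, AlgEquiv.mul_apply] at h2
      have h3 := congrArg (σ ^ i) h2
      have h4 : (σ ^ i) ((σ ^ i)⁻¹ (h ((σ ^ i) θ))) = h ((σ ^ i) θ) :=
        (σ ^ i).apply_symm_apply _
      rw [h4] at h3
      exact h3
    -- the action of `U` on `B`
    have hUB : ∀ g ∈ L.fixingSubgroup, g B = ζ ^ (χ g).val * B := by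
      intro g hg
      set i : ℕ := (χ g).val with hi
      have h1 : (σ ^ i)⁻¹ * g ∈ H := by
        refine ⟨mul_mem (inv_mem (pow_mem hσU i)) hg, ?_⟩
        have h2 := hadd (σ ^ i) (pow_mem hσU i) ((σ ^ i)⁻¹ * g)
          (mul_mem (inv_mem (pow_mem hσU i)) hg)
        rw [mul_inv_cancel_left, hχpow, hi, ZMod.natCast_val, ZMod.cast_id] at h2
        exact left_eq_add.mp h2
      have h2 := hHB _ h1
      have h3 : g B = (σ ^ i) (((σ ^ i)⁻¹ * g) B) := by
        rw [AlgEquiv.mul_apply]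
        exact ((σ ^ i).apply_symm_apply _).symm
      rw [h3, h2, h96k_pow_apply_of_apply hσζ hσB]
    refine ⟨B, hθ, ?_, ?_, ?_⟩
    · rw [h23b_mem_iff_forall_fixed L]
      intro g hg
      rw [map_pow, hUB g hg, mul_pow, ← pow_mul, mul_comm _ p, pow_mul, hζ.pow_eq_one, one_pow,
        one_mul]
    · rw [h23b_mem_iff_forall_fixed F]
      intro s hs
      exact hHB s (hFH hs)
    · intro g hg
      symm
      exact h96k_kumQ_eq hζ hθ (hUB g hg)

end Fermat.Agent.PT.Glob
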