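import Mathlib
import Fermat.Agent.PT.Glob.KIface4
import Fermat.Agent.PT.Glob.H96KKumBasic
import Fermat.Agent.PT.Glob.H96KKumRam
import Fermat.Agent.PT.Glob.H96KKumRamConv
import Fermat.Agent.PT.Glob.H96KKumClass
import Fermat.Agent.PT.Bridge.Open

/-!
# W3-PT / PT-GLOB-K, leaf K-N1-KUMZ1 (helper32): Kummer parametrisation of `Z¹(G_{L,S}, 𝔽_p)`

`h32k_kKumZ1 : KKumZ1`: for `U` open in `levQ S` with `μ_p ⊆ L = fieldOf U`, the Kummer
characters `κ_B` (`Bᵖ ∈ L`, `p ∣ v(Bᵖ)` outside `S`) are exactly the cocycles of level `S` of the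
trivial module `𝔽_p` of `U`.

Inputs: `h96k_kKumBasic`, `h96k_kKumRam`, `h96k_kKumRamConv`, `h96k_kKumClass`,
`h23b_isOpen_levQ_iff`.
-/

set_option autoImplicit false
set_option linter.style.haveILetI false

open ExtCitation NumberField IsDedekindDomain

namespace Fermat.Agent.PT.Glob

open Fermat.Agent.PT Fermat.Agent.PT.Shap Fermat.Agent.Bridge Fermat.Agent.PT.Bridge

local notation "GQ₀" => (AlgebraicClosure ℚ ≃ₐ[ℚ] AlgebraicClosure ℚ)

/-- An open subgroup of `levQ S` is the fixing subgroup of its fixed field, and the latter is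
unramified outside `S`. -/
theorem h32k_open (S : Finset Nat.Primes) (U : Subgroup GQ₀) (hU : (levQ S).IsOpen U) :
    (fieldOf U).IsUnramifiedOutside S ∧ (fieldOf U).fixingSubgroup = U := by
  haveI := h23b_isGalois_Qb
  obtain ⟨L, hL, rfl⟩ := (h23b_isOpen_levQ_iff S U).mp hU
  have h : fieldOf L.fixingSubgroup = L := InfiniteGalois.fixedField_fixingSubgroup L
  rw [h]
  exact ⟨hL, rfl⟩

/-- The prime divisors of `p` are in `S` when `p ∈ S`. -/
theorem h32k_primes_mem (p : ℕ) [Fact p.Prime] (S : Finset Nat.Primes) (hp : pPrime p ∈ S)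
    (q : Nat.Primes) (hq : (q : ℕ) ∣ p) : q ∈ S := by
  have hpp : p.Prime := Fact.out
  have h : (q : ℕ) = p := (Nat.prime_dvd_prime_iff_eq q.2 hpp).mp hq
  have : q = pPrime p := Subtype.ext h
  rw [this]
  exact hp

/-- Cocycles of the trivial module are the level constant additive functions. -/
theorem h32k_mem_Z1_triv {p : ℕ} [Fact p.Prime] {G : Type} [Group G] (L : Lev G)
    (f : G → ZMod p) :
    f ∈ Z1 L (Representation.trivial (ZMod p) G (ZMod p)) ↔
      (∀ g h, f (g * h) = f g + f h) ∧ IsLC1 L f := by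
  rw [mem_Z1]
  constructor
  · rintro ⟨h1, h2⟩
    refine ⟨fun g h => ?_, h2⟩
    have := congrFun h1 (g, h)
    simp only [d1_apply, Representation.trivial_apply, Pi.zero_apply] at this
    have h3 : f (g * h) = f h + f g := by
      have h4 : f h + f g - f (g * h) = 0 := by rw [← this]; abel
      exact (sub_eq_zero.mp h4).symm
    rw [h3, add_comm]
  · rintro ⟨h1, h2⟩
    refine ⟨?_, h2⟩
    funext ⟨g, h⟩
    simp only [d1_apply, Representation.trivial_apply, Pi.zero_apply]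
    rw [h1 g h]
    abel

theorem h32k_kKumZ1 : KKumZ1 := by
  intro p _ S U ζ hA hζL hζ
  obtain ⟨hLS, hfix⟩ := h32k_open S U hA.isOpen
  have hpp : p.Prime := Fact.out
  haveI : NeZero p := ⟨hpp.ne_zero⟩
  haveI hLfin : FiniteDimensional ℚ (fieldOf U) := hLS.1
  have hmemU : ∀ g : GQ₀, g ∈ U ↔ g ∈ (fieldOf U).fixingSubgroup := fun g => by rw [hfix]
  constructor
  · -- Kummer characters are cocycles of level `S`
    intro B hB hBp hval
    obtain ⟨F, hFS, hFn, hLF, hBF⟩ :=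
      h96k_kKumRam p S (fieldOf U) B hpp.pos (h32k_primes_mem p S hA.mem) hLS hB hBp hval
    obtain ⟨-, hadd, hconst, -⟩ := h96k_kKumBasic p (fieldOf U) ζ B hζL hζ hB hBp
    rw [h32k_mem_Z1_triv]
    refine ⟨fun g h => ?_, ?_⟩
    · exact hadd g.1 ((hmemU _).mp g.2) h.1 ((hmemU _).mp h.2)
    · refine ⟨F.fixingSubgroup.comap U.subtype, ⟨F.fixingSubgroup, ⟨F, hFS, hFn, rfl⟩, rfl⟩, ?_⟩
      intro g s hs
      have hs' : (s : GQ₀) ∈ F.fixingSubgroup := hs
      have hle : fieldOf U ⊔ IntermediateField.adjoin ℚ {B} ≤ F := by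
        refine sup_le hLF ?_
        rw [IntermediateField.adjoin_le_iff]
        intro x hx
        rw [Set.mem_singleton_iff] at hx
        rw [hx]
        exact hBF
      exact hconst g.1 s.1 (IntermediateField.fixingSubgroup_antitone hle hs')
  · -- every cocycle of level `S` is a Kummer character
    intro χ hχ
    rw [h32k_mem_Z1_triv] at hχ
    obtain ⟨hadd, N, ⟨N₀, ⟨F, hFS, hFn, rfl⟩, rfl⟩, hN⟩ := hχ
    classical
    let χ' : GQ₀ → ZMod p := fun g => if h : g ∈ U then χ ⟨g, h⟩ else 0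
    have hχ' : ∀ g (h : g ∈ U), χ' g = χ ⟨g, h⟩ := fun g h => dif_pos h
    have hF'S : (F ⊔ fieldOf U).IsUnramifiedOutside S := hFS.sup hLS
    haveI : FiniteDimensional ℚ ↥(F ⊔ fieldOf U) := hF'S.1
    obtain ⟨B, hB, hBp, hBF, hBχ⟩ := h96k_kKumClass p (fieldOf U) (F ⊔ fieldOf U) ζ hF'S.1
      le_sup_right hζL hζ χ'
      (fun g hg h hh => by
        have hgU : g ∈ U := (hmemU g).mpr hg
        have hhU : h ∈ U := (hmemU h).mpr hh
        rw [hχ' g hgU, hχ' h hhU, hχ' (g * h) (U.mul_mem hgU hhU)]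
        exact hadd ⟨g, hgU⟩ ⟨h, hhU⟩)
      (fun g hg s hs => by
        have hgU : g ∈ U := (hmemU g).mpr hg
        rw [IntermediateField.fixingSubgroup_sup] at hs
        have hsU : s ∈ U := (hmemU s).mpr hs.2
        rw [hχ' g hgU, hχ' (g * s) (U.mul_mem hgU hsU)]
        exact hN ⟨g, hgU⟩ ⟨s, hsU⟩ hs.1)
    refine ⟨B, hB, hBp, ?_, fun g => ?_⟩
    · exact h96k_kKumRamConv p S (fieldOf U) (F ⊔ fieldOf U) ζ B hLfin hζL hζ hB hBp hF'S
        le_sup_right hBF
    · rw [← hBχ g.1 ((hmemU _).mp g.2), hχ' g.1 g.2]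

end Fermat.Agent.PT.Glob
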