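import Mathlib
import Fermat.Agent.PT.Glob.KIface4
import Fermat.Agent.PT.Bridge.NFDict

/-!
# W3-PT / PT-GLOB-K (N2) leaf `K-N2-CLASS` (helper49)

`h49k_kClassIndep : KClassIndepAbs → KClassIndep`: transport of the abstract number-field
statement (N2-a) to the `ℚ̄`-language of the interface, through the dictionary of
`PT/Bridge/NFDict` (`h23b_placeUnder`, `h23b_dvdValAt_iff_valuation`,
`h23b_exists_valuationSubring_of_place`).
-/

set_option autoImplicit false

open ExtCitation NumberField IsDedekindDomain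

namespace Fermat.Agent.PT.Glob

open Fermat.Agent.PT Fermat.Agent.Bridge Fermat.Agent.PT.Bridge

/-- A valuation subring of `ℚ̄` lies over at most one prime number. -/
theorem h49k_prime_unique (A : ValuationSubring Qb) {q q' : ℕ} (hq : q.Prime) (hq' : q'.Prime)
    (hA : A.LiesOverPrime q) (hA' : A.LiesOverPrime q') : q = q' := by
  by_contra hne
  have h1 : ¬ (q : ℤ) ∣ (q' : ℤ) := by
    intro h
    exact hne ((Nat.prime_dvd_prime_iff_eq hq hq').mp (by exact_mod_cast h))
  have h2 := Fermat.Agent.S54.intCast_not_mem_nonunits A hq hA (n := (q' : ℤ)) h1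
  apply h2
  have h3 : (((q' : ℤ)) : Qb) = ((q' : ℕ) : Qb) := by push_cast; rfl
  rw [h3]
  exact hA'

/-- The image in `ℚ̄` of a natural number of `𝓞 L`. -/
theorem h49k_natCast_coe (L : IntermediateField ℚ Qb) (q : ℕ) :
    ((((q : ℕ) : 𝓞 L) : L) : Qb) = ((q : ℕ) : Qb) := by simp

/-- The place under `A` (over `q ∉ S`) is not above `S`. -/
theorem h49k_placeUnder_notMem (S : Finset Nat.Primes) (L : IntermediateField ℚ Qb)
    [NumberField L] (A : ValuationSubring Qb) (q : Nat.Primes) (hqS : q ∉ S)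
    (hA : A.LiesOverPrime (q : ℕ)) (v : HeightOneSpectrum (𝓞 L))
    (hv : v.asIdeal = primeUnder A L) : v ∉ primesAbove L S := by
  rintro ⟨q', hq'S, hq'v⟩
  rw [hv, mem_primeUnder, h49k_natCast_coe] at hq'v
  have h1 : (q : ℕ) = (q' : ℕ) := h49k_prime_unique A q.2 q'.2 hA hq'v
  have h2 : q = q' := Subtype.ext h1
  exact hqS (h2 ▸ hq'S)

/-- A place outside `primesAbove L S` lies under a valuation subring over a prime `q ∉ S`. -/
theorem h49k_exists_of_notMem (S : Finset Nat.Primes) (L : IntermediateField ℚ Qb)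
    [NumberField L] (v : HeightOneSpectrum (𝓞 L)) (hvS : v ∉ primesAbove L S) :
    ∃ (q : Nat.Primes) (A : ValuationSubring Qb), q ∉ S ∧ A.LiesOverPrime (q : ℕ) ∧
      v.asIdeal = primeUnder A L := by
  obtain ⟨q, A, hq, hA, hv⟩ := h23b_exists_valuationSubring_of_place L v
  refine ⟨⟨q, hq⟩, A, ?_, hA, hv⟩
  intro h
  apply hvS
  refine ⟨⟨q, hq⟩, h, ?_⟩
  rw [hv, mem_primeUnder, h49k_natCast_coe]
  exact hA

/-- **Dictionary for `DvdValOut`.** For `a ∈ Lˣ`: `n` divides the valuation of `a` at every place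
of `L` outside `S` (in `ℚ̄`-language) iff `v(a) ∈ exp (n ℤ)` for every `v ∉ primesAbove L S`. -/
theorem h49k_dvdValOut_iff (S : Finset Nat.Primes) (L : IntermediateField ℚ Qb)
    [NumberField L] (n : ℕ) (a : L) (ha : a ≠ 0) :
    DvdValOut n S L (a : Qb) ↔
      ∀ v : HeightOneSpectrum (𝓞 L), v ∉ primesAbove L S →
        ∃ j : ℤ, v.valuation L a = WithZero.exp ((n : ℤ) * j) := by
  constructor
  · intro h v hvS
    obtain ⟨q, A, hqS, hA, hv⟩ := h49k_exists_of_notMem S L v hvS
    exact (h23b_dvdValAt_iff_valuation v hv n a ha).mp (h q hqS A hA)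
  · intro h q hqS A hA
    have hv : (h23b_placeUnder L A q.2 hA).asIdeal = primeUnder A L := rfl
    exact (h23b_dvdValAt_iff_valuation _ hv n a ha).mpr
      (h _ (h49k_placeUnder_notMem S L A q hqS hA _ hv))

/-- **K-N2-CLASS.** `KClassIndepAbs → KClassIndep`. -/
theorem h49k_kClassIndep : KClassIndepAbs → KClassIndep := by
  intro hAbs p _ S L _
  obtain ⟨n, k, α', hn, hα', hind⟩ := hAbs p L (primesAbove L S)
  refine ⟨n, k, fun i => ((α' i : L) : Qb), hn, ?_, ?_⟩
  · intro i
    refine ⟨(α' i).2, ?_, ?_⟩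
    · intro h
      apply (hα' i).1
      have h' : ((α' i : L) : Qb) = ((0 : L) : Qb) := h
      exact Subtype.ext h'
    · exact (h49k_dvdValOut_iff S L (p ^ k) (α' i) (hα' i).1).mpr (hα' i).2
  · intro a b hbL hb0 hD
    have hb0' : (⟨b, hbL⟩ : L) ≠ 0 := by
      intro h
      apply hb0
      exact congrArg (fun x : L => (x : Qb)) h
    by_cases hx0 : ((∏ i, α' i ^ (a i).val) / (⟨b, hbL⟩ : L) ^ p ^ k : L) = 0
    · exfalso
      rw [div_eq_zero_iff] at hx0
      rcases hx0 with h | h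
      · rw [Finset.prod_eq_zero_iff] at h
        obtain ⟨i, -, hi⟩ := h
        exact (hα' i).1 (eq_zero_of_pow_eq_zero hi)
      · exact hb0' (eq_zero_of_pow_eq_zero h)
    · apply hind a ⟨b, hbL⟩ hb0'
      have hx : ((∏ i, ((α' i : L) : Qb) ^ (a i).val) / b ^ p ^ k) =
          (((∏ i, α' i ^ (a i).val) / (⟨b, hbL⟩ : L) ^ p ^ k : L) : Qb) := by
        push_cast
        rfl
      rw [hx] at hD
      exact (h49k_dvdValOut_iff S L (p ^ (k + 1)) _ hx0).mp hD

end Fermat.Agent.PT.Glob
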