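import Mathlib

/-!
# W3-PT / PT-GLOB-K, leaf K-SEL: the abstract count

Let `ι : G → I` and `π : I → C` be homomorphisms of commutative groups, `π` onto with kernel
`ι(G) · T` for a subgroup `T ≤ I` such that `I / T` has no `p`-torsion. Put `E = ι⁻¹(T)` and
`H = ι⁻¹(T · Iᵖ)`. Then `# (H / Gᵖ) = [E : Eᵖ] · # C[p]`.

(Application: `G = Kˣ`, `I` = invertible fractional ideals, `T` = ideals supported on `S`,
`C = Cl_S`, `E` = `S`-units, `H / Gᵖ` = the Selmer group `K(S, p)`.)
-/

set_option autoImplicit false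
set_option linter.style.haveILetI false

namespace Fermat.Agent.PT.Glob

section Abs

variable {G I C : Type*} [CommGroup G] [CommGroup I] [CommGroup C]

/-- In a finite commutative group the number of elements killed by `p` is the index of the
`p`-th powers. -/
theorem h93s_card_ker_pow [Finite C] (p : ℕ) :
    Nat.card (powMonoidHom p : C →* C).ker = (powMonoidHom p : C →* C).range.index := by
  have h1 := Subgroup.card_mul_index (powMonoidHom p : C →* C).ker
  have h2 := Subgroup.card_mul_index (powMonoidHom p : C →* C).range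
  rw [Subgroup.index_ker] at h1
  have h3 : Nat.card (powMonoidHom p : C →* C).range ≠ 0 := Nat.card_pos.ne'
  have h4 : Nat.card (powMonoidHom p : C →* C).range * Nat.card (powMonoidHom p : C →* C).ker =
      Nat.card (powMonoidHom p : C →* C).range * (powMonoidHom p : C →* C).range.index := by
    rw [h2, mul_comm, h1]
  exact Nat.eq_of_mul_eq_mul_left (Nat.pos_of_ne_zero h3) h4

variable (p : ℕ) (ι : G →* I) (π : I →* C) (T : Subgroup I)

/-- the relation `ι x ≡ Jᵖ mod T`. -/
def h93s_Rel (x : G) (J : I) : Prop := ι x * (J ^ p)⁻¹ ∈ T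

variable {p ι π T}

lemma h93s_Rel.mul {x y : G} {J J' : I} (h : h93s_Rel p ι T x J) (h' : h93s_Rel p ι T y J') :
    h93s_Rel p ι T (x * y) (J * J') := by
  have := T.mul_mem h h'
  have e : ι (x * y) * ((J * J') ^ p)⁻¹ = ι x * (J ^ p)⁻¹ * (ι y * (J' ^ p)⁻¹) := by
    rw [map_mul, mul_pow, mul_inv]
    exact mul_mul_mul_comm _ _ _ _
  unfold h93s_Rel
  rw [e]
  exact this

lemma h93s_Rel.unique (hker : T ≤ π.ker) (htf : ∀ J : I, J ^ p ∈ T → J ∈ T)
    {x : G} {J J' : I} (h : h93s_Rel p ι T x J) (h' : h93s_Rel p ι T x J') : π J = π J' := by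
  have h1 : (J' * J⁻¹) ^ p ∈ T := by
    have := T.mul_mem h (T.inv_mem h')
    have e : ι x * (J ^ p)⁻¹ * (ι x * (J' ^ p)⁻¹)⁻¹ = (J' * J⁻¹) ^ p := by
      rw [mul_pow, inv_pow, mul_inv, inv_inv]
      rw [mul_mul_mul_comm, mul_inv_cancel, one_mul, mul_comm]
    rwa [e] at this
  have h2 : π (J' * J⁻¹) = 1 := hker (htf _ h1)
  rw [map_mul, map_inv, mul_inv_eq_one] at h2
  exact h2.symm

/-- **K-SEL, abstract count.** -/
theorem h93s_abs (p : ℕ) (ι : G →* I) (π : I →* C) (hπ : Function.Surjective π)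
    (T : Subgroup I) (hker : π.ker = ι.range ⊔ T)
    (htf : ∀ J : I, J ^ p ∈ T → J ∈ T) :
    Nat.card (((T ⊔ (powMonoidHom p : I →* I).range).comap ι).map
        (QuotientGroup.mk' (powMonoidHom p : G →* G).range))
      = (powMonoidHom p : (T.comap ι) →* (T.comap ι)).range.index *
        Nat.card (powMonoidHom p : C →* C).ker := by
  classical
  set Gp : Subgroup G := (powMonoidHom p : G →* G).range with hGp
  set Ip : Subgroup I := (powMonoidHom p : I →* I).range with hIp
  set E : Subgroup G := T.comap ι with hE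
  set H : Subgroup G := (T ⊔ Ip).comap ι with hH
  have hTker : T ≤ π.ker := hker ▸ le_sup_right
  have hιker : ι.range ≤ π.ker := hker ▸ le_sup_left
  have hGpH : Gp ≤ H := by
    rintro _ ⟨y, rfl⟩
    rw [hH, Subgroup.mem_comap]
    refine Subgroup.mem_sup_right ⟨ι y, ?_⟩
    simp
  have hEH : E ≤ H := fun x hx => Subgroup.mem_sup_left (Subgroup.mem_comap.mp hx)
  -- step 3
  have h3 : Nat.card (H.map (QuotientGroup.mk' Gp)) = Gp.relIndex H := by
    rw [← Subgroup.relIndex_ker, QuotientGroup.ker_mk']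
  -- step 4
  have h4 : Gp.relIndex H = Gp.relIndex (E ⊔ Gp) * (E ⊔ Gp).relIndex H :=
    (Subgroup.relIndex_mul_relIndex Gp (E ⊔ Gp) H le_sup_right (sup_le hEH hGpH)).symm
  -- step 5
  have h5 : Gp.relIndex (E ⊔ Gp) = (powMonoidHom p : E →* E).range.index := by
    rw [Subgroup.relIndex_sup_right, Subgroup.relIndex]
    congr 1
    ext ⟨e, he⟩
    rw [Subgroup.mem_subgroupOf]
    constructor
    · rintro ⟨y, hy⟩
      have hy' : y ^ p = e := hy
      have hyE : y ∈ E := by
        rw [hE, Subgroup.mem_comap]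
        apply htf
        rw [← map_pow, hy']
        exact he
      exact ⟨⟨y, hyE⟩, Subtype.ext hy'⟩
    · rintro ⟨⟨y, hyE⟩, hy⟩
      exact ⟨y, congrArg Subtype.val hy⟩
  -- step 6: the map `θ₀ : H → C`
  have hex : ∀ x : H, ∃ J : I, h93s_Rel p ι T (x : G) J := by
    rintro ⟨x, hx⟩
    rw [hH, Subgroup.mem_comap, Subgroup.mem_sup] at hx
    obtain ⟨t, ht, a, ⟨J, rfl⟩, hta⟩ := hx
    refine ⟨J, ?_⟩
    unfold h93s_Rel
    have : ι x * (J ^ p)⁻¹ = t := by
      rw [← hta]
      simp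
    rw [this]
    exact ht
  choose Jc hJc using hex
  let θ₀ : H →* C := MonoidHom.mk' (fun x => π (Jc x)) (fun x y => by
    rw [← map_mul]
    exact h93s_Rel.unique hTker htf (hJc (x * y)) ((hJc x).mul (hJc y)))
  have hθ₀ : ∀ x : H, θ₀ x = π (Jc x) := fun x => rfl
  have hkerθ : θ₀.ker = (E ⊔ Gp).subgroupOf H := by
    ext x
    rw [MonoidHom.mem_ker, hθ₀, Subgroup.mem_subgroupOf, Subgroup.mem_sup]
    constructor
    · intro h
      have h1 : Jc x ∈ ι.range ⊔ T := by
        rw [← hker]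
        exact h
      obtain ⟨b, ⟨β, rfl⟩, t', ht', hbt⟩ := Subgroup.mem_sup.mp h1
      have h2 : ι ((x : G) * (β ^ p)⁻¹) ∈ T := by
        have := T.mul_mem (hJc x) (T.pow_mem ht' p)
        have e : ι (x : G) * (Jc x ^ p)⁻¹ * t' ^ p = ι ((x : G) * (β ^ p)⁻¹) := by
          rw [← hbt, mul_pow, map_mul, map_inv, map_pow, mul_inv]
          rw [mul_assoc, mul_assoc, inv_mul_cancel, mul_one]
        rwa [e] at this
      refine ⟨(x : G) * (β ^ p)⁻¹, h2, β ^ p, ⟨β, rfl⟩, ?_⟩
      rw [inv_mul_cancel_right]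
    · rintro ⟨e, he, b, ⟨β, rfl⟩, heb⟩
      have hrel : h93s_Rel p ι T (x : G) (ι β) := by
        unfold h93s_Rel
        have : ι (x : G) * (ι β ^ p)⁻¹ = ι e := by
          rw [← heb]
          simp
        rw [this]
        exact he
      rw [h93s_Rel.unique hTker htf (hJc x) hrel]
      exact hιker ⟨β, rfl⟩
  have hrangeθ : θ₀.range = (powMonoidHom p : C →* C).ker := by
    ext c
    rw [MonoidHom.mem_range, MonoidHom.mem_ker, powMonoidHom_apply]
    constructor
    · rintro ⟨x, rfl⟩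
      rw [hθ₀, ← map_pow]
      have h1 : ι (x : G) ∈ π.ker := hιker ⟨_, rfl⟩
      have h2 : ι (x : G) * (Jc x ^ p)⁻¹ ∈ π.ker := hTker (hJc x)
      have h3 := π.ker.mul_mem (π.ker.inv_mem h2) h1
      have e : (ι (x : G) * (Jc x ^ p)⁻¹)⁻¹ * ι (x : G) = Jc x ^ p := by
        rw [mul_inv, inv_inv, mul_comm (ι (x : G))⁻¹, mul_assoc, inv_mul_cancel, mul_one]
      rw [e] at h3
      exact h3
    · intro hc
      obtain ⟨J, rfl⟩ := hπ c
      rw [← map_pow] at hc
      have h1 : J ^ p ∈ ι.range ⊔ T := by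
        rw [← hker]
        exact hc
      obtain ⟨b, ⟨x', rfl⟩, t, ht, hbt⟩ := Subgroup.mem_sup.mp h1
      have hrel : h93s_Rel p ι T x' J := by
        unfold h93s_Rel
        have : ι x' * (J ^ p)⁻¹ = t⁻¹ := by
          rw [← hbt]
          simp
        rw [this]
        exact T.inv_mem ht
      have hx'H : x' ∈ H := by
        rw [hH, Subgroup.mem_comap, Subgroup.mem_sup]
        refine ⟨t⁻¹, T.inv_mem ht, J ^ p, ⟨J, rfl⟩, ?_⟩
        rw [← hbt]
        simp
      exact ⟨⟨x', hx'H⟩, h93s_Rel.unique hTker htf (hJc ⟨x', hx'H⟩) hrel⟩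
  have h6 : (E ⊔ Gp).relIndex H = Nat.card (powMonoidHom p : C →* C).ker := by
    rw [Subgroup.relIndex, ← hkerθ, Subgroup.index_ker, hrangeθ]
  rw [h3, h4, h5, h6]

/-- **K-SEL, abstract count**, with names for the Selmer group and the `S`-units. -/
theorem h93s_abs' (p : ℕ) (ι : G →* I) (π : I →* C) (hπ : Function.Surjective π)
    (T : Subgroup I) (hker : π.ker = ι.range ⊔ T)
    (htf : ∀ J : I, J ^ p ∈ T → J ∈ T)
    (E : Subgroup G) (hE : E = T.comap ι)
    (Sel : Subgroup (G ⧸ (powMonoidHom p : G →* G).range))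
    (hSel : Sel = ((T ⊔ (powMonoidHom p : I →* I).range).comap ι).map
        (QuotientGroup.mk' (powMonoidHom p : G →* G).range)) :
    Nat.card Sel = (powMonoidHom p : E →* E).range.index *
        Nat.card (powMonoidHom p : C →* C).ker := by
  subst hE
  subst hSel
  exact h93s_abs p ι π hπ T hker htf

end Abs

end Fermat.Agent.PT.Glob
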