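import Mathlib

/-!
# W3-PT / PT-GLOB-K, leaf K-SEL: fractional ideals supported on a set of primes

For a Dedekind domain `R` with fraction field `K` and a set `S` of primes:

* `h93s_valuation_eq`  : `v(x) = exp (- count_v (x))`;
* `h93s_T S`           : the invertible fractional ideals `J` with `count_v J = 0` for `v ∉ S`;
* `h93s_P e`           : the invertible fractional ideal `∏ v ^ (e v)`, with `count_v = e v`;
* `h93s_eq_P`          : every invertible fractional ideal is `h93s_P` of its counts;
* `h93s_mem_T_sup_pow_iff` : `J ∈ T · Iᵖ` iff `p ∣ count_v J` for all `v ∉ S`.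
-/

set_option autoImplicit false
set_option linter.style.haveILetI false

open IsDedekindDomain FractionalIdeal
open scoped nonZeroDivisors

namespace Fermat.Agent.PT.Glob

section Ideal

variable {R : Type*} [CommRing R] [IsDedekindDomain R] {K : Type*} [Field K] [Algebra R K]
  [IsFractionRing R K]

/-- `v(x) = exp (- count_v (x))`. -/
theorem h93s_valuation_eq (v : HeightOneSpectrum R) (x : K) (hx : x ≠ 0) :
    v.valuation K x = WithZero.exp (-(count K v (spanSingleton R⁰ x))) := by
  obtain ⟨n, d, rfl⟩ := IsLocalization.exists_mk'_eq R⁰ x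
  have hn : n ≠ 0 := by
    rintro rfl
    exact hx (IsLocalization.mk'_zero d)
  have hd : (d : R) ≠ 0 := nonZeroDivisors.coe_ne_zero d
  have hI : spanSingleton R⁰ (IsLocalization.mk' K n d) =
      spanSingleton R⁰ ((algebraMap R K) (d : R))⁻¹ * ((Ideal.span {n} : Ideal R) :
        FractionalIdeal R⁰ K) := by
    rw [coeIdeal_span_singleton, spanSingleton_mul_spanSingleton]
    congr 1
    rw [IsFractionRing.mk'_eq_div, div_eq_inv_mul]
  have hne : spanSingleton R⁰ (IsLocalization.mk' K n d) ≠ 0 := by
    rw [ne_eq, spanSingleton_eq_zero_iff]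
    exact hx
  rw [HeightOneSpectrum.valuation_of_mk', HeightOneSpectrum.intValuation_if_neg v hn,
    HeightOneSpectrum.intValuation_if_neg v hd, count_well_defined K v hne hI,
    ← WithZero.exp_sub]
  congr 1
  ring

variable (K) in
/-- the invertible fractional ideals supported on `S`. -/
def h93s_T (S : Set (HeightOneSpectrum R)) : Subgroup (FractionalIdeal R⁰ K)ˣ where
  carrier := {J | ∀ v, v ∉ S → count K v (J : FractionalIdeal R⁰ K) = 0}
  one_mem' := fun v _ => by
    rw [Units.val_one]
    exact count_one K v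
  mul_mem' := fun {a b} ha hb v hv => by
    rw [Units.val_mul, count_mul K v a.ne_zero b.ne_zero, ha v hv, hb v hv, add_zero]
  inv_mem' := fun {a} ha v hv => by
    rw [Units.val_inv_eq_inv_val, count_inv, ha v hv, neg_zero]

lemma h93s_mem_T {S : Set (HeightOneSpectrum R)} {J : (FractionalIdeal R⁰ K)ˣ} :
    J ∈ h93s_T K S ↔ ∀ v, v ∉ S → count K v (J : FractionalIdeal R⁰ K) = 0 := Iff.rfl

/-- `I / T` has no `p`-torsion. -/
lemma h93s_T_tf (S : Set (HeightOneSpectrum R)) (p : ℕ) (hp : p ≠ 0)
    (J : (FractionalIdeal R⁰ K)ˣ) (h : J ^ p ∈ h93s_T K S) : J ∈ h93s_T K S := by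
  intro v hv
  have := h v hv
  rw [Units.val_pow_eq_pow_val, count_pow] at this
  rcases mul_eq_zero.mp this with h0 | h0
  · exact absurd (by exact_mod_cast h0) hp
  · exact h0

/-- the prime `v` as an invertible fractional ideal. -/
noncomputable def h93s_u (v : HeightOneSpectrum R) : (FractionalIdeal R⁰ K)ˣ :=
  Units.mk0 (v.asIdeal : FractionalIdeal R⁰ K) (coeIdeal_ne_zero.mpr v.ne_bot)

@[simp] lemma h93s_u_val (v : HeightOneSpectrum R) :
    ((h93s_u v : (FractionalIdeal R⁰ K)ˣ) : FractionalIdeal R⁰ K) = v.asIdeal := rfl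

/-- the invertible fractional ideal `∏ v ^ (e v)`. -/
noncomputable def h93s_P (e : HeightOneSpectrum R →₀ ℤ) : (FractionalIdeal R⁰ K)ˣ :=
  e.prod (fun v n => (h93s_u v : (FractionalIdeal R⁰ K)ˣ) ^ n)

lemma h93s_P_val (e : HeightOneSpectrum R →₀ ℤ) :
    ((h93s_P e : (FractionalIdeal R⁰ K)ˣ) : FractionalIdeal R⁰ K) =
      e.prod (fun v n => (v.asIdeal : FractionalIdeal R⁰ K) ^ n) := by
  unfold h93s_P Finsupp.prod
  rw [Units.coe_prod]
  refine Finset.prod_congr rfl (fun v _ => ?_)
  rw [Units.val_zpow_eq_zpow_val, h93s_u_val]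

lemma h93s_count_P (e : HeightOneSpectrum R →₀ ℤ) (v : HeightOneSpectrum R) :
    count K v ((h93s_P e : (FractionalIdeal R⁰ K)ˣ) : FractionalIdeal R⁰ K) = e v := by
  rw [h93s_P_val]
  exact count_finsuppProd K v e

/-- the counts of an invertible fractional ideal, as a finitely supported function. -/
noncomputable def h93s_cnt (J : (FractionalIdeal R⁰ K)ˣ) : HeightOneSpectrum R →₀ ℤ :=
  Finsupp.ofSupportFinite (fun v => count K v (J : FractionalIdeal R⁰ K))
    (by
      have := FractionalIdeal.finite_factors (J : FractionalIdeal R⁰ K)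
      rw [Filter.eventually_cofinite] at this
      exact this)

@[simp] lemma h93s_cnt_apply (J : (FractionalIdeal R⁰ K)ˣ) (v : HeightOneSpectrum R) :
    h93s_cnt J v = count K v (J : FractionalIdeal R⁰ K) := rfl

/-- every invertible fractional ideal is the product of the primes to its counts. -/
theorem h93s_eq_P (J : (FractionalIdeal R⁰ K)ˣ) : J = h93s_P (h93s_cnt J) := by
  apply Units.ext
  rw [h93s_P_val]
  have h := finprod_heightOneSpectrum_factorization' K (I := (J : FractionalIdeal R⁰ K)) J.ne_zero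
  rw [← h]
  unfold Finsupp.prod
  rw [finprod_eq_prod_of_mulSupport_subset]
  · rfl
  · intro v hv
    rw [Function.mem_mulSupport] at hv
    rw [Finset.mem_coe, Finsupp.mem_support_iff, h93s_cnt_apply]
    intro h0
    apply hv
    rw [h0, zpow_zero]

/-- two invertible fractional ideals with the same counts are equal. -/
theorem h93s_ext {J J' : (FractionalIdeal R⁰ K)ˣ}
    (h : ∀ v, count K v (J : FractionalIdeal R⁰ K) = count K v (J' : FractionalIdeal R⁰ K)) :
    J = J' := by
  rw [h93s_eq_P J, h93s_eq_P J']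
  congr 1
  ext v
  exact h v

/-- `J ∈ T · Iᵖ` iff `p` divides the counts of `J` outside `S`. -/
theorem h93s_mem_T_sup_pow_iff (S : Set (HeightOneSpectrum R)) (p : ℕ)
    (J : (FractionalIdeal R⁰ K)ˣ) :
    J ∈ h93s_T K S ⊔ (powMonoidHom p : (FractionalIdeal R⁰ K)ˣ →* (FractionalIdeal R⁰ K)ˣ).range
      ↔ ∀ v, v ∉ S → (p : ℤ) ∣ count K v (J : FractionalIdeal R⁰ K) := by
  classical
  constructor
  · intro h v hv
    obtain ⟨t, ht, a, ⟨A, rfl⟩, rfl⟩ := Subgroup.mem_sup.mp h
    rw [Units.val_mul, count_mul K v t.ne_zero (Units.ne_zero _), ht v hv, zero_add,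
      powMonoidHom_apply, Units.val_pow_eq_pow_val, count_pow]
    exact dvd_mul_right _ _
  · intro h
    -- the exponents of `A`
    have hfin : (Function.support (fun v => if v ∈ S then (0 : ℤ) else
        count K v (J : FractionalIdeal R⁰ K) / p)).Finite := by
      refine (h93s_cnt J).support.finite_toSet.subset ?_
      intro v hv
      rw [Function.mem_support] at hv
      rw [Finset.mem_coe, Finsupp.mem_support_iff, h93s_cnt_apply]
      intro h0
      apply hv
      split_ifs
      · rfl
      · rw [h0, Int.zero_ediv]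
    set e : HeightOneSpectrum R →₀ ℤ := Finsupp.ofSupportFinite _ hfin with he
    have he_apply : ∀ v, e v = if v ∈ S then (0 : ℤ) else
        count K v (J : FractionalIdeal R⁰ K) / p := fun v => rfl
    set A : (FractionalIdeal R⁰ K)ˣ := h93s_P e with hA
    have ht : J * (A ^ p)⁻¹ ∈ h93s_T K S := by
      intro v hv
      rw [Units.val_mul, count_mul K v J.ne_zero (Units.ne_zero _), Units.val_inv_eq_inv_val,
        count_inv, Units.val_pow_eq_pow_val, count_pow, hA, h93s_count_P, he_apply, if_neg hv,
        Int.mul_ediv_cancel' (h v hv), add_neg_cancel]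
    refine Subgroup.mem_sup.mpr ⟨J * (A ^ p)⁻¹, ht, A ^ p, ⟨A, rfl⟩, ?_⟩
    rw [inv_mul_cancel_right]

end Ideal

end Fermat.Agent.PT.Glob
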