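import Mathlib
import Fermat.Agent.PT.Glob.KIface
import Fermat.Agent.PT.Glob.H93KSelAbs
import Fermat.Agent.PT.Glob.H93KSelIdeal
import Fermat.Agent.PT.Units.Kummer

/-!
# W3-PT / PT-GLOB-K, leaf K-SEL: the order of the Selmer group `K(S, p)`

`h93_kSel : KSel`: for a number field `K ∋ ζ_p` and a finite set `S` of primes,
`# K(S, p) = p ^ (rank 𝓞ˣ + #S + 1) · # (Cl_S / p)`.

Proof: the abstract count `h93s_abs'` for `ι = toPrincipalIdeal`, `π : I → Cl → Cl_S`,
`T = h93s_T S` (ideals supported on `S`), and the Kummer count `SU_index_sunit_pow` of helper64.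
-/

set_option autoImplicit false
set_option linter.style.haveILetI false

open NumberField IsDedekindDomain FractionalIdeal
open scoped nonZeroDivisors

namespace Fermat.Agent.PT.Glob

section Gen

variable {R : Type*} [CommRing R] [IsDedekindDomain R] {K : Type*} [Field K] [Algebra R K]
  [IsFractionRing R K]

/-- the value of `valuationOfNeZeroMod` on a class. -/
lemma h93s_valMod_mk (v : HeightOneSpectrum R) (n : ℕ) (x : Kˣ) :
    v.valuationOfNeZeroMod n (QuotientGroup.mk x : Kˣ ⧸ (powMonoidHom n : Kˣ →* Kˣ).range) =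
      Multiplicative.ofAdd ((Multiplicative.toAdd (v.valuationOfNeZero x) : ℤ) : ZMod n) := by
  rfl

lemma h93s_valMod_eq_one_iff (v : HeightOneSpectrum R) (n : ℕ) (x : Kˣ) :
    v.valuationOfNeZeroMod n (QuotientGroup.mk x : Kˣ ⧸ (powMonoidHom n : Kˣ →* Kˣ).range) = 1 ↔
      (n : ℤ) ∣ Multiplicative.toAdd (v.valuationOfNeZero x) := by
  rw [h93s_valMod_mk, ← ofAdd_zero, Multiplicative.ofAdd.apply_eq_iff_eq,
    ZMod.intCast_zmod_eq_zero_iff_dvd]

/-- `ord_v x = - count_v (x)`. -/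
lemma h93s_toAdd_valuationOfNeZero (v : HeightOneSpectrum R) (x : Kˣ) :
    Multiplicative.toAdd (v.valuationOfNeZero x) =
      -(count K v ((toPrincipalIdeal R K x : (FractionalIdeal R⁰ K)ˣ) :
        FractionalIdeal R⁰ K)) := by
  have h1 : ((v.valuationOfNeZero x : Multiplicative ℤ) : WithZero (Multiplicative ℤ)) =
      v.valuation K (x : K) := HeightOneSpectrum.valuationOfNeZero_eq v x
  rw [h93s_valuation_eq v (x : K) x.ne_zero] at h1
  rw [coe_toPrincipalIdeal]
  have h2 : v.valuationOfNeZero x =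
      Multiplicative.ofAdd (-(count K v (spanSingleton R⁰ (x : K)))) :=
    WithZero.coe_injective h1
  rw [h2]
  rfl

/-- the kernel of `ClassGroup.mk` is the group of principal ideals. -/
lemma h93s_ker_mk :
    (ClassGroup.mk K : (FractionalIdeal R⁰ K)ˣ →* ClassGroup R).ker =
      (toPrincipalIdeal R K).range := by
  ext J
  rw [MonoidHom.mem_ker, ClassGroup.mk_eq_one_iff, mem_principal_ideals_iff]
  constructor
  · intro hI
    obtain ⟨x, hx⟩ := hI.principal
    refine ⟨x, ?_⟩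
    apply FractionalIdeal.coeToSubmodule_injective
    show ((spanSingleton R⁰ x : FractionalIdeal R⁰ K) : Submodule R K) =
      ((J : FractionalIdeal R⁰ K) : Submodule R K)
    rw [coe_spanSingleton, hx]
  · rintro ⟨x, hx⟩
    exact ⟨⟨x, by rw [← hx, coe_spanSingleton]⟩⟩

lemma h93s_mk_surjective :
    Function.Surjective (ClassGroup.mk K : (FractionalIdeal R⁰ K)ˣ →* ClassGroup R) := by
  intro c
  obtain ⟨I, rfl⟩ := ClassGroup.mk0_surjective c
  exact ⟨FractionalIdeal.mk0 K I, ClassGroup.mk_mk0 (K := K) I⟩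

lemma h93s_mk_u (v : HeightOneSpectrum R) :
    ClassGroup.mk K (h93s_u v : (FractionalIdeal R⁰ K)ˣ) =
      ClassGroup.mk0 ⟨v.asIdeal, mem_nonZeroDivisors_of_ne_zero v.ne_bot⟩ := by
  rw [← ClassGroup.mk_mk0 (K := K)]
  rfl

/-- the `S`-units are the elements whose principal ideal is supported on `S`. -/
lemma h93s_unit_eq (S : Set (HeightOneSpectrum R)) :
    S.unit K = (h93s_T K S).comap (toPrincipalIdeal R K) := by
  ext x
  rw [Subgroup.mem_comap, h93s_mem_T]
  constructor
  · intro hx v hv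
    have h1 : v.valuation K (x : K) = 1 := hx v hv
    rw [h93s_valuation_eq v (x : K) x.ne_zero, ← WithZero.exp_zero, WithZero.exp_inj,
      neg_eq_zero] at h1
    rw [coe_toPrincipalIdeal]
    exact h1
  · intro hx v hv
    have h1 := hx v hv
    rw [coe_toPrincipalIdeal] at h1
    show v.valuation K (x : K) = 1
    rw [h93s_valuation_eq v (x : K) x.ne_zero, h1, neg_zero, WithZero.exp_zero]

/-- the Selmer group is the image of `ι⁻¹(T · Iᵖ)`. -/
lemma h93s_selmer_eq (S : Set (HeightOneSpectrum R)) (p : ℕ) :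
    (selmerGroup (R := R) (K := K) (S := S) (n := p)) =
      ((h93s_T K S ⊔ (powMonoidHom p : (FractionalIdeal R⁰ K)ˣ →* _).range).comap
        (toPrincipalIdeal R K)).map (QuotientGroup.mk' (powMonoidHom p : Kˣ →* Kˣ).range) := by
  ext c
  obtain ⟨x, rfl⟩ := QuotientGroup.mk_surjective c
  have hmem : (QuotientGroup.mk x : Kˣ ⧸ (powMonoidHom p : Kˣ →* Kˣ).range) ∈
      selmerGroup (R := R) (K := K) (S := S) (n := p) ↔
      ∀ v, v ∉ S → (p : ℤ) ∣ count K v ((toPrincipalIdeal R K x : (FractionalIdeal R⁰ K)ˣ) :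
        FractionalIdeal R⁰ K) := by
    constructor
    · intro h v hv
      have := (h93s_valMod_eq_one_iff v p x).mp (h v hv)
      rw [h93s_toAdd_valuationOfNeZero, dvd_neg] at this
      exact this
    · intro h v hv
      rw [h93s_valMod_eq_one_iff, h93s_toAdd_valuationOfNeZero, dvd_neg]
      exact h v hv
  rw [hmem, ← h93s_mem_T_sup_pow_iff, Subgroup.mem_map]
  constructor
  · intro h
    exact ⟨x, Subgroup.mem_comap.mpr h, rfl⟩
  · rintro ⟨y, hy, hyx⟩
    rw [Subgroup.mem_comap] at hy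
    have h1 : y⁻¹ * x ∈ (powMonoidHom p : Kˣ →* Kˣ).range := by
      rw [QuotientGroup.mk'_apply] at hyx
      exact QuotientGroup.eq.mp hyx
    obtain ⟨z, hz⟩ := h1
    have h2 : x = y * z ^ p := by
      rw [powMonoidHom_apply] at hz
      rw [hz, mul_inv_cancel_left]
    rw [h2, map_mul, map_pow]
    refine Subgroup.mul_mem _ hy (Subgroup.mem_sup_right ⟨toPrincipalIdeal R K z, rfl⟩)

end Gen

section NF

variable (K : Type) [Field K] [NumberField K] (S : Set (HeightOneSpectrum (𝓞 K)))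

/-- the projection from invertible fractional ideals to the `S`-class group. -/
noncomputable def h93s_pi : (FractionalIdeal (𝓞 K)⁰ K)ˣ →* ClS K S :=
  (QuotientGroup.mk' (clSsub K S)).comp (ClassGroup.mk K)

lemma h93s_pi_surjective : Function.Surjective (h93s_pi K S) :=
  (QuotientGroup.mk'_surjective _).comp h93s_mk_surjective

lemma h93s_mk_mem_clSsub_of_mem_T {J : (FractionalIdeal (𝓞 K)⁰ K)ˣ} (hJ : J ∈ h93s_T K S) :
    ClassGroup.mk K J ∈ clSsub K S := by
  rw [h93s_eq_P J]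
  unfold h93s_P Finsupp.prod
  rw [map_prod]
  refine Subgroup.prod_mem _ (fun v hv => ?_)
  rw [map_zpow]
  refine Subgroup.zpow_mem _ ?_ _
  have hvS : v ∈ S := by
    by_contra hvS
    rw [Finsupp.mem_support_iff, h93s_cnt_apply] at hv
    exact hv (hJ v hvS)
  rw [h93s_mk_u]
  exact Subgroup.subset_closure ⟨v, hvS, rfl⟩

lemma h93s_exists_T_of_mem_clSsub {c : ClassGroup (𝓞 K)} (hc : c ∈ clSsub K S) :
    ∃ t ∈ h93s_T K S, ClassGroup.mk K t = c := by
  classical
  unfold clSsub at hc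
  induction hc using Subgroup.closure_induction with
  | mem c hc =>
    obtain ⟨v, hvS, rfl⟩ := hc
    refine ⟨h93s_u v, ?_, h93s_mk_u v⟩
    intro w hw
    rw [h93s_u_val]
    apply count_maximal_coprime
    rintro rfl
    exact hw hvS
  | one => exact ⟨1, Subgroup.one_mem _, map_one _⟩
  | mul a b _ _ ha hb =>
    obtain ⟨t, ht, rfl⟩ := ha
    obtain ⟨t', ht', rfl⟩ := hb
    exact ⟨t * t', Subgroup.mul_mem _ ht ht', map_mul _ _ _⟩
  | inv a _ ha =>
    obtain ⟨t, ht, rfl⟩ := ha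
    exact ⟨t⁻¹, Subgroup.inv_mem _ ht, map_inv _ _⟩

lemma h93s_ker_pi :
    (h93s_pi K S).ker = (toPrincipalIdeal (𝓞 K) K).range ⊔ h93s_T K S := by
  ext J
  rw [MonoidHom.mem_ker]
  unfold h93s_pi
  rw [MonoidHom.comp_apply, QuotientGroup.mk'_apply, QuotientGroup.eq_one_iff]
  constructor
  · intro h
    obtain ⟨t, ht, hJt⟩ := h93s_exists_T_of_mem_clSsub K S h
    have h1 : J * t⁻¹ ∈ (ClassGroup.mk K : (FractionalIdeal (𝓞 K)⁰ K)ˣ →* _).ker := by
      rw [MonoidHom.mem_ker, map_mul, map_inv, hJt, mul_inv_cancel]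
    rw [h93s_ker_mk] at h1
    refine Subgroup.mem_sup.mpr ⟨J * t⁻¹, h1, t, ht, ?_⟩
    rw [inv_mul_cancel_right]
  · intro h
    obtain ⟨a, ha, t, ht, rfl⟩ := Subgroup.mem_sup.mp h
    rw [← h93s_ker_mk, MonoidHom.mem_ker] at ha
    rw [map_mul, ha, one_mul]
    exact h93s_mk_mem_clSsub_of_mem_T K S ht

/-- the index of the `p`-th powers of the `S`-units, multiplicatively. -/
lemma h93s_index_unit_pow [Finite S] (p : ℕ) [hp : Fact p.Prime] (ζ : K)
    (hζ : IsPrimitiveRoot ζ p) :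
    (powMonoidHom p : (S.unit K) →* (S.unit K)).range.index =
      p ^ (Units.rank K + Nat.card S + 1) := by
  rw [← Fermat.Agent.PT.Units.SU_index_sunit_pow K S p ζ hζ, ← Subgroup.index_toAddSubgroup]
  congr 1
  ext x
  constructor
  · rintro ⟨y, hy⟩
    refine ⟨Additive.ofMul y, ?_⟩
    rw [Fermat.Agent.PT.Units.SU_nrm_one_eq]
    exact congrArg Additive.ofMul hy
  · rintro ⟨y, hy⟩
    rw [Fermat.Agent.PT.Units.SU_nrm_one_eq] at hy
    exact ⟨Additive.toMul y, congrArg Additive.toMul hy⟩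

end NF

/-- **K-SEL.** -/
theorem h93_kSel : KSel := by
  intro p hp K _ _ ζ hζ S hS
  haveI : Finite S := hS
  have hp0 : p ≠ 0 := hp.out.ne_zero
  haveI : Finite (ClS K S) := inferInstance
  have h := h93s_abs' p (toPrincipalIdeal (𝓞 K) K) (h93s_pi K S) (h93s_pi_surjective K S)
    (h93s_T K S) (h93s_ker_pi K S) (h93s_T_tf S p hp0) (S.unit K) (h93s_unit_eq S)
    (selmerGroup (R := 𝓞 K) (K := K) (S := S) (n := p)) (h93s_selmer_eq S p)
  rw [h, h93s_index_unit_pow K S p ζ hζ, h93s_card_ker_pow]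
  rfl

end Fermat.Agent.PT.Glob
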