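/-
W3-PT (S55), PT-GLOB-K (N1), leaf K-N1-Z1SEL (helper50): `Z¹(G_{L,S}, 𝔽_p)` is finite, of the
order of the Selmer group `L(S, p)`.

`h50k_kZ1Sel_of : KKumZ1 → KZ1Sel` (and `h50k_kZ1Sel : KKumZ1 → KKumBasic → KZ1Sel`).

Proof: the relation `χ = κ_B` on `U`, `s = [Bᵖ]` between `Z¹` and the Selmer group is the graph
of a bijection (Kummer parametrisation `KKumZ1`, dictionary `h23b_dvdValAt_iff_valuation`);
the Selmer group is finite by `h93_kSel`.
-/
import Mathlib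
import Fermat.Agent.PT.Glob.KIface4
import Fermat.Agent.PT.Glob.H96KKumBasic
import Fermat.Agent.PT.Bridge.NFDict
import Fermat.Agent.PT.Bridge.RelDictDU
import Fermat.Agent.PT.Glob.H93KSel

set_option autoImplicit false
set_option linter.style.haveILetI false
set_option linter.unusedSectionVars false

open ExtCitation NumberField IsDedekindDomain

namespace Fermat.Agent.PT.Glob

open Fermat.Agent.PT Fermat.Agent.PT.Shap Fermat.Agent.Bridge Fermat.Agent.PT.Bridge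
  Fermat.Agent.PT.Loc

noncomputable section

section Dict

variable (L : IntermediateField ℚ Qb) [NumberField L] (S : Finset Nat.Primes)

/-- The primes of `𝓞 L` above `S` are finite in number. -/
theorem h50k_primesAbove_finite : (primesAbove L S).Finite := by
  have h1 : primesAbove L S ⊆
      ⋃ q ∈ S, {v : HeightOneSpectrum (𝓞 L) | v.asIdeal ∣ Ideal.span {(((q : ℕ)) : 𝓞 L)}} := by
    rintro v ⟨q, hq, hv⟩
    simp only [Set.mem_iUnion, Set.mem_ofPred_eq]
    refine ⟨q, hq, ?_⟩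
    rw [Ideal.dvd_span_singleton]
    exact hv
  refine Set.Finite.subset ?_ h1
  refine Set.Finite.biUnion S.finite_toSet ?_
  intro q _
  apply Ideal.finite_factors
  intro h
  have h2 : (((q : ℕ)) : 𝓞 L) = 0 := Ideal.span_singleton_eq_bot.mp h
  have hq : (q : ℕ) ≠ 0 := q.2.ne_zero
  apply hq
  exact_mod_cast h2

variable {L S}

/-- A place under a valuation subring over `q ∉ S` is not above `S`. -/
theorem h50k_notMem_primesAbove {q : Nat.Primes} (hq : q ∉ S) {A : ValuationSubring Qb}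
    (hA : A.LiesOverPrime (q : ℕ)) (v : HeightOneSpectrum (𝓞 L))
    (hv : v.asIdeal = primeUnder A L) : v ∉ primesAbove L S := by
  rintro ⟨q', hq', hmem⟩
  have hne : (q : ℕ) ≠ (q' : ℕ) := by
    intro h
    apply hq
    have : q = q' := Subtype.ext h
    rw [this]
    exact hq'
  have hcop : Nat.Coprime (q : ℕ) (q' : ℕ) := (Nat.coprime_primes q.2 q'.2).mpr hne
  have h1 : (((q : ℕ)) : 𝓞 L) ∈ v.asIdeal := by
    rw [hv, mem_primeUnder]
    have h2 : ((((q : ℕ) : 𝓞 L) : L) : Qb) = ((q : ℕ) : Qb) := by simp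
    rw [h2]
    exact hA
  have h3 : (1 : 𝓞 L) ∈ v.asIdeal := by
    have h4 : ((Nat.gcd (q : ℕ) (q' : ℕ) : ℤ) : 𝓞 L) =
        (((q : ℕ) : 𝓞 L)) * ((Nat.gcdA (q : ℕ) (q' : ℕ) : ℤ) : 𝓞 L) +
          (((q' : ℕ) : 𝓞 L)) * ((Nat.gcdB (q : ℕ) (q' : ℕ) : ℤ) : 𝓞 L) := by
      rw [Nat.gcd_eq_gcd_ab]
      push_cast
      ring
    rw [hcop.gcd_eq_one] at h4
    have h5 : (1 : 𝓞 L) = (((q : ℕ) : 𝓞 L)) * ((Nat.gcdA (q : ℕ) (q' : ℕ) : ℤ) : 𝓞 L) +
          (((q' : ℕ) : 𝓞 L)) * ((Nat.gcdB (q : ℕ) (q' : ℕ) : ℤ) : 𝓞 L) := by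
      rw [← h4]
      simp
    rw [h5]
    exact v.asIdeal.add_mem (v.asIdeal.mul_mem_right _ h1) (v.asIdeal.mul_mem_right _ hmem)
  exact v.isPrime.ne_top ((Ideal.eq_top_iff_one _).mpr h3)

/-- `p ∣ ord_v a` in the two languages. -/
theorem h50k_valMod_iff (p : ℕ) (v : HeightOneSpectrum (𝓞 L)) (a : Lˣ) :
    v.valuationOfNeZeroMod p (QuotientGroup.mk a : Lˣ ⧸ (powMonoidHom p : Lˣ →* Lˣ).range) = 1 ↔
      ∃ k : ℤ, v.valuation L (a : L) = WithZero.exp ((p : ℤ) * k) := by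
  rw [h93s_valMod_eq_one_iff]
  have h1 : ((v.valuationOfNeZero a : Multiplicative ℤ) : WithZero (Multiplicative ℤ)) =
      v.valuation L (a : L) := HeightOneSpectrum.valuationOfNeZero_eq v a
  constructor
  · rintro ⟨k, hk⟩
    refine ⟨k, ?_⟩
    rw [← h1, ← hk]
    rfl
  · rintro ⟨k, hk⟩
    refine ⟨k, ?_⟩
    rw [hk] at h1
    have h2 : v.valuationOfNeZero a = Multiplicative.ofAdd ((p : ℤ) * k) :=
      WithZero.coe_injective h1
    rw [h2]
    rfl

/-- **Dictionary.** The class of `a ∈ Lˣ` lies in the Selmer group `L(S, p)` iff `p` divides the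
valuation of `a` at every place of `L` outside `S`, in the sense of `DvdValOut`. -/
theorem h50k_mem_selmer_iff (p : ℕ) (a : Lˣ) :
    (QuotientGroup.mk a : Lˣ ⧸ (powMonoidHom p : Lˣ →* Lˣ).range) ∈
        selmerGroup (R := 𝓞 L) (K := L) (S := primesAbove L S) (n := p) ↔
      DvdValOut p S L (((a : L)) : Qb) := by
  constructor
  · intro h q hq A hA
    have hv := h50k_notMem_primesAbove (L := L) hq hA (h23b_placeUnder L A q.2 hA) rfl
    have h1 := h _ hv
    rw [h50k_valMod_iff] at h1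
    exact (h23b_dvdValAt_iff_valuation (h23b_placeUnder L A q.2 hA) rfl p (a : L)
      a.ne_zero).mpr h1
  · intro h v hv
    obtain ⟨q, A, hq, hA, hvA⟩ := h23b_exists_valuationSubring_of_place L v
    have hqS : (⟨q, hq⟩ : Nat.Primes) ∉ S := by
      intro hqS
      apply hv
      refine ⟨⟨q, hq⟩, hqS, ?_⟩
      rw [hvA, mem_primeUnder]
      have h2 : ((((q : ℕ) : 𝓞 L) : L) : Qb) = ((q : ℕ) : Qb) := by simp
      show (((((⟨q, hq⟩ : Nat.Primes) : ℕ) : 𝓞 L) : L) : Qb) ∈ A.nonunits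
      rw [h2]
      exact hA
    have h1 := h ⟨q, hq⟩ hqS A hA
    rw [h50k_valMod_iff]
    exact (h23b_dvdValAt_iff_valuation v hvA p (a : L) a.ne_zero).mp h1

end Dict

section Main

variable {p : ℕ} [Fact p.Prime] {U : Subgroup GQ}

/-- The elements of `U` fix `L = fieldOf U`. -/
theorem h50k_fix (g : ↥U) {x : Qb} (hx : x ∈ fieldOf U) : (g : GQ) x = x :=
  (IntermediateField.mem_fixedField_iff U x).mp hx g.1 g.2

/-- The Kummer exponent exists on `U` for a `p`-th root of an element of `L`. -/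
theorem h50k_kum_spec {ζ B : Qb} (hζ : IsPrimitiveRoot ζ p) (hB : B ≠ 0)
    (hBL : B ^ p ∈ fieldOf U) (g : ↥U) :
    (g : GQ) B = ζ ^ (kumQ p ζ B g).val * B := by
  have hp : p.Prime := Fact.out
  haveI : NeZero p := ⟨hp.ne_zero⟩
  exact h96k_kumQ_spec (h96k_exists_exp hζ hB (h50k_fix g hBL))

/-- The Kummer relation between `Z¹` and `Lˣ / Lˣᵖ`: `χ = κ_B` on `U` and `s = [Bᵖ]`. -/
def h50k_Rel (p : ℕ) (U : Subgroup GQ) (ζ : Qb) (χ : ↥U → ZMod p)
    (s : (fieldOf U)ˣ ⧸ (powMonoidHom p : (fieldOf U)ˣ →* (fieldOf U)ˣ).range) : Prop :=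
  ∃ (B : Qb) (a : (fieldOf U)ˣ), B ^ p = (((a : fieldOf U)) : Qb) ∧
    (∀ g : ↥U, χ g = kumQ p ζ B g) ∧ s = QuotientGroup.mk a

theorem h50k_root_ne_zero {B : Qb} {a : (fieldOf U)ˣ} (h : B ^ p = (((a : fieldOf U)) : Qb)) :
    B ≠ 0 := by
  have hp : p.Prime := Fact.out
  rintro rfl
  rw [zero_pow hp.ne_zero] at h
  have h1 : ((a : fieldOf U)) = 0 := by exact_mod_cast h.symm
  exact a.ne_zero h1

theorem h50k_root_pow_mem {B : Qb} {a : (fieldOf U)ˣ} (h : B ^ p = (((a : fieldOf U)) : Qb)) :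
    B ^ p ∈ fieldOf U := by
  rw [h]
  exact (a : fieldOf U).2

/-- The relation is injective: the class `[Bᵖ]` determines the character. -/
theorem h50k_Rel_inj {ζ : Qb} (hζ : IsPrimitiveRoot ζ p) (hζL : ζ ∈ fieldOf U)
    {χ χ' : ↥U → ZMod p}
    {s : (fieldOf U)ˣ ⧸ (powMonoidHom p : (fieldOf U)ˣ →* (fieldOf U)ˣ).range}
    (h : h50k_Rel p U ζ χ s) (h' : h50k_Rel p U ζ χ' s) : χ = χ' := by
  have hp : p.Prime := Fact.out
  haveI : NeZero p := ⟨hp.ne_zero⟩
  obtain ⟨B, a, hBa, hχ, hs⟩ := h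
  obtain ⟨B', a', hBa', hχ', hs'⟩ := h'
  have hB := h50k_root_ne_zero hBa
  have hB' := h50k_root_ne_zero hBa'
  have hBL := h50k_root_pow_mem hBa
  -- `a' = a cᵖ`
  have h1 : (QuotientGroup.mk a :
      (fieldOf U)ˣ ⧸ (powMonoidHom p : (fieldOf U)ˣ →* (fieldOf U)ˣ).range) =
      QuotientGroup.mk a' := by rw [← hs, ← hs']
  rw [QuotientGroup.eq] at h1
  obtain ⟨c, hc⟩ := h1
  have hc' : (((c : fieldOf U)) : Qb) ^ p * (((a : fieldOf U)) : Qb) =
      (((a' : fieldOf U)) : Qb) := by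
    have h2 : c ^ p * a = a' := by
      have : c ^ p = a⁻¹ * a' := hc
      rw [this, mul_comm, mul_inv_cancel_left]
    have h3 := congrArg (fun x : (fieldOf U)ˣ => (((x : fieldOf U)) : Qb)) h2
    simpa using h3
  have hc0 : (((c : fieldOf U)) : Qb) ≠ 0 := by
    intro h
    have h1 : ((c : fieldOf U)) = 0 := by exact_mod_cast h
    exact c.ne_zero h1
  -- `d = B'/B ∈ L`
  have hd : (B' / (B * (((c : fieldOf U)) : Qb))) ^ p = 1 := by
    rw [div_pow, mul_pow, hBa, hBa', ← hc']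
    have ha0 : (((a : fieldOf U)) : Qb) ≠ 0 := by
      rw [← hBa]
      exact pow_ne_zero _ hB
    field_simp
  obtain ⟨j, -, hj⟩ := hζ.eq_pow_of_pow_eq_one hd
  have hdL : B' / B ∈ fieldOf U := by
    have h4 : B' / B = ζ ^ j * (((c : fieldOf U)) : Qb) := by
      rw [hj]
      field_simp
    rw [h4]
    exact mul_mem (pow_mem hζL _) (c : fieldOf U).2
  funext g
  rw [hχ g, hχ' g]
  symm
  apply h96k_kumQ_eq hζ hB'
  have h5 : B' = (B' / B) * B := by field_simp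
  have h6 : (g : GQ) B' = (g : GQ) (B' / B) * (g : GQ) B := by
    rw [← map_mul, ← h5]
  rw [h6, h50k_fix g hdL, h50k_kum_spec hζ hB hBL g]
  field_simp

/-- The relation is functional: the character determines the class `[Bᵖ]`. -/
theorem h50k_Rel_fun {ζ : Qb} (hζ : IsPrimitiveRoot ζ p)
    {χ : ↥U → ZMod p}
    {s s' : (fieldOf U)ˣ ⧸ (powMonoidHom p : (fieldOf U)ˣ →* (fieldOf U)ˣ).range}
    (h : h50k_Rel p U ζ χ s) (h' : h50k_Rel p U ζ χ s') : s = s' := by
  have hp : p.Prime := Fact.out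
  haveI : NeZero p := ⟨hp.ne_zero⟩
  obtain ⟨B, a, hBa, hχ, hs⟩ := h
  obtain ⟨B', a', hBa', hχ', hs'⟩ := h'
  have hB := h50k_root_ne_zero hBa
  have hB' := h50k_root_ne_zero hBa'
  have hBL := h50k_root_pow_mem hBa
  have hBL' := h50k_root_pow_mem hBa'
  have hζ0 : ζ ≠ 0 := hζ.ne_zero hp.ne_zero
  have hdL : B' / B ∈ fieldOf U := by
    rw [IntermediateField.mem_fixedField_iff]
    intro g hg
    have e1 := h50k_kum_spec hζ hB hBL ⟨g, hg⟩
    have e2 := h50k_kum_spec hζ hB' hBL' ⟨g, hg⟩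
    have e3 : kumQ p ζ B g = kumQ p ζ B' g := by rw [← hχ ⟨g, hg⟩, ← hχ' ⟨g, hg⟩]
    simp only at e1 e2
    rw [map_div₀, e1, e2, e3]
    have : ζ ^ (kumQ p ζ B' g).val ≠ 0 := pow_ne_zero _ hζ0
    field_simp
  have hd0 : (⟨B' / B, hdL⟩ : fieldOf U) ≠ 0 := by
    intro h
    have h1 : B' / B = 0 := congrArg (fun x : fieldOf U => (x : Qb)) h
    exact div_ne_zero hB' hB h1
  rw [hs, hs', QuotientGroup.eq]
  refine ⟨Units.mk0 _ hd0, ?_⟩
  apply Units.ext
  apply Subtype.ext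
  have ha0 : (((a : fieldOf U)) : Qb) ≠ 0 := by
    rw [← hBa]
    exact pow_ne_zero _ hB
  simp only [powMonoidHom_apply, Units.val_pow_eq_pow_val, Units.val_mk0, Units.val_mul,
    SubmonoidClass.coe_pow, MulMemClass.coe_mul, Units.val_inv_eq_inv_val]
  push_cast
  rw [div_pow, hBa, hBa']
  field_simp

/-- The Selmer group of a number field containing `ζ_p` with respect to the primes above `S`
is finite. -/
theorem h50k_selmer_finite (S : Finset Nat.Primes) [NumberField (fieldOf U)] {ζ : Qb}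
    (hζ : IsPrimitiveRoot ζ p) (hζL : ζ ∈ fieldOf U) :
    Finite ↥(selmerGroup (R := 𝓞 (fieldOf U)) (K := fieldOf U)
      (S := primesAbove (fieldOf U) S) (n := p)) := by
  have hp : p.Prime := Fact.out
  have hζ' : IsPrimitiveRoot (⟨ζ, hζL⟩ : fieldOf U) p := by
    have hinj : Function.Injective (algebraMap (fieldOf U) Qb) :=
      (algebraMap (fieldOf U) Qb).injective
    exact IsPrimitiveRoot.of_map_of_injective (f := algebraMap (fieldOf U) Qb)
      (by simpa using hζ) hinj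
  have h1 := h93_kSel p (fieldOf U) ⟨ζ, hζL⟩ hζ' (primesAbove (fieldOf U) S)
    (h50k_primesAbove_finite (fieldOf U) S)
  apply Nat.finite_of_card_ne_zero
  rw [h1]
  apply mul_ne_zero (pow_ne_zero _ hp.ne_zero)
  unfold clSmodP
  exact Subgroup.index_ne_zero_of_finite

/-- **K-N1-Z1SEL.** `Z¹(G_{L,S}, 𝔽_p)` is finite, of the order of the Selmer group `L(S, p)`. -/
theorem h50k_kZ1Sel_of (hK : KKumZ1) : KZ1Sel := by
  intro p _ S U _ _ hAdm
  have hp : p.Prime := Fact.out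
  haveI : NeZero p := ⟨hp.ne_zero⟩
  have hζ : IsPrimitiveRoot (zetaG p) p := h23r_zetaG_primitive p
  have hζL : zetaG p ∈ fieldOf U := h23r_zetaG_mem_fieldOf hAdm
  obtain ⟨hK1, hK2⟩ := hK p S U (zetaG p) hAdm hζL hζ
  -- totality
  have htot : ∀ χ : ↥(Z1 (levU S U) (trivF p U)),
      ∃ s : ↥(selmerGroup (R := 𝓞 (fieldOf U)) (K := fieldOf U)
        (S := primesAbove (fieldOf U) S) (n := p)), h50k_Rel p U (zetaG p) χ.1 s.1 := by
    rintro ⟨χ, hχ⟩
    obtain ⟨B, hB0, hBL, hDvd, hχB⟩ := hK2 χ hχ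
    have ha0 : (⟨B ^ p, hBL⟩ : fieldOf U) ≠ 0 := by
      intro h
      have h1 : B ^ p = 0 := congrArg (fun x : fieldOf U => (x : Qb)) h
      exact pow_ne_zero _ hB0 h1
    refine ⟨⟨QuotientGroup.mk (Units.mk0 _ ha0), ?_⟩, B, Units.mk0 _ ha0, rfl, hχB, rfl⟩
    rw [h50k_mem_selmer_iff]
    exact hDvd
  -- surjectivity
  have hsurj : ∀ s : ↥(selmerGroup (R := 𝓞 (fieldOf U)) (K := fieldOf U)
        (S := primesAbove (fieldOf U) S) (n := p)),
      ∃ χ : ↥(Z1 (levU S U) (trivF p U)), h50k_Rel p U (zetaG p) χ.1 s.1 := by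
    rintro ⟨s, hs⟩
    obtain ⟨a, rfl⟩ := QuotientGroup.mk_surjective s
    obtain ⟨B, hB⟩ := IsAlgClosed.exists_pow_nat_eq ((((a : fieldOf U)) : Qb)) hp.pos
    have hB0 : B ≠ 0 := h50k_root_ne_zero hB
    have hBL : B ^ p ∈ fieldOf U := h50k_root_pow_mem hB
    have hDvd : DvdValOut p S (fieldOf U) (B ^ p) := by
      rw [hB]
      exact (h50k_mem_selmer_iff p a).mp hs
    exact ⟨⟨_, hK1 B hB0 hBL hDvd⟩, B, a, hB, fun _ => rfl, rfl⟩
  -- the bijection
  let f : ↥(Z1 (levU S U) (trivF p U)) →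
      ↥(selmerGroup (R := 𝓞 (fieldOf U)) (K := fieldOf U)
        (S := primesAbove (fieldOf U) S) (n := p)) := fun χ => (htot χ).choose
  have hf : ∀ χ, h50k_Rel p U (zetaG p) χ.1 (f χ).1 := fun χ => (htot χ).choose_spec
  have hbij : Function.Bijective f := by
    constructor
    · intro χ χ' h
      apply Subtype.ext
      have h1 := hf χ
      have h2 := hf χ'
      rw [← h] at h2
      exact h50k_Rel_inj hζ hζL h1 h2
    · intro s
      obtain ⟨χ, hχ⟩ := hsurj s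
      exact ⟨χ, Subtype.ext (h50k_Rel_fun hζ (hf χ) hχ)⟩
  haveI := h50k_selmer_finite (U := U) S hζ hζL
  exact ⟨Finite.of_injective f hbij.1, Nat.card_congr (Equiv.ofBijective f hbij)⟩

/-- The leaf in the form of the task row. -/
theorem h50k_kZ1Sel : KKumZ1 → KKumBasic → KZ1Sel := fun hK _ => h50k_kZ1Sel_of hK

end Main

end

end Fermat.Agent.PT.Glob
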