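import Mathlib
import Fermat.Agent.PT.Glob.KIface4

/-!
# W3-PT / PT-GLOB-K, leaf K-N1-RANK (helper83)

`h83r_kRankCM : KRankCM` — a number field containing a primitive `p`-th root of unity, `p` odd,
is totally complex, hence `2 (rank 𝓞ˣ + 1) = [K : ℚ]`.

* `h83r_not_isReal`   : no infinite place of such a field is real;
* `h83r_nrRealPlaces` : `nrRealPlaces K = 0`;
* `h83r_two_mul_card` : `2 * #(infinite places) = [K : ℚ]`.
-/

set_option autoImplicit false

open NumberField

namespace Fermat.Agent.PT.Glob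

/-- A real number with `x ^ p = 1`, `p` odd, is `1`. -/
theorem h83r_real_pow_eq_one {p : ℕ} (hodd : Odd p) {x : ℝ} (hx : x ^ p = 1) : x = 1 :=
  hodd.strictMono_pow.injective (by simpa using hx)

/-- A number field containing a primitive `p`-th root of unity, `p` an odd prime, has no real
place. -/
theorem h83r_not_isReal (p : ℕ) [Fact p.Prime] (hp2 : p ≠ 2) (K : Type) [Field K]
    [NumberField K] (ζ : K) (hζ : IsPrimitiveRoot ζ p) (w : InfinitePlace K) : ¬ w.IsReal := by
  intro hw
  have hodd : Odd p := (Fact.out : p.Prime).odd_of_ne_two hp2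
  have h1 : ComplexEmbedding.IsReal w.embedding := InfinitePlace.isReal_iff.1 hw
  obtain ⟨x, hx⟩ : ∃ x : ℝ, w.embedding ζ = (x : ℂ) :=
    ⟨h1.embedding ζ, (h1.coe_embedding_apply ζ).symm⟩
  have hxp : x ^ p = 1 := by
    have h2 : ((x ^ p : ℝ) : ℂ) = 1 := by
      push_cast
      rw [← hx, ← map_pow, hζ.pow_eq_one, map_one]
    exact_mod_cast h2
  have hx1 : x = 1 := h83r_real_pow_eq_one hodd hxp
  have h3 : w.embedding ζ = w.embedding 1 := by
    rw [hx, hx1, map_one, Complex.ofReal_one]
  exact hζ.ne_one (Fact.out : p.Prime).one_lt (w.embedding.injective h3)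

/-- Such a field has no real places. -/
theorem h83r_nrRealPlaces (p : ℕ) [Fact p.Prime] (hp2 : p ≠ 2) (K : Type) [Field K]
    [NumberField K] (ζ : K) (hζ : IsPrimitiveRoot ζ p) : InfinitePlace.nrRealPlaces K = 0 := by
  classical
  exact Fintype.card_eq_zero_iff.2 ⟨fun w => h83r_not_isReal p hp2 K ζ hζ w.1 w.2⟩

/-- `2 · #(infinite places) = [K : ℚ]` for such a field. -/
theorem h83r_two_mul_card (p : ℕ) [Fact p.Prime] (hp2 : p ≠ 2) (K : Type) [Field K]
    [NumberField K] (ζ : K) (hζ : IsPrimitiveRoot ζ p) :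
    2 * Fintype.card (InfinitePlace K) = Module.finrank ℚ K := by
  have h0 := h83r_nrRealPlaces p hp2 K ζ hζ
  have h1 := InfinitePlace.card_eq_nrRealPlaces_add_nrComplexPlaces K
  have h2 := InfinitePlace.card_add_two_mul_card_eq_rank K
  rw [h0, zero_add] at h1 h2
  rw [h1, h2]

/-- **K-N1-RANK.** -/
theorem h83r_kRankCM : KRankCM := by
  intro p _ hp2 K _ _ ζ hζ
  have h := h83r_two_mul_card p hp2 K ζ hζ
  have hpos : 0 < Fintype.card (InfinitePlace K) := Fintype.card_pos
  unfold Units.rank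
  rw [Nat.sub_add_cancel hpos]
  exact h

end Fermat.Agent.PT.Glob
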