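import Mathlib
import Fermat.Agent.PT.Glob.KIface4
import Fermat.Agent.PT.Bridge.Open

/-!
# W3-PT / PT-GLOB-K leaf K-N1-ASM (helper8)

`h8n1_kN1Asm : KN1Asm`, i.e. `KZ1Sel → KRankCM → KPrimesFin → KSel → KN1`:
`h¹(G_{L,S}, 𝔽_p) = r₂ + #S_L + dim Cl_S/p` in the form
`p^(2 h¹) = p^([L:ℚ] + 2 #S_L) · #(Cl_S/p)²`.

* `B¹ = 0` for the trivial module, so `HH¹ ≃ Z¹` (`h8n1_hh1Equiv`);
* `#Z¹ = #` Selmer group (`KZ1Sel`) `= p^(rank + #S_L + 1) · #(Cl_S/p)` (`KSel`, `ζ_p ∈ L` from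
  `Adm.chi`);
* `2 (rank + 1) = [L : ℚ]` (`KRankCM`).
-/

set_option autoImplicit false

open ExtCitation NumberField IsDedekindDomain

namespace Fermat.Agent.PT.Glob

open Fermat.Agent.PT Fermat.Agent.PT.Shap Fermat.Agent.Bridge

noncomputable section

/-- The coboundaries of the trivial module vanish. -/
theorem h8n1_B1_trivial (k : Type) [Field k] (G : Type) [Group G] :
    B1 (Representation.trivial k G k) = ⊥ := by
  rw [eq_bot_iff]
  rintro f ⟨v, rfl⟩
  rw [Submodule.mem_bot]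
  funext g
  simp [d0]

/-- `HH¹ ≃ Z¹` for the trivial module. -/
def h8n1_hh1Equiv (k : Type) [Field k] (G : Type) [Group G] (L : Lev G) :
    HH1 L (Representation.trivial k G k) ≃ₗ[k] ↥(Z1 L (Representation.trivial k G k)) :=
  Submodule.quotEquivOfEqBot _ (by
    rw [h8n1_B1_trivial, Submodule.comap_bot]
    exact LinearMap.ker_eq_bot.2 (Submodule.injective_subtype _))

/-- **K-N1-ASM.** -/
theorem h8n1_kN1Asm : KN1Asm := by
  intro hZ1Sel hRank hPrimes hSel p _ S U _ _ hAdm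
  classical
  have hp : p.Prime := Fact.out
  -- a primitive `p`-th root of unity in `L`
  obtain ⟨ζ, hζ⟩ : ∃ ζ : Qb, IsPrimitiveRoot ζ p := by
    have : NeZero ((p : ℕ) : Qb) := ⟨by exact_mod_cast hp.ne_zero⟩
    exact HasEnoughRootsOfUnity.exists_primitiveRoot Qb p
  have hζL : ζ ∈ fieldOf U := by
    show ζ ∈ IntermediateField.fixedField U
    rw [IntermediateField.mem_fixedField_iff]
    intro u hu
    exact (Fermat.Agent.PT.Bridge.h23b_cycloChar_eq_one_iff p hζ u).1 (hAdm.chi u hu)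
  have hζ' : IsPrimitiveRoot (⟨ζ, hζL⟩ : fieldOf U) p := by
    have hinj : Function.Injective (algebraMap (fieldOf U) Qb) := (algebraMap (fieldOf U) Qb).injective
    refine IsPrimitiveRoot.of_map_of_injective (f := algebraMap (fieldOf U) Qb) ?_ hinj
    exact hζ
  -- the counts
  obtain ⟨hfin, hcard⟩ := hZ1Sel p S U hAdm
  have hsel := hSel p (fieldOf U) ⟨ζ, hζL⟩ hζ' (primesAbove (fieldOf U) S) (hPrimes (fieldOf U) S)
  have hrk := hRank p hAdm.odd (fieldOf U) ⟨ζ, hζL⟩ hζ'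
  -- `HH¹ ≃ Z¹`
  let e := h8n1_hh1Equiv (ZMod p) ↥U (levU S U)
  have hfinZ : Module.Finite (ZMod p) ↥(Z1 (levU S U) (trivF p U)) := Module.Finite.of_finite
  have hfinH : Module.Finite (ZMod p) (HH1 (levU S U) (trivF p U)) :=
    Module.Finite.equiv e.symm
  refine ⟨hfinH, ?_⟩
  have hrank : Module.finrank (ZMod p) (HH1 (levU S U) (trivF p U))
      = Module.finrank (ZMod p) ↥(Z1 (levU S U) (trivF p U)) := e.finrank_eq
  have hcardZ : Nat.card ↥(Z1 (levU S U) (trivF p U))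
      = p ^ Module.finrank (ZMod p) ↥(Z1 (levU S U) (trivF p U)) := by
    have h := Module.natCard_eq_pow_finrank (K := ZMod p) (V := ↥(Z1 (levU S U) (trivF p U)))
    rw [Nat.card_zmod] at h
    exact h
  rw [hrank]
  have key : p ^ Module.finrank (ZMod p) ↥(Z1 (levU S U) (trivF p U))
      = p ^ (Units.rank (fieldOf U) + Nat.card (primesAbove (fieldOf U) S) + 1) *
        clSmodP (fieldOf U) (primesAbove (fieldOf U) S) p := by
    rw [← hcardZ, hcard, hsel]
  have h2 : p ^ (2 * Module.finrank (ZMod p) ↥(Z1 (levU S U) (trivF p U)))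
      = (p ^ Module.finrank (ZMod p) ↥(Z1 (levU S U) (trivF p U))) ^ 2 := by
    rw [← pow_mul, mul_comm]
  rw [h2, key, mul_pow, ← pow_mul]
  congr 2
  omega

end

end Fermat.Agent.PT.Glob
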