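import Mathlib
import Fermat.Agent.PT.Glob.KIface4
import Fermat.Agent.PT.Glob.H93KSel

/-!
# W3-PT / PT-GLOB-K, leaf K-N2-CLASSABS (helper90)

`h90k_kClassIndepAbs : KClassIndepAbs` : for a number field `K`, a set `S` of primes and a prime
`p` there are `n = dim Cl_S / p` elements `α i` of `Kˣ` with `p ^ k ∣ v (α i)` outside `S`
which are independent: `p ^ (k + 1) ∣ v (∏ α_i ^ a_i / b ^ (p ^ k))` outside `S` forces `a = 0`.

Proof: `c_i` of `p`-power order in `Cl_S` lifting a basis of `Cl_S / p` (`h90k_group`),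
ideals `I_i` of class `c_i`, `I_i ^ (p ^ k) = (α_i) t_i` with `t_i` supported on `S`
(helper93's `h93s_ker_pi`); independence from `h93s_mem_T_sup_pow_iff`.
-/

set_option autoImplicit false
set_option linter.style.haveILetI false

open NumberField IsDedekindDomain FractionalIdeal
open scoped nonZeroDivisors

namespace Fermat.Agent.PT.Glob

/-- a finite `𝔽_p`-vector space has a basis. -/
theorem h90k_group_aux0 (p : ℕ) [hp : Fact p.Prime] (V : Type*) [AddCommGroup V]
    [Module (ZMod p) V] [Finite V] :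
    ∃ (n : ℕ) (b : Fin n → V), p ^ n = Nat.card V ∧
      ∀ g : Fin n → ZMod p, (∑ i, g i • b i) = 0 → g = 0 := by
  haveI : Module.Finite (ZMod p) V := Module.Finite.of_finite
  refine ⟨Module.finrank (ZMod p) V, fun i => Module.finBasis (ZMod p) V i, ?_, ?_⟩
  · have h := Module.natCard_eq_pow_finrank (K := ZMod p) (V := V)
    rw [Nat.card_zmod] at h
    rw [← h]
  · intro g hg
    have h4 := Fintype.linearIndependent_iff.1
      (Module.finBasis (ZMod p) V).linearIndependent _ hg
    funext i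
    exact h4 i

/-- a finite commutative group of exponent `p` has a basis. -/
theorem h90k_group_aux (Q : Type*) [CommGroup Q] [Finite Q] (p : ℕ) [hp : Fact p.Prime]
    (hQ : ∀ x : Q, x ^ p = 1) :
    ∃ (n : ℕ) (b : Fin n → Q), p ^ n = Nat.card Q ∧
      ∀ g : Fin n → ZMod p, (∏ i, b i ^ (g i).val) = 1 → g = 0 := by
  classical
  have hV : ∀ x : Additive Q, p • x = 0 := fun x => by
    have h2 := congrArg Additive.ofMul (hQ (Additive.toMul x))
    rw [ofMul_pow] at h2
    exact h2
  letI : Module (ZMod p) (Additive Q) := AddCommGroup.zmodModule hV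
  haveI : Finite (Additive Q) := inferInstanceAs (Finite Q)
  obtain ⟨n, b, hn, hb⟩ := h90k_group_aux0 p (Additive Q)
  refine ⟨n, fun i => Additive.toMul (b i), ?_, ?_⟩
  · rw [hn]
    rfl
  · intro g hg
    apply hb
    have h2 := congrArg Additive.ofMul hg
    rw [ofMul_prod, ofMul_one] at h2
    rw [← h2]
    refine Finset.sum_congr rfl (fun i _ => ?_)
    rw [ofMul_pow, ← Nat.cast_smul_eq_nsmul (ZMod p) (g i).val, ZMod.natCast_zmod_val]
    rfl

/-- a finite commutative group `A` has `n` elements of `p`-power order, `p ^ n = [A : A ^ p]`,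
which are independent modulo `p`-th powers. -/
theorem h90k_group (A : Type*) [CommGroup A] [Finite A] (p : ℕ) [hp : Fact p.Prime] :
    ∃ (n k : ℕ) (c : Fin n → A), p ^ n = (powMonoidHom p : A →* A).range.index ∧
      (∀ i, c i ^ (p ^ k) = 1) ∧
      ∀ a : Fin n → ZMod p, (∏ i, c i ^ (a i).val) ∈ (powMonoidHom p : A →* A).range →
        a = 0 := by
  classical
  have hQ : ∀ x : A ⧸ (powMonoidHom p : A →* A).range, x ^ p = 1 := by
    intro x
    obtain ⟨a, rfl⟩ := QuotientGroup.mk_surjective x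
    rw [← QuotientGroup.mk_pow, QuotientGroup.eq_one_iff]
    exact ⟨a, rfl⟩
  obtain ⟨n, b, hn, hb⟩ := h90k_group_aux (A ⧸ (powMonoidHom p : A →* A).range) p hQ
  -- lifts
  choose c' hc' using fun i => QuotientGroup.mk_surjective (b i)
  have hN0 : Nat.card A ≠ 0 := Nat.card_pos.ne'
  have hcop : p.Coprime (Nat.card A / p ^ (Nat.card A).factorization p) :=
    Nat.coprime_ordCompl hp.out hN0
  refine ⟨n, (Nat.card A).factorization p,
    fun i => c' i ^ (Nat.card A / p ^ (Nat.card A).factorization p), ?_, ?_, ?_⟩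
  · rw [Subgroup.index_eq_card, hn]
  · intro i
    rw [← pow_mul, mul_comm, Nat.ordProj_mul_ordCompl_eq_self, pow_card_eq_one']
  · intro a ha
    have h1 : (QuotientGroup.mk (∏ i, (c' i ^ (Nat.card A / p ^ (Nat.card A).factorization p))
        ^ (a i).val) : A ⧸ (powMonoidHom p : A →* A).range) = 1 :=
      (QuotientGroup.eq_one_iff _).2 ha
    rw [← QuotientGroup.mk'_apply, map_prod] at h1
    have h3 : ∀ i, (QuotientGroup.mk' (powMonoidHom p : A →* A).range)
        ((c' i ^ (Nat.card A / p ^ (Nat.card A).factorization p)) ^ (a i).val) =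
        b i ^ (a i * ((Nat.card A / p ^ (Nat.card A).factorization p : ℕ) : ZMod p)).val := by
      intro i
      rw [map_pow, map_pow, QuotientGroup.mk'_apply, hc', ← pow_mul]
      have hord : ∀ m m' : ℕ, (m : ZMod p) = (m' : ZMod p) → b i ^ m = b i ^ m' := by
        intro m m' hmm
        rw [ZMod.natCast_eq_natCast_iff] at hmm
        exact pow_eq_pow_of_modEq hmm (hQ (b i))
      apply hord
      rw [ZMod.natCast_zmod_val, Nat.cast_mul, ZMod.natCast_zmod_val, mul_comm]
    simp only [h3] at h1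
    have h4 := hb _ h1
    funext i
    have h5 := congrFun h4 i
    rcases mul_eq_zero.1 h5 with h6 | h6
    · exact h6
    · exfalso
      rw [ZMod.natCast_eq_zero_iff] at h6
      have h7 : p ∣ Nat.gcd p (Nat.card A / p ^ (Nat.card A).factorization p) :=
        Nat.dvd_gcd dvd_rfl h6
      rw [Nat.Coprime.gcd_eq_one hcop] at h7
      exact hp.out.one_lt.ne' (Nat.dvd_one.1 h7)

/-- **K-N2-CLASSABS.** -/
theorem h90k_kClassIndepAbs : KClassIndepAbs := by
  intro p hp K _ _ S
  classical
  haveI : Finite (ClS K S) := inferInstance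
  obtain ⟨n, k, c, hn, hck, hind⟩ := h90k_group (ClS K S) p
  have hp0 : p ≠ 0 := hp.out.ne_zero
  -- lifts to ideals
  choose I hI using fun i => h93s_pi_surjective K S (c i)
  have hdec : ∀ i, ∃ x : Kˣ, ∃ t ∈ h93s_T K S,
      toPrincipalIdeal (𝓞 K) K x * t = I i ^ (p ^ k) := fun i => by
    have hker : I i ^ (p ^ k) ∈ (h93s_pi K S).ker := by
      rw [MonoidHom.mem_ker, map_pow, hI, hck]
    rw [h93s_ker_pi] at hker
    obtain ⟨a, ⟨x, rfl⟩, t, ht, h⟩ := Subgroup.mem_sup.mp hker
    exact ⟨x, t, ht, h⟩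
  choose x t ht hxt using hdec
  -- the counts of `x i`
  have hcnt : ∀ i, ∀ v : HeightOneSpectrum (𝓞 K), v ∉ S →
      count K v (spanSingleton (𝓞 K)⁰ (x i : K)) =
        ((p ^ k : ℕ) : ℤ) * count K v (I i : FractionalIdeal (𝓞 K)⁰ K) := by
    intro i v hv
    have h := congrArg (fun J : (FractionalIdeal (𝓞 K)⁰ K)ˣ =>
      count K v (J : FractionalIdeal (𝓞 K)⁰ K)) (hxt i)
    simp only [Units.val_mul, Units.val_pow_eq_pow_val] at h
    rw [count_mul K v (Units.ne_zero _) (Units.ne_zero _), count_pow, coe_toPrincipalIdeal,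
      ht i v hv, add_zero] at h
    exact h
  refine ⟨n, k, fun i => (x i : K), hn, ?_, ?_⟩
  · intro i
    refine ⟨(x i).ne_zero, fun v hv => ⟨-(count K v (I i : FractionalIdeal (𝓞 K)⁰ K)), ?_⟩⟩
    rw [h93s_valuation_eq v _ (x i).ne_zero, hcnt i v hv]
    congr 1
    ring
  · intro a b hb hval
    apply hind
    -- the ideal `J = ∏ I_i ^ a_i / (b)`
    have hJ : (∏ i, I i ^ (a i).val) / toPrincipalIdeal (𝓞 K) K (Units.mk0 b hb) ∈
        h93s_T K S ⊔ (powMonoidHom p :
          (FractionalIdeal (𝓞 K)⁰ K)ˣ →* (FractionalIdeal (𝓞 K)⁰ K)ˣ).range := by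
      rw [h93s_mem_T_sup_pow_iff]
      intro v hv
      obtain ⟨j, hj⟩ := hval v hv
      -- the principal ideal of the element
      have hX : toPrincipalIdeal (𝓞 K) K
          ((∏ i, x i ^ (a i).val) / (Units.mk0 b hb) ^ (p ^ k)) *
            (∏ i, t i ^ (a i).val) =
          ((∏ i, I i ^ (a i).val) / toPrincipalIdeal (𝓞 K) K (Units.mk0 b hb)) ^ (p ^ k) := by
        rw [map_div, map_prod, map_pow, div_pow, div_mul_eq_mul_div, ← Finset.prod_mul_distrib,
          ← Finset.prod_pow]
        congr 1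
        refine Finset.prod_congr rfl (fun i _ => ?_)
        rw [map_pow, ← mul_pow, hxt i, ← pow_mul, ← pow_mul, mul_comm]
      have hT : (∏ i, t i ^ (a i).val) ∈ h93s_T K S :=
        Subgroup.prod_mem _ (fun i _ => Subgroup.pow_mem _ (ht i) _)
      have h := congrArg (fun J : (FractionalIdeal (𝓞 K)⁰ K)ˣ =>
        count K v (J : FractionalIdeal (𝓞 K)⁰ K)) hX
      simp only [Units.val_mul, Units.val_pow_eq_pow_val] at h
      rw [count_mul K v (Units.ne_zero _) (Units.ne_zero _), count_pow, coe_toPrincipalIdeal,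
        hT v hv, add_zero] at h
      have hne : ((((∏ i, x i ^ (a i).val) / (Units.mk0 b hb) ^ (p ^ k) : Kˣ)) : K) ≠ 0 :=
        Units.ne_zero _
      have hval' : v.valuation K ((((∏ i, x i ^ (a i).val) / (Units.mk0 b hb) ^ (p ^ k) : Kˣ)) : K)
          = WithZero.exp (((p ^ (k + 1) : ℕ) : ℤ) * j) := by
        rw [← hj]
        congr 1
        simp [Units.val_div_eq_div_val, Units.coe_prod]
      rw [h93s_valuation_eq v _ hne, WithZero.exp_inj, h] at hval'
      -- cancel `p ^ k`
      have hpk : ((p ^ k : ℕ) : ℤ) ≠ 0 := by exact_mod_cast pow_ne_zero k hp0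
      refine ⟨-j, ?_⟩
      apply mul_left_cancel₀ hpk
      have : -(((p ^ k : ℕ) : ℤ) * count K v
          (((∏ i, I i ^ (a i).val) / toPrincipalIdeal (𝓞 K) K (Units.mk0 b hb) :
            (FractionalIdeal (𝓞 K)⁰ K)ˣ) : FractionalIdeal (𝓞 K)⁰ K)) =
          ((p ^ (k + 1) : ℕ) : ℤ) * j := hval'
      push_cast at this ⊢
      rw [pow_succ] at this
      linear_combination (-1 : ℤ) * this
    -- apply `π`
    obtain ⟨tt, htt, y, ⟨z, rfl⟩, hty⟩ := Subgroup.mem_sup.mp hJ
    have hTker : ∀ s ∈ h93s_T K S, h93s_pi K S s = 1 := fun s hs => by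
      rw [← MonoidHom.mem_ker, h93s_ker_pi]
      exact Subgroup.mem_sup_right hs
    have hPker : ∀ u : Kˣ, h93s_pi K S (toPrincipalIdeal (𝓞 K) K u) = 1 := fun u => by
      rw [← MonoidHom.mem_ker, h93s_ker_pi]
      exact Subgroup.mem_sup_left ⟨u, rfl⟩
    have h1 := congrArg (h93s_pi K S) hty
    rw [map_mul, hTker tt htt, one_mul, powMonoidHom_apply, map_pow, map_div, hPker, _root_.div_one,
      map_prod] at h1
    refine ⟨h93s_pi K S z, ?_⟩
    rw [powMonoidHom_apply, h1]
    refine Finset.prod_congr rfl (fun i _ => ?_)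
    rw [map_pow, hI]

end Fermat.Agent.PT.Glob
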