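/-
W3-PT (S55), PT-GLOB-K, leaf K-N1-PRIMESFIN (helper93): `h93k4_kPrimesFin : KPrimesFin`.

The set of primes of `𝓞 L` above a finite set `S` of rational primes is finite.
-/
import Mathlib
import Fermat.Agent.PT.Glob.KIface4

set_option autoImplicit false
set_option linter.style.haveILetI false

open NumberField IsDedekindDomain

namespace Fermat.Agent.PT.Glob

open Fermat.Agent.Bridge

/-- finitely many primes of `𝓞 L` contain a given nonzero natural number. -/
theorem h93k4_finite_primes_natCast (L : IntermediateField ℚ Qb) [NumberField L] (q : ℕ)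
    (hq : q ≠ 0) : {v : HeightOneSpectrum (𝓞 L) | (q : 𝓞 L) ∈ v.asIdeal}.Finite := by
  have hne : Ideal.span {(q : 𝓞 L)} ≠ 0 := by
    rw [Ne, Ideal.zero_eq_bot, Ideal.span_singleton_eq_bot]
    exact_mod_cast hq
  refine (Ideal.finite_factors hne).subset ?_
  intro v hv
  rw [Set.mem_ofPred_eq, Ideal.dvd_iff_le, Ideal.span_singleton_le_iff_mem]
  exact hv

/-- **K-N1-PRIMESFIN.** -/
theorem h93k4_kPrimesFin : KPrimesFin := by
  intro L _ S
  have hsub : primesAbove L S ⊆
      ⋃ q ∈ S, {v : HeightOneSpectrum (𝓞 L) | ((q : ℕ) : 𝓞 L) ∈ v.asIdeal} := by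
    intro v hv
    obtain ⟨q, hq, hqv⟩ := hv
    exact Set.mem_biUnion hq hqv
  refine Set.Finite.subset ?_ hsub
  exact Set.Finite.biUnion S.finite_toSet
    (fun q _ => h93k4_finite_primes_natCast L (q : ℕ) q.2.ne_zero)

end Fermat.Agent.PT.Glob
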