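/-
W3-PT (S55), PT-GLOB-K (N2), leaf K-N2-BOCKLEV (helper96).

`h96v_kBockLev : KBockLev` : the coboundary of the Bockstein–Kummer cochain
`ζ'(σ) = top digit of m(σ)`, `σ γ = ξ^{m(σ)} γ`, is a `2`-cocycle of level `S` on `U = G_L`.

Proof.  `β = γ^p` and `ξ` lie in a normal field `F` unramified outside `S` (`KKumRam`, twice).
For `s ∈ N = G_F ∩ U` one has `p^k ∣ m(s)`, `m(g s) = m(g) + m(s) = m(s g)` (`g ∈ U`), hence
`ζ'(g s) = ζ'(g) + ζ'(s)`, `ζ'(g⁻¹ s g) = ζ'(s)`, and `d¹ζ'` is constant on the cosets of `N` in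
both variables.
-/
import Mathlib
import Fermat.Agent.PT.Glob.KIface4
import Fermat.Agent.PT.Glob.H96KKumBasic
import Fermat.Agent.PT.Glob.H96KKumRam
import Fermat.Agent.PT.Bridge.Open
import Fermat.Agent.PT.Bridge.DQGood
import Fermat.Agent.PT.Alg.Tools

set_option autoImplicit false

namespace Fermat.Agent.PT.Glob

open Fermat.Agent.PT Fermat.Agent.Bridge Fermat.Agent.PT.Bridge Fermat.Agent.PT.Tools ExtCitation

/-- Additivity of the top digit when one summand has no low part. -/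
theorem h96v_topDig_add (p k : ℕ) [NeZero p] (x y : ZMod (p ^ (k + 1)))
    (hy : p ^ k ∣ y.val) : topDig p k (x + y) = topDig p k x + topDig p k y := by
  have hp0 : 0 < p := Nat.pos_of_ne_zero (NeZero.ne p)
  have hpk : 0 < p ^ k := pow_pos hp0 k
  have : NeZero (p ^ (k + 1)) := ⟨(pow_pos hp0 _).ne'⟩
  have key : ∀ X t : ℕ, (X + p ^ k * t) % p ^ (k + 1) / p ^ k = (X / p ^ k + t) % p := by
    intro X t
    rw [pow_succ, Nat.mod_mul_right_div_self, Nat.add_mul_div_left _ _ hpk]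
  unfold topDig
  obtain ⟨t, ht⟩ := hy
  rw [ZMod.val_add, ht, key, Nat.mul_div_cancel_left _ hpk, ZMod.natCast_mod, Nat.cast_add]

/-- **K-N2-BOCKLEV.** -/
theorem h96v_kBockLev : KBockLev := by
  intro p _ S U k ξ γ hAdm hξ hγ hα hdvd
  have hp : p.Prime := Fact.out
  have hNZp : NeZero p := ⟨hp.ne_zero⟩
  have hNZ : NeZero (p ^ (k + 1)) := ⟨(pow_pos hp.pos _).ne'⟩
  have hIsGal : IsGalois ℚ Qb := h23b_isGalois_Qb
  obtain ⟨L, hL, rfl⟩ := (h23b_isOpen_levQ_iff S U).mp hAdm.isOpen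
  have hfield : fieldOf L.fixingSubgroup = L := InfiniteGalois.fixedField_fixingSubgroup L
  rw [hfield] at hα hdvd
  have hfixL : ∀ g ∈ L.fixingSubgroup, ∀ x ∈ L, g x = x := fun g hg x hx =>
    (IntermediateField.mem_fixingSubgroup_iff L g).mp hg x hx
  have hξ0 : ξ ≠ 0 := hξ.ne_zero (NeZero.ne _)
  -- the primitive `p`-th root of unity `ξ ^ p ^ k` is fixed by `U`
  have hζ : IsPrimitiveRoot (ξ ^ p ^ k) p :=
    hξ.pow (pow_pos hp.pos _) (pow_succ p k)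
  have hfixζ : ∀ g ∈ L.fixingSubgroup, g (ξ ^ p ^ k) = ξ ^ p ^ k := fun g hg =>
    (h23b_cycloChar_eq_one_iff p hζ g).mp (hAdm.chi g hg)
  -- the level
  have hpS : ∀ j : ℕ, ∀ q : Nat.Primes, (q : ℕ) ∣ p ^ j → q ∈ S := by
    intro j q hq
    have h1 : (q : ℕ) = p := (Nat.prime_dvd_prime_iff_eq q.2 hp).mp (q.2.dvd_of_dvd_pow hq)
    have h2 : q = pPrime p := Subtype.ext h1
    rw [h2]
    exact hAdm.mem
  have hβpow : (γ ^ p) ^ p ^ k = γ ^ p ^ (k + 1) := by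
    rw [← pow_mul, pow_succ, mul_comm]
  obtain ⟨F₁, hF₁, hF₁n, -, hβF₁⟩ := h96k_kKumRam (p ^ k) S L (γ ^ p) (pow_pos hp.pos _)
    (hpS k) hL (pow_ne_zero _ hγ) (by rw [hβpow]; exact hα)
    (fun q hq A hA => by rw [hβpow]; exact hdvd q hq A hA)
  obtain ⟨F₂, hF₂, hF₂n, -, hξF₂⟩ := h96k_kKumRam (p ^ (k + 1)) S ⊥ ξ (pow_pos hp.pos _)
    (hpS (k + 1)) (IntermediateField.isUnramifiedOutside_bot S) hξ0
    (by rw [hξ.pow_eq_one]; exact one_mem _)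
    (fun q _ A _ => ⟨1, one_mem _, one_ne_zero, 1, one_mem _, by rw [inv_one]; exact one_mem _,
      by rw [hξ.pow_eq_one, one_pow, one_mul]⟩)
  have hF : (F₁ ⊔ F₂).IsUnramifiedOutside S := hF₁.sup hF₂
  have hFn : Normal ℚ ↥(F₁ ⊔ F₂) := @IntermediateField.normal_sup ℚ _ _ _ _ F₁ F₂ hF₁n hF₂n
  have hFfin : FiniteDimensional ℚ ↥(F₁ ⊔ F₂) := hF.1
  have hNnormal : (F₁ ⊔ F₂).fixingSubgroup.Normal := (h23b_fixingSubgroup_good _ hFn).1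
  have hNξ : ∀ s ∈ (F₁ ⊔ F₂).fixingSubgroup, s ξ = ξ := fun s hs =>
    (IntermediateField.mem_fixingSubgroup_iff _ s).mp hs ξ
      ((le_sup_right : F₂ ≤ F₁ ⊔ F₂) hξF₂)
  have hNβ : ∀ s ∈ (F₁ ⊔ F₂).fixingSubgroup, s (γ ^ p) = γ ^ p := fun s hs =>
    (IntermediateField.mem_fixingSubgroup_iff _ s).mp hs (γ ^ p)
      ((le_sup_left : F₁ ≤ F₁ ⊔ F₂) hβF₁)
  -- the Kummer exponent
  have hspec : ∀ g ∈ L.fixingSubgroup,
      g γ = ξ ^ (kumQ (p ^ (k + 1)) ξ γ g).val * γ := fun g hg =>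
    h96k_kumQ_spec (h96k_exists_exp hξ hγ (hfixL g hg _ hα))
  -- `p ^ k ∣ m(s)` for `s ∈ N ∩ U`
  have hlow : ∀ s ∈ L.fixingSubgroup, s ∈ (F₁ ⊔ F₂).fixingSubgroup →
      p ^ k ∣ (kumQ (p ^ (k + 1)) ξ γ s).val := by
    intro s hsU hsN
    have h1 := hNβ s hsN
    rw [map_pow, hspec s hsU, mul_pow] at h1
    have h2 : (ξ ^ (kumQ (p ^ (k + 1)) ξ γ s).val) ^ p = 1 :=
      mul_right_cancel₀ (pow_ne_zero p hγ) (h1.trans (one_mul _).symm)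
    rw [← pow_mul] at h2
    have h3 := (hξ.pow_eq_one_iff_dvd _).mp h2
    rw [pow_succ] at h3
    exact Nat.dvd_of_mul_dvd_mul_right hp.pos h3
  -- additivity of `m`
  have hadd1 : ∀ g ∈ L.fixingSubgroup, ∀ s ∈ L.fixingSubgroup,
      s ∈ (F₁ ⊔ F₂).fixingSubgroup →
      kumQ (p ^ (k + 1)) ξ γ (g * s) =
        kumQ (p ^ (k + 1)) ξ γ g + kumQ (p ^ (k + 1)) ξ γ s := by
    intro g hg s hsU hsN
    obtain ⟨t, ht⟩ := hlow s hsU hsN
    have h1 : (g * s) γ = ξ ^ ((kumQ (p ^ (k + 1)) ξ γ g).val +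
        (kumQ (p ^ (k + 1)) ξ γ s).val) * γ := by
      rw [AlgEquiv.mul_apply, hspec s hsU, map_mul, map_pow, hspec g hg]
      have h2 : g ξ ^ (kumQ (p ^ (k + 1)) ξ γ s).val = ξ ^ (kumQ (p ^ (k + 1)) ξ γ s).val := by
        rw [ht, pow_mul, pow_mul, ← map_pow, hfixζ g hg]
      rw [h2, pow_add]
      ring
    rw [h96k_kumQ_eq_natCast hξ hγ h1, Nat.cast_add, ZMod.natCast_val, ZMod.natCast_val,
      ZMod.cast_id, ZMod.cast_id]
  have hadd2 : ∀ g ∈ L.fixingSubgroup, ∀ s ∈ L.fixingSubgroup,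
      s ∈ (F₁ ⊔ F₂).fixingSubgroup →
      kumQ (p ^ (k + 1)) ξ γ (s * g) =
        kumQ (p ^ (k + 1)) ξ γ g + kumQ (p ^ (k + 1)) ξ γ s := by
    intro g hg s hsU hsN
    have h1 : (s * g) γ = ξ ^ ((kumQ (p ^ (k + 1)) ξ γ g).val +
        (kumQ (p ^ (k + 1)) ξ γ s).val) * γ := by
      rw [AlgEquiv.mul_apply, hspec g hg, map_mul, map_pow, hspec s hsU, hNξ s hsN, pow_add]
      ring
    rw [h96k_kumQ_eq_natCast hξ hγ h1, Nat.cast_add, ZMod.natCast_val, ZMod.natCast_val,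
      ZMod.cast_id, ZMod.cast_id]
  -- additivity of `ζ'`
  have hz1 : ∀ g ∈ L.fixingSubgroup, ∀ s ∈ L.fixingSubgroup,
      s ∈ (F₁ ⊔ F₂).fixingSubgroup →
      zetaP p k ξ γ (g * s) = zetaP p k ξ γ g + zetaP p k ξ γ s := by
    intro g hg s hsU hsN
    unfold zetaP
    rw [hadd1 g hg s hsU hsN]
    exact h96v_topDig_add p k _ _ (hlow s hsU hsN)
  have hconj : ∀ g ∈ L.fixingSubgroup, ∀ s ∈ L.fixingSubgroup,
      s ∈ (F₁ ⊔ F₂).fixingSubgroup →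
      zetaP p k ξ γ (g⁻¹ * s * g) = zetaP p k ξ γ s := by
    intro g hg s hsU hsN
    have hcU : g⁻¹ * s * g ∈ L.fixingSubgroup := mul_mem (mul_mem (inv_mem hg) hsU) hg
    have hcN : g⁻¹ * s * g ∈ (F₁ ⊔ F₂).fixingSubgroup := by
      have := hNnormal.conj_mem s hsN g⁻¹
      rwa [inv_inv] at this
    have h1 := hadd1 g hg _ hcU hcN
    have h2 := hadd2 g hg s hsU hsN
    have e : g * (g⁻¹ * s * g) = s * g := by group
    rw [e, h2] at h1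
    unfold zetaP
    rw [add_left_cancel h1]
  -- assembly
  refine (mem_Z2 _ _ _).2 ⟨d2_d1 _ _, ?_⟩
  refine ⟨(F₁ ⊔ F₂).fixingSubgroup.comap L.fixingSubgroup.subtype,
    ⟨_, ⟨F₁ ⊔ F₂, hF, hFn, rfl⟩, rfl⟩, fun g g' s s' hs hs' => ?_⟩
  have hsN : (s : GQ) ∈ (F₁ ⊔ F₂).fixingSubgroup := hs
  have hs'N : (s' : GQ) ∈ (F₁ ⊔ F₂).fixingSubgroup := hs'
  have e1 : zetaP p k ξ γ ((g' : GQ) * (s' : GQ)) =
      zetaP p k ξ γ g' + zetaP p k ξ γ s' := hz1 _ g'.2 _ s'.2 hs'N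
  have e2 : zetaP p k ξ γ ((g : GQ) * (s : GQ)) =
      zetaP p k ξ γ g + zetaP p k ξ γ s := hz1 _ g.2 _ s.2 hsN
  have e3 : zetaP p k ξ γ ((g : GQ) * (s : GQ) * ((g' : GQ) * (s' : GQ))) =
      zetaP p k ξ γ ((g : GQ) * (g' : GQ)) + zetaP p k ξ γ s + zetaP p k ξ γ s' := by
    have e : (g : GQ) * (s : GQ) * ((g' : GQ) * (s' : GQ)) =
        ((g : GQ) * (g' : GQ)) * (((g' : GQ)⁻¹ * (s : GQ) * (g' : GQ)) * (s' : GQ)) := by group
    have hcU : (g' : GQ)⁻¹ * (s : GQ) * (g' : GQ) ∈ L.fixingSubgroup :=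
      mul_mem (mul_mem (inv_mem g'.2) s.2) g'.2
    have hcN : (g' : GQ)⁻¹ * (s : GQ) * (g' : GQ) ∈ (F₁ ⊔ F₂).fixingSubgroup := by
      have := hNnormal.conj_mem (s : GQ) hsN (g' : GQ)⁻¹
      rwa [inv_inv] at this
    rw [e, hz1 _ (mul_mem g.2 g'.2) _ (mul_mem hcU s'.2) (mul_mem hcN hs'N),
      hz1 _ hcU _ s'.2 hs'N, hconj _ g'.2 _ s.2 hsN, add_assoc]
  simp only [d1_apply, Subgroup.coe_mul, Representation.trivial_apply]
  rw [e1, e2, e3]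
  ring

end Fermat.Agent.PT.Glob
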