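import Mathlib
import Fermat.Agent.PT.Glob.H32KKumZ1
import Fermat.Agent.PT.Glob.H50KZ1Sel
import Fermat.Agent.PT.Glob.H83KRank
import Fermat.Agent.PT.Glob.H93K4PrimesFin
import Fermat.Agent.PT.Glob.H8KN1Asm
import Fermat.Agent.PT.Glob.H90KClassAbs
import Fermat.Agent.PT.Glob.H49KClassIndep
import Fermat.Agent.PT.Glob.H96KBockLev
import Fermat.Agent.PT.Glob.K.H29BockLoc
import Fermat.Agent.PT.Glob.K.H29N2Lin
import Fermat.Agent.PT.Glob.H55InertVal
import Fermat.Agent.PT.Glob.H89KN2Asm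
import Fermat.Agent.PT.Glob.H96KKumBasic
import Fermat.Agent.PT.Glob.H96KKumClass
import Fermat.Agent.PT.Glob.H96KKumRam
import Fermat.Agent.PT.Glob.H93KSel

/-!
# W3-PT / PT-GLOB-K (helper47): integration of (N1) and (N2)

`h47_kN1 : KN1`, `h47_kN2Core : KN2Core`, `h47_kN2 : KN2`, `h47_kN2Sha : KN2Sha`, unconditional,
from the landed leaves (helper32, helper50, helper83, helper93, helper8, helper90, helper49,
helper96, helper29, helper55, helper89).
-/

set_option autoImplicit false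

namespace Fermat.Agent.PT.Glob

/-- **(N1)** `h¹(G_{L,S}, 𝔽_p) = r₂ + #S_L + dim Cl_S/p`. -/
theorem h47_kN1 : KN1 :=
  h8n1_kN1Asm (h50k_kZ1Sel h32k_kKumZ1 h96k_kKumBasic) h83r_kRankCM h93k4_kPrimesFin h93_kSel

/-- The explicit independent classes of `Ш²`. -/
theorem h47_kN2Core : KN2Core :=
  h89k_kN2Asm (h49k_kClassIndep h90k_kClassIndepAbs) (h29k_kBockLoc h96v_kBockLev)
    h96k_kKumClass h96k_kKumBasic h96k_kKumRam h55v_kInertVal

/-- **(N2)** `#(Cl_S/p) ≤ p^{h²}`. -/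
theorem h47_kN2 : KN2 := h29k_kN2Lin h47_kN2Core

/-- (N2) for `Ш²`. -/
theorem h47_kN2Sha : KN2Sha := h29k_kN2ShaLin h47_kN2Core

end Fermat.Agent.PT.Glob
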