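import Fermat.Agent.PT.Glob.KIface3
import Fermat.Agent.PT.Bridge.Open

/-!
# PT-GLOB-K, the two assemblies of `KIface3.lean` (helper56)

* `h56k_kGlobShap : KGlobShap` : the global base case over the fields `L` (restricted datum,
  trivial module) gives the global base case for the permutation modules over `ℚ`, by Shapiro.
* `h56k_kGlobAsm : KGlobAsm`   : the global base case over `L` from the pure algebra `KPerfAsm`,
  the finiteness / vanishing `BrVV`, the two counts `BrCountH`, `KCountD`, the hyperplane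
  property, the local injectivity and the left nondegeneracy.
* `h56k_numberField`, `h56k_isOpen_levFin` : the fixed field of an open subgroup of `levQ S`
  is a number field; open for `levQ S` implies open for `levFin`.
-/

set_option autoImplicit false
set_option linter.style.haveILetI false

open ExtCitation NumberField IsDedekindDomain MulAction

namespace Fermat.Agent.PT.Glob

open Fermat.Agent.PT Fermat.Agent.PT.Shap

local notation "GQ₀" => (AlgebraicClosure ℚ ≃ₐ[ℚ] AlgebraicClosure ℚ)

attribute [local instance] locActQ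

/-- **GLOB-ASM (a)**: Shapiro. -/
theorem h56k_kGlobShap : KGlobShap := by
  intro p _ inv hp2 hSh hDQ hL S hpS tr htr hinv U hU hχ
  have hgood := hDQ p S hpS
  have hfi : Subgroup.FiniteIndex (G := GQ₀) U := h56s_finiteIndex_of_isOpen hgood.1 hU
  obtain ⟨u⟩ := USD.nonempty (U := U)
  have hAdm : Adm p S U := ⟨hp2, hpS, hU, hχ⟩
  obtain ⟨h1, h2⟩ := @hL S U hfi u tr hAdm ⟨htr, hinv⟩
  exact @hSh (ZMod p) _ (DQ p S) tr hgood htr U hfi hU hχ (u.sd p S) h1 h2

/-- an open subgroup for the levels unramified outside `S` is open for the finite levels. -/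
lemma h56k_isOpen_levFin {S : Finset Nat.Primes} {U : Subgroup GQ₀}
    (hU : (levQ S).IsOpen U) : levFin.IsOpen U := by
  obtain ⟨L, hL, rfl⟩ := (Bridge.h23b_isOpen_levQ_iff S U).1 hU
  exact (Bridge.h23b_isOpen_levFin_iff _).2 ⟨L, hL.1, rfl⟩

/-- the fixed field of an open subgroup is a number field. -/
lemma h56k_numberField {S : Finset Nat.Primes} {U : Subgroup GQ₀}
    (hU : (levQ S).IsOpen U) : NumberField (fieldOf U) := by
  haveI := Bridge.h23b_isGalois_Qb
  obtain ⟨L, hL, rfl⟩ := (Bridge.h23b_isOpen_levQ_iff S U).1 hU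
  have h : fieldOf L.fixingSubgroup = L := InfiniteGalois.fixedField_fixingSubgroup L
  rw [h]
  haveI := hL.1
  exact ⟨⟩

/-- `Adm` implies `AdmU`. -/
lemma h56k_admU {p : ℕ} [Fact p.Prime] {S : Finset Nat.Primes} {U : Subgroup GQ₀}
    (h : Adm p S U) : AdmU p U :=
  ⟨h56k_isOpen_levFin h.isOpen, h.chi⟩

/-- **GLOB-ASM (b)**: the assembly of the global base case over `L`. -/
theorem h56k_kGlobAsm : KGlobAsm := by
  intro p _ inv hAsm hTrOK hDQ hInvW hVV hCH hCD hHyp hInj hLeft S U hfi u tr hAdm hTr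
  have hgood := hDQ p S hAdm.mem
  have hU := hAdm.isOpen
  refine ⟨hVV p S U u hAdm, ?_⟩
  haveI hNF : NumberField (fieldOf U) := h56k_numberField hU
  obtain ⟨hf2, hle2⟩ := hCH p S U u hAdm
  obtain ⟨hf1, hle1⟩ := hCD p S U u hAdm
  have hAU : AdmU p U := h56k_admU hAdm
  refine hAsm (ZMod p) (DU p S U u) (trUt S U u tr)
    (@h56s_restr_good (ZMod p) _ (DQ p S) U hgood hfi (u.sd p S))
    (@hTrOK (ZMod p) _ (DQ p S) tr hgood hTr.ok U hfi hU (u.sd p S)) (fun g => hAdm.chi g.1 g.2)
    (hLeft S U u tr hAdm hTr) (hHyp S U u tr hAdm hTr) ?_ hf1 hf2 ?_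
  · rintro ⟨⟨q, hq⟩, w⟩ c hc h0
    have h1 := hInvW p inv U u S tr hTr.inv_eq q hq w c
    have h2 := hInj U u hAU q w c
    have hrep : (DU p S U u).repAt (Representation.trivial (ZMod p) (DU p S U u).G (ZMod p))
        ⟨⟨q, hq⟩, w⟩ = trivW p u q w := rfl
    rw [hrep] at hc ⊢
    exact h2 hc (h1.symm.trans h0)
  · exact (Nat.pow_le_pow_iff_right (Fact.out : p.Prime).one_lt).1 (hle2.trans hle1)

end Fermat.Agent.PT.Glob
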