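import Mathlib
import Fermat.Agent.PT.Glob.BrIface2

/-!
# W3-PT / PT-GLOB-BR, leaf BR2-N3: assembly of (N3) (helper64)

`h64n_brN3_of : BrAlgA → BrDUGood → h56s_ShapTrOK → DQGood → BrCountH → PlacesCard →
  (∀ p, p ≠ 2 → ∃ inv, TrEx inv ∧ LocInjFor inv) → BrN3`.
-/

set_option autoImplicit false

open ExtCitation NumberField IsDedekindDomain

namespace Fermat.Agent.PT.Glob

open Fermat.Agent.PT Fermat.Agent.PT.Shap

local notation "GQ₀" => (AlgebraicClosure ℚ ≃ₐ[ℚ] AlgebraicClosure ℚ)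

/-- **(N3)**: `H²(G_{L,S}, 𝔽_p)` is finite and `p · #H² ≤ #(Cl_S/p) · p ^ nS`. -/
theorem h64n_brN3_of (hA : BrAlgA) (hG : BrDUGood) (hT : h56s_ShapTrOK) (hD : DQGood)
    (hH : BrCountH) (hP : PlacesCard)
    (hI : ∀ (p : ℕ) [Fact p.Prime], p ≠ 2 → ∃ inv : InvFam p, TrEx inv ∧ LocInjFor inv) :
    BrN3 := by
  intro p _ S U hUfi _ hadm
  obtain ⟨inv, hTrEx, hLI⟩ := hI p hadm.odd
  obtain ⟨tr, htr⟩ := hTrEx S hadm.mem
  obtain ⟨u⟩ := USD.nonempty U
  obtain ⟨hgood, hchi⟩ := hG p S U u hadm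
  have hT' := hT (ZMod p) (DQ p S) tr (hD p S hadm.mem) htr.ok
  have hTrOK : (DU p S U u).TrOK (trUt S U u tr) :=
    @hT' U hUfi hadm.isOpen (u.sd p S)
  obtain ⟨hfin, hle⟩ := hH p S U u hadm
  obtain ⟨hfin2, -, hcount⟩ := hA (ZMod p) (DU p S U u) (trUt S U u tr) hgood hTrOK hchi
    (hLI S U u tr hadm htr) hfin
  have hcard := hP p S U u hadm
  refine ⟨hfin2, ?_⟩
  have h1 : Module.finrank (ZMod p) (HH2 (levU S U) (trivF p U)) + 1 ≤
      Module.finrank (ZMod p) ((DU p S U u).Sha2 (trivU p S U u)) +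
        Nat.card (primesAbove (fieldOf U) S) := by
    rw [← hcard]
    exact hcount
  calc p ^ (Module.finrank (ZMod p) (HH2 (levU S U) (trivF p U)) + 1)
      ≤ p ^ (Module.finrank (ZMod p) ((DU p S U u).Sha2 (trivU p S U u)) +
        Nat.card (primesAbove (fieldOf U) S)) :=
        Nat.pow_le_pow_right (Fact.out : p.Prime).pos h1
    _ = p ^ Module.finrank (ZMod p) ((DU p S U u).Sha2 (trivU p S U u)) *
        p ^ Nat.card (primesAbove (fieldOf U) S) := pow_add _ _ _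
    _ ≤ clSmodP (fieldOf U) (primesAbove (fieldOf U) S) p *
        p ^ Nat.card (primesAbove (fieldOf U) S) := Nat.mul_le_mul_right _ hle

end Fermat.Agent.PT.Glob
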