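import Mathlib
import Fermat.Agent.PT.Glob.KIface3
import Fermat.Agent.PT.Glob.BrIface2

/-!
# W3-PT / PT-GLOB-BR, row BR2-HYPER (helper68): the hyperplane property (c2) from the count

`h68b_brHyperFor_of : BrAlgC → BrDUGood → h56s_ShapTrOK → DQGood → BrNF → BrCountH →
  PlacesCard → BrEq → ∀ inv, LocInjFor inv → BrHyperFor inv`.

`BrAlgC` is applied to the restricted datum `D = DU p S U u` with the restricted trace
`trUt S U u tr`; the numerical hypothesis `dim Ш² + #P ≤ h² + 1` comes from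
`p ^ (h² + 1) = #(Cl_S/p) · p ^ nS` (`BrEq`), `p ^ dim Ш² ≤ #(Cl_S/p)` (`BrCountH`) and
`#P = nS` (`PlacesCard`).
-/

set_option autoImplicit false

open ExtCitation NumberField IsDedekindDomain

namespace Fermat.Agent.PT.Glob

open Fermat.Agent.PT Fermat.Agent.PT.Shap

local notation "GQ₀" => (AlgebraicClosure ℚ ≃ₐ[ℚ] AlgebraicClosure ℚ)

theorem h68b_brHyperFor_of (hC : BrAlgC) (hG : BrDUGood) (hT : h56s_ShapTrOK) (hD : DQGood)
    (hN : BrNF) (hH : BrCountH) (hP : PlacesCard) (hE : BrEq) {p : ℕ} [Fact p.Prime]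
    (inv : InvFam p) (hI : LocInjFor inv) : BrHyperFor inv := by
  intro S U hU u tr hA hTr b hb
  have hp : p.Prime := Fact.out
  have hNF : NumberField (fieldOf U) := hN p S U hA
  obtain ⟨hgood, hchi⟩ := hG p S U u hA
  have hTrOK : (DU p S U u).TrOK (trUt S U u tr) :=
    @hT (ZMod p) _ (DQ p S) tr (hD p S hA.mem) hTr.ok U hU hA.isOpen (u.sd p S)
  obtain ⟨hfinSha, hSha⟩ := hH p S U u hA
  obtain ⟨hfinH2, hEq⟩ := hE p S U hA
  have hcard := hP p S U u hA
  have hnum : Module.finrank (ZMod p) ((DU p S U u).Sha2 (trivU p S U u)) +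
      Fintype.card (DU p S U u).P ≤
      Module.finrank (ZMod p) (HH2 (DU p S U u).lev (trivU p S U u)) + 1 := by
    have h1 : p ^ (Module.finrank (ZMod p) ((DU p S U u).Sha2 (trivU p S U u)) +
        Fintype.card (DU p S U u).P) ≤
        p ^ (Module.finrank (ZMod p) (HH2 (levU S U) (trivF p U)) + 1) := by
      rw [hEq, pow_add, hcard]
      exact Nat.mul_le_mul_right _ hSha
    exact (Nat.pow_le_pow_iff_right hp.one_lt).1 h1
  exact hC (ZMod p) (DU p S U u) (trUt S U u tr) hgood hTrOK hchi (hI S U u tr hA hTr)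
    hfinSha hfinH2 hnum b hb

end Fermat.Agent.PT.Glob
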