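import Fermat.Agent.PT.Glob.BrIface2
import Fermat.Agent.PT.Bridge.RelDictDU

/-!
# W3-PT / PT-GLOB-BR, row K-N1-BR (helper78): the field theoretic leaves of the count

* `h78k_brNF  : BrNF`  -- the fixed field of an admissible `U` is a number field;
* `h78k_brDeg : BrDeg` -- the degree is multiplied by `p` in a step of index `p`.

(`BrIface2.lean` v2 consumes `KN1` directly, so the former adapters `BrN1`, `BrRank` are gone.)
-/

set_option autoImplicit false

open ExtCitation NumberField IsDedekindDomain

namespace Fermat.Agent.PT.Glob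

open Fermat.Agent.PT Fermat.Agent.PT.Shap Fermat.Agent.PT.Bridge Fermat.Agent.Bridge

local notation "GQ₀" => (AlgebraicClosure ℚ ≃ₐ[ℚ] AlgebraicClosure ℚ)

/-- (NF) the fixed field of an admissible `U` is a number field. -/
theorem h78k_brNF : BrNF := by
  intro p _ S U hadm
  have hfd : FiniteDimensional ℚ (fieldOf U) := h23r_finiteDimensional_fieldOf hadm
  exact { to_charZero := inferInstance
          to_finiteDimensional := hfd }

/-- A subgroup of an admissible `U` which is open in `levQ S` is admissible. -/
theorem h78k_adm_of_le {p : ℕ} [Fact p.Prime] {S : Finset Nat.Primes} {U V : Subgroup GQ₀}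
    (hadm : Adm p S U) (hVU : V ≤ U) (hV : (levQ S).IsOpen V) : Adm p S V :=
  ⟨hadm.odd, hadm.mem, hV, fun u hu => hadm.chi u (hVU hu)⟩

/-- (DEG) the degree is multiplied by `p` in a step of index `p`. -/
theorem h78k_brDeg : BrDeg := by
  intro p _ S U V hadm hVU hV hidx
  rw [h23r_finrank_fieldOf hadm, h23r_finrank_fieldOf (h78k_adm_of_le hadm hVU hV), ← hidx]
  exact (Subgroup.relIndex_mul_index hVU).symm

end Fermat.Agent.PT.Glob

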