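/-
W3-PT / PT-GLOB-BR, leaf BR2-LOCINJ (helper81): `LocInjFor inv` (local injectivity in the
language of the restricted datum `D_U`) from the uniform local statement `LocInjW inv` and the
comparison `KInvW` of the local invariants.
-/
import Fermat.Agent.PT.Glob.BrIface2

set_option autoImplicit false

open ExtCitation NumberField IsDedekindDomain MulAction

namespace Fermat.Agent.PT.Glob

open Fermat.Agent.PT Fermat.Agent.PT.Shap

local notation "GQ₀" => (AlgebraicClosure ℚ ≃ₐ[ℚ] AlgebraicClosure ℚ)

attribute [local instance] locActQ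

/-- open for the levels unramified outside `S` implies open for the finite levels. -/
theorem h81b_isOpen_levFin {S : Finset Nat.Primes} {U : Subgroup GQ₀}
    (h : (levQ S).IsOpen U) : levFin.IsOpen U := by
  obtain ⟨N, ⟨F, hF, hn, rfl⟩, hle⟩ := h
  exact ⟨_, ⟨F, hF.1, hn, rfl⟩, hle⟩

/-- `Adm p S U` gives the standing hypotheses on `U` alone. -/
theorem h81b_admU {p : ℕ} [Fact p.Prime] {S : Finset Nat.Primes} {U : Subgroup GQ₀}
    (h : Adm p S U) : AdmU p U :=
  ⟨h81b_isOpen_levFin h.isOpen, h.chi⟩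

/-- **BR2-LOCINJ.** -/
theorem h81b_locInjFor (hK : KInvW) (p : ℕ) [Fact p.Prime] (inv : InvFam p)
    (hW : LocInjW inv) : LocInjFor inv := by
  intro S U _ u tr hA hT v c hc hinv
  obtain ⟨⟨q, hq⟩, w⟩ := v
  have h1 : invW inv u q w c = 0 := by
    rw [← hK p inv U u S tr hT.inv_eq q hq w c]
    exact hinv
  exact hW U u (h81b_admU hA) q w c hc h1

end Fermat.Agent.PT.Glob
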