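/-
W3-PT (S55), PT-GLOB-K, leaf K-D-ASM (helper93): `h93d_kCountDAsm : KCountDAsm`.

The isotropy count: `Ш¹ = ker (Z¹(G_{L,S}) → ∏_w Z¹(L_w))`, the image is isotropic for the sum of
the local cup product pairings (reciprocity = `TrOK` of the restricted trace), the local
pairings have trivial left kernel, so `2 dim (image) ≤ ∑_w dim Z¹(L_w) = 2 #S_L + [L : ℚ]`, and
`h¹` is given by (N1).  Abstract core: `H93KDCore.lean`.
-/
import Mathlib
import Fermat.Agent.PT.Glob.KIface4
import Fermat.Agent.PT.Glob.H93KDCore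

set_option autoImplicit false
set_option linter.style.haveILetI false

open ExtCitation NumberField IsDedekindDomain MulAction

namespace Fermat.Agent.PT.Glob

open Fermat.Agent.PT Fermat.Agent.PT.Shap Fermat.Agent.Bridge

local notation "GQ₀" => (AlgebraicClosure ℚ ≃ₐ[ℚ] AlgebraicClosure ℚ)

attribute [local instance] locActQ

variable {p : ℕ} [Fact p.Prime] {U : Subgroup GQ₀}

/-- a sum over the places of `D_U` is a double sum. -/
lemma h93d_sum_places [U.FiniteIndex] (u : USD U) (S : Finset Nat.Primes)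
    (f : ∀ q : Nat.Primes, (u.od q).W → ℕ) :
    ∑ P : (DU p S U u).P, f P.1.1 P.2 = ∑ q ∈ S, ∑ w, f q w := by
  classical
  have h0 : (@Finset.univ (DU p S U u).P (DU p S U u).fin) =
      @Finset.univ (Σ v : ↥S, (u.od v.1).W) Sigma.instFintype :=
    congrArg (fun I => @Finset.univ (Σ v : ↥S, (u.od v.1).W) I) (Subsingleton.elim _ _)
  have h1 : ∑ P : (DU p S U u).P, f P.1.1 P.2 =
      Finset.sum (@Finset.univ (Σ v : ↥S, (u.od v.1).W) Sigma.instFintype)
        (fun P => f P.1.1 P.2) :=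
    congrArg (fun s : Finset (Σ v : ↥S, (u.od v.1).W) => s.sum (fun P => f P.1.1 P.2)) h0
  rw [h1, Fintype.sum_sigma]
  exact Finset.sum_coe_sort S (fun q => ∑ w, f q w)

/-- the levels of `ℚ` unramified outside `S` are finite levels. -/
lemma h93d_levFin_of_levQ {S : Finset Nat.Primes} (h : (levQ S).IsOpen U) :
    levFin.IsOpen U := by
  obtain ⟨N, ⟨F, hF, hn, rfl⟩, hle⟩ := h
  exact ⟨_, ⟨F, hF.1, hn, rfl⟩, hle⟩

/-- **K-D-ASM.** -/
theorem h93d_kCountDAsm : KCountDAsm := by
  intro hinv hTrOK hDQ hKInvW _ hLocDim hPlaces hIso hKN1 p _ S U _ _ u hAdm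
  classical
  obtain ⟨inv, hOK, hRec, hNd⟩ := hinv p hAdm.odd
  obtain ⟨tr, htr, htrinv⟩ := h98a_exists_tr (DQ p S) (fun q => inv q.1) (fun q => hOK q.1)
    (fun a ha => hRec S hAdm.mem a ha)
  have hgoodQ := hDQ p S hAdm.mem
  have hUopen : (DQ p S).lev.IsOpen U := hAdm.isOpen
  have hFI : U.FiniteIndex := inferInstance
  have htrU : (DU p S U u).TrOK (trUt S U u tr) :=
    @hTrOK (ZMod p) _ (DQ p S) tr hgoodQ htr U hFI hUopen (u.sd p S)
  have hgoodU : (DU p S U u).Good :=
    @h56s_restr_good (ZMod p) _ (DQ p S) U hgoodQ hFI (u.sd p S)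
  have hchi : ∀ g, (DU p S U u).chi g = 1 := fun (g : ↥U) => hAdm.chi g.1 g.2
  obtain ⟨hfinH, hN1⟩ := hKN1 p S U hAdm
  have hAdmU : AdmU p U := ⟨h93d_levFin_of_levQ hAdm.isOpen, hAdm.chi⟩
  obtain ⟨deg, hfinloc, hdim_ne, hdim_p, hdeg⟩ := hLocDim p hAdm.odd U u hAdmU
  -- the core
  have hcore := h93d_core (DU p S U u) (trUt S U u tr) hIso hgoodU htrU hchi hfinH
    (fun P => hfinloc P.1.1 P.2)
    (fun P χ hχ h => hNd U u hAdmU P.1.1 P.2 χ hχ (fun ψ hψ => by
      rw [← hKInvW p inv U u S tr htrinv P.1.1 P.1.2 P.2]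
      exact h ψ hψ))
  refine ⟨hcore.1, ?_⟩
  -- the sum of the local dimensions
  set f : ∀ q : Nat.Primes, (u.od q).W → ℕ := fun q w =>
    Module.finrank (ZMod p) ↥(Z1 (levW u q w) (trivW p u q w)) with hf
  have hsum : ∑ P : (DU p S U u).P, Module.finrank (ZMod p) ↥(h93d_Zv (DU p S U u) P) =
      2 * Fintype.card (DU p S U u).P + Module.finrank ℚ (fieldOf U) := by
    have h1 : ∑ P : (DU p S U u).P, Module.finrank (ZMod p) ↥(h93d_Zv (DU p S U u) P) =
        ∑ P : (DU p S U u).P, f P.1.1 P.2 := rfl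
    have h2 : Fintype.card (DU p S U u).P = ∑ P : (DU p S U u).P, (fun _ _ => 1 : ∀ q : Nat.Primes,
        (u.od q).W → ℕ) P.1.1 P.2 := by
      simp
    rw [h1, h2, h93d_sum_places u S f, h93d_sum_places u S (fun _ _ => 1), ← hdeg,
      Finset.mul_sum]
    have h3 : ∑ q ∈ S, ∑ w, f q w =
        ∑ q ∈ S, (2 * ∑ _w : (u.od q).W, 1 + if q = pPrime p then ∑ w, f q w - 2 *
          ∑ _w : (u.od q).W, 1 else 0) := by
      refine Finset.sum_congr rfl fun q _ => ?_
      by_cases hq : q = pPrime p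
      · subst hq
        rw [if_pos rfl]
        have : 2 * ∑ _w : (u.od (pPrime p)).W, 1 ≤ ∑ w, f (pPrime p) w := by
          rw [Finset.mul_sum]
          refine Finset.sum_le_sum fun w _ => ?_
          rw [hf]
          simp only
          rw [hdim_p w]
          omega
        omega
      · rw [if_neg hq, add_zero, Finset.mul_sum]
        refine Finset.sum_congr rfl fun w _ => ?_
        rw [hf]
        simp only
        rw [hdim_ne q w hq, mul_one]
    rw [h3, Finset.sum_add_distrib, Finset.sum_ite_eq' S (pPrime p), if_pos hAdm.mem]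
    congr 1
    have h4 : ∑ w, f (pPrime p) w = ∑ w : (u.od (pPrime p)).W, (2 + deg w) := by
      refine Finset.sum_congr rfl fun w _ => ?_
      rw [hf]
      simp only
      rw [hdim_p w]
    rw [h4, Finset.sum_add_distrib, Finset.mul_sum]
    simp
  have hcard := hPlaces p S U u hAdm
  rw [hsum, hcard] at hcore
  -- arithmetic
  have hp : 0 < p := (Fact.out : p.Prime).pos
  set h1 := Module.finrank (ZMod p) (HH1 (levU S U) (trivF p U)) with hh1
  set s := Module.finrank (ZMod p) ((DU p S U u).Sha1 (trivU p S U u)) with hs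
  set n := Module.finrank ℚ (fieldOf U) with hn
  set c := Nat.card (primesAbove (fieldOf U) S) with hc
  set C := clSmodP (fieldOf U) (primesAbove (fieldOf U) S) p with hC
  have hle : 2 * h1 ≤ 2 * s + (2 * c + n) := hcore.2
  have h5 : p ^ (n + 2 * c) * C ^ 2 ≤ p ^ (n + 2 * c) * (p ^ s) ^ 2 := by
    rw [← hN1, ← pow_mul, ← pow_add]
    exact Nat.pow_le_pow_right hp (by omega)
  have h6 : C ^ 2 ≤ (p ^ s) ^ 2 := Nat.le_of_mul_le_mul_left h5 (pow_pos hp _)
  exact (Nat.pow_le_pow_iff_left (by norm_num)).1 h6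

end Fermat.Agent.PT.Glob
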