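import Mathlib
import Fermat.Agent.PT.Glob.KIface2
import Fermat.Agent.PT.Alg.H93CountPair

/-!
# W3-PT / PT-GLOB, leaf K-ASM (helper83): `Perf1` of the trivial module

`theorem h83a_kPerfAsm : KPerfAsm`: for a good datum with trivial character, `Perf1` of the
trivial module follows from (d') left nondegeneracy on `Ш`, (c2) the hyperplane property,
injectivity of the local invariants on `H²_v` and `dim Ш² ≤ dim Ш¹`.
-/

set_option autoImplicit false

namespace Fermat.Agent.PT.Glob

open Fermat.Agent.PT Fermat.Agent.PT.Datum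

/-- linear algebra: a pairing `X × Y → k` with trivial left kernel which kills `Y₀ ⊆ Y`, with
`dim (Y/Y₀) ≤ dim X < ∞`, has right kernel `Y₀`. -/
theorem h83a_right_kernel {k X Y : Type*} [Field k] [AddCommGroup X] [Module k X]
    [AddCommGroup Y] [Module k Y] (P : X →ₗ[k] Y →ₗ[k] k) (Y₀ : Submodule k Y)
    (hleft : ∀ a, (∀ y, P a y = 0) → a = 0)
    (hY₀ : ∀ a, ∀ y ∈ Y₀, P a y = 0)
    [Module.Finite k X] [Module.Finite k (Y ⧸ Y₀)]
    (hdim : Module.finrank k (Y ⧸ Y₀) ≤ Module.finrank k X)
    (y : Y) (hy : ∀ a, P a y = 0) : y ∈ Y₀ := by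
  set P' : X →ₗ[k] Y₀.dualAnnihilator := LinearMap.codRestrict _ P (fun a => by
    rw [Submodule.mem_dualAnnihilator]; exact hY₀ a) with hP'
  have hP'apply : ∀ a y, (P' a : Module.Dual k Y) y = P a y := fun a y => rfl
  have hinj : Function.Injective P' := by
    rw [injective_iff_map_eq_zero]
    intro a ha
    apply hleft a
    intro y
    rw [← hP'apply, ha]
    rfl
  have e := Submodule.dualQuotEquivDualAnnihilator Y₀
  have hfinA : Module.Finite k Y₀.dualAnnihilator := Module.Finite.equiv e
  have hfin : Module.finrank k Y₀.dualAnnihilator = Module.finrank k (Y ⧸ Y₀) := by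
    rw [← e.finrank_eq, Subspace.dual_finrank_eq]
  have hrank : Module.finrank k X = Module.finrank k Y₀.dualAnnihilator := by
    apply le_antisymm
    · exact LinearMap.finrank_le_finrank_of_injective hinj
    · rw [hfin]; exact hdim
  have hsurj : Function.Surjective P' :=
    (LinearMap.injective_iff_surjective_of_finrank_eq_finrank (K := k) (V := X)
      (V₂ := Y₀.dualAnnihilator) hrank (f := P')).1 hinj
  rw [← Subspace.dualAnnihilator_dualCoannihilator_eq (W := Y₀), Submodule.mem_dualCoannihilator]
  intro φ hφ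
  obtain ⟨a, ha⟩ := hsurj ⟨φ, hφ⟩
  have h1 : φ y = (P' a : Module.Dual k Y) y := by rw [ha]
  rw [h1, hP'apply]
  exact hy a

section Triv

variable {k : Type} [Field k] (D : Datum k)

/-- `d⁰ = 0` for the trivial module -/
theorem h83a_d0_triv {G : Type} [Group G] (α : k) :
    d0 (Representation.trivial k G k) α = 0 := by
  funext g
  simp

theorem h83a_B1_triv {G : Type} [Group G] :
    B1 (Representation.trivial k G k) = ⊥ := by
  rw [eq_bot_iff]
  rintro f ⟨α, rfl⟩
  rw [h83a_d0_triv]
  exact Submodule.zero_mem _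

theorem h83a_repAt_triv (v : D.P) :
    D.repAt (Representation.trivial k D.G k) v = Representation.trivial k (D.H v) k := by
  ext g
  simp [Datum.repAt]

theorem h83a_equivariant (hχ : ∀ g, D.chi g = 1) :
    IsEquivariant D.chi (Representation.trivial k D.G k) (Representation.trivial k D.G k)
      (LinearMap.mul k k) := by
  intro g v w
  simp [hχ g]

theorem h83a_isDisc : IsDisc D.lev (Representation.trivial k D.G k) := by
  intro v
  obtain ⟨N, hN⟩ := D.lev.nonempty
  exact ⟨N, hN, fun s _ => by simp⟩

/-- `(a, 0)` is a cone cocycle when `a` is a locally trivial cocycle -/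
theorem h83a_mem_ZC1_of_ZSha1 {a : D.G → k}
    (ha : a ∈ D.ZSha1 (Representation.trivial k D.G k)) :
    ((a, 0) : D.CC1 k) ∈ D.ZC1 (Representation.trivial k D.G k) := by
  rw [Datum.ZSha1, Submodule.mem_inf] at ha
  obtain ⟨haZ, haloc⟩ := ha
  rw [mem_Z1] at haZ
  rw [Datum.ZC1, Submodule.mem_inf]
  refine ⟨?_, ⟨haZ.2, Submodule.mem_top⟩⟩
  rw [LinearMap.mem_ker, coneD1_apply]
  refine Prod.ext haZ.1 (funext fun v => ?_)
  have h1 := (Submodule.mem_iInf _).1 haloc v
  rw [Submodule.mem_comap, h83a_repAt_triv, h83a_B1_triv, Submodule.mem_bot] at h1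
  show res1 k k (D.loc v) a - d0 (D.repAt (Representation.trivial k D.G k) v) 0 = 0
  rw [h1, map_zero, sub_zero]

/-- `(0, b)` is a cone cocycle -/
theorem h83a_mem_ZC1_zero (b : D.P → k) :
    ((0, b) : D.CC1 k) ∈ D.ZC1 (Representation.trivial k D.G k) := by
  rw [Datum.ZC1, Submodule.mem_inf]
  refine ⟨?_, ⟨isLC1_const D.lev (0 : k), Submodule.mem_top⟩⟩
  rw [LinearMap.mem_ker, coneD1_apply]
  refine Prod.ext (map_zero _) (funext fun v => ?_)
  show res1 k k (D.loc v) 0 - d0 (D.repAt (Representation.trivial k D.G k) v) (b v) = 0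
  rw [h83a_repAt_triv, h83a_d0_triv, map_zero, sub_zero]

/-- the pairing with `(0, b)` is the sum of the local invariants weighted by `b` -/
theorem h83a_pair1_zero (tr : D.CC3 k →ₗ[k] k) (b : D.P → k) (y : D.G × D.G → k) :
    D.pair1 (Representation.trivial k D.G k) tr (LinearMap.mul k k) ((0, b) : D.CC1 k) y =
      ∑ v, b v * D.invAt tr v (res2 k k (D.loc v) y) := by
  have hb : ((0, b) : D.CC1 k) = ∑ v, ((0, Pi.single v (b v)) : D.CC1 k) := by
    refine Prod.ext ?_ ?_
    · rw [Prod.fst_sum]
      simp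
    · rw [Prod.snd_sum]
      exact (Finset.univ_sum_single b).symm
  rw [← h93c_pairL_apply, hb, map_sum, LinearMap.sum_apply]
  refine Finset.sum_congr rfl (fun v _ => ?_)
  rw [h93c_pairL_apply, h93c_pair1_single]
  have : cup02 (LinearMap.mul k k) (b v) (res2 k k (D.loc v) y) =
      b v • res2 k k (D.loc v) y := by
    funext p
    simp [cup02]
  rw [this, map_smul, smul_eq_mul]

end Triv

/-- **K-ASM**: `Perf1` of the trivial module. -/
theorem h83a_kPerfAsm : KPerfAsm := by
  intro k _ D tr hg htr hχ hL hH hI hfin1 hfin2 hdim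
  have hβ := h83a_equivariant D hχ
  have hσ := h83a_isDisc (k := k) D
  refine ⟨?_, ?_⟩
  · -- left kernel
    intro z hz hzorth
    have ha : z.1 = 0 := hL z hz (fun y hy => hzorth y hy.1)
    have hz' : z = ((0, z.2) : D.CC1 k) := Prod.ext ha rfl
    obtain ⟨α, hα⟩ := hH z.2 (fun y hy => by
      rw [← h83a_pair1_zero, ← hz']
      exact hzorth y hy)
    refine ⟨α, ?_⟩
    rw [coneD0_apply, h83a_d0_triv, hz']
    exact Prod.ext rfl (funext fun v => (hα v).symm)
  · -- right kernel
    intro y hy hyorth
    -- `y` is locally trivial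
    have hloc : ∀ v, res2 k k (D.loc v) y ∈
        B2 (D.levH v) (D.repAt (Representation.trivial k D.G k) v) := by
      intro v
      refine hI v _ (h93c_res2_mem_Z2 D (Representation.trivial k D.G k) hg v hy) ?_
      have h1 := hyorth _ (h83a_mem_ZC1_zero D (Pi.single v (1 : k)))
      rw [h93c_pair1_single] at h1
      have : cup02 (LinearMap.mul k k) (1 : k) (res2 k k (D.loc v) y) =
          res2 k k (D.loc v) y := by
        funext p
        simp [cup02]
      rwa [this] at h1
    have hySha : y ∈ D.ZSha2 (Representation.trivial k D.G k) :=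
      ⟨hy, (Submodule.mem_iInf _).2 hloc⟩
    -- the pairing `ZSha1 × ZSha2 → k`
    set X : Submodule k (D.G → k) := D.ZSha1 (Representation.trivial k D.G k) with hX
    set Y : Submodule k (D.G × D.G → k) := D.ZSha2 (Representation.trivial k D.G k) with hY
    set Y₀ : Submodule k Y :=
      (B2 D.lev (Representation.trivial k D.G k)).comap Y.subtype with hY₀
    set P : X →ₗ[k] Y →ₗ[k] k :=
      (h93c_pairL D (Representation.trivial k D.G k) tr (LinearMap.mul k k)).compl₁₂
        ((LinearMap.inl k (D.G → k) (D.P → k)).comp X.subtype) Y.subtype with hP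
    have hPapply : ∀ (a : X) (y : Y), P a y =
        D.pair1 (Representation.trivial k D.G k) tr (LinearMap.mul k k)
          (((a : D.G → k), 0) : D.CC1 k) (y : D.G × D.G → k) := fun a y => rfl
    have hleft : ∀ a : X, (∀ y : Y, P a y = 0) → a = 0 := by
      intro a h
      have := hL _ (h83a_mem_ZC1_of_ZSha1 D a.2) (fun y hy => by
        have := h ⟨y, hy⟩
        rwa [hPapply] at this)
      exact Subtype.ext this
    have hkill : ∀ a : X, ∀ y ∈ Y₀, P a y = 0 := by
      intro a y hy
      rw [hY₀, Submodule.mem_comap, mem_B2] at hy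
      obtain ⟨x, hx, hxy⟩ := hy
      rw [hPapply]
      have hxy' : (y : D.G × D.G → k) = d1 (Representation.trivial k D.G k) x := hxy.symm
      rw [hxy']
      exact h93c_pair1_d1 D (Representation.trivial k D.G k) (Representation.trivial k D.G k)
        tr (LinearMap.mul k k) hg hβ hσ htr (h83a_mem_ZC1_of_ZSha1 D a.2) hx
    -- finiteness and dimensions
    have hbot : (B1 (Representation.trivial k D.G k)).comap X.subtype = ⊥ := by
      rw [h83a_B1_triv, Submodule.comap_bot, Submodule.ker_subtype]
    have e : (D.Sha1 (Representation.trivial k D.G k)) ≃ₗ[k] X :=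
      Submodule.quotEquivOfEqBot _ hbot
    have hfinX : Module.Finite k X := Module.Finite.equiv e
    have hfinQ : Module.Finite k (Y ⧸ Y₀) := hfin2
    have hdim' : Module.finrank k (Y ⧸ Y₀) ≤ Module.finrank k X := by
      rw [← e.finrank_eq]
      exact hdim
    have key := h83a_right_kernel P Y₀ hleft hkill hdim' ⟨y, hySha⟩ (fun a => by
      rw [hPapply]
      exact hyorth _ (h83a_mem_ZC1_of_ZSha1 D a.2))
    exact key

end Fermat.Agent.PT.Glob
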