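import Mathlib
import Fermat.Agent.PT.Glob.BrIface2
import Fermat.Agent.PT.Glob.H83KAsm
import Fermat.Agent.PT.Alg.Tools

/-!
# W3-PT / PT-GLOB-BR, leaves BR2-ALG-A and BR2-ALG-C (helper98): pure linear algebra

For a good datum `D` with trivial character, a trace with `TrOK` and injective local invariants,
let `Φ : Z² → (P → k)`, `y ↦ (inv_v (res_v y))_v`.  Then

* `ker Φ = ZШ²` (`h98b_Phi_eq_zero_iff`): `⊇` by `TrOK`, `⊆` by the local injectivity;
* `im Φ ⊆ {b | ∑ b_v = 0}` (`h98b_sum_Phi`): the reciprocity law in the frame;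

so `H²/Ш²` embeds into the hyperplane.  Consequences:

* `h98b_brAlgA : BrAlgA` : `H²` finite, `dim Ш² ≤ h²`, `h² + 1 ≤ dim Ш² + #P`;
* `h98b_brAlgC : BrAlgC` : if `dim Ш² + #P ≤ h² + 1` then `im Φ` is the hyperplane, hence
  every `b` orthogonal to `im Φ` is constant.
-/

set_option autoImplicit false

namespace Fermat.Agent.PT.Glob

open Fermat.Agent.PT Fermat.Agent.PT.Datum

section Abs

variable {k : Type} [Field k] (D : Datum k) (tr : D.CC3 k →ₗ[k] k)

/-- `Φ : C² → (P → k)`, `y ↦ (inv_v (res_v y))_v`. -/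
def h98b_Phi : (D.G × D.G → k) →ₗ[k] (D.P → k) :=
  LinearMap.pi fun v => D.invAt tr v ∘ₗ res2 k k (D.loc v)

@[simp] lemma h98b_Phi_apply (y : D.G × D.G → k) (v : D.P) :
    h98b_Phi D tr y v = D.invAt tr v (res2 k k (D.loc v) y) := rfl

/-- the sum of the coordinates. -/
def h98b_sum (P : Type) [Fintype P] : (P → k) →ₗ[k] k :=
  ∑ v : P, LinearMap.proj v

@[simp] lemma h98b_sum_apply (P : Type) [Fintype P] (b : P → k) :
    h98b_sum (k := k) P b = ∑ v, b v := by
  simp [h98b_sum, LinearMap.sum_apply]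

lemma h98b_cup02_one {H : Type} (y : H × H → k) :
    cup02 (LinearMap.mul k k) (1 : k) y = y := by
  funext p
  simp [cup02]

/-- reciprocity in the frame: the sum of the local invariants of a `2`-cocycle vanishes. -/
theorem h98b_sum_Phi (htr : D.TrOK tr) (hχ : ∀ g, D.chi g = 1) {y : D.G × D.G → k}
    (hy : y ∈ Z2 D.lev (Representation.trivial k D.G k)) :
    ∑ v, h98b_Phi D tr y v = 0 := by
  have h1 := h93c_pair1_coneD0 D (Representation.trivial k D.G k)
    (Representation.trivial k D.G k) tr (LinearMap.mul k k) (h83a_equivariant D hχ) htr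
    (1 : k) hy
  rw [coneD0_apply, h83a_d0_triv] at h1
  have h2 := h83a_pair1_zero D tr (fun _ => (1 : k)) y
  rw [h1] at h2
  rw [h2]
  refine Finset.sum_congr rfl (fun v _ => ?_)
  simp

/-- the local invariants vanish on the locally trivial cocycles. -/
theorem h98b_Phi_of_mem_ZSha2 (htr : D.TrOK tr) (hχ : ∀ g, D.chi g = 1)
    {y : D.G × D.G → k} (hy : y ∈ D.ZSha2 (Representation.trivial k D.G k)) :
    h98b_Phi D tr y = 0 := by
  funext v
  have hloc : ∀ w, res2 k k (D.loc w) y ∈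
      B2 (D.levH w) (D.repAt (Representation.trivial k D.G k) w) := fun w =>
    (Submodule.mem_iInf _).1 hy.2 w
  have h1 := h93c_pair1_zero_inv D (Representation.trivial k D.G k)
    (Representation.trivial k D.G k) tr (LinearMap.mul k k) (h83a_equivariant D hχ) htr
    (Pi.single v (1 : k)) (fun w g => by rw [h83a_repAt_triv]; simp) hloc
  rw [h93c_pair1_single, h98b_cup02_one] at h1
  simpa using h1

/-- `ker Φ ∩ Z² = ZШ²`. -/
theorem h98b_Phi_eq_zero_iff (hg : D.Good) (htr : D.TrOK tr) (hχ : ∀ g, D.chi g = 1)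
    (hI : ∀ v, ∀ c ∈ Z2 (D.levH v) (D.repAt (Representation.trivial k D.G k) v),
      D.invAt tr v c = 0 → c ∈ B2 (D.levH v) (D.repAt (Representation.trivial k D.G k) v))
    {y : D.G × D.G → k} (hy : y ∈ Z2 D.lev (Representation.trivial k D.G k)) :
    h98b_Phi D tr y = 0 ↔ y ∈ D.ZSha2 (Representation.trivial k D.G k) := by
  constructor
  · intro h
    refine ⟨hy, (Submodule.mem_iInf _).2 fun v => ?_⟩
    exact hI v _ (h93c_res2_mem_Z2 D (Representation.trivial k D.G k) hg v hy)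
      (congrFun h v)
  · exact h98b_Phi_of_mem_ZSha2 D tr htr hχ

/-- coboundaries are locally trivial cocycles. -/
theorem h98b_B2_le_ZSha2 (hg : D.Good) :
    B2 D.lev (Representation.trivial k D.G k) ≤ D.ZSha2 (Representation.trivial k D.G k) := by
  intro y hy
  refine ⟨Tools.B2_le_Z2 hg.1 (h83a_isDisc D) hy,
    (Submodule.mem_iInf _).2 fun v => ?_⟩
  rw [mem_B2] at hy
  obtain ⟨x, hx, rfl⟩ := hy
  rw [Submodule.mem_comap, mem_B2]
  exact ⟨res1 k k (D.loc v) x, h93c_lc_res1 D hg v hx,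
    h93c_d1_res D (Representation.trivial k D.G k) v x⟩

end Abs

/-! ## Abstract linear algebra -/

section Lin

variable {k : Type} [Field k] {C : Type} [AddCommGroup C] [Module k C]

/-- Let `B ≤ ZS ≤ Z` be subspaces and `Φ` a linear map to `P → k` with `ker Φ ∩ Z = ZS` and
`∑_v Φ(y)_v = 0` on `Z`.  If `ZS/B` is finite-dimensional then so is `Z/B`, and
`dim ZS/B ≤ dim Z/B`, `dim Z/B + 1 ≤ dim ZS/B + #P` (`P` nonempty); moreover, if
`dim ZS/B + #P ≤ dim Z/B + 1` then `Φ(Z)` is the whole hyperplane. -/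
theorem h98b_lin {P : Type} [Fintype P] [Nonempty P] (Z ZS B : Submodule k C)
    (hBS : B ≤ ZS) (hSZ : ZS ≤ Z) (Φ : C →ₗ[k] (P → k))
    (hker : ∀ y ∈ Z, Φ y = 0 ↔ y ∈ ZS) (hsum : ∀ y ∈ Z, ∑ v, Φ y v = 0)
    (hfin : Module.Finite k (↥ZS ⧸ B.comap ZS.subtype)) :
    Module.Finite k (↥Z ⧸ B.comap Z.subtype) ∧
    Module.finrank k (↥ZS ⧸ B.comap ZS.subtype) ≤ Module.finrank k (↥Z ⧸ B.comap Z.subtype) ∧
    Module.finrank k (↥Z ⧸ B.comap Z.subtype) + 1 ≤
      Module.finrank k (↥ZS ⧸ B.comap ZS.subtype) + Fintype.card P ∧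
    (Module.finrank k (↥ZS ⧸ B.comap ZS.subtype) + Fintype.card P ≤
        Module.finrank k (↥Z ⧸ B.comap Z.subtype) + 1 →
      ∀ b : P → k, (∑ v, b v = 0) → ∃ y ∈ Z, Φ y = b) := by
  classical
  -- the induced map `Ψ : Z/B → (P → k)`
  have hB : B.comap Z.subtype ≤ LinearMap.ker (Φ ∘ₗ Z.subtype) := by
    intro y hy
    rw [LinearMap.mem_ker, LinearMap.comp_apply]
    exact (hker _ y.2).2 (hBS hy)
  set Ψ : (↥Z ⧸ B.comap Z.subtype) →ₗ[k] (P → k) :=
    (B.comap Z.subtype).liftQ (Φ ∘ₗ Z.subtype) hB with hΨ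
  have hΨmk : ∀ y : ↥Z, Ψ (Submodule.Quotient.mk y) = Φ y := fun y => rfl
  -- the map `ι : ZS/B → Z/B`
  have hι : B.comap ZS.subtype ≤
      (B.comap Z.subtype).comap (Submodule.inclusion hSZ) := by
    intro y hy
    exact hy
  set ι : (↥ZS ⧸ B.comap ZS.subtype) →ₗ[k] (↥Z ⧸ B.comap Z.subtype) :=
    Submodule.mapQ _ _ (Submodule.inclusion hSZ) hι with hιdef
  have hιmk : ∀ y : ↥ZS, ι (Submodule.Quotient.mk y) =
      Submodule.Quotient.mk (Submodule.inclusion hSZ y) := fun y => rfl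
  have hιinj : Function.Injective ι := by
    rw [injective_iff_map_eq_zero]
    intro a
    obtain ⟨y, rfl⟩ := Submodule.Quotient.mk_surjective _ a
    intro h
    rw [hιmk, Submodule.Quotient.mk_eq_zero] at h
    rw [Submodule.Quotient.mk_eq_zero]
    exact h
  have hrange : LinearMap.range ι = LinearMap.ker Ψ := by
    ext a
    obtain ⟨y, rfl⟩ := Submodule.Quotient.mk_surjective _ a
    rw [LinearMap.mem_ker, hΨmk, hker _ y.2]
    constructor
    · rintro ⟨b, hb⟩
      obtain ⟨z, rfl⟩ := Submodule.Quotient.mk_surjective _ b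
      rw [hιmk, Submodule.Quotient.eq] at hb
      have h1 : ((Submodule.inclusion hSZ z : ↥Z) : C) - (y : C) ∈ B := hb
      have h2 : (y : C) = (z : C) - (((Submodule.inclusion hSZ z : ↥Z) : C) - (y : C)) := by
        simp
      rw [h2]
      exact ZS.sub_mem z.2 (hBS h1)
    · intro hy
      exact ⟨Submodule.Quotient.mk ⟨y, hy⟩, by rw [hιmk]; rfl⟩
  -- finiteness
  have hfinker : Module.Finite k (LinearMap.ker Ψ) := by
    rw [← hrange]
    exact Module.Finite.range ι
  have hfinZ : Module.Finite k (↥Z ⧸ B.comap Z.subtype) := by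
    have e := Ψ.quotKerEquivRange
    have : Module.Finite k ((↥Z ⧸ B.comap Z.subtype) ⧸ LinearMap.ker Ψ) :=
      Module.Finite.equiv e.symm
    exact Module.Finite.of_submodule_quotient (LinearMap.ker Ψ)
  have hdimS : Module.finrank k (↥ZS ⧸ B.comap ZS.subtype) =
      Module.finrank k (LinearMap.ker Ψ) := by
    rw [← hrange]
    exact (LinearMap.finrank_range_of_inj hιinj).symm
  have hrn : Module.finrank k (LinearMap.range Ψ) + Module.finrank k (LinearMap.ker Ψ) =
      Module.finrank k (↥Z ⧸ B.comap Z.subtype) := LinearMap.finrank_range_add_finrank_ker Ψ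
  -- the hyperplane
  set Sg : (P → k) →ₗ[k] k := h98b_sum (k := k) P with hSg
  have hSgsurj : Function.Surjective Sg := by
    intro c
    obtain ⟨v₀⟩ := ‹Nonempty P›
    refine ⟨Pi.single v₀ c, ?_⟩
    rw [hSg, h98b_sum_apply, Finset.sum_eq_single v₀]
    · simp
    · intro w _ hw
      simp [hw]
    · intro h
      exact absurd (Finset.mem_univ _) h
  have hHdim : Module.finrank k (LinearMap.ker Sg) + 1 = Fintype.card P := by
    have h1 := LinearMap.finrank_range_add_finrank_ker Sg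
    rw [LinearMap.range_eq_top.2 hSgsurj, finrank_top, Module.finrank_self,
      Module.finrank_pi] at h1
    omega
  have hle : LinearMap.range Ψ ≤ LinearMap.ker Sg := by
    rintro _ ⟨a, rfl⟩
    obtain ⟨y, rfl⟩ := Submodule.Quotient.mk_surjective _ a
    rw [LinearMap.mem_ker, hΨmk, hSg, h98b_sum_apply]
    exact hsum _ y.2
  have hle' : Module.finrank k (LinearMap.range Ψ) ≤ Module.finrank k (LinearMap.ker Sg) :=
    Submodule.finrank_mono hle
  refine ⟨hfinZ, by omega, by omega, fun hcount b hb => ?_⟩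
  have heq : LinearMap.range Ψ = LinearMap.ker Sg :=
    Submodule.eq_of_le_of_finrank_le hle (by omega)
  have hbmem : b ∈ LinearMap.range Ψ := by
    rw [heq, LinearMap.mem_ker, hSg, h98b_sum_apply]
    exact hb
  obtain ⟨a, rfl⟩ := hbmem
  obtain ⟨y, rfl⟩ := Submodule.Quotient.mk_surjective _ a
  exact ⟨y, y.2, (hΨmk y).symm⟩

end Lin

/-! ## The two leaves -/

/-- **BR2-ALG-A**. -/
theorem h98b_brAlgA : BrAlgA := by
  intro k _ D tr hg htr hχ hI hfin
  have hne : Nonempty D.P := hg.2.2.1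
  obtain ⟨h1, h2, h3, -⟩ := h98b_lin (Z2 D.lev (Representation.trivial k D.G k))
    (D.ZSha2 (Representation.trivial k D.G k)) (B2 D.lev (Representation.trivial k D.G k))
    (h98b_B2_le_ZSha2 D hg) inf_le_left (h98b_Phi D tr)
    (fun y hy => h98b_Phi_eq_zero_iff D tr hg htr hχ hI hy)
    (fun y hy => h98b_sum_Phi D tr htr hχ hy) hfin
  exact ⟨h1, h2, h3⟩

/-- **BR2-ALG-C**. -/
theorem h98b_brAlgC : BrAlgC := by
  intro k _ D tr hg htr hχ hI hfin _ hcount b hb
  classical
  have hne : Nonempty D.P := hg.2.2.1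
  obtain ⟨-, -, -, h4⟩ := h98b_lin (Z2 D.lev (Representation.trivial k D.G k))
    (D.ZSha2 (Representation.trivial k D.G k)) (B2 D.lev (Representation.trivial k D.G k))
    (h98b_B2_le_ZSha2 D hg) inf_le_left (h98b_Phi D tr)
    (fun y hy => h98b_Phi_eq_zero_iff D tr hg htr hχ hI hy)
    (fun y hy => h98b_sum_Phi D tr htr hχ hy) hfin
  obtain ⟨v₀⟩ := hne
  refine ⟨b v₀, fun v => ?_⟩
  obtain ⟨y, hy, hΦ⟩ := h4 hcount (Pi.single v (1 : k) - Pi.single v₀ (1 : k)) (by
    simp only [Pi.sub_apply, Finset.sum_sub_distrib]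
    simp)
  have h5 := hb y hy
  have h6 : ∀ w, D.invAt tr w (res2 k k (D.loc w) y) =
      (Pi.single v (1 : k) - Pi.single v₀ (1 : k) : D.P → k) w := fun w => by
    rw [← hΦ]
    rfl
  simp only [h6, Pi.sub_apply, mul_sub, Finset.sum_sub_distrib] at h5
  simp only [Pi.single_apply, mul_ite, mul_one, mul_zero, Finset.sum_ite_eq',
    Finset.mem_univ, if_true] at h5
  exact sub_eq_zero.1 h5

end Fermat.Agent.PT.Glob
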