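import Mathlib

/-!
# W3-PT / PT-GLOB : elementary core of global class field theory (cyclic layers of degree `p`)

Everything here is stated in *elementary global language* (number fields, finite places as
`HeightOneSpectrum (𝓞 L)`, valuations); no ideles, no completions, no cohomology.

Setting of every interface: `K / L` a Galois extension of number fields of odd prime degree `p`.

* `IsLocalNormAt L K v b` : `b ∈ Lˣ` is a local norm at the finite place `v`, i.e. `b` is
  `v`-adically approximable by global norms (= `b ∈ N(K_w^×)` by weak approximation, the local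
  norm group being closed).
* `localNormSubgroup L K v`, `everywhereLocalNorms L K`, `globalNorms L K` : subgroups of `Lˣ`.
* `Admissible L K p T` : `T` is a finite set of finite places of `L` containing the places above
  `p`, the places ramified in `K`, and such that the `T`-class groups of `L` and of `K` are
  trivial.
* `residueMap L K T` : `T`-units of `L` → `∏_{v ∈ T} Lˣ / localNormSubgroup v`.  For admissible
  `T` its cokernel is `C_L / N C_K = Ĥ⁰(Gal(K/L), C_K)`, and
  `everywhereLocalNorms / globalNorms = Ĥ⁻¹(Gal(K/L), C_K)` (idele class group `C`).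

Interfaces (closed `Prop`s):
* `IfaceAdm` (admissible sets exist above any finite set)
* `IfaceFI`  (first inequality = Herbrand quotient `h(C_K) = p`)
* `IfaceSI`  (second inequality; Kummer theory, needs `μ_p ⊆ L`)
* `IfaceHN`  (Hasse norm theorem for cyclic Kummer layers of degree `p`)
* `IfaceNI`  (norm index `= p`)
and the assembly `hn_ni_of : IfaceAdm → IfaceFI → IfaceSI → IfaceHN ∧ IfaceNI`.
-/

set_option autoImplicit false

open NumberField IsDedekindDomain

namespace Fermat.Agent.PT.Glob

noncomputable section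

section Defs

variable (L K : Type) [Field L] [NumberField L] [Field K] [NumberField K] [Algebra L K]

/-- `b` is `v`-adically close to the norm of `y`, at precision `n + 1`. -/
def NormApprox (v : HeightOneSpectrum (𝓞 L)) (n : ℕ) (b : Lˣ) (y : Kˣ) : Prop :=
  v.valuation L ((b : L) / Algebra.norm L (y : K) - 1) ≤ WithZero.exp (-((n : ℤ) + 1))

/-- `b ∈ Lˣ` is a local norm from `K` at the finite place `v` of `L`. -/
def IsLocalNormAt (v : HeightOneSpectrum (𝓞 L)) (b : Lˣ) : Prop :=
  ∀ n : ℕ, ∃ y : Kˣ, NormApprox L K v n b y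

variable {L K} in
lemma exp_neg_succ_lt_one (n : ℕ) :
    (WithZero.exp (-((n : ℤ) + 1)) : WithZero (Multiplicative ℤ)) < 1 := by
  rw [← WithZero.exp_zero, WithZero.exp_lt_exp]; omega

variable {L K} in
lemma normApprox_one (v : HeightOneSpectrum (𝓞 L)) (n : ℕ) : NormApprox L K v n 1 1 := by
  simp [NormApprox]

variable {L K} in
lemma NormApprox.mul {v : HeightOneSpectrum (𝓞 L)} {n : ℕ} {b b' : Lˣ} {y y' : Kˣ}
    (h : NormApprox L K v n b y) (h' : NormApprox L K v n b' y') :
    NormApprox L K v n (b * b') (y * y') := by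
  unfold NormApprox at *
  set u : L := (b : L) / Algebra.norm L (y : K) with hu
  set u' : L := (b' : L) / Algebra.norm L (y' : K) with hu'
  have key : ((b * b' : Lˣ) : L) / Algebra.norm L ((y * y' : Kˣ) : K) - 1
      = (u - 1) * (u' - 1) + ((u - 1) + (u' - 1)) := by
    rw [hu, hu', Units.val_mul, Units.val_mul, map_mul]
    have hy : Algebra.norm L (y : K) ≠ 0 := by
      rw [Ne, Algebra.norm_eq_zero_iff]; exact y.ne_zero
    have hy' : Algebra.norm L (y' : K) ≠ 0 := by
      rw [Ne, Algebra.norm_eq_zero_iff]; exact y'.ne_zero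
    field_simp
    ring
  rw [key]
  have h1 : v.valuation L ((u - 1) * (u' - 1)) ≤ WithZero.exp (-((n : ℤ) + 1)) := by
    rw [map_mul]
    calc v.valuation L (u - 1) * v.valuation L (u' - 1)
        ≤ WithZero.exp (-((n : ℤ) + 1)) * 1 :=
          mul_le_mul' h (h'.trans (exp_neg_succ_lt_one n).le)
      _ = _ := mul_one _
  have h2 : v.valuation L ((u - 1) + (u' - 1)) ≤ WithZero.exp (-((n : ℤ) + 1)) :=
    (Valuation.map_add_le_max' _ _ _).trans (max_le h h')
  exact (Valuation.map_add_le_max' _ _ _).trans (max_le h1 h2)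

variable {L K} in
lemma NormApprox.inv {v : HeightOneSpectrum (𝓞 L)} {n : ℕ} {b : Lˣ} {y : Kˣ}
    (h : NormApprox L K v n b y) : NormApprox L K v n b⁻¹ y⁻¹ := by
  unfold NormApprox at *
  set u : L := (b : L) / Algebra.norm L (y : K) with hu
  have hy : Algebra.norm L (y : K) ≠ 0 := by
    rw [Ne, Algebra.norm_eq_zero_iff]; exact y.ne_zero
  have hu0 : u ≠ 0 := div_ne_zero b.ne_zero hy
  have hlt : v.valuation L (u - 1) < 1 := h.trans_lt (exp_neg_succ_lt_one n)
  have hval : v.valuation L u = 1 := by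
    have := Valuation.map_one_add_of_lt (v := v.valuation L) (x := u - 1) hlt
    simpa using this
  have hninv : Algebra.norm L ((y⁻¹ : Kˣ) : K) = (Algebra.norm L (y : K))⁻¹ := by
    refine eq_inv_of_mul_eq_one_right ?_
    rw [← map_mul, Units.mul_inv, map_one]
  have key : ((b⁻¹ : Lˣ) : L) / Algebra.norm L ((y⁻¹ : Kˣ) : K) - 1 = -(u - 1) * u⁻¹ := by
    have hb0 : (b : L) ≠ 0 := b.ne_zero
    rw [hu, hninv, Units.val_inv_eq_inv_val]
    field_simp
    ring
  rw [key, map_mul, Valuation.map_neg, map_inv₀, hval, inv_one, mul_one]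
  exact h

/-- The subgroup of `Lˣ` of local norms at `v`. -/
def localNormSubgroup (v : HeightOneSpectrum (𝓞 L)) : Subgroup Lˣ where
  carrier := {b | IsLocalNormAt L K v b}
  one_mem' := fun n => ⟨1, normApprox_one v n⟩
  mul_mem' := fun {b b'} hb hb' n => by
    obtain ⟨y, hy⟩ := hb n
    obtain ⟨y', hy'⟩ := hb' n
    exact ⟨y * y', hy.mul hy'⟩
  inv_mem' := fun {b} hb n => by
    obtain ⟨y, hy⟩ := hb n
    exact ⟨y⁻¹, hy.inv⟩

variable {L K} in
@[simp] lemma mem_localNormSubgroup {v : HeightOneSpectrum (𝓞 L)} {b : Lˣ} :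
    b ∈ localNormSubgroup L K v ↔ IsLocalNormAt L K v b := Iff.rfl

/-- The subgroup of `Lˣ` of elements which are local norms at every finite place. -/
def everywhereLocalNorms : Subgroup Lˣ := ⨅ v, localNormSubgroup L K v

variable {L K} in
lemma mem_everywhereLocalNorms {b : Lˣ} :
    b ∈ everywhereLocalNorms L K ↔ ∀ v, IsLocalNormAt L K v b := by
  simp [everywhereLocalNorms, Subgroup.mem_iInf]

/-- The subgroup of `Lˣ` of global norms from `K`. -/
def globalNorms : Subgroup Lˣ := (Units.map (Algebra.norm L : K →* L)).range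

variable {L K} in
lemma mem_globalNorms {b : Lˣ} :
    b ∈ globalNorms L K ↔ ∃ y : Kˣ, Algebra.norm L (y : K) = (b : L) := by
  simp only [globalNorms, MonoidHom.mem_range]
  constructor
  · rintro ⟨y, rfl⟩; exact ⟨y, rfl⟩
  · rintro ⟨y, hy⟩; exact ⟨y, Units.ext hy⟩

lemma globalNorms_le_localNormSubgroup (v : HeightOneSpectrum (𝓞 L)) :
    globalNorms L K ≤ localNormSubgroup L K v := by
  intro b hb n
  obtain ⟨y, hy⟩ := mem_globalNorms.1 hb
  refine ⟨y, ?_⟩
  unfold NormApprox
  rw [hy, div_self b.ne_zero, sub_self, map_zero]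
  exact zero_le

lemma globalNorms_le_everywhereLocalNorms : globalNorms L K ≤ everywhereLocalNorms L K :=
  le_iInf fun v => globalNorms_le_localNormSubgroup L K v

/-- The finite places of `K` above a set of finite places of `L`. -/
def placesAbove (T : Set (HeightOneSpectrum (𝓞 L))) : Set (HeightOneSpectrum (𝓞 K)) :=
  {w | ∃ v ∈ T, w.asIdeal.under (𝓞 L) = v.asIdeal}

/-- The `T`-class group of `F` is trivial: every prime outside `T` is principal up to primes
in `T`. -/
def TClassGroupTrivial (F : Type) [Field F] [NumberField F]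
    (T : Set (HeightOneSpectrum (𝓞 F))) : Prop :=
  ∀ v : HeightOneSpectrum (𝓞 F), v ∉ T → ∃ x : Fˣ, v.valuation F (x : F) = WithZero.exp (-1 : ℤ) ∧
    ∀ w : HeightOneSpectrum (𝓞 F), w ∉ T → w ≠ v → w.valuation F (x : F) = 1

/-- `T` is admissible for `K / L` and `p`: it contains the places above `p` and the places
ramified in `K`, and the `T`-class groups of `L` and `K` are trivial. -/
structure Admissible (p : ℕ) (T : Finset (HeightOneSpectrum (𝓞 L))) : Prop where
  above_p : ∀ v : HeightOneSpectrum (𝓞 L), (p : 𝓞 L) ∈ v.asIdeal → v ∈ T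
  unramified : ∀ v : HeightOneSpectrum (𝓞 L), v ∉ T → v.asIdeal.ramificationIdxIn (𝓞 K) = 1
  classL : TClassGroupTrivial L (T : Set (HeightOneSpectrum (𝓞 L)))
  classK : TClassGroupTrivial K (placesAbove L K (T : Set (HeightOneSpectrum (𝓞 L))))

/-- The norm residue map on `T`-units: `E_{L,T} → ∏_{v ∈ T} Lˣ / (local norms at v)`. -/
def residueMap (T : Finset (HeightOneSpectrum (𝓞 L))) :
    ((T : Set (HeightOneSpectrum (𝓞 L))).unit L) →*
      ((v : T) → Lˣ ⧸ localNormSubgroup L K v.1) :=
  MonoidHom.pi fun v =>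
    (QuotientGroup.mk' (localNormSubgroup L K v.1)).comp
      (Subgroup.subtype ((T : Set (HeightOneSpectrum (𝓞 L))).unit L))

/-- The order of `Ĥ⁰(Gal(K/L), C_K) = C_L / N C_K`, computed on an admissible `T`
(`0` if infinite). -/
def normIndex (T : Finset (HeightOneSpectrum (𝓞 L))) : ℕ :=
  (MonoidHom.range (N := (v : T) → Lˣ ⧸ localNormSubgroup L K v.1) (residueMap L K T)).index

/-- The order of `Ĥ⁻¹(Gal(K/L), C_K)` = (everywhere local norms) / (global norms)
(`0` if infinite). -/
def hasseDefect : ℕ :=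
  (globalNorms L K).relIndex (everywhereLocalNorms L K)

end Defs

/-! ## Interfaces -/

/-- ADM: every finite set of places is contained in an admissible one. -/
def IfaceAdm : Prop :=
  ∀ (p : ℕ), p.Prime → ∀ (L K : Type) [Field L] [NumberField L] [Field K] [NumberField K]
    [Algebra L K] [IsGalois L K] (T₀ : Finset (HeightOneSpectrum (𝓞 L))),
    ∃ T : Finset (HeightOneSpectrum (𝓞 L)), T₀ ⊆ T ∧ Admissible L K p T

/-- FI (first inequality, Herbrand quotient of the idele class group): for `K / L` Galois of odd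
prime degree `p` and `T` admissible, `|Ĥ⁰(C_K)| = p * |Ĥ⁻¹(C_K)|`, both finite. -/
def IfaceFI : Prop :=
  ∀ (p : ℕ), p.Prime → 3 ≤ p → ∀ (L K : Type) [Field L] [NumberField L] [Field K]
    [NumberField K] [Algebra L K] [IsGalois L K], Module.finrank L K = p →
    ∀ T : Finset (HeightOneSpectrum (𝓞 L)), Admissible L K p T →
      hasseDefect L K ≠ 0 ∧ normIndex L K T = p * hasseDefect L K

/-- SI (second inequality, Kummer theory): for `K / L` Galois of odd prime degree `p` with
`μ_p ⊆ L` and `T` admissible, `|Ĥ⁰(C_K)| ≤ p`. -/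
def IfaceSI : Prop :=
  ∀ (p : ℕ), p.Prime → 3 ≤ p → ∀ (L K : Type) [Field L] [NumberField L] [Field K]
    [NumberField K] [Algebra L K] [IsGalois L K], Module.finrank L K = p →
    (∃ ζ : L, IsPrimitiveRoot ζ p) →
    ∀ T : Finset (HeightOneSpectrum (𝓞 L)), Admissible L K p T →
      normIndex L K T ≠ 0 ∧ normIndex L K T ≤ p

/-- HN (Hasse norm theorem for cyclic Kummer layers): an element which is a local norm at every
finite place is a global norm. -/
def IfaceHN : Prop :=
  ∀ (p : ℕ), p.Prime → 3 ≤ p → ∀ (L K : Type) [Field L] [NumberField L] [Field K]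
    [NumberField K] [Algebra L K] [IsGalois L K], Module.finrank L K = p →
    (∃ ζ : L, IsPrimitiveRoot ζ p) →
    ∀ b : Lˣ, (∀ v : HeightOneSpectrum (𝓞 L), IsLocalNormAt L K v b) →
      ∃ y : Kˣ, Algebra.norm L (y : K) = (b : L)

/-- NI (norm index): `|C_L / N C_K| = p`. -/
def IfaceNI : Prop :=
  ∀ (p : ℕ), p.Prime → 3 ≤ p → ∀ (L K : Type) [Field L] [NumberField L] [Field K]
    [NumberField K] [Algebra L K] [IsGalois L K], Module.finrank L K = p →
    (∃ ζ : L, IsPrimitiveRoot ζ p) →
    ∀ T : Finset (HeightOneSpectrum (𝓞 L)), Admissible L K p T → normIndex L K T = p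

/-! ## Assembly -/

theorem hn_ni_of (hAdm : IfaceAdm) (hFI : IfaceFI) (hSI : IfaceSI) : IfaceHN ∧ IfaceNI := by
  have key : ∀ (p : ℕ), p.Prime → 3 ≤ p → ∀ (L K : Type) [Field L] [NumberField L] [Field K]
      [NumberField K] [Algebra L K] [IsGalois L K], Module.finrank L K = p →
      (∃ ζ : L, IsPrimitiveRoot ζ p) →
      ∀ T : Finset (HeightOneSpectrum (𝓞 L)), Admissible L K p T →
        hasseDefect L K = 1 ∧ normIndex L K T = p := by
    intro p hp hp3 L K _ _ _ _ _ _ hdeg hζ T hT
    obtain ⟨h0, hfi⟩ := hFI p hp hp3 L K hdeg T hT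
    obtain ⟨hn0, hsi⟩ := hSI p hp hp3 L K hdeg hζ T hT
    have hp0 : 0 < p := hp.pos
    have hd : hasseDefect L K = 1 := by
      rw [hfi] at hsi
      have h1 : 0 < hasseDefect L K := Nat.pos_of_ne_zero h0
      have : p * hasseDefect L K ≤ p * 1 := by simpa using hsi
      have := Nat.le_of_mul_le_mul_left this hp0
      omega
    exact ⟨hd, by rw [hfi, hd, mul_one]⟩
  refine ⟨?_, ?_⟩
  · intro p hp hp3 L K _ _ _ _ _ _ hdeg hζ b hb
    obtain ⟨T, -, hT⟩ := hAdm p hp L K ∅
    have hd := (key p hp hp3 L K hdeg hζ T hT).1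
    have hle : everywhereLocalNorms L K ≤ globalNorms L K := by
      have := (Subgroup.relIndex_eq_one (H := globalNorms L K)
        (K := everywhereLocalNorms L K)).1 hd
      exact this
    exact mem_globalNorms.1 (hle (mem_everywhereLocalNorms.2 hb))
  · intro p hp hp3 L K _ _ _ _ _ _ hdeg hζ T hT
    exact (key p hp hp3 L K hdeg hζ T hT).2

end

end Fermat.Agent.PT.Glob
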