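import Mathlib
import Fermat.Prelude.Def_GroupCohomology_ContinuousUnramified
import Fermat.Agent.Bridge.Defs
import Fermat.Agent.PT.Bridge.LocGrpE
import Fermat.Agent.PT.Loc.Basic

/-!
# W3-PT / PT-GLOB-BR (helper14): global relative cochains — frozen definitions

Mirror of `PT/Loc/Basic.lean` (helper48) for the pair `(ℚ, ℚ̄)`:

* the global Galois group is `GQ = Gal(ℚ̄/ℚ)`; a number field is `L : IntermediateField ℚ ℚ̄`
  with `[FiniteDimensional ℚ L]`; its absolute Galois group is the SUBGROUP `GU L = L.fixingSubgroup`;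
* cochains of `G_L` are TOTAL functions on `GQ` (values outside `G_L` are junk); every condition
  is required on `G_L` only;
* `GCont…`  : continuity (right invariance under `G_F`, `F ⊇ L` finite);
  `GContS…` : continuity of level `S` (`F` unramified outside `S`), i.e. cochains of `G_{L,S}`;
* coefficients `ZMod p` (trivial action, additive) or `ℚ̄ˣ` (Galois action, multiplicative);
* a place of `L` above `q` is given by `g : GQ` (the embedding `x ↦ ι_q (g x)`); its local field is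
  `gLocField q g L = ℚ_q(ι (g L))`, the local cochain is `gLoc2 q g y`, the local root of unity is
  `gLocRoot q g ζ = ι (g ζ)`.

No proofs here; all statements to be proved are in `Glob/GIface.lean`.
-/

set_option autoImplicit false

open scoped Classical

noncomputable section

namespace Fermat.Agent.PT.Glob

open Fermat.Agent.Bridge

/-- Subfields of `ℚ̄` (number fields when finite dimensional). -/
abbrev NFd : Type := IntermediateField ℚ Qb

/-- The absolute Galois group of `L`, as a subgroup of `GQ`. -/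
abbrev GU (L : NFd) : Subgroup GQ := L.fixingSubgroup

/-! ## Continuity -/

/-- `f` is continuous on `G_L`: right-invariant under `G_F` for some finite `F ⊇ L`. -/
def GCont1 (L : NFd) {X : Type*} (f : GQ → X) : Prop :=
  ∃ F : NFd, FiniteDimensional ℚ F ∧ L ≤ F ∧ ∀ g ∈ GU L, ∀ s ∈ GU F, f (g * s) = f g

/-- `f` is continuous on `G_L × G_L`. -/
def GCont2 (L : NFd) {X : Type*} (f : GQ × GQ → X) : Prop :=
  ∃ F : NFd, FiniteDimensional ℚ F ∧ L ≤ F ∧
    ∀ g ∈ GU L, ∀ g' ∈ GU L, ∀ s ∈ GU F, ∀ s' ∈ GU F, f (g * s, g' * s') = f (g, g')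

/-- `f` is continuous on `G_L × G_L × G_L`. -/
def GCont3 (L : NFd) {X : Type*} (f : GQ × GQ × GQ → X) : Prop :=
  ∃ F : NFd, FiniteDimensional ℚ F ∧ L ≤ F ∧
    ∀ g ∈ GU L, ∀ g' ∈ GU L, ∀ g'' ∈ GU L, ∀ s ∈ GU F, ∀ s' ∈ GU F, ∀ s'' ∈ GU F,
      f (g * s, g' * s', g'' * s'') = f (g, g', g'')

/-- `f` is a `1`-cochain of `G_{L,S}`: right-invariant under `G_F`, `F ⊇ L` unramified
outside `S`. -/
def GContS1 (S : Finset Nat.Primes) (L : NFd) {X : Type*} (f : GQ → X) : Prop :=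
  ∃ F : NFd, F.IsUnramifiedOutside S ∧ L ≤ F ∧ ∀ g ∈ GU L, ∀ s ∈ GU F, f (g * s) = f g

/-- `f` is a `2`-cochain of `G_{L,S}`. -/
def GContS2 (S : Finset Nat.Primes) (L : NFd) {X : Type*} (f : GQ × GQ → X) : Prop :=
  ∃ F : NFd, F.IsUnramifiedOutside S ∧ L ≤ F ∧
    ∀ g ∈ GU L, ∀ g' ∈ GU L, ∀ s ∈ GU F, ∀ s' ∈ GU F, f (g * s, g' * s') = f (g, g')

/-! ## Multiplicative cochains with values in `ℚ̄ˣ` -/

/-- `x` is a `1`-cocycle on `G_L` with values in `ℚ̄ˣ`. -/
def GMCoc1 (L : NFd) (x : GQ → Qbˣ) : Prop :=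
  ∀ g ∈ GU L, ∀ h ∈ GU L, x (g * h) = g • x h * x g

/-- `c` is a `2`-cocycle on `G_L` with values in `ℚ̄ˣ`. -/
def GMCoc2 (L : NFd) (c : GQ × GQ → Qbˣ) : Prop :=
  ∀ g ∈ GU L, ∀ h ∈ GU L, ∀ j ∈ GU L, c (g * h, j) * c (g, h) = g • c (h, j) * c (g, h * j)

/-- The multiplicative coboundary of a `1`-cochain. -/
def gmcob (x : GQ → Qbˣ) : GQ × GQ → Qbˣ :=
  fun y => y.1 • x y.2 / x (y.1 * y.2) * x y.1

/-- `c` and `c'` are cohomologous on `G_L` (by a continuous `1`-cochain). -/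
def GMCohom (L : NFd) (c c' : GQ × GQ → Qbˣ) : Prop :=
  ∃ x : GQ → Qbˣ, GCont1 L x ∧ ∀ g ∈ GU L, ∀ h ∈ GU L, c (g, h) = c' (g, h) * gmcob x (g, h)

/-! ## Additive cochains with values in `ZMod p` (trivial action) -/

variable {p : ℕ}

/-- `χ` is additive on `G_L`. -/
def GACoc1 (L : NFd) (χ : GQ → ZMod p) : Prop :=
  ∀ g ∈ GU L, ∀ h ∈ GU L, χ (g * h) = χ g + χ h

/-- `c` is a `2`-cocycle on `G_L` with trivial coefficients `ZMod p`. -/
def GACoc2 (L : NFd) (c : GQ × GQ → ZMod p) : Prop :=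
  ∀ g ∈ GU L, ∀ h ∈ GU L, ∀ j ∈ GU L, c (h, j) - c (g * h, j) + c (g, h * j) - c (g, h) = 0

/-- The additive coboundary of a `1`-cochain (trivial action). -/
def gacob (f : GQ → ZMod p) : GQ × GQ → ZMod p :=
  fun y => f y.2 - f (y.1 * y.2) + f y.1

/-- `c` and `c'` are cohomologous on `G_L` (by a continuous `1`-cochain of some finite level). -/
def GACohom (L : NFd) (c c' : GQ × GQ → ZMod p) : Prop :=
  ∃ f : GQ → ZMod p, GCont1 L f ∧ ∀ g ∈ GU L, ∀ h ∈ GU L, c (g, h) = c' (g, h) + gacob f (g, h)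

/-- `c` and `c'` are cohomologous on `G_{L,S}` (by a `1`-cochain of level `S`). -/
def GACohomS (S : Finset Nat.Primes) (L : NFd) (c c' : GQ × GQ → ZMod p) : Prop :=
  ∃ f : GQ → ZMod p, GContS1 S L f ∧
    ∀ g ∈ GU L, ∀ h ∈ GU L, c (g, h) = c' (g, h) + gacob f (g, h)

/-- The cup product of two `1`-cochains with trivial coefficients. -/
def gacup (χ ψ : GQ → ZMod p) : GQ × GQ → ZMod p := fun y => χ y.1 * ψ y.2

/-- The multiplicative cochain `ζ ^ c` attached to an additive cochain `c`. -/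
def gzpw (ζ : Qbˣ) (c : GQ × GQ → ZMod p) : GQ × GQ → Qbˣ :=
  fun y => ζ ^ (c y).val

/-! ## Cyclic extensions, norms, carry cocycles -/

/-- `K/L` is cyclic of degree `n`, `σ ∈ G_L` restricts to a generator of `Gal(K/L)`. -/
structure GIsCyc (L K : NFd) (n : ℕ) (σ : GQ) : Prop where
  le : L ≤ K
  fin : FiniteDimensional ℚ K
  mem : σ ∈ GU L
  normal : ∀ g ∈ GU L, ∀ s ∈ GU K, g * s * g⁻¹ ∈ GU K
  gen : ∀ g ∈ GU L, ∃ i, i < n ∧ (σ ^ i)⁻¹ * g ∈ GU K
  ord : ∀ i, 0 < i → i < n → σ ^ i ∉ GU K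
  pos : 0 < n

/-- The index of `g` in the cyclic quotient: the least `i < n` with `g ∈ σ^i G_K`
(`0` if there is none). -/
def gcycIdx (K : NFd) (σ : GQ) (n : ℕ) (g : GQ) : ℕ :=
  if h : ∃ i, i < n ∧ (σ ^ i)⁻¹ * g ∈ GU K then Nat.find h else 0

/-- The norm along `σ`: `β ↦ ∏_{i<n} σ^i β`. -/
def gnormAlong (σ : GQ) (n : ℕ) (β : Qb) : Qb := ∏ i ∈ Finset.range n, (σ ^ i) β

/-- `b` is a norm from `K` (along `σ`). -/
def GIsNorm (K : NFd) (σ : GQ) (n : ℕ) (b : Qb) : Prop :=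
  ∃ β : Qb, β ∈ K ∧ β ≠ 0 ∧ gnormAlong σ n β = b

/-- The carry cocycle (cyclic algebra `(χ_σ, b)`). -/
def gcarry (K : NFd) (σ : GQ) (n : ℕ) (b : Qbˣ) : GQ × GQ → Qbˣ :=
  fun y => if n ≤ gcycIdx K σ n y.1 + gcycIdx K σ n y.2 then b else 1

/-! ## Localisation at a place -/

section Loc

variable (q : ℕ) [Fact q.Prime]

/-- The local field of `L` at the place given by `g`: `ℚ_q(ι (g L))`. -/
def gLocField (g : GQ) (L : NFd) : Loc.LF q :=
  Fermat.Agent.PT.Bridge.h23b_localField q (L.map ((g : Qb ≃ₐ[ℚ] Qb) : Qb →ₐ[ℚ] Qb))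

/-- The local group element `h` seen in `GQ` through the place given by `g`:
`g⁻¹ · r_q(h) · g` (it lies in `G_L` iff `h` fixes `gLocField q g L`). -/
def gConj (g : GQ) (h : Loc.Gq q) : GQ := g⁻¹ * localGaloisToGlobal q h * g

/-- Localisation of a `1`-cochain at the place given by `g`. -/
def gLoc1 (g : GQ) {X : Type*} (f : GQ → X) : Loc.Gq q → X :=
  fun h => f (gConj q g h)

/-- Localisation of a `2`-cochain at the place given by `g`. -/
def gLoc2 (g : GQ) {X : Type*} (y : GQ × GQ → X) : Loc.Gq q × Loc.Gq q → X :=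
  fun h => y (gConj q g h.1, gConj q g h.2)

/-- The local image of a global element at the place given by `g`: `ι_q (g x)`. -/
def gLocEl (g : GQ) (x : Qb) : Loc.Om q := padicEmbedding q (g x)

/-- The local image of a global unit at the place given by `g`. -/
def gLocUnit (g : GQ) : Qbˣ →* (Loc.Om q)ˣ :=
  Units.map (((padicEmbedding q : Qb →ₐ[ℚ] PadicAlgCl q) : Qb →+* PadicAlgCl q).comp
    ((g : Qb ≃ₐ[ℚ] Qb) : Qb →+* Qb) : Qb →* PadicAlgCl q)

/-- Localisation of a multiplicative `2`-cochain at the place given by `g`. -/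
def gLocM2 (g : GQ) (c : GQ × GQ → Qbˣ) : Loc.Gq q × Loc.Gq q → (Loc.Om q)ˣ :=
  fun h => gLocUnit q g (c (gConj q g h.1, gConj q g h.2))

end Loc

/-- `y` is locally trivial at every finite place of `L`: all localisations are continuous
coboundaries. -/
def GLocTriv (L : NFd) (y : GQ × GQ → ZMod p) : Prop :=
  ∀ (q : ℕ) [Fact q.Prime] (g : GQ), Loc.ACohom (gLocField q g L) (gLoc2 q g y) 0

/-- `y` is locally trivial at every place of `L` above `S`. -/
def GLocTrivS (S : Finset Nat.Primes) (L : NFd) (y : GQ × GQ → ZMod p) : Prop :=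
  ∀ (q : ℕ) [Fact q.Prime] (g : GQ), (∃ q' ∈ S, (q' : ℕ) = q) →
    Loc.ACohom (gLocField q g L) (gLoc2 q g y) 0

end Fermat.Agent.PT.Glob
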