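import Mathlib
import Fermat.Agent.PT.Glob.GBasic
import Fermat.Agent.PT.Glob.KIface
import Fermat.Agent.PT.Glob.Core
import Fermat.Agent.PT.Loc.Iface
import Fermat.Agent.PT.Iface

/-!
# W3-PT / PT-GLOB-BR (helper14): frozen leaf statements (design v1, findings #791)

Every `def … : Prop` is a leaf (or a small assembly), to be PROVED as a theorem in its own file
`Fermat/Agent/PT/Glob/<Tag><Name>.lean` (deps as hypotheses when they are not landed).

Blocks
* `GMC…`      : multiplicative cochain calculus over `(ℚ, ℚ̄)` — word for word the block `MC` of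
                `PT/Loc/Iface.lean` (the proofs are field-agnostic: PORT them).
* `GLocCyc`, `GHasseNorm` : localisation dictionary and the Hasse norm theorem in relative form
                (from `IfaceHN` of `Glob/Core.lean`).
* `GHCyc`, `GHCoprime`, `GHTower`, `GHasse` : the Hasse principle for `H²(G_L, 𝔽_p)`.
* `GShaBound` : `dim Ш²_S(L, 𝔽_p) ≤ dim Cl_S(L)/p`.
* `GRecL0`, `GRecQ` : reciprocity for `ℚ(ζ_p)` and for `ℚ` (what `TrOK` needs).
* the count (partial Euler characteristic) is in `PT/Alg/Chi2Iface.lean` (helper98) and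
  `PT/Glob/BrIface2.lean`.
-/

set_option autoImplicit false

open NumberField IsDedekindDomain
open scoped Classical Pointwise

noncomputable section

namespace Fermat.Agent.PT.Glob

open Fermat.Agent.Bridge

/-- The prime number underlying `q : Nat.Primes` is prime (instance, local to this file; any two
instances are equal by proof irrelevance). -/
local instance h14_factPrime (q : Nat.Primes) : Fact ((q : ℕ).Prime) := ⟨q.2⟩

/-! ## Block GMC: multiplicative cochain calculus over `(ℚ, ℚ̄)` -/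

/-- GMC-H90: Hilbert 90 for continuous cocycles of `G_L` in `ℚ̄ˣ`. -/
def GMCH90 : Prop :=
  ∀ (L : NFd) [FiniteDimensional ℚ L] (x : GQ → Qbˣ),
    GMCoc1 L x → GCont1 L x → ∃ a : Qbˣ, ∀ g ∈ GU L, x g = g • a / a

/-- GMC-CARRY: the carry cocycle is a continuous `2`-cocycle. -/
def GMCCarry : Prop :=
  ∀ (L K : NFd) [FiniteDimensional ℚ L] (n : ℕ) (σ : GQ) (b : Qbˣ),
    GIsCyc L K n σ → (b : Qb) ∈ L → GMCoc2 L (gcarry K σ n b) ∧ GCont2 L (gcarry K σ n b)

/-- GMC-INFRES-PER: a continuous `2`-cocycle of `G_L` which is a continuous coboundary on `G_K`,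
`K/L` cyclic, is cohomologous to a carry cocycle. -/
def GMCInfResPer : Prop :=
  ∀ (L K : NFd) [FiniteDimensional ℚ L] (n : ℕ) (σ : GQ),
    GIsCyc L K n σ → ∀ c : GQ × GQ → Qbˣ, GMCoc2 L c → GCont2 L c → GMCohom K c 1 →
      ∃ b : Qbˣ, (b : Qb) ∈ L ∧ GMCohom L c (gcarry K σ n b)

/-- GMC-CARRY-NORM: the carry cocycle of `b` is a coboundary iff `b` is a norm. -/
def GMCCarryNorm : Prop :=
  ∀ (L K : NFd) [FiniteDimensional ℚ L] (n : ℕ) (σ : GQ) (b : Qbˣ),
    GIsCyc L K n σ → (b : Qb) ∈ L →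
    (GMCohom L (gcarry K σ n b) 1 ↔ GIsNorm K σ n (b : Qb))

/-- GMC-MU: a `μ_p`-valued cocycle which is a coboundary in `ℚ̄ˣ` is a coboundary in `𝔽_p`. -/
def GMCMu : Prop :=
  ∀ (p : ℕ) [Fact p.Prime] (L : NFd) [FiniteDimensional ℚ L] (ζ : Qbˣ),
    (ζ : Qb) ∈ L → IsPrimitiveRoot (ζ : Qb) p →
    ∀ c : GQ × GQ → ZMod p, GACoc2 L c → GCont2 L c → GMCohom L (gzpw ζ c) 1 → GACohom L c 0

/-- GMC-KUM: `ζ^(κ_B ∪ idx) = carry(B^p)⁻¹ · ∂(g ↦ B^{idx g})`. -/
def GMCKum : Prop :=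
  ∀ (p : ℕ) [Fact p.Prime] (L K : NFd) [FiniteDimensional ℚ L] (σ : GQ) (ζ B : Qbˣ),
    (ζ : Qb) ∈ L → IsPrimitiveRoot (ζ : Qb) p → GIsCyc L K p σ → ((B : Qb) ^ p) ∈ L →
    GMCohom L (gzpw ζ (gacup (kumQ p (ζ : Qb) (B : Qb)) (fun g => (gcycIdx K σ p g : ZMod p))))
      (fun y => (gcarry K σ p (B ^ p) y)⁻¹)

/-! ## Localisation dictionary and the Hasse norm theorem -/

/-- G-LOC-CYC: a global cyclic extension of prime degree is, at each place `(q, g)`, either
locally trivial or locally cyclic of degree `p` with a local generator `τ` inducing `σ`; the local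
and global indices then agree. -/
def GLocCyc : Prop :=
  ∀ (p : ℕ) [Fact p.Prime] (L K : NFd) [FiniteDimensional ℚ L] (σ : GQ), GIsCyc L K p σ →
    ∀ (q : ℕ) [Fact q.Prime] (g : GQ),
      gLocField q g K = gLocField q g L ∨
      ∃ τ : Loc.Gq q, Loc.IsCyc (gLocField q g L) (gLocField q g K) p τ ∧
        σ⁻¹ * gConj q g τ ∈ GU K ∧
        ∀ h ∈ Loc.GK (gLocField q g L),
          Loc.cycIdx (gLocField q g K) τ p h = gcycIdx K σ p (gConj q g h)

/-- G-HASSE-NORM (relative form of `IfaceHN`): for `K/L` cyclic of odd prime degree `p`,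
`μ_p ⊆ L`, an element of `Lˣ` which is a local norm at every place where `K/L` is locally
nontrivial is a global norm. -/
def GHasseNorm : Prop :=
  ∀ (p : ℕ) [Fact p.Prime], p ≠ 2 → ∀ (L K : NFd) [FiniteDimensional ℚ L] (σ : GQ) (ζ b : Qb),
    ζ ∈ L → IsPrimitiveRoot ζ p → GIsCyc L K p σ → b ∈ L → b ≠ 0 →
    (∀ (q : ℕ) [Fact q.Prime] (g : GQ) (τ : Loc.Gq q),
      Loc.IsCyc (gLocField q g L) (gLocField q g K) p τ →
      Loc.IsNorm (gLocField q g K) τ p (gLocEl q g b)) →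
    GIsNorm K σ p b

/-! ## The Hasse principle for `H²(G_L, 𝔽_p)` -/

/-- GH-CYC (descent in a cyclic step of degree `p`): `y` locally trivial everywhere on `L` and a
coboundary on `G_K` is a coboundary on `G_L`. -/
def GHCyc : Prop :=
  ∀ (p : ℕ) [Fact p.Prime], p ≠ 2 → ∀ (L K : NFd) [FiniteDimensional ℚ L] (σ : GQ) (ζ : Qb),
    ζ ∈ L → IsPrimitiveRoot ζ p → GIsCyc L K p σ →
    ∀ y : GQ × GQ → ZMod p, GACoc2 L y → GCont2 L y → GLocTriv L y →
      GACohom K y 0 → GACohom L y 0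

/-- GH-COPRIME (descent in a step of degree prime to `p`, restriction–corestriction). -/
def GHCoprime : Prop :=
  ∀ (p : ℕ) [Fact p.Prime] (L K : NFd) [FiniteDimensional ℚ L] [FiniteDimensional ℚ K],
    L ≤ K → ¬ p ∣ ((GU K).subgroupOf (GU L)).index →
    ∀ y : GQ × GQ → ZMod p, GACoc2 L y → GCont2 L y → GACohom K y 0 → GACohom L y 0

/-- GH-TOWER (Sylow + Galois correspondence): every continuous cochain on `G_L` becomes constant
on `G_{T m}` for a tower `L ≤ T 0 ≤ … ≤ T m`, `[T 0 : L]` prime to `p`, all other steps cyclic of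
degree `p`. -/
def GHTower : Prop :=
  ∀ (p : ℕ) [Fact p.Prime] (L : NFd) [FiniteDimensional ℚ L]
    (c : GQ × GQ → ZMod p), GCont2 L c →
    ∃ (m : ℕ) (T : ℕ → NFd) (σ : ℕ → GQ),
      L ≤ T 0 ∧ (∀ i, i ≤ m → FiniteDimensional ℚ (T i)) ∧
      ¬ p ∣ ((GU (T 0)).subgroupOf (GU L)).index ∧
      (∀ i, i < m → GIsCyc (T i) (T (i + 1)) p (σ i)) ∧
      ∀ g ∈ GU (T m), ∀ h ∈ GU (T m), c (g, h) = c (1, 1)

/-- G-HASSE (Hasse principle): a continuous `2`-cocycle of `G_L` (`μ_p ⊆ L`, `p` odd) which is a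
local coboundary at every finite place is a coboundary. -/
def GHasse : Prop :=
  ∀ (p : ℕ) [Fact p.Prime], p ≠ 2 → ∀ (L : NFd) [FiniteDimensional ℚ L] (ζ : Qb),
    ζ ∈ L → IsPrimitiveRoot ζ p →
    ∀ y : GQ × GQ → ZMod p, GACoc2 L y → GCont2 L y → GLocTriv L y → GACohom L y 0

/-! ## The bound `dim Ш²_S ≤ dim Cl_S / p` -/

/-- The primes of `L` above `S`. -/
def gPrimesAbove (S : Finset Nat.Primes) (L : NFd) : Set (HeightOneSpectrum (𝓞 L)) :=
  {v | ∃ q ∈ S, (((q : ℕ) : ℤ) : 𝓞 L) ∈ v.asIdeal}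

/-- The number of primes of `L` above `S`. -/
def gNS (S : Finset Nat.Primes) (L : NFd) : ℕ := Nat.card (gPrimesAbove S L)

/-- `#(Cl_S(L)/p)`. -/
def gClS (p : ℕ) (S : Finset Nat.Primes) (L : NFd) [NumberField L] : ℕ :=
  clSmodP L (gPrimesAbove S L) p

/-- G-UNR0 (local, for places outside `S`): a continuous `2`-cocycle of level `S` is a local
coboundary at every place above a prime `q ∉ S` (unramified cocycles are coboundaries). -/
def GUnr0 : Prop :=
  ∀ (p : ℕ) [Fact p.Prime] (S : Finset Nat.Primes) (L : NFd) [FiniteDimensional ℚ L]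
    (y : GQ × GQ → ZMod p), GACoc2 L y → GContS2 S L y →
    ∀ (q : ℕ) [Fact q.Prime] (g : GQ), (∀ q' ∈ S, (q' : ℕ) ≠ q) →
      Loc.ACohom (gLocField q g L) (gLoc2 q g y) 0

/-- G-SHA-BOUND (h): any family of `n` classes of `Ш²_S(L, 𝔽_p)` which is linearly independent
modulo the coboundaries of level `S` has `pⁿ ≤ #(Cl_S(L)/p)`. -/
def GShaBound : Prop :=
  ∀ (p : ℕ) [Fact p.Prime], p ≠ 2 → ∀ (S : Finset Nat.Primes), ExtCitation.pPrime p ∈ S →
    ∀ (L : NFd) [NumberField L] (ζ : Qb), L.IsUnramifiedOutside S → ζ ∈ L →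
    IsPrimitiveRoot ζ p →
    ∀ (n : ℕ) (y : Fin n → GQ × GQ → ZMod p),
      (∀ i, GACoc2 L (y i) ∧ GContS2 S L (y i) ∧ GLocTrivS S L (y i)) →
      (∀ a : Fin n → ZMod p, GACohomS S L (∑ i, a i • y i) 0 → a = 0) →
      p ^ n ≤ gClS p S L

/-! ## Reciprocity -/

/-- G-REC-L0 (reciprocity for `L₀ = ℚ(ζ_p)`): for a `2`-cocycle `y` of `G_{L₀,S}` and a system
`(q i, g i)` of representatives of the places of `L₀` above `S`, the local invariants `t i`
(`y` is locally cohomologous to `t i` times the standard generator for the local root of unity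
`ι (g i ζ)`) sum to zero. -/
def GRecL0 : Prop :=
  ∀ (p : ℕ) [Fact p.Prime], p ≠ 2 → ∀ (S : Finset Nat.Primes), ExtCitation.pPrime p ∈ S →
    ∀ (ζ : Qb), IsPrimitiveRoot ζ p →
    ∀ y : GQ × GQ → ZMod p,
      GACoc2 (IntermediateField.adjoin ℚ {ζ}) y → GContS2 S (IntermediateField.adjoin ℚ {ζ}) y →
    ∀ (m : ℕ) (q : Fin m → Nat.Primes) (g : Fin m → GQ) (t : Fin m → ZMod p),
      (∀ i, q i ∈ S) →
      (∀ i j, q i = q j →
        primeUnder ((g i)⁻¹ • padicPlace (q i : ℕ)) (IntermediateField.adjoin ℚ {ζ}) =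
          primeUnder ((g j)⁻¹ • padicPlace (q j : ℕ)) (IntermediateField.adjoin ℚ {ζ}) → i = j) →
      (∀ q' ∈ S, ∀ A : ValuationSubring Qb, A.LiesOverPrime (q' : ℕ) →
        ∃ i, q i = q' ∧ primeUnder A (IntermediateField.adjoin ℚ {ζ}) =
          primeUnder ((g i)⁻¹ • padicPlace (q i : ℕ)) (IntermediateField.adjoin ℚ {ζ})) →
      (∀ i, ∃ c₀, Loc.IsGen p (gLocField (q i : ℕ) (g i) (IntermediateField.adjoin ℚ {ζ}))
            (gLocEl (q i : ℕ) (g i) ζ) c₀ ∧
          Loc.ACohom (gLocField (q i : ℕ) (g i) (IntermediateField.adjoin ℚ {ζ}))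
            (gLoc2 (q i : ℕ) (g i) y) (t i • c₀)) →
      ∑ i, t i = 0

/-- G-REC-Q (reciprocity over `ℚ` with coefficients `μ_p = 𝔽_p(χ)`, the input of `TrOK`): for a
continuous `2`-cocycle `z` of `G_{ℚ,S}` with values in `𝔽_p(χ)`, let `t q` be the invariant of
`z` restricted to `G_{ℚ_q(ζ)}` (standard generator for `ι ζ`) and `d q = [ℚ_q(ζ) : ℚ_q]`; then
`∑_{q ∈ S} t q / d q = 0`. -/
def GRecQ : Prop :=
  ∀ (p : ℕ) [Fact p.Prime], p ≠ 2 → ∀ (S : Finset Nat.Primes), ExtCitation.pPrime p ∈ S →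
    ∀ (ζ : Qb), IsPrimitiveRoot ζ p →
    ∀ z ∈ Z2 (levQ S) (chiRep (ExtCitation.cycloChar p)),
    ∀ t : S → ZMod p,
      (∀ q : S, ∃ c₀, Loc.IsGen p (gLocField (q.1 : ℕ) 1 (IntermediateField.adjoin ℚ {ζ}))
            (gLocEl (q.1 : ℕ) 1 ζ) c₀ ∧
          Loc.ACohom (gLocField (q.1 : ℕ) 1 (IntermediateField.adjoin ℚ {ζ}))
            (gLoc2 (q.1 : ℕ) 1 z) (t q • c₀)) →
      ∑ q : S, ((Module.finrank ℚ_[(q.1 : ℕ)]
          (gLocField (q.1 : ℕ) 1 (IntermediateField.adjoin ℚ {ζ})) : ℕ) : ZMod p)⁻¹ * t q = 0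

end Fermat.Agent.PT.Glob
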