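import Mathlib
import Fermat.Agent.PT.Glob.BrIface2
import Fermat.Agent.PT.Bridge.Open

/-!
# W3-PT / PT-GLOB-BR, leaf BR2-NF (helper51): `BrNF` and `BrDeg`

* `h51n_brNF : BrNF`   — the fixed field of an admissible `U` is a number field;
* `h51n_brDeg : BrDeg` — in a step `V ≤ U` of relative index `p` the degree over `ℚ` is
  multiplied by `p`.

Both are the Galois correspondence for open subgroups of the level system `levQ S`
(`h23b_isOpen_levQ_iff`, `h23b_index_fixingSubgroup`).
-/

set_option autoImplicit false

open ExtCitation NumberField IsDedekindDomain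

namespace Fermat.Agent.PT.Glob

open Fermat.Agent.PT Fermat.Agent.PT.Shap Fermat.Agent.PT.Bridge

local notation "GQ₀" => (AlgebraicClosure ℚ ≃ₐ[ℚ] AlgebraicClosure ℚ)

/-- An open subgroup of `levQ S` is the fixing subgroup of its fixed field, which is finite
over `ℚ` (and unramified outside `S`). -/
theorem h51n_fieldOf_of_isOpen (S : Finset Nat.Primes) (U : Subgroup GQ₀)
    (hU : (levQ S).IsOpen U) :
    (fieldOf U).IsUnramifiedOutside S ∧ (fieldOf U).fixingSubgroup = U := by
  haveI := h23b_isGalois_Qb
  obtain ⟨L, hL, rfl⟩ := (h23b_isOpen_levQ_iff S U).1 hU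
  have hfield : fieldOf L.fixingSubgroup = L := InfiniteGalois.fixedField_fixingSubgroup L
  rw [hfield]
  exact ⟨hL, rfl⟩

/-- The fixed field of an open subgroup of `levQ S` is finite over `ℚ`. -/
theorem h51n_finiteDimensional_of_isOpen (S : Finset Nat.Primes) (U : Subgroup GQ₀)
    (hU : (levQ S).IsOpen U) : FiniteDimensional ℚ (fieldOf U) :=
  (h51n_fieldOf_of_isOpen S U hU).1.1

/-- The fixed field of an open subgroup of `levQ S` is a number field. -/
theorem h51n_numberField_of_isOpen (S : Finset Nat.Primes) (U : Subgroup GQ₀)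
    (hU : (levQ S).IsOpen U) : NumberField (fieldOf U) :=
  { to_charZero := inferInstance
    to_finiteDimensional := h51n_finiteDimensional_of_isOpen S U hU }

/-- `[ℚ̄^U : ℚ] = [G_ℚ : U]` for `U` open in `levQ S`. -/
theorem h51n_finrank_fieldOf_of_isOpen (S : Finset Nat.Primes) (U : Subgroup GQ₀)
    (hU : (levQ S).IsOpen U) : Module.finrank ℚ (fieldOf U) = U.index := by
  have h := h23b_index_fixingSubgroup (fieldOf U)
  rw [(h51n_fieldOf_of_isOpen S U hU).2] at h
  exact h.symm

/-- (NF) the fixed field of an admissible `U` is a number field. -/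
theorem h51n_brNF : BrNF := fun _ _ S U hU => h51n_numberField_of_isOpen S U hU.isOpen

/-- Degrees multiply by the relative index. -/
theorem h51n_finrank_fieldOf_relIndex (S : Finset Nat.Primes) (U V : Subgroup GQ₀)
    (hU : (levQ S).IsOpen U) (hV : (levQ S).IsOpen V) (hVU : V ≤ U) :
    Module.finrank ℚ (fieldOf V) = V.relIndex U * Module.finrank ℚ (fieldOf U) := by
  rw [h51n_finrank_fieldOf_of_isOpen S V hV, h51n_finrank_fieldOf_of_isOpen S U hU,
    Subgroup.relIndex_mul_index hVU]

/-- (DEG) the degree is multiplied by `p` in a step of index `p`. -/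
theorem h51n_brDeg : BrDeg := fun p _ S U V hU hVU hV hidx => by
  rw [h51n_finrank_fieldOf_relIndex S U V hU.isOpen hV hVU, hidx]

end Fermat.Agent.PT.Glob
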