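/-
W3-PT (S55), PT-GLOB-K (N2), assembly K-N2-ASM (helper89).

`h89k_kN2Asm : KN2Asm` : the classes `y_i = d¹ ζ'_i` of the Bockstein–Kummer cochains of
`p^(k+1)`-th roots `γ_i` of the `α_i` of `KClassIndep` lie in `ZШ²` (`KBockLoc`) and are linearly
independent modulo the coboundaries of level `S`.

Proof of the independence.  If `∑ a_i y_i = d¹ f` with `f` of level `S`, then
`ψ = ∑ a_i ζ'_i - f` is a character of `U = G_L`, constant modulo a finite level, hence a Kummer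
character `κ_B`, `Bᵖ ∈ L` (`KKumClass`).  An inertia element `ι` at a place outside `S` lies in
`U`, fixes `γ_iᵖ` (`KKumRam`) and the level of `f`, hence `ι γ_i = ζ^{t_i} γ_i`,
`ζ'_i(ι) = t_i`, `ψ(ι) = ∑ a_i t_i`, and `Γ = ∏ γ_i^{a_i} / B` is fixed by `ι`.  By `KInertVal`
`Γ = q^j u` with `u` a unit, so `p^(k+1) ∣ v(Γ^{p^(k+1)})`,
`Γ^{p^(k+1)} = ∏ α_i^{a_i} / (Bᵖ)^{p^k}`, and `KClassIndep` gives `a = 0`.
-/
import Mathlib
import Fermat.Agent.PT.Glob.KIface4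
import Fermat.Agent.PT.Glob.H96KKumBasic
import Fermat.Agent.PT.Bridge.Open

set_option autoImplicit false

namespace Fermat.Agent.PT.Glob

open Fermat.Agent.PT Fermat.Agent.Bridge Fermat.Agent.PT.Bridge ExtCitation

/-- The Bockstein–Kummer cochain vanishes at `1`. -/
theorem h89k_zetaP_one {p k : ℕ} [NeZero p] {ξ γ : Qb}
    (hξ : IsPrimitiveRoot ξ (p ^ (k + 1))) (hγ : γ ≠ 0) : zetaP p k ξ γ 1 = 0 := by
  have : NeZero (p ^ (k + 1)) := ⟨pow_ne_zero _ (NeZero.ne p)⟩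
  have h : kumQ (p ^ (k + 1)) ξ γ 1 = ((0 : ℕ) : ZMod (p ^ (k + 1))) :=
    h96k_kumQ_eq_natCast hξ hγ (by simp)
  unfold zetaP topDig
  rw [h]
  simp

/-- The Bockstein–Kummer cochain is constant on the cosets of the stabiliser of `γ`. -/
theorem h89k_zetaP_congr {p k : ℕ} {ξ γ : Qb} {g s : GQ} (hs : s γ = γ) :
    zetaP p k ξ γ (g * s) = zetaP p k ξ γ g := by
  unfold zetaP
  rw [h96k_kumQ_congr (show (g * s) γ = g γ by rw [AlgEquiv.mul_apply, hs])]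

/-- An automorphism fixing `γᵖ` multiplies `γ` by the power of `ζ = ξ^{p^k}` given by the top
digit of the Kummer exponent. -/
theorem h89k_apply_of_fix {p k : ℕ} (hp : p.Prime) {ξ γ : Qb}
    (hξ : IsPrimitiveRoot ξ (p ^ (k + 1))) (hγ : γ ≠ 0) {σ : GQ} (h1 : σ (γ ^ p) = γ ^ p) :
    σ γ = (ξ ^ p ^ k) ^ ((kumQ (p ^ (k + 1)) ξ γ σ).val / p ^ k) * γ := by
  have : NeZero (p ^ (k + 1)) := ⟨pow_ne_zero _ hp.ne_zero⟩
  have hfix : σ (γ ^ p ^ (k + 1)) = γ ^ p ^ (k + 1) := by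
    rw [pow_succ', pow_mul, map_pow, h1]
  have hspec : σ γ = ξ ^ (kumQ (p ^ (k + 1)) ξ γ σ).val * γ :=
    h96k_kumQ_spec (h96k_exists_exp hξ hγ hfix)
  have hdvd : p ^ k ∣ (kumQ (p ^ (k + 1)) ξ γ σ).val := by
    have h1' := h1
    rw [map_pow, hspec, mul_pow] at h1'
    have h2 : (ξ ^ (kumQ (p ^ (k + 1)) ξ γ σ).val) ^ p = 1 :=
      mul_right_cancel₀ (pow_ne_zero p hγ) (h1'.trans (one_mul _).symm)
    rw [← pow_mul] at h2
    have h3 := (hξ.pow_eq_one_iff_dvd _).mp h2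
    rw [pow_succ] at h3
    exact Nat.dvd_of_mul_dvd_mul_right hp.pos h3
  obtain ⟨t, ht⟩ := hdvd
  have e : p ^ k * ((kumQ (p ^ (k + 1)) ξ γ σ).val / p ^ k) = (kumQ (p ^ (k + 1)) ξ γ σ).val := by
    rw [ht, Nat.mul_div_cancel_left _ (pow_pos hp.pos k)]
  rw [← pow_mul, e]
  exact hspec

/-- A product of powers of a primitive `p`-th root of unity. -/
theorem h89k_prod_pow {n p : ℕ} [NeZero p] {ζ : Qb} (hζ : IsPrimitiveRoot ζ p) (t : Fin n → ℕ)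
    (a : Fin n → ZMod p) (c : ZMod p) (hc : c = ∑ i, a i * ((t i : ℕ) : ZMod p)) :
    ∏ i, (ζ ^ t i) ^ (a i).val = ζ ^ c.val := by
  simp_rw [← pow_mul]
  rw [Finset.prod_pow_eq_pow_sum]
  have h1 : (∑ i, t i * (a i).val) ≡ c.val [MOD p] := by
    rw [← ZMod.natCast_eq_natCast_iff, ZMod.natCast_val, ZMod.cast_id, hc]
    push_cast
    refine Finset.sum_congr rfl fun i _ => ?_
    rw [ZMod.natCast_val, ZMod.cast_id]
    exact mul_comm _ _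
  rw [← pow_mod_orderOf ζ (∑ i, t i * (a i).val), ← pow_mod_orderOf ζ c.val, ← hζ.eq_orderOf]
  rw [h1]

/-- **K-N2-ASM.** -/
theorem h89k_kN2Asm : KN2Asm := by
  intro hCI hBL hKC hKB hKR hIV p _ S U _ _ u hAdm
  classical
  have hp : p.Prime := Fact.out
  have hNZp : NeZero p := ⟨hp.ne_zero⟩
  have hIsGal : IsGalois ℚ Qb := h23b_isGalois_Qb
  -- the field
  obtain ⟨L₀, hL₀, hUL₀⟩ := (h23b_isOpen_levQ_iff S U).mp hAdm.isOpen
  have hfield : fieldOf U = L₀ := by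
    rw [hUL₀]
    exact InfiniteGalois.fixedField_fixingSubgroup L₀
  have hLur : (fieldOf U).IsUnramifiedOutside S := by rw [hfield]; exact hL₀
  have hUfix : (fieldOf U).fixingSubgroup = U := by rw [hfield]; exact hUL₀.symm
  have hpS : ∀ j : ℕ, ∀ q : Nat.Primes, (q : ℕ) ∣ p ^ j → q ∈ S := by
    intro j q hq
    have h1 : (q : ℕ) = p := (Nat.prime_dvd_prime_iff_eq q.2 hp).mp (q.2.dvd_of_dvd_pow hq)
    have h2 : q = pPrime p := Subtype.ext h1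
    rw [h2]
    exact hAdm.mem
  -- the classes
  obtain ⟨n, k, α, hn, hα, hindep⟩ := hCI p S (fieldOf U)
  have hNZ : NeZero (p ^ (k + 1)) := ⟨pow_ne_zero _ hp.ne_zero⟩
  obtain ⟨ξ, hξ⟩ : ∃ ξ : Qb, IsPrimitiveRoot ξ (p ^ (k + 1)) := by
    have : NeZero ((p ^ (k + 1) : ℕ) : Qb) :=
      ⟨Nat.cast_ne_zero.mpr (pow_ne_zero _ hp.ne_zero)⟩
    exact HasEnoughRootsOfUnity.exists_primitiveRoot Qb (p ^ (k + 1))
  have hζ : IsPrimitiveRoot (ξ ^ p ^ k) p := hξ.pow (pow_pos hp.pos _) (pow_succ p k)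
  have hζU : ∀ g ∈ U, g (ξ ^ p ^ k) = ξ ^ p ^ k := fun g hg =>
    (h23b_cycloChar_eq_one_iff p hζ g).mp (hAdm.chi g hg)
  have hζL : ξ ^ p ^ k ∈ fieldOf U := fun g => hζU g.1 g.2
  have hroot : ∀ i, ∃ γ : Qb, γ ^ p ^ (k + 1) = α i := fun i =>
    IsAlgClosed.exists_pow_nat_eq (α i) (pow_pos hp.pos _)
  choose γ hγ using hroot
  have hγ0 : ∀ i, γ i ≠ 0 := fun i h0 =>
    (hα i).2.1 (by rw [← hγ i, h0, zero_pow (pow_ne_zero _ hp.ne_zero)])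
  refine ⟨n, fun i => d1 (trivF p U) (fun g : ↥U => zetaP p k ξ (γ i) g), hn, fun i => ?_, ?_⟩
  · exact hBL p S U u k ξ (γ i) hAdm hξ (hγ0 i) (by rw [hγ i]; exact (hα i).1)
      (by rw [hγ i]; exact (hα i).2.2)
  intro a ha
  obtain ⟨f, hf, hfd⟩ := (mem_B2 _ _ _).mp ha
  obtain ⟨N', ⟨N, ⟨F₀, hF₀, hF₀n, rfl⟩, rfl⟩, hfN⟩ := hf
  -- the character `ψ`
  obtain ⟨ψ₀, hψ₀⟩ : ∃ ψ₀ : ↥U → ZMod p,
      ∀ g : ↥U, ψ₀ g = ∑ i, a i * zetaP p k ξ (γ i) g - f g := ⟨_, fun _ => rfl⟩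
  have hd : d1 (trivF p U) ψ₀ = 0 := by
    have e : ψ₀ = ∑ i, a i • (fun g : ↥U => zetaP p k ξ (γ i) g) - f := by
      funext g
      rw [hψ₀ g]
      simp [Finset.sum_apply, Pi.smul_apply, smul_eq_mul]
    rw [e, map_sub, map_sum, hfd]
    simp only [map_smul]
    exact sub_self _
  have hadd0 : ∀ g h : ↥U, ψ₀ (g * h) = ψ₀ g + ψ₀ h := by
    intro g h
    have h1 := congrFun hd (g, h)
    simp only [d1_apply, Representation.trivial_apply, Pi.zero_apply] at h1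
    linear_combination -h1
  have hψ1 : ψ₀ 1 = 0 := by
    have h1 := hadd0 1 1
    rw [mul_one] at h1
    exact left_eq_add.mp h1
  have hf1 : f 1 = 0 := by
    have h1 := hψ₀ 1
    rw [hψ1] at h1
    have h2 : ∑ i, a i * zetaP p k ξ (γ i) ((1 : ↥U) : GQ) = 0 :=
      Finset.sum_eq_zero fun i _ => by
        rw [Subgroup.coe_one, h89k_zetaP_one hξ (hγ0 i), mul_zero]
    rw [h2, zero_sub] at h1
    exact neg_eq_zero.mp h1.symm
  obtain ⟨χ, hχ⟩ : ∃ χ : GQ → ZMod p, ∀ (g : GQ) (hg : g ∈ U), χ g = ψ₀ ⟨g, hg⟩ :=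
    ⟨fun g => if h : g ∈ U then ψ₀ ⟨g, h⟩ else 0, fun g hg => dif_pos hg⟩
  -- the finite level
  have hLfin : FiniteDimensional ℚ (fieldOf U) := hLur.1
  have hF₀fin : FiniteDimensional ℚ F₀ := hF₀.1
  have hγfin : FiniteDimensional ℚ (IntermediateField.adjoin ℚ (Set.range γ)) :=
    IntermediateField.finiteDimensional_adjoin fun x _ =>
      (Algebra.IsIntegral.isIntegral x)
  obtain ⟨F, hF⟩ : ∃ F : IntermediateField ℚ Qb,
      F = fieldOf U ⊔ F₀ ⊔ IntermediateField.adjoin ℚ (Set.range γ) := ⟨_, rfl⟩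
  have hFfin : FiniteDimensional ℚ F := by
    rw [hF]
    infer_instance
  have hLF : fieldOf U ≤ F := by
    rw [hF]
    exact le_sup_of_le_left le_sup_left
  have hF₀F : F₀ ≤ F := by
    rw [hF]
    exact le_sup_of_le_left le_sup_right
  have hγF : ∀ i, γ i ∈ F := fun i => by
    rw [hF]
    exact (le_sup_right : IntermediateField.adjoin ℚ (Set.range γ) ≤ _)
      (IntermediateField.subset_adjoin ℚ _ ⟨i, rfl⟩)
  have hχadd : ∀ g ∈ (fieldOf U).fixingSubgroup, ∀ h ∈ (fieldOf U).fixingSubgroup,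
      χ (g * h) = χ g + χ h := by
    intro g hg h hh
    rw [hUfix] at hg hh
    rw [hχ _ (mul_mem hg hh), hχ g hg, hχ h hh]
    exact hadd0 ⟨g, hg⟩ ⟨h, hh⟩
  have hχinv : ∀ g ∈ (fieldOf U).fixingSubgroup, ∀ s ∈ F.fixingSubgroup,
      χ (g * s) = χ g := by
    intro g hg s hs
    rw [hUfix] at hg
    have hsU : s ∈ U := by
      rw [← hUfix]
      exact IntermediateField.fixingSubgroup_antitone hLF hs
    have hsF₀ : s ∈ F₀.fixingSubgroup := IntermediateField.fixingSubgroup_antitone hF₀F hs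
    have hsγ : ∀ i, s (γ i) = γ i := fun i =>
      (IntermediateField.mem_fixingSubgroup_iff _ s).mp hs (γ i) (hγF i)
    rw [hχ _ (mul_mem hg hsU), hχ g hg, hψ₀, hψ₀]
    have h1 : f ⟨g * s, mul_mem hg hsU⟩ = f ⟨g, hg⟩ := hfN ⟨g, hg⟩ ⟨s, hsU⟩ hsF₀
    rw [h1]
    congr 1
    exact Finset.sum_congr rfl fun i _ => by
      show a i * zetaP p k ξ (γ i) (g * s) = a i * zetaP p k ξ (γ i) g
      rw [h89k_zetaP_congr (hsγ i)]
  obtain ⟨B, hB0, hBp, -, hBχ⟩ :=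
    hKC p (fieldOf U) F (ξ ^ p ^ k) hFfin hLF hζL hζ χ hχadd hχinv
  obtain ⟨hBspec, -, -, -⟩ := hKB p (fieldOf U) (ξ ^ p ^ k) B hζL hζ hB0 hBp
  apply hindep a (B ^ p) hBp (pow_ne_zero _ hB0)
  intro q hq A hA
  -- the element `Γ`
  obtain ⟨Γ, hΓ⟩ : ∃ Γ : Qb, Γ = (∏ i, γ i ^ (a i).val) / B := ⟨_, rfl⟩
  have hΓ0 : Γ ≠ 0 := by
    rw [hΓ]
    exact div_ne_zero (Finset.prod_ne_zero_iff.mpr fun i _ => pow_ne_zero _ (hγ0 i)) hB0
  have hΓpow : Γ ^ p ^ (k + 1) = (∏ i, α i ^ (a i).val) / (B ^ p) ^ p ^ k := by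
    rw [hΓ, div_pow, ← Finset.prod_pow]
    congr 1
    · refine Finset.prod_congr rfl fun i _ => ?_
      rw [← pow_mul, mul_comm, pow_mul, hγ i]
    · rw [← pow_mul, pow_succ']
  have hfixΓ : ∀ ι ∈ A.inertiaSubgroupIn ℚ, ι Γ = Γ := by
    intro ι hι
    have hιL : ι ∈ (fieldOf U).fixingSubgroup := hLur.2 q hq A hA hι
    have hιU : ι ∈ U := by
      rw [← hUfix]
      exact hιL
    have hιF₀ : ι ∈ F₀.fixingSubgroup := hF₀.2 q hq A hA hι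
    have hιβ : ∀ i, ι (γ i ^ p) = γ i ^ p := by
      intro i
      have hβpow : (γ i ^ p) ^ p ^ k = α i := by
        rw [← pow_mul, ← pow_succ', hγ i]
      obtain ⟨F₁, hF₁, -, -, hβF₁⟩ := hKR (p ^ k) S (fieldOf U) (γ i ^ p) (pow_pos hp.pos _)
        (hpS k) hLur (pow_ne_zero _ (hγ0 i)) (by rw [hβpow]; exact (hα i).1)
        (fun q' hq' A' hA' => by rw [hβpow]; exact (hα i).2.2 q' hq' A' hA')
      exact (IntermediateField.mem_fixingSubgroup_iff _ ι).mp (hF₁.2 q hq A hA hι) _ hβF₁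
    have hιγ : ∀ i, ι (γ i) =
        (ξ ^ p ^ k) ^ ((kumQ (p ^ (k + 1)) ξ (γ i) ι).val / p ^ k) * γ i := fun i =>
      h89k_apply_of_fix hp hξ (hγ0 i) (hιβ i)
    have hfι : f ⟨ι, hιU⟩ = 0 := by
      have h1 := hfN 1 ⟨ι, hιU⟩ hιF₀
      rw [one_mul] at h1
      rw [h1, hf1]
    have hχι : χ ι =
        ∑ i, a i * (((kumQ (p ^ (k + 1)) ξ (γ i) ι).val / p ^ k : ℕ) : ZMod p) := by
      rw [hχ ι hιU, hψ₀, hfι, sub_zero]
      rfl
    have hιB : ι B = (ξ ^ p ^ k) ^ (χ ι).val * B := by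
      rw [hBχ ι hιL]
      exact hBspec ι hιL
    have key : ∏ i, ((ξ ^ p ^ k) ^ ((kumQ (p ^ (k + 1)) ξ (γ i) ι).val / p ^ k)) ^ (a i).val =
        (ξ ^ p ^ k) ^ (χ ι).val :=
      h89k_prod_pow hζ _ a _ hχι
    have hζ0 : (ξ ^ p ^ k) ^ (χ ι).val ≠ 0 := pow_ne_zero _ (hζ.ne_zero hp.ne_zero)
    have e1 : ι (∏ i, γ i ^ (a i).val) = (ξ ^ p ^ k) ^ (χ ι).val * ∏ i, γ i ^ (a i).val := by
      rw [map_prod, ← key, ← Finset.prod_mul_distrib]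
      refine Finset.prod_congr rfl fun i _ => ?_
      rw [map_pow, hιγ i, mul_pow]
    rw [hΓ, map_div₀, e1, hιB]
    field_simp
  obtain ⟨j, w, hw, hw', hΓw⟩ := hIV q q.2 A hA Γ hΓ0 hfixΓ
  rw [← hΓpow]
  refine ⟨(q : Qb) ^ j, zpow_mem (natCast_mem _ _) j,
    zpow_ne_zero _ (Nat.cast_ne_zero.mpr q.2.ne_zero), w ^ p ^ (k + 1), pow_mem hw _, ?_, ?_⟩
  · rw [← inv_pow]
    exact pow_mem hw' _
  · rw [hΓw, mul_pow]

end Fermat.Agent.PT.Glob
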