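import Mathlib
import Fermat.Agent.PT.Glob.BrCount
import Fermat.Agent.PT.Glob.H64BrN3
import Fermat.Agent.PT.Glob.H68BrHyper
import Fermat.Agent.PT.Glob.H81LocInj
import Fermat.Agent.PT.Glob.H51BrNF
import Fermat.Agent.PT.Glob.H8KN1Asm
import Fermat.Agent.PT.Glob.H50KZ1Sel
import Fermat.Agent.PT.Glob.H32KKumZ1
import Fermat.Agent.PT.Glob.H83KRank
import Fermat.Agent.PT.Glob.H93K4PrimesFin
import Fermat.Agent.PT.Glob.H93KSel
import Fermat.Agent.PT.Glob.K.H29N2Lin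
import Fermat.Agent.PT.Glob.H89KN2Asm
import Fermat.Agent.PT.Glob.H49KClassIndep
import Fermat.Agent.PT.Glob.H90KClassAbs
import Fermat.Agent.PT.Glob.K.H29BockLoc
import Fermat.Agent.PT.Glob.H96KBockLev
import Fermat.Agent.PT.Glob.H96KKumClass
import Fermat.Agent.PT.Glob.H96KKumBasic
import Fermat.Agent.PT.Glob.H96KKumRam
import Fermat.Agent.PT.Glob.H55InertVal
import Fermat.Agent.PT.Glob.H23PlacesCard
import Fermat.Agent.PT.Shap.H97TrOK
import Fermat.Agent.PT.Bridge.DQGood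
import Fermat.Agent.PT.Alg.Chi2
import Fermat.Agent.PT.Loc.H48Wire
import Fermat.Agent.PT.Loc.H48Final2

/-!
# W3-PT / PT-GLOB-BR (helper14): wiring of the global Brauer side

* `h14f_kN1 : KN1`, `h14f_kN2 : KN2`  (wiring of the landed K-N1-*, K-N2-* leaves);
* `h14f_trEx` : traces with local invariants `inv` exist (`LocInvOK` + `RecQFor`);
* `h14f_main` : `BrVV ∧ BrEq ∧ BrHyperFor (invFam p)` from the remaining leaves
  `BrAlgA`, `BrAlgC`, `BrDUGood`, `BrCountH`, `KInvW`, `LocInjW`, `RecQFor`.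
-/

set_option autoImplicit false

open ExtCitation NumberField IsDedekindDomain

namespace Fermat.Agent.PT.Glob

open Fermat.Agent.PT Fermat.Agent.PT.Shap

/-- (N1), wiring. -/
theorem h14f_kN1 : KN1 :=
  h8n1_kN1Asm (h50k_kZ1Sel_of h32k_kKumZ1) h83r_kRankCM h93k4_kPrimesFin h93_kSel

/-- (N2), wiring. -/
theorem h14f_kN2 : KN2 :=
  h29k_kN2Lin (h89k_kN2Asm (h49k_kClassIndep h90k_kClassIndepAbs) (h29k_kBockLoc h96v_kBockLev)
    h96k_kKumClass h96k_kKumBasic h96k_kKumRam h55v_kInertVal)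

/-- Traces with local invariants `inv` exist. -/
theorem h14f_trEx {p : ℕ} [Fact p.Prime] (inv : InvFam p) (hOK : LocInvOK p inv)
    (hRec : RecQFor p inv) : TrEx inv := by
  intro S hpS
  obtain ⟨tr, htr, hinv⟩ := h98a_exists_tr (DQ p S) (fun q => inv q.1) (fun q => hOK q.1)
    (fun a ha => hRec S hpS a ha)
  exact ⟨tr, htr, hinv⟩

/-- The count, with all landed inputs discharged. -/
theorem h14f_count (hN3 : BrN3) : BrVV ∧ BrEq :=
  brCount Bridge.dqGood chi2Ineq chi2Van h51n_brNF h51n_brDeg h14f_kN1 h14f_kN2 hN3 h93_tower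

/-- **The global Brauer side**: `BrVV`, `BrEq` and `BrHyperFor (invFam p)` from the remaining
leaves. -/
theorem h14f_main (hA : BrAlgA) (hC : BrAlgC) (hG : BrDUGood) (hH : BrCountH) (hW : KInvW)
    (hL : ∀ (p : ℕ) [Fact p.Prime], p ≠ 2 → LocInjW (Loc.invFam p))
    (hR : ∀ (p : ℕ) [Fact p.Prime], p ≠ 2 → RecQFor p (Loc.invFam p)) :
    BrVV ∧ BrEq ∧ ∀ (p : ℕ) [Fact p.Prime], p ≠ 2 → BrHyperFor (Loc.invFam p) := by
  have hI : ∀ (p : ℕ) [Fact p.Prime], p ≠ 2 →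
      ∃ inv : InvFam p, TrEx inv ∧ LocInjFor inv := fun p _ hp2 =>
    ⟨Loc.invFam p, h14f_trEx _ (Loc.h48_locInvOK Loc.h48f_invOKq p) (hR p hp2),
      h81b_locInjFor hW p _ (hL p hp2)⟩
  have hN3 : BrN3 := h64n_brN3_of hA hG h97s_shapTrOK Bridge.dqGood hH h23_placesCard hI
  obtain ⟨hVV, hEq⟩ := h14f_count hN3
  exact ⟨hVV, hEq, fun p _ hp2 =>
    h68b_brHyperFor_of hC hG h97s_shapTrOK Bridge.dqGood h51n_brNF hH h23_placesCard hEq
      (Loc.invFam p) (h81b_locInjFor hW p _ (hL p hp2))⟩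

end Fermat.Agent.PT.Glob
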