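/-
W3-PT (S55), PT-GLOB-BR leaf BR2-DUGOOD (helper66): `h66b_brDUGood : BrDUGood`.

The restricted datum `D_U = DU p S U u` of an admissible `U` is good (`h56s_restr_good` applied to
`dqGood`), and its character `cycloChar p ∘ U.subtype` is trivial (`Adm.chi`).
-/
import Mathlib
import Fermat.Agent.PT.Glob.BrIface2
import Fermat.Agent.PT.Bridge.DQGood
import Fermat.Agent.PT.Shap.Restr

set_option autoImplicit false

open ExtCitation

namespace Fermat.Agent.PT.Glob

open Fermat.Agent.PT Fermat.Agent.PT.Shap

/-- **BR2-DUGOOD**, conditional form. -/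
theorem h66b_brDUGood_of (hD : DQGood) : BrDUGood := by
  intro p _ S U hU u hA
  refine ⟨@h56s_restr_good (ZMod p) _ (DQ p S) U (hD p S hA.mem) hU (u.sd p S), fun g => ?_⟩
  exact hA.chi g.1 g.2

/-- **BR2-DUGOOD**: the restricted datum of an admissible `U` is good, with trivial character. -/
theorem h66b_brDUGood : BrDUGood :=
  h66b_brDUGood_of Fermat.Agent.PT.Bridge.dqGood

end Fermat.Agent.PT.Glob
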