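import Fermat.Agent.PT.Glob.GIface

/-!
# W3-PT / PT-GLOB-BR, row GLOB-HNREL, field packaging (helper39)

For `L K : NFd` (subfields of `ℚ̄`) with `GIsCyc L K n σ` we view `K` as the intermediate field
`h39hn_E hLK : IntermediateField L ℚ̄` (`IntermediateField.extendScalars`) and prove, for the
abstract extension `↥(h39hn_E hLK) / ↥L`:

* `h39hn_normal`, `h39hn_isGalois`   : it is Galois;
* `h39hn_res`                        : restriction `G_L → Gal(K/L)`, `h39hn_res_apply`;
* `h39hn_res_eq_one_iff`             : with kernel `G_K`;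
* `h39hn_exists_pow`                 : every element of `Gal(K/L)` is `(σ|K) ^ i`, `i < n`;
* `h39hn_card`, `h39hn_finrank`      : `[K : L] = n`;
* `h39hn_norm`                       : `N_{K/L} y = gnormAlong σ n y` in `ℚ̄`;
* `h39hn_gHasseNorm_of`              : `IfaceHN → H39LocNormDict → GHasseNorm`, where
  `H39LocNormDict` is the single dictionary statement "local norms in the sense of
  `Loc.IsNorm` at all `(q, g, τ)` are local norms in the sense of `Core.IsLocalNormAt` at all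
  `v`".
-/

set_option autoImplicit false
set_option linter.style.haveILetI false

open NumberField IsDedekindDomain
open scoped Classical

noncomputable section

namespace Fermat.Agent.PT.Glob

open Fermat.Agent.Bridge

/-- `K` as an intermediate field of `ℚ̄ / L`. -/
abbrev h39hn_E {L K : NFd} (hLK : L ≤ K) : IntermediateField L Qb :=
  IntermediateField.extendScalars hLK

theorem h39hn_isGalois_Qb : IsGalois ℚ Qb := by
  haveI : Algebra.IsAlgebraic ℚ Qb := AlgebraicClosure.isAlgebraic ℚ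
  haveI : IsAlgClosure ℚ Qb := ⟨inferInstance, inferInstance⟩
  exact IsAlgClosure.isGalois ℚ Qb

theorem h39hn_normal_Qb (L : NFd) : Normal L Qb :=
  haveI : Normal ℚ Qb := h39hn_isGalois_Qb.to_normal
  Normal.tower_top_of_normal ℚ L Qb

/-- The element of `Gal(ℚ̄/L)` attached to `g ∈ G_L`. -/
def h39hn_toGal (L : NFd) (g : GQ) (hg : g ∈ GU L) : Qb ≃ₐ[L] Qb :=
  IntermediateField.fixingSubgroupEquiv L ⟨g, hg⟩

@[simp] theorem h39hn_toGal_apply (L : NFd) (g : GQ) (hg : g ∈ GU L) (x : Qb) :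
    h39hn_toGal L g hg x = g x := rfl

theorem h39hn_toGal_mul (L : NFd) (g h : GQ) (hg : g ∈ GU L) (hh : h ∈ GU L) :
    h39hn_toGal L (g * h) ((GU L).mul_mem hg hh) = h39hn_toGal L g hg * h39hn_toGal L h hh := by
  ext x; rfl

theorem h39hn_exists_toGal (L : NFd) (χ : Qb ≃ₐ[L] Qb) :
    ∃ (g : GQ) (hg : g ∈ GU L), h39hn_toGal L g hg = χ := by
  obtain ⟨⟨g, hg⟩, h⟩ := (IntermediateField.fixingSubgroupEquiv L).surjective χ
  exact ⟨g, hg, h⟩

section cyc

variable {L K : NFd} {n : ℕ} {σ : GQ}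

/-- `G_L` maps `K` into itself. -/
theorem h39hn_map_mem (h : GIsCyc L K n σ) {g : GQ} (hg : g ∈ GU L) {x : Qb} (hx : x ∈ K) :
    g x ∈ K := by
  haveI := h39hn_isGalois_Qb
  rw [← InfiniteGalois.fixedField_fixingSubgroup K, IntermediateField.mem_fixedField_iff]
  intro s hs
  have h1 := h.normal g⁻¹ ((GU L).inv_mem hg) s hs
  rw [inv_inv] at h1
  have h2 : (g⁻¹ * s * g) x = x := (IntermediateField.mem_fixingSubgroup_iff _ _).1 h1 x hx
  have h3 : g ((g⁻¹ * s * g) x) = g x := by rw [h2]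
  simpa [AlgEquiv.mul_apply] using h3

theorem h39hn_normal (h : GIsCyc L K n σ) : Normal L (h39hn_E h.le) := by
  haveI := h39hn_normal_Qb L
  rw [IntermediateField.normal_iff_forall_map_le']
  intro χ y hy
  obtain ⟨x, hx, rfl⟩ := (IntermediateField.mem_map _).1 hy
  obtain ⟨g, hg, rfl⟩ := h39hn_exists_toGal L χ
  exact h39hn_map_mem h hg hx

theorem h39hn_isGalois (h : GIsCyc L K n σ) : IsGalois L (h39hn_E h.le) :=
  haveI := h39hn_normal h
  ⟨⟩

theorem h39hn_finiteDimensional (h : GIsCyc L K n σ) :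
    FiniteDimensional L (h39hn_E h.le) := by
  haveI := h.fin
  haveI : FiniteDimensional ℚ (h39hn_E h.le) := (inferInstance : FiniteDimensional ℚ K)
  exact FiniteDimensional.right ℚ L (h39hn_E h.le)

/-- Restriction `G_L → Gal(K/L)`. -/
def h39hn_res (h : GIsCyc L K n σ) (g : GQ) (hg : g ∈ GU L) :
    (h39hn_E h.le) ≃ₐ[L] (h39hn_E h.le) :=
  haveI := h39hn_normal h
  AlgEquiv.restrictNormalHom (h39hn_E h.le) (h39hn_toGal L g hg)

theorem h39hn_res_apply (h : GIsCyc L K n σ) (g : GQ) (hg : g ∈ GU L) (y : h39hn_E h.le) :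
    ((h39hn_res h g hg y : h39hn_E h.le) : Qb) = g (y : Qb) := by
  haveI := h39hn_normal h
  exact AlgEquiv.restrictNormalHom_apply (h39hn_E h.le) (h39hn_toGal L g hg) y

theorem h39hn_res_mul (h : GIsCyc L K n σ) (g g' : GQ) (hg : g ∈ GU L) (hg' : g' ∈ GU L) :
    h39hn_res h (g * g') ((GU L).mul_mem hg hg') = h39hn_res h g hg * h39hn_res h g' hg' := by
  ext y
  rw [AlgEquiv.mul_apply, h39hn_res_apply, h39hn_res_apply, h39hn_res_apply]
  rfl

theorem h39hn_res_one (h : GIsCyc L K n σ) : h39hn_res h 1 (GU L).one_mem = 1 := by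
  ext y
  rw [h39hn_res_apply]
  rfl

theorem h39hn_res_pow (h : GIsCyc L K n σ) (g : GQ) (hg : g ∈ GU L) (i : ℕ) :
    h39hn_res h (g ^ i) ((GU L).pow_mem hg i) = h39hn_res h g hg ^ i := by
  ext y
  induction i generalizing y with
  | zero => rw [h39hn_res_apply]; rfl
  | succ i ih =>
    rw [h39hn_res_apply, pow_succ, pow_succ, AlgEquiv.mul_apply, AlgEquiv.mul_apply,
      ← ih, h39hn_res_apply, h39hn_res_apply]

theorem h39hn_res_eq_one_iff (h : GIsCyc L K n σ) (g : GQ) (hg : g ∈ GU L) :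
    h39hn_res h g hg = 1 ↔ g ∈ GU K := by
  rw [IntermediateField.mem_fixingSubgroup_iff]
  constructor
  · intro h1 x hx
    have := h39hn_res_apply h g hg ⟨x, hx⟩
    rw [h1] at this
    exact this.symm
  · intro h1
    ext y
    rw [h39hn_res_apply]
    exact h1 y y.2

theorem h39hn_exists_res (h : GIsCyc L K n σ) (τ : (h39hn_E h.le) ≃ₐ[L] (h39hn_E h.le)) :
    ∃ (g : GQ) (hg : g ∈ GU L), h39hn_res h g hg = τ := by
  haveI := h39hn_normal h
  haveI := h39hn_normal_Qb L
  obtain ⟨χ, hχ⟩ := AlgEquiv.restrictNormalHom_surjective (F := L) (K₁ := h39hn_E h.le) Qb τ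
  obtain ⟨g, hg, rfl⟩ := h39hn_exists_toGal L χ
  exact ⟨g, hg, hχ⟩

/-- Every element of `Gal(K/L)` is a power `(σ|K) ^ i` with `i < n`. -/
theorem h39hn_exists_pow (h : GIsCyc L K n σ) (τ : (h39hn_E h.le) ≃ₐ[L] (h39hn_E h.le)) :
    ∃ i, i < n ∧ τ = h39hn_res h σ h.mem ^ i := by
  obtain ⟨g, hg, rfl⟩ := h39hn_exists_res h τ
  obtain ⟨i, hi, hmem⟩ := h.gen g hg
  refine ⟨i, hi, ?_⟩
  have hσi : σ ^ i ∈ GU L := (GU L).pow_mem h.mem i
  have h1 : h39hn_res h ((σ ^ i)⁻¹ * g) ((GU L).mul_mem ((GU L).inv_mem hσi) hg) = 1 :=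
    (h39hn_res_eq_one_iff h _ _).2 hmem
  have h2 : h39hn_res h (σ ^ i * ((σ ^ i)⁻¹ * g))
      ((GU L).mul_mem hσi ((GU L).mul_mem ((GU L).inv_mem hσi) hg)) =
      h39hn_res h (σ ^ i) hσi := by
    rw [h39hn_res_mul h _ _ hσi ((GU L).mul_mem ((GU L).inv_mem hσi) hg), h1, mul_one]
  have h3 : σ ^ i * ((σ ^ i)⁻¹ * g) = g := by group
  rw [← h39hn_res_pow h σ h.mem i, ← h2]
  congr 1
  exact h3.symm

theorem h39hn_pow_injOn (h : GIsCyc L K n σ) :
    Set.InjOn (fun i : ℕ => h39hn_res h σ h.mem ^ i) (Finset.range n : Set ℕ) := by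
  have key : ∀ i j : ℕ, i < j → j < n →
      h39hn_res h σ h.mem ^ i ≠ h39hn_res h σ h.mem ^ j := by
    intro i j hij hj heq
    have h1 : h39hn_res h σ h.mem ^ (j - i) = 1 := by
      have h2 : h39hn_res h σ h.mem ^ j = h39hn_res h σ h.mem ^ (j - i) *
          h39hn_res h σ h.mem ^ i := by
        rw [← pow_add, Nat.sub_add_cancel hij.le]
      rw [← heq] at h2
      exact (mul_eq_right.mp h2.symm)
    rw [← h39hn_res_pow, h39hn_res_eq_one_iff] at h1
    exact h.ord (j - i) (by omega) (by omega) h1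
  intro i hi j hj hij
  rw [Finset.coe_range, Set.mem_Iio] at hi hj
  rcases lt_trichotomy i j with hlt | heq | hgt
  · exact absurd hij (key i j hlt hj)
  · exact heq
  · exact absurd hij.symm (key j i hgt hi)

theorem h39hn_image_univ (h : GIsCyc L K n σ)
    [Fintype ((h39hn_E h.le) ≃ₐ[L] (h39hn_E h.le))] :
    (Finset.range n).image (fun i : ℕ => h39hn_res h σ h.mem ^ i) = Finset.univ := by
  apply Finset.eq_univ_of_forall
  intro τ
  obtain ⟨i, hi, rfl⟩ := h39hn_exists_pow h τ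
  exact Finset.mem_image.2 ⟨i, Finset.mem_range.2 hi, rfl⟩

theorem h39hn_card (h : GIsCyc L K n σ) :
    Nat.card ((h39hn_E h.le) ≃ₐ[L] (h39hn_E h.le)) = n := by
  haveI := h39hn_finiteDimensional h
  haveI : Fintype ((h39hn_E h.le) ≃ₐ[L] (h39hn_E h.le)) := Fintype.ofFinite _
  rw [Nat.card_eq_fintype_card, ← Finset.card_univ, ← h39hn_image_univ h,
    Finset.card_image_of_injOn (h39hn_pow_injOn h), Finset.card_range]

theorem h39hn_finrank (h : GIsCyc L K n σ) : Module.finrank L (h39hn_E h.le) = n := by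
  haveI := h39hn_finiteDimensional h
  haveI := h39hn_isGalois h
  rw [← IsGalois.card_aut_eq_finrank, h39hn_card h]

/-- The norm of `K/L` is the norm along `σ`. -/
theorem h39hn_norm (h : GIsCyc L K n σ) (y : h39hn_E h.le) :
    ((Algebra.norm L y : L) : Qb) = gnormAlong σ n (y : Qb) := by
  haveI := h39hn_finiteDimensional h
  haveI := h39hn_isGalois h
  have h1 := Algebra.norm_eq_prod_automorphisms L y
  have h2 : ((Algebra.norm L y : L) : Qb) =
      ((algebraMap L (h39hn_E h.le) (Algebra.norm L y) : h39hn_E h.le) : Qb) := rfl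
  rw [h2, h1, ← h39hn_image_univ h, Finset.prod_image (h39hn_pow_injOn h), gnormAlong]
  rw [show (((∏ i ∈ Finset.range n, (h39hn_res h σ h.mem ^ i) y : h39hn_E h.le)) : Qb) =
    ∏ i ∈ Finset.range n, (((h39hn_res h σ h.mem ^ i) y : h39hn_E h.le) : Qb) from
    map_prod (h39hn_E h.le).val _ _]
  refine Finset.prod_congr rfl fun i _ => ?_
  rw [← h39hn_res_pow h σ h.mem i, h39hn_res_apply]

theorem h39hn_numberField_base (L : NFd) [FiniteDimensional ℚ L] : NumberField L :=
  { to_charZero := inferInstance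
    to_finiteDimensional := inferInstance }

theorem h39hn_numberField [FiniteDimensional ℚ L] (h : GIsCyc L K n σ) :
    NumberField (h39hn_E h.le) :=
  haveI := h39hn_numberField_base L
  haveI := h39hn_finiteDimensional h
  NumberField.of_module_finite L (h39hn_E h.le)

end cyc

/-- **The dictionary statement** needed by the relative Hasse norm theorem: an element of `Lˣ`
which is a local norm (`Loc.IsNorm`) at every place `(q, g)` where `K/L` is locally cyclic of
degree `p` is a local norm (`Core.IsLocalNormAt`) at every finite place `v` of `L`. -/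
def H39LocNormDict : Prop :=
  ∀ (p : ℕ) [Fact p.Prime] (L K : NFd) [FiniteDimensional ℚ L] (σ : GQ)
    (h : GIsCyc L K p σ) (b : Lˣ),
    (∀ (q : ℕ) [Fact q.Prime] (g : GQ) (τ : Loc.Gq q),
      Loc.IsCyc (gLocField q g L) (gLocField q g K) p τ →
      Loc.IsNorm (gLocField q g K) τ p (gLocEl q g ((b : L) : Qb))) →
    haveI := h39hn_numberField_base L
    haveI := h39hn_numberField h
    ∀ v : HeightOneSpectrum (𝓞 L), IsLocalNormAt L (h39hn_E h.le) v b

/-- **GLOB-HNREL, packaged.** The relative Hasse norm theorem `GHasseNorm` follows from the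
abstract Hasse norm theorem `IfaceHN` and the dictionary statement `H39LocNormDict`. -/
theorem h39hn_gHasseNorm_of (hHN : IfaceHN) (hD : H39LocNormDict) : GHasseNorm := by
  intro p _ hp2 L K _ σ ζ b hζL hζ h hbL hb0 hloc
  haveI := h39hn_numberField_base L
  haveI := h39hn_numberField h
  haveI := h39hn_isGalois h
  have hp : p.Prime := Fact.out
  have hp3 : 3 ≤ p := by
    have := hp.two_le
    omega
  have hb0' : (⟨b, hbL⟩ : L) ≠ 0 := fun h0 => hb0 (congrArg Subtype.val h0)
  have hζ' : IsPrimitiveRoot (⟨ζ, hζL⟩ : L) p :=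
    IsPrimitiveRoot.of_map_of_injective (f := algebraMap L Qb)
      (show IsPrimitiveRoot (algebraMap L Qb ⟨ζ, hζL⟩) p from hζ)
      (FaithfulSMul.algebraMap_injective L Qb)
  obtain ⟨y, hy⟩ := hHN p hp hp3 L (h39hn_E h.le) (h39hn_finrank h) ⟨_, hζ'⟩
    (Units.mk0 _ hb0') (hD p L K σ h (Units.mk0 _ hb0') hloc)
  refine ⟨((y : h39hn_E h.le) : Qb), (y : h39hn_E h.le).2, ?_, ?_⟩
  · intro h0
    exact y.ne_zero (Subtype.ext h0)
  · rw [← h39hn_norm h, hy]
    rfl

end Fermat.Agent.PT.Glob
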