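import Mathlib
import Fermat.Agent.PT.Glob.GIface
import Fermat.Agent.PT.Loc.H76MC
import Fermat.Agent.PT.Loc.H90CarryNorm
import Fermat.Agent.PT.Loc.H81H90

/-!
# W3-PT / PT-GLOB-BR, leaf GLOB-HCYC (helper3): descent of the Hasse principle in a cyclic step

`h3g_ghCyc_of : GMCInfResPer → GMCCarryNorm → GMCMu → GLocCyc → GHasseNorm → GHCyc`.

For `K/L` cyclic of odd prime degree `p`, `μ_p ⊆ L`: a continuous `2`-cocycle `y` of `G_L` with
values in `𝔽_p` which is locally trivial at every finite place of `L` and a coboundary on `G_K`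
is a coboundary on `G_L`.

Route (design v1 of helper14, findings #791): `ζ^y ∼ 1` on `G_K`, so `ζ^y ∼ carry(b)` on `G_L`
(`GMCInfResPer`); localising at a place `(q, g)` where `K/L` is locally nontrivial, the local carry
cocycle of `ι (g b)` is a local coboundary, hence `ι (g b)` is a local norm (`Loc.MCCarryNorm`,
landed as `h90c_carryNorm h81h_mcH90`); by the Hasse norm theorem `b` is a global norm
(`GHasseNorm`), so `carry(b) ∼ 1` (`GMCCarryNorm`), `ζ^y ∼ 1` on `G_L` and `y ∼ 0` (`GMCMu`).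
-/

set_option autoImplicit false

open scoped Classical

noncomputable section

namespace Fermat.Agent.PT.Glob

open Fermat.Agent.Bridge Fermat.Agent.PT.Bridge

/-! ## Powers of a `p`-th root of unity indexed by `ZMod p` -/

theorem h3g_pow_mod {M : Type*} [Monoid M] {p : ℕ} {z : M} (hz : z ^ p = 1) (n : ℕ) :
    z ^ (n % p) = z ^ n := by
  conv_rhs => rw [← Nat.div_add_mod n p]
  rw [pow_add, pow_mul, hz, one_pow, one_mul]

theorem h3g_pow_val_add {M : Type*} [Monoid M] {p : ℕ} [NeZero p] {z : M} (hz : z ^ p = 1)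
    (a b : ZMod p) : z ^ (a + b).val = z ^ a.val * z ^ b.val := by
  rw [ZMod.val_add, h3g_pow_mod hz, pow_add]

theorem h3g_pow_val_cob {M : Type*} [CommGroup M] {p : ℕ} [NeZero p] {z : M} (hz : z ^ p = 1)
    (a b c : ZMod p) : z ^ (a - b + c).val = z ^ a.val / z ^ b.val * z ^ c.val := by
  have h1 : z ^ (a - b + c).val * z ^ b.val = z ^ a.val * z ^ c.val := by
    rw [← h3g_pow_val_add hz, ← h3g_pow_val_add hz]
    congr 2
    ring
  rw [div_mul_eq_mul_div, eq_div_iff_mul_eq']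
  exact h1

/-! ## Global cochain calculus -/

theorem h3g_smul_unit_eq {L : NFd} {s : GQ} (hs : s ∈ GU L) {u : Qbˣ}
    (hu : (u : Qb) ∈ L) : s • u = u :=
  Units.ext ((IntermediateField.mem_fixingSubgroup_iff L s).1 hs _ hu)

theorem h3g_GU_anti {L K : NFd} (h : L ≤ K) : GU K ≤ GU L := fun s hs =>
  (IntermediateField.mem_fixingSubgroup_iff L s).2 fun x hx =>
    (IntermediateField.mem_fixingSubgroup_iff K s).1 hs x (h hx)

theorem h3g_gmcob_mul (x z : GQ → Qbˣ) (y : GQ × GQ) :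
    gmcob (fun g => x g * z g) y = gmcob x y * gmcob z y := by
  simp only [gmcob, smul_mul', div_eq_mul_inv, mul_inv_rev]
  ac_rfl

theorem h3g_gcont1_mul {L : NFd} (x z : GQ → Qbˣ) (hx : GCont1 L x) (hz : GCont1 L z) :
    GCont1 L (fun g => x g * z g) := by
  obtain ⟨F, hF, hLF, h⟩ := hx
  obtain ⟨F', hF', hLF', h'⟩ := hz
  have := hF
  have := hF'
  refine ⟨F ⊔ F', IntermediateField.finiteDimensional_sup F F', hLF.trans le_sup_left,
    fun g hg s hs => ?_⟩
  simp only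
  rw [h g hg s (IntermediateField.fixingSubgroup_antitone le_sup_left hs),
    h' g hg s (IntermediateField.fixingSubgroup_antitone le_sup_right hs)]

theorem h3g_gmcohom_trans {L : NFd} {c c' c'' : GQ × GQ → Qbˣ} (h : GMCohom L c c')
    (h' : GMCohom L c' c'') : GMCohom L c c'' := by
  obtain ⟨x, hx, hcx⟩ := h
  obtain ⟨z, hz, hcz⟩ := h'
  refine ⟨fun g => z g * x g, h3g_gcont1_mul z x hz hx, fun g hg h hh => ?_⟩
  rw [h3g_gmcob_mul, hcx g hg h hh, hcz g hg h hh, mul_assoc]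

/-- `ζ ^ y` is a multiplicative `2`-cocycle when `y` is an additive one and `ζ ∈ μ_p(L)`. -/
theorem h3g_gzpw_coc {p : ℕ} [NeZero p] {L : NFd} {ζ : Qbˣ} (hζL : (ζ : Qb) ∈ L)
    (hζ : ζ ^ p = 1) {y : GQ × GQ → ZMod p} (hy : GACoc2 L y) : GMCoc2 L (gzpw ζ y) := by
  intro g hg h hh j hj
  simp only [gzpw]
  rw [smul_pow', h3g_smul_unit_eq hg hζL, ← h3g_pow_val_add hζ, ← h3g_pow_val_add hζ]
  congr 2
  have := hy g hg h hh j hj
  linear_combination -this

theorem h3g_gzpw_cont {p : ℕ} {L : NFd} (ζ : Qbˣ) {y : GQ × GQ → ZMod p} (hy : GCont2 L y) :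
    GCont2 L (gzpw ζ y) := by
  obtain ⟨F, hF, hLF, h⟩ := hy
  exact ⟨F, hF, hLF, fun g hg g' hg' s hs s' hs' => by
    simp only [gzpw]; rw [h g hg g' hg' s hs s' hs']⟩

/-- An additive coboundary becomes a multiplicative coboundary. -/
theorem h3g_gzpw_cohom {p : ℕ} [NeZero p] {K : NFd} {ζ : Qbˣ} (hζK : (ζ : Qb) ∈ K)
    (hζ : ζ ^ p = 1) {y : GQ × GQ → ZMod p} (hy : GACohom K y 0) : GMCohom K (gzpw ζ y) 1 := by
  obtain ⟨f, ⟨F, hF, hKF, hf⟩, hyf⟩ := hy
  refine ⟨fun g => ζ ^ (f g).val, ⟨F, hF, hKF, fun g hg s hs => ?_⟩, fun g hg h hh => ?_⟩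
  · simp only
    rw [hf g hg s hs]
  · simp only [gzpw, gmcob, Pi.one_apply, one_mul]
    rw [smul_pow', h3g_smul_unit_eq hg hζK, hyf g hg h hh, ← h3g_pow_val_cob hζ]
    simp [gacob]

/-! ## Localisation at a place -/

section Loc

variable (q : ℕ) [Fact q.Prime]

theorem h3g_gConj_mul (g : GQ) (h h' : Loc.Gq q) :
    gConj q g (h * h') = gConj q g h * gConj q g h' := by
  simp only [gConj, map_mul]
  group

theorem h3g_gConj_mem_iff (g : GQ) (L : NFd) (h : Loc.Gq q) :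
    gConj q g h ∈ GU L ↔ h ∈ Loc.GK (gLocField q g L) :=
  h23b_conj_mem_fixingSubgroup_iff q L g h

theorem h3g_finiteDimensional_gLocField (g : GQ) (L : NFd) [FiniteDimensional ℚ L] :
    FiniteDimensional ℚ_[q] (gLocField q g L) := by
  have : FiniteDimensional ℚ (L.map ((g : Qb ≃ₐ[ℚ] Qb) : Qb →ₐ[ℚ] Qb)) :=
    LinearEquiv.finiteDimensional (IntermediateField.equivMap L _).toLinearEquiv
  exact h23b_finiteDimensional_localField q _

theorem h3g_gLocField_mono (g : GQ) {L F : NFd} (h : L ≤ F) :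
    gLocField q g L ≤ gLocField q g F :=
  h23b_localField_mono q (IntermediateField.map_mono _ h)

theorem h3g_gLocEl_mem (g : GQ) {L : NFd} {x : Qb} (hx : x ∈ L) :
    gLocEl q g x ∈ gLocField q g L :=
  h23b_padicEmbedding_mem_localField q ⟨x, hx, rfl⟩

theorem h3g_coe_gLocUnit (g : GQ) (u : Qbˣ) :
    ((gLocUnit q g u : (Loc.Om q)ˣ) : Loc.Om q) = gLocEl q g (u : Qb) := rfl

theorem h3g_gLocUnit_smul (g : GQ) (h : Loc.Gq q) (u : Qbˣ) :
    gLocUnit q g (gConj q g h • u) = h • gLocUnit q g u := by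
  apply Units.ext
  show padicEmbedding q (g ((gConj q g h) (u : Qb))) = h (padicEmbedding q (g (u : Qb)))
  rw [← padicEmbedding_localGaloisToGlobal]
  congr 1
  simp [gConj, AlgEquiv.mul_apply]

theorem h3g_cont1_loc (g : GQ) {L : NFd} {X Y : Type*} (Φ : X → Y) {x : GQ → X}
    (hx : GCont1 L x) : Loc.Cont1 (gLocField q g L) (fun h => Φ (x (gConj q g h))) := by
  obtain ⟨F, hF, hLF, hxF⟩ := hx
  have := hF
  refine ⟨gLocField q g F, h3g_finiteDimensional_gLocField q g F, h3g_gLocField_mono q g hLF,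
    fun h hh s hs => ?_⟩
  simp only
  rw [h3g_gConj_mul, hxF _ ((h3g_gConj_mem_iff q g L h).2 hh) _ ((h3g_gConj_mem_iff q g F s).2 hs)]

/-- Localisation of a multiplicative cohomology relation. -/
theorem h3g_mcohom_loc (g : GQ) {L : NFd} {c c' : GQ × GQ → Qbˣ} (h : GMCohom L c c') :
    Loc.MCohom (gLocField q g L) (gLocM2 q g c) (gLocM2 q g c') := by
  obtain ⟨x, hx, hcx⟩ := h
  refine ⟨fun h => gLocUnit q g (x (gConj q g h)), h3g_cont1_loc q g (gLocUnit q g) hx,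
    fun h hh h' hh' => ?_⟩
  have h1 := (h3g_gConj_mem_iff q g L h).2 hh
  have h2 := (h3g_gConj_mem_iff q g L h').2 hh'
  simp only [gLocM2, Loc.mcob]
  rw [hcx _ h1 _ h2, map_mul]
  congr 1
  simp only [gmcob]
  rw [map_mul, map_div, h3g_gLocUnit_smul, h3g_gConj_mul]

theorem h3g_gLocM2_gzpw {p : ℕ} (g : GQ) (ζ : Qbˣ) (y : GQ × GQ → ZMod p) :
    gLocM2 q g (gzpw ζ y) = Loc.zpw (gLocUnit q g ζ) (gLoc2 q g y) := by
  funext h
  simp only [gLocM2, gzpw, Loc.zpw, gLoc2, map_pow]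

/-- Local version: an additive coboundary becomes a multiplicative coboundary. -/
theorem h3g_zpw_cohom_loc {p : ℕ} [NeZero p] {E : Loc.LF q} {z : (Loc.Om q)ˣ}
    (hzE : (z : Loc.Om q) ∈ E) (hz : z ^ p = 1) {y : Loc.Gq q × Loc.Gq q → ZMod p}
    (hy : Loc.ACohom E y 0) : Loc.MCohom E (Loc.zpw z y) 1 := by
  obtain ⟨f, ⟨F, hF, hKF, hf⟩, hyf⟩ := hy
  refine ⟨fun g => z ^ (f g).val, ⟨F, hF, hKF, fun g hg s hs => ?_⟩, fun g hg h hh => ?_⟩
  · simp only
    rw [hf g hg s hs]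
  · simp only [Loc.zpw, Loc.mcob, Pi.one_apply, one_mul]
    rw [smul_pow', Loc.h90c_smul_unit_eq hg hzE, hyf g hg h hh, ← h3g_pow_val_cob hz]
    simp [Loc.acob]

/-- The norm along a generator does not depend on the generator. -/
theorem h3g_normAlong_eq {K K₁ : Loc.LF q} {n : ℕ} {τ τ' : Loc.Gq q}
    (h : Loc.IsCyc K K₁ n τ) (h' : Loc.IsCyc K K₁ n τ') {β : Loc.Om q} (hβ : β ∈ K₁) :
    Loc.normAlong τ' n β = Loc.normAlong τ n β := by
  set φ : ℕ → ℕ := fun i => Loc.cycIdx K₁ τ n (τ' ^ i) with hφ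
  have hspec : ∀ i, φ i < n ∧ (τ ^ φ i)⁻¹ * τ' ^ i ∈ Loc.GK K₁ := fun i =>
    Loc.h90c_idx_spec h (pow_mem h'.mem i)
  have hval : ∀ i, (τ' ^ i) β = (τ ^ φ i) β := by
    intro i
    have h1 := (IntermediateField.mem_fixingSubgroup_iff K₁ _).1 (hspec i).2 β hβ
    have h2 : τ' ^ i = τ ^ φ i * ((τ ^ φ i)⁻¹ * τ' ^ i) := by group
    conv_lhs => rw [h2]
    rw [AlgEquiv.mul_apply]
    exact congrArg _ h1
  have hinj : ∀ i j, i < n → j < n → i ≤ j → φ i = φ j → i = j := by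
    intro i j _ hj hij he
    by_contra hne
    have hlt : i < j := lt_of_le_of_ne hij hne
    have h1 := (hspec i).2
    have h2 := (hspec j).2
    rw [← he] at h2
    have h3 := (Loc.GK K₁).mul_mem ((Loc.GK K₁).inv_mem h1) h2
    have e : ((τ ^ φ i)⁻¹ * τ' ^ i)⁻¹ * ((τ ^ φ i)⁻¹ * τ' ^ j) = τ' ^ (j - i) := by
      have hj' : τ' ^ j = τ' ^ i * τ' ^ (j - i) := by rw [← pow_add, Nat.add_sub_cancel' hij]
      rw [hj']
      group
    rw [e] at h3
    exact h'.ord (j - i) (by omega) (by omega) h3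
  have hinjOn : Set.InjOn φ (Finset.range n : Set ℕ) := by
    intro i hi j hj he
    have hi' : i < n := Finset.mem_range.1 hi
    have hj' : j < n := Finset.mem_range.1 hj
    rcases le_total i j with hij | hij
    · exact hinj i j hi' hj' hij he
    · exact (hinj j i hj' hi' hij he.symm).symm
  have himg : (Finset.range n).image φ = Finset.range n := by
    apply Finset.eq_of_subset_of_card_le
    · intro j hj
      obtain ⟨i, -, rfl⟩ := Finset.mem_image.1 hj
      exact Finset.mem_range.2 (hspec i).1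
    · rw [Finset.card_image_of_injOn hinjOn]
  unfold Loc.normAlong
  calc ∏ i ∈ Finset.range n, (τ' ^ i) β = ∏ i ∈ Finset.range n, (τ ^ φ i) β :=
        Finset.prod_congr rfl fun i _ => hval i
    _ = ∏ j ∈ (Finset.range n).image φ, (τ ^ j) β :=
        (Finset.prod_image (f := fun j => (τ ^ j) β) hinjOn).symm
    _ = ∏ j ∈ Finset.range n, (τ ^ j) β := by rw [himg]

theorem h3g_isNorm_gen {K K₁ : Loc.LF q} {n : ℕ} {τ τ' : Loc.Gq q}
    (h : Loc.IsCyc K K₁ n τ) (h' : Loc.IsCyc K K₁ n τ') {b : Loc.Om q}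
    (hb : Loc.IsNorm K₁ τ' n b) : Loc.IsNorm K₁ τ n b := by
  obtain ⟨β, hβ, hβ0, hN⟩ := hb
  exact ⟨β, hβ, hβ0, by rw [← h3g_normAlong_eq q h h' hβ, hN]⟩

end Loc

/-! ## The descent -/

/-- **GLOB-HCYC**, with the local carry/norm criterion as an explicit hypothesis. -/
theorem h3g_ghCyc_of' (hIRP : GMCInfResPer) (hCN : GMCCarryNorm) (hMu : GMCMu) (hLC : GLocCyc)
    (hHN : GHasseNorm) (hLCN : Loc.MCCarryNorm) : GHCyc := by
  intro p _ hp2 L K _ σ ζ hζL hζ hcyc y hyc hycont hloc hK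
  have hp : p.Prime := Fact.out
  have : NeZero p := ⟨hp.ne_zero⟩
  have hζ0 : ζ ≠ 0 := hζ.ne_zero hp.ne_zero
  obtain ⟨ζu, hζu⟩ : ∃ u : Qbˣ, (u : Qb) = ζ := ⟨Units.mk0 ζ hζ0, rfl⟩
  subst hζu
  have hζuL : (ζu : Qb) ∈ L := hζL
  have hζup : ζu ^ p = 1 := Units.ext (by simpa using hζ.pow_eq_one)
  have hprim : IsPrimitiveRoot (ζu : Qb) p := hζ
  -- `ζ ^ y` is a continuous multiplicative cocycle on `G_L`, a coboundary on `G_K`
  have hc2 : GMCoc2 L (gzpw ζu y) := h3g_gzpw_coc hζuL hζup hyc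
  have hcont : GCont2 L (gzpw ζu y) := h3g_gzpw_cont ζu hycont
  have hK1 : GMCohom K (gzpw ζu y) 1 := h3g_gzpw_cohom (hcyc.le hζuL) hζup hK
  -- hence cohomologous to a carry cocycle
  obtain ⟨b, hbL, hb⟩ := hIRP L K p σ hcyc (gzpw ζu y) hc2 hcont hK1
  -- `b` is a local norm everywhere, hence a global norm
  have hnorm : GIsNorm K σ p (b : Qb) := by
    refine hHN p hp2 L K σ (ζu : Qb) (b : Qb) hζL hζ hcyc hbL b.ne_zero ?_
    intro q _ g τ hτ
    have := h3g_finiteDimensional_gLocField q g L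
    rcases hLC p L K σ hcyc q g with heq | ⟨τ', hτ', -, hidx⟩
    · exfalso
      have h1 : τ ∈ Loc.GK (gLocField q g K) := by rw [heq]; exact hτ.mem
      exact hτ.ord 1 one_pos hp.one_lt (by simpa using h1)
    · have hloc1 : Loc.MCohom (gLocField q g L) (gLocM2 q g (gzpw ζu y))
          (gLocM2 q g (gcarry K σ p b)) := h3g_mcohom_loc q g hb
      have hloc2 : Loc.MCohom (gLocField q g L) (gLocM2 q g (gzpw ζu y)) 1 := by
        rw [h3g_gLocM2_gzpw]
        refine h3g_zpw_cohom_loc q (h3g_gLocEl_mem q g hζuL) ?_ (hloc q g)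
        rw [← map_pow, hζup, map_one]
      have hloc3 : Loc.MCohom (gLocField q g L) (gLocM2 q g (gcarry K σ p b)) 1 :=
        Loc.h76m_trans (Loc.h76m_symm hloc1) hloc2
      have hcarry : Loc.MCohom (gLocField q g L)
          (Loc.carry (gLocField q g K) τ' p (gLocUnit q g b)) 1 := by
        refine Loc.h76m_trans (Loc.h76m_of_eq _ ?_) hloc3
        intro h hh h' hh'
        simp only [Loc.carry, gLocM2, gcarry]
        rw [hidx h hh, hidx h' hh']
        split_ifs <;> simp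
      have hN := (hLCN q (gLocField q g L) (gLocField q g K) p τ' (gLocUnit q g b) hτ'
        (h3g_gLocEl_mem q g hbL)).1 hcarry
      exact h3g_isNorm_gen q hτ hτ' hN
  -- so the carry cocycle is a coboundary, and so is `ζ ^ y`, and so is `y`
  have h6 : GMCohom L (gcarry K σ p b) 1 := (hCN L K p σ b hcyc hbL).2 hnorm
  have h7 : GMCohom L (gzpw ζu y) 1 := h3g_gmcohom_trans hb h6
  exact hMu p L ζu hζuL hprim y hyc hycont h7

/-- **GLOB-HCYC**: descent of the Hasse principle in a cyclic step of degree `p`, from the global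
multiplicative cochain calculus (`GMCInfResPer`, `GMCCarryNorm`, `GMCMu`), the localisation
dictionary (`GLocCyc`) and the Hasse norm theorem (`GHasseNorm`). The local input
`Loc.MCCarryNorm` is the landed `h90c_carryNorm h81h_mcH90`. -/
theorem h3g_ghCyc_of (hIRP : GMCInfResPer) (hCN : GMCCarryNorm) (hMu : GMCMu) (hLC : GLocCyc)
    (hHN : GHasseNorm) : GHCyc :=
  h3g_ghCyc_of' hIRP hCN hMu hLC hHN (Loc.h90c_carryNorm Loc.h81h_mcH90)

end Fermat.Agent.PT.Glob
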