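import Mathlib
import Fermat.Agent.PT.Glob.GBasic
import Fermat.Agent.PT.Glob.GIface
import Fermat.Agent.PT.Loc.B0TowerGrp12

/-!
# PT-GLOB, leaf GLOB-HTOWER (helper66): the Sylow tower over `(ℚ, ℚ̄)`

`theorem h66g_ghTower : GHTower`: every continuous `2`-cochain on `G_L` is constant on `G_{T m}`
for a tower `L ≤ T 0 ≤ … ≤ T m` with `[T 0 : L]` prime to `p` and all other steps cyclic of
degree `p`.  Port of helper12's local proof (`PT/Loc/B0Tower12.lean`); the group theory
(`h12t_tower`) is reused verbatim.
-/

set_option autoImplicit false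

open scoped Classical

noncomputable section

namespace Fermat.Agent.PT.Glob

open Fermat.Agent.Bridge Fermat.Agent.PT.Loc

/-- `ℚ̄` is Galois over `ℚ`. -/
theorem h66g_isGalois : IsGalois ℚ Qb :=
  haveI : IsAlgClosure ℚ Qb := ⟨inferInstance, AlgebraicClosure.isAlgebraic ℚ⟩
  IsAlgClosure.isGalois ℚ Qb

/-- Galois dictionary for subgroups containing the absolute Galois group of a number field:
such a subgroup is the absolute Galois group of its fixed field, which is a number field. -/
theorem h66g_dict (F' : NFd) [FiniteDimensional ℚ F'] (H : Subgroup GQ)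
    (hH : GU F' ≤ H) :
    GU (IntermediateField.fixedField H) = H ∧
      FiniteDimensional ℚ (IntermediateField.fixedField H) := by
  have := h66g_isGalois
  have hopen : IsOpen (H : Set GQ) :=
    Subgroup.isOpen_mono hH (IntermediateField.fixingSubgroup_isOpen F')
  have hclosed : IsClosed (H : Set GQ) := Subgroup.isClosed_of_isOpen H hopen
  have h1 : GU (IntermediateField.fixedField H) = H :=
    InfiniteGalois.fixingSubgroup_fixedField (⟨H, hclosed⟩ : ClosedSubgroup GQ)
  refine ⟨h1, ?_⟩
  refine (InfiniteGalois.isOpen_iff_finite (IntermediateField.fixedField H)).1 ?_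
  have h2 : (IntermediateField.fixedField H).fixingSubgroup = H := h1
  rw [h2]
  exact hopen

/-- **GH-TOWER.** -/
theorem h66g_ghTower : GHTower := by
  intro p _ L _ c hc
  obtain ⟨F, hFfin, hLF, hinv⟩ := hc
  have := hFfin
  have := h66g_isGalois
  -- the normal closure of `F`
  let F' : NFd := IntermediateField.normalClosure ℚ F Qb
  have hF'fin : FiniteDimensional ℚ F' := normalClosure.is_finiteDimensional ℚ F Qb
  have hF'gal : IsGalois ℚ F' := IsGalois.normalClosure ℚ F Qb
  have hFF' : F ≤ F' := IntermediateField.le_normalClosure F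
  have hNF : GU F' ≤ GU F := IntermediateField.fixingSubgroup_antitone hFF'
  have hNL : GU F' ≤ GU L := IntermediateField.fixingSubgroup_antitone (hLF.trans hFF')
  have hnorm : (GU F').Normal := (InfiniteGalois.normal_iff_isGalois F').2 hF'gal
  have hfinq : Finite (GQ ⧸ GU F') :=
    Subgroup.quotient_finite_of_isOpen _ (IntermediateField.fixingSubgroup_isOpen F')
  obtain ⟨m, H, σ, hNH, hH0, hidx, hHm, hstep⟩ := h12t_tower p (GU F') (GU L) hNL
  have hd : ∀ i, GU (IntermediateField.fixedField (H i)) = H i ∧
      FiniteDimensional ℚ (IntermediateField.fixedField (H i)) :=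
    fun i => h66g_dict F' (H i) (hNH i)
  refine ⟨m, fun i => IntermediateField.fixedField (H i), σ, ?_, ?_, ?_, ?_, ?_⟩
  · exact (IntermediateField.le_iff_le (H 0) L).2 hH0
  · intro i _
    exact (hd i).2
  · show ¬ p ∣ ((GU (IntermediateField.fixedField (H 0))).subgroupOf (GU L)).index
    rw [(hd 0).1]
    exact hidx
  · intro i hi
    obtain ⟨h1, h2, h3, h4, h5⟩ := hstep i hi
    refine ⟨IntermediateField.fixedField_antitone h1, (hd (i + 1)).2, ?_, ?_, ?_, ?_,
      (Fact.out : p.Prime).pos⟩
    · show σ i ∈ GU (IntermediateField.fixedField (H i))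
      rw [(hd i).1]; exact h2
    · intro g hg s hs
      have hg' : g ∈ H i := (hd i).1 ▸ hg
      have hs' : s ∈ H (i + 1) := (hd (i + 1)).1 ▸ hs
      show g * s * g⁻¹ ∈ GU (IntermediateField.fixedField (H (i + 1)))
      rw [(hd (i + 1)).1]
      exact h3 g hg' s hs'
    · intro g hg
      have hg' : g ∈ H i := (hd i).1 ▸ hg
      obtain ⟨k, hk, h⟩ := h4 g hg'
      refine ⟨k, hk, ?_⟩
      show (σ i ^ k)⁻¹ * g ∈ GU (IntermediateField.fixedField (H (i + 1)))
      rw [(hd (i + 1)).1]
      exact h
    · intro k h0 hk h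
      have h' : σ i ^ k ∈ H (i + 1) := (hd (i + 1)).1 ▸ h
      exact h5 k h0 hk h'
  · intro g hg h hh
    have hg' : g ∈ GU F := by
      have : g ∈ H m := (hd m).1 ▸ hg
      rw [hHm] at this
      exact hNF this
    have hh' : h ∈ GU F := by
      have : h ∈ H m := (hd m).1 ▸ hh
      rw [hHm] at this
      exact hNF this
    have := hinv 1 (one_mem _) 1 (one_mem _) g hg' h hh'
    simpa using this

end Fermat.Agent.PT.Glob
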