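import Mathlib
import Fermat.Agent.PT.Glob.GIface

/-!
# W3-PT / PT-GLOB-BR leaf GLOB-LOCCYC (helper82): localisation of a cyclic step

`h82c_gLocCyc : GLocCyc`: for `K/L` cyclic of prime degree `p` with generator `σ` and a place
`(q, g)`, either the local fields agree or `E_K/E_L` is cyclic of degree `p` with a generator `τ`
inducing `σ`, and the local and global indices agree.

Proof: pure group theory (`h82c_abstract`) for the homomorphism `h ↦ g⁻¹ r_q(h) g`, plus the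
dictionary `h23b_conj_mem_fixingSubgroup_iff` and the Galois correspondence.
-/

set_option autoImplicit false

open scoped Classical

noncomputable section

namespace Fermat.Agent.PT.Glob

open Fermat.Agent.Bridge

/-! ## The abstract group-theoretic core -/

section Abstract

variable {G : Type*} [Group G]

/-- If `σ⁻¹ t ∈ B` and `B` is normalised by `A ∋ σ, t`, then `(σ^i)⁻¹ t^i ∈ B`. -/
theorem h82c_pow_congr (A B : Subgroup G)
    (hnormal : ∀ g ∈ A, ∀ s ∈ B, g * s * g⁻¹ ∈ B) {σ t : G} (hσ : σ ∈ A)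
    (h : σ⁻¹ * t ∈ B) (i : ℕ) : (σ ^ i)⁻¹ * t ^ i ∈ B := by
  induction i with
  | zero => simp
  | succ i ih =>
    have h1 : (σ ^ (i + 1))⁻¹ * t ^ (i + 1) =
        (σ⁻¹ * ((σ ^ i)⁻¹ * t ^ i) * σ⁻¹⁻¹) * (σ⁻¹ * t) := by
      rw [pow_succ, pow_succ]
      group
    rw [h1]
    exact B.mul_mem (hnormal σ⁻¹ (A.inv_mem hσ) _ ih) h

/-- `σ^p ∈ B` in a cyclic step. -/
theorem h82c_pow_mem (A B : Subgroup G) {p : ℕ} {σ : G} (hσ : σ ∈ A)
    (hgen : ∀ g ∈ A, ∃ i, i < p ∧ (σ ^ i)⁻¹ * g ∈ B)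
    (hord : ∀ i, 0 < i → i < p → σ ^ i ∉ B) : σ ^ p ∈ B := by
  obtain ⟨i, hi, hmem⟩ := hgen (σ ^ p) (A.pow_mem hσ p)
  have h1 : (σ ^ i)⁻¹ * σ ^ p = σ ^ (p - i) := by
    rw [inv_mul_eq_iff_eq_mul, ← pow_add]
    congr 1
    omega
  rw [h1] at hmem
  rcases Nat.eq_zero_or_pos i with h0 | h0
  · subst h0
    simpa using hmem
  · exact absurd hmem (hord (p - i) (by omega) (by omega))

theorem h82c_abstract {H' : Type*} [Group H'] (A B : Subgroup G) {p : ℕ} (hp : p.Prime)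
    {σ : G} (hσ : σ ∈ A)
    (hnormal : ∀ g ∈ A, ∀ s ∈ B, g * s * g⁻¹ ∈ B)
    (hgen : ∀ g ∈ A, ∃ i, i < p ∧ (σ ^ i)⁻¹ * g ∈ B)
    (hord : ∀ i, 0 < i → i < p → σ ^ i ∉ B)
    (c : H' →* G) :
    (∀ h, c h ∈ A → c h ∈ B) ∨
    ∃ τ : H', c τ ∈ A ∧ σ⁻¹ * c τ ∈ B ∧
      ∀ h, c h ∈ A → ∀ i : ℕ, (c ((τ ^ i)⁻¹ * h) ∈ B ↔ (σ ^ i)⁻¹ * c h ∈ B) := by
  by_cases hall : ∀ h, c h ∈ A → c h ∈ B
  · exact Or.inl hall
  right
  push Not at hall
  obtain ⟨h₀, hA, hB⟩ := hall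
  obtain ⟨i, hip, hi⟩ := hgen (c h₀) hA
  have hi0 : 0 < i := by
    rcases Nat.eq_zero_or_pos i with h0 | h0
    · subst h0
      exact absurd (by simpa using hi) hB
    · exact h0
  -- an inverse of `i` modulo `p`
  have hcop : Nat.Coprime i p :=
    ((Nat.Prime.coprime_iff_not_dvd hp).mpr (Nat.not_dvd_of_pos_of_lt hi0 hip)).symm
  obtain ⟨j, -, hj⟩ := Nat.exists_mul_mod_eq_one_of_coprime hcop hp.one_lt
  have hij : i * j = p * (i * j / p) + 1 := by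
    have := Nat.div_add_mod (i * j) p
    omega
  have hσp : σ ^ p ∈ B := h82c_pow_mem A B hσ hgen hord
  have hσi : σ ^ i ∈ A := A.pow_mem hσ i
  have h1 : ((σ ^ i) ^ j)⁻¹ * (c h₀) ^ j ∈ B := h82c_pow_congr A B hnormal hσi hi j
  have h2 : σ⁻¹ * (σ ^ i) ^ j ∈ B := by
    rw [← pow_mul, hij, pow_succ, pow_mul]
    have h3 : σ⁻¹ * ((σ ^ p) ^ (i * j / p) * σ) = σ⁻¹ * (σ ^ p) ^ (i * j / p) * σ⁻¹⁻¹ := by
      group
    rw [h3]
    exact hnormal σ⁻¹ (A.inv_mem hσ) _ (B.pow_mem hσp _)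
  have hτA : c (h₀ ^ j) ∈ A := by
    rw [map_pow]
    exact A.pow_mem hA j
  have hτ : σ⁻¹ * c (h₀ ^ j) ∈ B := by
    rw [map_pow]
    have h3 : σ⁻¹ * (c h₀) ^ j = (σ⁻¹ * (σ ^ i) ^ j) * (((σ ^ i) ^ j)⁻¹ * (c h₀) ^ j) := by
      group
    rw [h3]
    exact B.mul_mem h2 h1
  refine ⟨h₀ ^ j, hτA, hτ, fun h _ k => ?_⟩
  have h4 : (σ ^ k)⁻¹ * (c (h₀ ^ j)) ^ k ∈ B := h82c_pow_congr A B hnormal hσ hτ k
  have h5 : c (((h₀ ^ j) ^ k)⁻¹ * h) =
      ((σ ^ k)⁻¹ * (c (h₀ ^ j)) ^ k)⁻¹ * ((σ ^ k)⁻¹ * c h) := by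
    rw [map_mul, map_inv, map_pow]
    group
  rw [h5]
  exact Subgroup.mul_mem_cancel_left B (B.inv_mem h4)

end Abstract

/-! ## The dictionary -/

/-- `h ↦ g⁻¹ r_q(h) g` as a homomorphism. -/
def h82c_conjHom (q : ℕ) [Fact q.Prime] (g : GQ) : Loc.Gq q →* GQ :=
  (MulAut.conj g⁻¹).toMonoidHom.comp (localGaloisToGlobal q)

theorem h82c_conjHom_apply (q : ℕ) [Fact q.Prime] (g : GQ) (h : Loc.Gq q) :
    h82c_conjHom q g h = gConj q g h := by
  simp [h82c_conjHom, gConj]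

theorem h82c_conj_mem_iff (q : ℕ) [Fact q.Prime] (g : GQ) (L : NFd) (h : Loc.Gq q) :
    gConj q g h ∈ GU L ↔ h ∈ Loc.GK (gLocField q g L) :=
  Fermat.Agent.PT.Bridge.h23b_conj_mem_fixingSubgroup_iff q L g h

theorem h82c_conjHom_mem_iff (q : ℕ) [Fact q.Prime] (g : GQ) (L : NFd) (h : Loc.Gq q) :
    h82c_conjHom q g h ∈ GU L ↔ h ∈ Loc.GK (gLocField q g L) := by
  rw [h82c_conjHom_apply, h82c_conj_mem_iff]

theorem h82c_mem_of_fixed {q : ℕ} [Fact q.Prime] (E : Loc.LF q) (x : Loc.Om q)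
    (h : ∀ s ∈ Loc.GK E, s x = x) : x ∈ E := by
  have h1 : x ∈ IntermediateField.fixedField (Loc.GK E) := by
    rw [IntermediateField.mem_fixedField_iff]
    exact fun s hs => h s hs
  rwa [InfiniteGalois.fixedField_fixingSubgroup] at h1

theorem h82c_find_congr {P P' : ℕ → Prop} [DecidablePred P] [DecidablePred P']
    [Decidable (∃ i, P i)] [Decidable (∃ i, P' i)] (h : ∀ i, P i ↔ P' i) :
    (if h : ∃ i, P i then Nat.find h else 0) = (if h : ∃ i, P' i then Nat.find h else 0) := by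
  by_cases hex : ∃ i, P i
  · have hex' : ∃ i, P' i := by
      obtain ⟨i, hi⟩ := hex
      exact ⟨i, (h i).mp hi⟩
    rw [dif_pos hex, dif_pos hex']
    apply le_antisymm
    · exact Nat.find_min' hex ((h _).mpr (Nat.find_spec hex'))
    · exact Nat.find_min' hex' ((h _).mp (Nat.find_spec hex))
  · have hex' : ¬ ∃ i, P' i := by
      rintro ⟨i, hi⟩
      exact hex ⟨i, (h i).mpr hi⟩
    rw [dif_neg hex, dif_neg hex']

/-! ## The leaf -/

/-- **GLOB-LOCCYC.** -/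
theorem h82c_gLocCyc : GLocCyc := by
  intro p _ L K _ σ hcyc q _ g
  have hp : p.Prime := Fact.out
  have hle : gLocField q g L ≤ gLocField q g K :=
    Fermat.Agent.PT.Bridge.h23b_localField_mono q (IntermediateField.map_mono _ hcyc.le)
  rcases h82c_abstract (GU L) (GU K) hp hcyc.mem hcyc.normal hcyc.gen hcyc.ord
    (h82c_conjHom q g) with hall | ⟨τ, hτA, hτ, hiff⟩
  · left
    refine le_antisymm ?_ hle
    intro x hx
    apply h82c_mem_of_fixed
    intro s hs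
    have h1 : s ∈ Loc.GK (gLocField q g K) :=
      (h82c_conjHom_mem_iff q g K s).mp (hall s ((h82c_conjHom_mem_iff q g L s).mpr hs))
    exact (IntermediateField.mem_fixingSubgroup_iff _ s).mp h1 x hx
  · right
    have hτL : τ ∈ Loc.GK (gLocField q g L) := (h82c_conjHom_mem_iff q g L τ).mp hτA
    -- the key equivalence, in field language
    have hkey : ∀ h ∈ Loc.GK (gLocField q g L), ∀ i : ℕ,
        ((τ ^ i)⁻¹ * h ∈ Loc.GK (gLocField q g K) ↔ (σ ^ i)⁻¹ * gConj q g h ∈ GU K) := by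
      intro h hh i
      rw [← h82c_conjHom_mem_iff q g K, ← h82c_conjHom_apply]
      exact hiff h ((h82c_conjHom_mem_iff q g L h).mpr hh) i
    have hfinK : FiniteDimensional ℚ K := hcyc.fin
    have hfin : FiniteDimensional ℚ_[q] (gLocField q g K) :=
      Fermat.Agent.PT.Bridge.h23b_finiteDimensional_localField q _
    refine ⟨τ, ⟨hle, hfin, hτL, ?_, ?_, ?_, hp.pos⟩, ?_, ?_⟩
    · -- normal
      intro h hh t ht
      rw [← h82c_conjHom_mem_iff q g K, map_mul, map_mul, map_inv]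
      exact hcyc.normal _ ((h82c_conjHom_mem_iff q g L h).mpr hh) _
        ((h82c_conjHom_mem_iff q g K t).mpr ht)
    · -- gen
      intro h hh
      obtain ⟨i, hi, hmem⟩ := hcyc.gen (gConj q g h) ((h82c_conj_mem_iff q g L h).mpr hh)
      exact ⟨i, hi, (hkey h hh i).mpr hmem⟩
    · -- ord
      intro i hi0 hip hmem
      have hτi : τ ^ i ∈ Loc.GK (gLocField q g L) := Subgroup.pow_mem _ hτL i
      have h1 : (σ ^ i)⁻¹ * gConj q g (τ ^ i) ∈ GU K := by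
        rw [← hkey (τ ^ i) hτi i, inv_mul_cancel]
        exact Subgroup.one_mem _
      have h2 : gConj q g (τ ^ i) ∈ GU K := (h82c_conj_mem_iff q g K (τ ^ i)).mpr hmem
      have h3 : σ ^ i = gConj q g (τ ^ i) * ((σ ^ i)⁻¹ * gConj q g (τ ^ i))⁻¹ := by group
      exact hcyc.ord i hi0 hip (h3 ▸ (GU K).mul_mem h2 ((GU K).inv_mem h1))
    · rw [← h82c_conjHom_apply]
      exact hτ
    · intro h hh
      unfold Loc.cycIdx gcycIdx
      exact @h82c_find_congr _ _ _ _ _ _ fun i => and_congr_right fun _ => hkey h hh i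

end Fermat.Agent.PT.Glob
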