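import Mathlib
import Fermat.Agent.PT.Glob.GBasic
import Fermat.Agent.PT.Glob.GIface
import Fermat.Agent.PT.Loc.H57ResInj

/-!
# W3-PT / PT-GLOB-BR, leaf GLOB-HCOPRIME (helper83)

`h83c_gHCoprime : GHCoprime` — descent of "`y` is a coboundary" in a step `K/L` of index prime
to `p` (restriction–corestriction), global relative language of `Glob/GBasic.lean`.

Port of the cohomological part of `PT/Loc/H57Coprime.lean`: the group-generic explicit transfer
`h57_cob_of_res_rel` of `PT/Loc/H57ResInj.lean` (helper57) applied to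
`G = G_L`, `H = G_K`, `N = G_{F'}` with `F'` the normal closure of a common level of continuity.
-/

set_option autoImplicit false

open scoped Classical

noncomputable section

namespace Fermat.Agent.PT.Glob

open Fermat.Agent.Bridge

/-- `ℚ̄ / ℚ` is Galois. -/
theorem h83c_isGalois_Qb : IsGalois ℚ Qb :=
  have : IsAlgClosure ℚ Qb := ⟨inferInstance, AlgebraicClosure.isAlgebraic ℚ⟩
  IsAlgClosure.isGalois ℚ Qb

/-- Every number field inside `ℚ̄` is contained in a finite normal one, whose absolute Galois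
group is a normal subgroup of `GQ`. -/
theorem h83c_exists_normal_ge (F : NFd) [FiniteDimensional ℚ F] :
    ∃ F' : NFd, F ≤ F' ∧ FiniteDimensional ℚ F' ∧ (GU F').Normal := by
  have hG : IsGalois ℚ Qb := h83c_isGalois_Qb
  have hN : Normal ℚ Qb := IsGalois.to_normal
  have hN' : Normal ℚ (IntermediateField.normalClosure ℚ F Qb) := normalClosure.normal ℚ F Qb
  have hG' : IsGalois ℚ (IntermediateField.normalClosure ℚ F Qb) := ⟨⟩
  refine ⟨IntermediateField.normalClosure ℚ F Qb, IntermediateField.le_normalClosure F,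
    inferInstance, ?_⟩
  exact IsGalois.fixingSubgroup_normal_of_isGalois _

/-- **Restriction is injective on `H²(G_L, 𝔽_p)` in index prime to `p`** (global form; no
finiteness assumption on `L`, `K` is needed). -/
theorem h83c_gacohom_zero_of_res {p : ℕ} [Fact p.Prime] (L K : NFd) (hle : L ≤ K)
    (hp : ¬ p ∣ ((GU K).subgroupOf (GU L)).index)
    (c : GQ × GQ → ZMod p) (hc : GACoc2 L c) (hcont : GCont2 L c) (h : GACohom K c 0) :
    GACohom L c 0 := by
  obtain ⟨y, ⟨F₁, hF₁fin, hKF₁, hyF₁⟩, hy⟩ := h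
  obtain ⟨F, hFfin, hLF, hcF⟩ := hcont
  have := hF₁fin
  have := hFfin
  have : FiniteDimensional ℚ ↥(F ⊔ F₁) := IntermediateField.finiteDimensional_sup F F₁
  obtain ⟨F', hFF', hF'fin, hF'n⟩ := h83c_exists_normal_ge (F ⊔ F₁)
  have hF'F : GU F' ≤ GU F := IntermediateField.fixingSubgroup_antitone (le_sup_left.trans hFF')
  have hF'F₁ : GU F' ≤ GU F₁ :=
    IntermediateField.fixingSubgroup_antitone (le_sup_right.trans hFF')
  have hF₁K : GU F₁ ≤ GU K := IntermediateField.fixingSubgroup_antitone hKF₁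
  have hKL : GU K ≤ GU L := IntermediateField.fixingSubgroup_antitone hle
  have hidx : ((((GU K).subgroupOf (GU L)).index : ℕ) : ZMod p) ≠ 0 := by
    intro h0
    exact hp ((ZMod.natCast_eq_zero_iff _ _).1 h0)
  obtain ⟨f, hfN, hf⟩ := Fermat.Agent.PT.Loc.h57_cob_of_res_rel (A := ZMod p) (GU L) (GU K)
    (GU F') hKL (hF'F₁.trans hF₁K) hidx c y hc
    (fun g hg h hh => by
      have := hy g hg h hh
      simpa [gacob] using this)
    (fun g hg g' hg' s hs s' hs' => hcF g hg g' hg' s (hF'F hs) s' (hF'F hs'))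
    (fun g hg s hs => hyF₁ g hg s (hF'F₁ hs))
  refine ⟨f, ⟨F', hF'fin, hLF.trans (le_sup_left.trans hFF'), hfN⟩, fun g hg h hh => ?_⟩
  have := hf g hg h hh
  simpa [gacob] using this

/-- **GLOB-HCOPRIME.** -/
theorem h83c_gHCoprime : GHCoprime := by
  intro p _ L K _ _ hle hp y hy hcont h
  exact h83c_gacohom_zero_of_res L K hle hp y hy hcont h

end Fermat.Agent.PT.Glob
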