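import Fermat.Agent.PT.Glob.H39Hasse
import Fermat.Agent.PT.Glob.H39HNPack
import Fermat.Agent.PT.Glob.H66GHTower
import Fermat.Agent.PT.Glob.H83GHCoprime
import Fermat.Agent.PT.Glob.H3HCyc
import Fermat.Agent.PT.Glob.H82LocCyc
import Fermat.Agent.PT.Glob.MC.H53CNorm
import Fermat.Agent.PT.Glob.MC.H52MuFinal
import Fermat.Agent.PT.Glob.MC.H95InfResFinal

/-!
# W3-PT / PT-GLOB-BR (helper39): wiring of the Hasse principle

All leaves of the block `GH…` except the Hasse norm theorem are landed unconditionally; this file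
wires them:

* `h39gw_ghCyc_of      : GHasseNorm → GHCyc`;
* `h39gw_gHasse_of     : GHasseNorm → GHasse`;
* `h39gw_gHasse_of_hn  : IfaceHN → H39LocNormDict → GHasse`;
* `h39gw_gHasse_of_ineq : IfaceAdm → IfaceFI → IfaceSI → H39LocNormDict → GHasse`.
-/

set_option autoImplicit false

namespace Fermat.Agent.PT.Glob

theorem h39gw_ghCyc_of (hHN : GHasseNorm) : GHCyc :=
  h3g_ghCyc_of h95g_gmcInfResPer h53g_gmcCarryNorm h52g_gmcMu h82c_gLocCyc hHN

theorem h39gw_gHasse_of (hHN : GHasseNorm) : GHasse :=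
  gHasse_of h66g_ghTower h83c_gHCoprime (h39gw_ghCyc_of hHN)

theorem h39gw_gHasse_of_hn (hHN : IfaceHN) (hD : H39LocNormDict) : GHasse :=
  h39gw_gHasse_of (h39hn_gHasseNorm_of hHN hD)

theorem h39gw_gHasse_of_ineq (hAdm : IfaceAdm) (hFI : IfaceFI) (hSI : IfaceSI)
    (hD : H39LocNormDict) : GHasse :=
  h39gw_gHasse_of_hn (hn_ni_of hAdm hFI hSI).1 hD

end Fermat.Agent.PT.Glob
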