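import Mathlib
import Fermat.Agent.PT.Glob.Core
import Fermat.Agent.PT.Units.Kummer
import Fermat.Agent.Cheb.Ramified

/-!
# W3-PT / PT-GLOB, leaf GLOB-ADM: admissible sets exist

`ifaceAdm : IfaceAdm` — every finite set of finite places of `L` is contained in an admissible
set `T` for `K / L` and `p`: `T` contains the places above `p` and the places ramified in `K`, and
the `T`-class groups of `L` and of `K` are trivial.
-/

set_option autoImplicit false
set_option linter.unusedSectionVars false

open NumberField IsDedekindDomain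

namespace Fermat.Agent.PT.Glob

open Fermat.Agent.PT.Units

section

variable {F : Type} [Field F] [NumberField F]

/-- the valuation form of a large set of primes -/
theorem adm_tClassGroupTrivial_of_isLarge {S : Set (HeightOneSpectrum (𝓞 F))}
    (h : SU_IsLarge F S) : TClassGroupTrivial F S := by
  intro v hv
  obtain ⟨x, hx1, hx2⟩ := h v
  refine ⟨x, ?_, fun w hw hwv => ?_⟩
  · rw [← SU_exp_ord, hx1 hv]
  · rw [← SU_exp_ord, hx2 w hw hwv, WithZero.exp_zero]

theorem adm_tClassGroupTrivial_mono {S S' : Set (HeightOneSpectrum (𝓞 F))}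
    (h : TClassGroupTrivial F S) (hSS' : S ⊆ S') : TClassGroupTrivial F S' := by
  intro v hv
  obtain ⟨x, hx1, hx2⟩ := h v (fun h' => hv (hSS' h'))
  exact ⟨x, hx1, fun w hw hwv => hx2 w (fun h' => hw (hSS' h')) hwv⟩

/-- the primes containing a nonzero natural number form a finite set -/
theorem adm_finite_above (p : ℕ) (hp : p ≠ 0) :
    {v : HeightOneSpectrum (𝓞 F) | (p : 𝓞 F) ∈ v.asIdeal}.Finite := by
  have hne : Ideal.span {(p : 𝓞 F)} ≠ 0 := by
    rw [Ne, Ideal.zero_eq_bot, Ideal.span_singleton_eq_bot]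
    exact_mod_cast hp
  refine (Ideal.finite_factors hne).subset ?_
  intro v hv
  show v.asIdeal ∣ Ideal.span {(p : 𝓞 F)}
  rw [Ideal.dvd_span_singleton]
  exact hv

end

theorem ifaceAdm : IfaceAdm := by
  classical
  intro p hp L K _ _ _ _ _ _ T₀
  -- large sets for `L` and for `K`
  obtain ⟨SL, hSLfin, -, hSL⟩ := SU_exists_large L ∅ Set.finite_empty
  obtain ⟨SK, hSKfin, -, hSK⟩ := SU_exists_large K ∅ Set.finite_empty
  have hram : {v : HeightOneSpectrum (𝓞 L) | v.asIdeal.ramificationIdxIn (𝓞 K) ≠ 1}.Finite :=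
    Fermat.Agent.Cheb.finite_ramified L K
  have hp' := adm_finite_above (F := L) p hp.ne_zero
  have hunder : ((fun w : HeightOneSpectrum (𝓞 K) => w.under (𝓞 L)) '' SK).Finite :=
    hSKfin.image _
  set T : Finset (HeightOneSpectrum (𝓞 L)) :=
    T₀ ∪ hp'.toFinset ∪ hram.toFinset ∪ hSLfin.toFinset ∪ hunder.toFinset with hT
  refine ⟨T, ?_, ?_, ?_, ?_, ?_⟩
  · intro v hv
    simp only [hT, Finset.mem_union]
    tauto
  · intro v hv
    simp only [hT, Finset.mem_union, Set.Finite.mem_toFinset]
    exact Or.inl (Or.inl (Or.inl (Or.inr hv)))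
  · intro v hv
    by_contra hne
    apply hv
    simp only [hT, Finset.mem_union, Set.Finite.mem_toFinset]
    exact Or.inl (Or.inl (Or.inr hne))
  · refine adm_tClassGroupTrivial_mono (adm_tClassGroupTrivial_of_isLarge hSL) ?_
    intro v hv
    simp only [hT, Finset.coe_union, Set.mem_union, Finset.mem_coe, Set.Finite.mem_toFinset]
    exact Or.inl (Or.inr hv)
  · refine adm_tClassGroupTrivial_mono (adm_tClassGroupTrivial_of_isLarge hSK) ?_
    intro w hw
    refine ⟨w.under (𝓞 L), ?_, rfl⟩
    simp only [hT, Finset.coe_union, Set.mem_union, Finset.mem_coe, Set.Finite.mem_toFinset]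
    exact Or.inr ⟨w, hw, rfl⟩

end Fermat.Agent.PT.Glob
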