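import Mathlib
import Fermat.Agent.PT.Glob.Adm
import Fermat.Agent.PT.Glob.FI.Main
import Fermat.Agent.PT.Glob.SI.Final68
import Fermat.Agent.PT.Glob.SI.H74LPIdx
import Fermat.Agent.PT.Glob.SI.H74LNSplit
import Fermat.Agent.PT.Glob.SI.H59LNUnr
import Fermat.Agent.PT.Glob.SI.H89Newton
import Fermat.Agent.PT.Glob.SI.H8FBAsm
import Fermat.Agent.PT.Glob.SI.H41Aux
import Fermat.Agent.PT.Glob.SI.H24Res
import Fermat.Agent.PT.Glob.SI.H25KumGen
import Fermat.Agent.PT.Glob.SI.H42NormUnif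
import Fermat.Agent.PT.Glob.Dict.H10HasseNormFinal

/-!
# W3-PT / PT-GLOB: second inequality, Hasse norm theorem, norm index — unconditional (helper82)

Pure wiring of landed leaves:

* `h82m_ifaceSI : IfaceSI`  (`ifaceSI_of` of helper68 + the SI leaves + `ifaceFI` + `ifaceAdm`);
* `h82m_ifaceHN : IfaceHN`, `h82m_ifaceNI : IfaceNI`  (`hn_ni_of`, `Glob/Core.lean`);
* `h82m_gHasseNorm : GHasseNorm`  (`gHasseNorm_of` of helper10).
-/

set_option autoImplicit false

namespace Fermat.Agent.PT.Glob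

/-- **GLOB-SI: the second inequality**, unconditional. -/
theorem h82m_ifaceSI : IfaceSI :=
  ifaceSI_of ifaceFI ifaceAdm h74s_ifaceLPIdx h74s_ifaceLNSplit
    (h59u_lnUnr_of h89n_ifaceNewton h74s_ifaceLNSplit h24sr_ifaceRes) h89n_ifaceNewton
    (h8fb_ifaceFBAsm h41a_auxPrime h24sr_ifaceRes h89n_ifaceNewton) h25k_kumGen h42nu_normUnif

/-- **The Hasse norm theorem** for cyclic Kummer layers of degree `p`, unconditional. -/
theorem h82m_ifaceHN : IfaceHN := (hn_ni_of ifaceAdm ifaceFI h82m_ifaceSI).1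

/-- **The norm index is `p`**, unconditional. -/
theorem h82m_ifaceNI : IfaceNI := (hn_ni_of ifaceAdm ifaceFI h82m_ifaceSI).2

/-- **GLOB-HNREL: the relative Hasse norm theorem**, unconditional. -/
theorem h82m_gHasseNorm : GHasseNorm := gHasseNorm_of h82m_ifaceHN

end Fermat.Agent.PT.Glob
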