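import Mathlib
import Fermat.Agent.PT.Glob.H82HNMain
import Fermat.Agent.PT.Glob.H39HasseWire

/-!
# W3-PT / PT-GLOB-BR: the Hasse principle for `H²(G_L, 𝔽_p)`, unconditional (helper82)

Pure wiring: `h82m_gHasse : GHasse` and `h82m_ghCyc : GHCyc` from helper39's
`h39gw_gHasse_of`, `h39gw_ghCyc_of` and the unconditional relative Hasse norm theorem
`h82m_gHasseNorm` (`Glob/H82HNMain.lean`).
-/

set_option autoImplicit false

namespace Fermat.Agent.PT.Glob

/-- **GH-CYC**, unconditional. -/
theorem h82m_ghCyc : GHCyc := h39gw_ghCyc_of h82m_gHasseNorm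

/-- **G-HASSE: the Hasse principle** for `H²(G_L, 𝔽_p)`, unconditional. -/
theorem h82m_gHasse : GHasse := h39gw_gHasse_of h82m_gHasseNorm

end Fermat.Agent.PT.Glob
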