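import Mathlib
import Fermat.Prelude.Def_EllipticCurve_FrobeniusTrace
import Fermat.Prelude.Def_FLTPrelim_Ramification
import Fermat.Agent.Cheb.Final

/-!
# W3-PT, PT-GLOB-K leaf K-CHEB: Chebotarev-lite for characters of an open subgroup

Let `U ≤ G_ℚ` be a subgroup containing the fixing subgroup of a finite normal `F / ℚ`, and
`χ : G_ℚ → ZMod p` a function which is additive on `U` and constant on the cosets `g F.fix`.
If `χ` is nonzero on `U`, then outside any finite set of primes there is a prime `q`, a valuation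
subring `A` of `ℚ̄` over `q`, unramified in `F`, and a Frobenius element `σ` at `A` which lies in
`U` (so the prime of the fixed field of `U` below `A` has degree one) with `χ σ ≠ 0`.

This is a direct consequence of the weak Chebotarev theorem over `ℚ`
(`Fermat.Agent.Cheb.WC_exists_isFrobeniusAt_pow`).
-/

set_option autoImplicit false
set_option linter.style.haveILetI false

namespace Fermat.Agent.PT.Glob

local notation "h93k_Qb" => AlgebraicClosure ℚ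
local notation "h93k_GQ" => (AlgebraicClosure ℚ ≃ₐ[ℚ] AlgebraicClosure ℚ)

section Cheb

variable {p : ℕ} [Fact p.Prime]

/-- a function additive on a subgroup vanishes at `1`. -/
lemma h93k_map_one (U : Subgroup h93k_GQ) (χ : h93k_GQ → ZMod p)
    (hadd : ∀ g ∈ U, ∀ h ∈ U, χ (g * h) = χ g + χ h) : χ 1 = 0 := by
  have := hadd 1 U.one_mem 1 U.one_mem
  rw [mul_one] at this
  exact left_eq_add.mp this

/-- a function additive on a subgroup is compatible with powers. -/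
lemma h93k_map_pow (U : Subgroup h93k_GQ) (χ : h93k_GQ → ZMod p)
    (hadd : ∀ g ∈ U, ∀ h ∈ U, χ (g * h) = χ g + χ h) (τ : h93k_GQ) (hτ : τ ∈ U) (n : ℕ) :
    χ (τ ^ n) = (n : ZMod p) * χ τ := by
  induction n with
  | zero => simp [h93k_map_one U χ hadd]
  | succ n ih =>
    rw [pow_succ, hadd _ (U.pow_mem hτ n) _ hτ, ih]
    push_cast
    ring

/-- **K-CHEB**, general form. -/
theorem h93k_cheb (U : Subgroup h93k_GQ) (F : IntermediateField ℚ h93k_Qb)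
    [FiniteDimensional ℚ F] [Normal ℚ F] (hFU : F.fixingSubgroup ≤ U)
    (χ : h93k_GQ → ZMod p)
    (hadd : ∀ g ∈ U, ∀ h ∈ U, χ (g * h) = χ g + χ h)
    (hlc : ∀ g, ∀ s ∈ F.fixingSubgroup, χ (g * s) = χ g)
    (τ : h93k_GQ) (hτ : τ ∈ U) (hχ : χ τ ≠ 0) (T : Finset ℕ) :
    ∃ (q : ℕ) (A : ValuationSubring h93k_Qb) (σ : h93k_GQ),
      q.Prime ∧ q ∉ T ∧ A.LiesOverPrime q ∧ A.IsFrobeniusAt σ q ∧
      (∀ g ∈ A.inertiaSubgroupIn ℚ, ∀ x ∈ F, g x = x) ∧ σ ∈ U ∧ χ σ ≠ 0 ∧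
      ∃ k : ℕ, ¬ p ∣ k ∧ ∀ x ∈ F, σ x = (τ ^ k) x := by
  haveI : IsGalois ℚ F := ⟨⟩
  obtain ⟨q, A, σ, k, hq, hqT, hA, hfrob, hin, hk, hσ⟩ :=
    Fermat.Agent.Cheb.WC_exists_isFrobeniusAt_pow F τ T
  -- `σ = τ ^ k * s` with `s` fixing `F`
  have hs : (τ ^ k)⁻¹ * σ ∈ F.fixingSubgroup := by
    rw [IntermediateField.mem_fixingSubgroup_iff]
    intro x hx
    rw [AlgEquiv.mul_apply, hσ x hx]
    exact (τ ^ k).symm_apply_apply x
  have hσeq : σ = τ ^ k * ((τ ^ k)⁻¹ * σ) := by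
    rw [mul_inv_cancel_left]
  have hσU : σ ∈ U := by
    rw [hσeq]
    exact U.mul_mem (U.pow_mem hτ k) (hFU hs)
  have hχσ : χ σ = (k : ZMod p) * χ τ := by
    rw [hσeq, hlc _ _ hs, h93k_map_pow U χ hadd τ hτ k]
  -- `p` divides the order of `τ` on `F`
  set m := orderOf (AlgEquiv.restrictNormalHom F τ) with hm
  have hm1 : τ ^ m ∈ F.fixingSubgroup := by
    rw [IntermediateField.mem_fixingSubgroup_iff]
    intro x hx
    have h1 : AlgEquiv.restrictNormalHom F (τ ^ m) = 1 := by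
      rw [map_pow, hm, pow_orderOf_eq_one]
    have h2 : (((τ ^ m).restrictNormal F ⟨x, hx⟩ : F) : h93k_Qb) = (τ ^ m) x :=
      AlgEquiv.restrictNormal_commutes (τ ^ m) F ⟨x, hx⟩
    have h3 : (τ ^ m).restrictNormal F = 1 := h1
    rw [← h2, h3]
    rfl
  have hm2 : (m : ZMod p) * χ τ = 0 := by
    rw [← h93k_map_pow U χ hadd τ hτ m]
    have := hlc 1 _ hm1
    rw [one_mul] at this
    rw [this, h93k_map_one U χ hadd]
  have hm3 : (m : ZMod p) = 0 := by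
    rcases mul_eq_zero.mp hm2 with h | h
    · exact h
    · exact absurd h hχ
  have hpm : p ∣ m := (ZMod.natCast_eq_zero_iff m p).mp hm3
  have hpk : ¬ p ∣ k := by
    intro hpk
    have := Nat.dvd_gcd hpk hpm
    rw [Nat.Coprime.gcd_eq_one hk] at this
    exact (Fact.out : p.Prime).one_lt.ne' (Nat.dvd_one.mp this)
  have hk0 : (k : ZMod p) ≠ 0 := by
    intro h
    exact hpk ((ZMod.natCast_eq_zero_iff k p).mp h)
  refine ⟨q, A, σ, hq, hqT, hA, hfrob, hin, hσU, ?_, k, hpk, hσ⟩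
  rw [hχσ]
  exact mul_ne_zero hk0 hχ

/-- **K-CHEB** for `U = L.fixingSubgroup`, `L ≤ F`. -/
theorem h93k_cheb_field (L F : IntermediateField ℚ h93k_Qb)
    [FiniteDimensional ℚ F] [Normal ℚ F] (hLF : L ≤ F)
    (χ : h93k_GQ → ZMod p)
    (hadd : ∀ g ∈ L.fixingSubgroup, ∀ h ∈ L.fixingSubgroup, χ (g * h) = χ g + χ h)
    (hlc : ∀ g, ∀ s ∈ F.fixingSubgroup, χ (g * s) = χ g)
    (hχ : ∃ τ ∈ L.fixingSubgroup, χ τ ≠ 0) (T : Finset ℕ) :
    ∃ (q : ℕ) (A : ValuationSubring h93k_Qb) (σ : h93k_GQ),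
      q.Prime ∧ q ∉ T ∧ A.LiesOverPrime q ∧ A.IsFrobeniusAt σ q ∧
      (∀ g ∈ A.inertiaSubgroupIn ℚ, ∀ x ∈ F, g x = x) ∧ σ ∈ L.fixingSubgroup ∧ χ σ ≠ 0 := by
  obtain ⟨τ, hτ, hτχ⟩ := hχ
  obtain ⟨q, A, σ, h1, h2, h3, h4, h5, h6, h7, -⟩ :=
    h93k_cheb L.fixingSubgroup F (IntermediateField.fixingSubgroup_antitone hLF) χ hadd hlc τ hτ
      hτχ T
  exact ⟨q, A, σ, h1, h2, h3, h4, h5, h6, h7⟩

end Cheb

end Fermat.Agent.PT.Glob
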