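import Mathlib

/-!
# W3-PT, PT-GLOB-K leaf K-ISO: isotropic subspaces have at most half the dimension

For a bilinear form `B` on a finite-dimensional space `H` with trivial left (or right) kernel,
a subspace `W` with `B w w' = 0` for all `w w' ∈ W` satisfies `2 * dim W ≤ dim H`.
Also the two-space version: if `B : X × Y → k` has trivial left kernel and `W ⊆ X`, `W' ⊆ Y`
are orthogonal, then `dim W + dim W' ≤ dim Y`.
-/

set_option autoImplicit false
set_option linter.style.haveILetI false

namespace Fermat.Agent.PT.Glob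

section Iso

variable {k : Type*} [Field k]

/-- If `B : X × Y → k` has trivial left kernel on `W` (i.e. no nonzero `w ∈ W` is orthogonal to
all of `Y`) and `W ⊆ X`, `W' ⊆ Y` are orthogonal to each other, then
`dim W + dim W' ≤ dim Y`. -/
theorem h93i_finrank_add_le {X Y : Type*} [AddCommGroup X] [Module k X] [AddCommGroup Y]
    [Module k Y] [FiniteDimensional k Y] (B : X →ₗ[k] Y →ₗ[k] k)
    (W : Submodule k X) (W' : Submodule k Y)
    (hB : ∀ x ∈ W, (∀ y, B x y = 0) → x = 0)
    (hW : ∀ x ∈ W, ∀ y ∈ W', B x y = 0) :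
    Module.Finite k W ∧ Module.finrank k W + Module.finrank k W' ≤ Module.finrank k Y := by
  -- `W → (W')^⊥ ⊆ Y^*`, `w ↦ B w`, is injective
  let φ : W →ₗ[k] W'.dualAnnihilator :=
    LinearMap.codRestrict W'.dualAnnihilator (B.comp W.subtype) (fun w => by
      rw [Submodule.mem_dualAnnihilator]
      intro y hy
      exact hW w.1 w.2 y hy)
  have hφ : Function.Injective φ := by
    refine (injective_iff_map_eq_zero φ).mpr ?_
    intro w hw
    have h1 : B w.1 = 0 := congrArg Subtype.val hw
    have h2 : w.1 = 0 := hB w.1 w.2 (fun y => by rw [h1]; rfl)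
    exact Subtype.ext h2
  have hfin : Module.Finite k W := Module.Finite.of_injective φ hφ
  refine ⟨hfin, ?_⟩
  have h1 : Module.finrank k W ≤ Module.finrank k W'.dualAnnihilator :=
    LinearMap.finrank_le_finrank_of_injective hφ
  have h2 := Subspace.finrank_add_finrank_dualAnnihilator_eq W'
  omega

/-- **K-ISO.** An isotropic subspace of a space with a bilinear form with trivial left kernel
has at most half the dimension. -/
theorem h93i_isotropic_le {H : Type*} [AddCommGroup H] [Module k H] [FiniteDimensional k H]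
    (B : H →ₗ[k] H →ₗ[k] k) (hB : ∀ x, (∀ y, B x y = 0) → x = 0)
    (W : Submodule k H) (hW : ∀ x ∈ W, ∀ y ∈ W, B x y = 0) :
    2 * Module.finrank k W ≤ Module.finrank k H := by
  have := (h93i_finrank_add_le B W W (fun x _ h => hB x h) hW).2
  omega

/-- Variant with trivial right kernel. -/
theorem h93i_isotropic_le' {H : Type*} [AddCommGroup H] [Module k H] [FiniteDimensional k H]
    (B : H →ₗ[k] H →ₗ[k] k) (hB : ∀ y, (∀ x, B x y = 0) → y = 0)
    (W : Submodule k H) (hW : ∀ x ∈ W, ∀ y ∈ W, B x y = 0) :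
    2 * Module.finrank k W ≤ Module.finrank k H :=
  h93i_isotropic_le B.flip (fun x h => hB x (fun y => h y)) W (fun x hx y hy => hW y hy x hx)

/-- Image form: if `f : A → H` is linear with isotropic image, then
`2 * rank f ≤ dim H`, i.e. `2 * dim A ≤ dim H + 2 * dim ker f`. -/
theorem h93i_isotropic_range_le {A H : Type*} [AddCommGroup A] [Module k A] [AddCommGroup H]
    [Module k H] [FiniteDimensional k H]
    (B : H →ₗ[k] H →ₗ[k] k) (hB : ∀ x, (∀ y, B x y = 0) → x = 0)
    (f : A →ₗ[k] H) (hf : ∀ a b, B (f a) (f b) = 0) :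
    2 * Module.finrank k (LinearMap.range f) ≤ Module.finrank k H := by
  apply h93i_isotropic_le B hB
  rintro _ ⟨a, rfl⟩ _ ⟨b, rfl⟩
  exact hf a b

/-- Function form (no bundled bilinear map): `B` additive and homogeneous in each variable. -/
theorem h93i_isotropic_le_fun {H : Type*} [AddCommGroup H] [Module k H] [FiniteDimensional k H]
    (B : H → H → k)
    (hadd₁ : ∀ x x' y, B (x + x') y = B x y + B x' y)
    (hsmul₁ : ∀ (c : k) x y, B (c • x) y = c * B x y)
    (hadd₂ : ∀ x y y', B x (y + y') = B x y + B x y')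
    (hsmul₂ : ∀ (c : k) x y, B x (c • y) = c * B x y)
    (hB : ∀ x, (∀ y, B x y = 0) → x = 0)
    (W : Submodule k H) (hW : ∀ x ∈ W, ∀ y ∈ W, B x y = 0) :
    2 * Module.finrank k W ≤ Module.finrank k H :=
  h93i_isotropic_le (LinearMap.mk₂ k B hadd₁ (fun c x y => by simp [hsmul₁]) hadd₂
    (fun c x y => by simp [hsmul₂])) hB W hW

end Iso

end Fermat.Agent.PT.Glob
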