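import Mathlib
import Fermat.Agent.PT.Glob.KIface
import Fermat.Agent.PT.Glob.H93KIso
import Fermat.Agent.PT.Glob.H93KCheb

/-!
# W3-PT / PT-GLOB-K: the leaves `KIso` and `KCheb` of `KIface.lean`

* `h93_kIso  : KIso`  (from `h93i_isotropic_le`);
* `h93_kCheb : KCheb` (from `h93k_cheb`, applied to the normal closure of `F`).
-/

set_option autoImplicit false
set_option linter.style.haveILetI false

namespace Fermat.Agent.PT.Glob

open Fermat.Agent.Bridge

/-- **K-ISO.** -/
theorem h93_kIso : KIso :=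
  fun _ _ _ _ _ _ B W hB hW => h93i_isotropic_le B hB W hW

/-- **K-CHEB.** -/
theorem h93_kCheb : KCheb := by
  intro p _ L F hF hLF χ hadd hlc hχ T
  classical
  haveI : FiniteDimensional ℚ F := hF
  haveI : Algebra.IsAlgebraic ℚ (AlgebraicClosure ℚ) := AlgebraicClosure.isAlgebraic ℚ
  haveI : IsAlgClosure ℚ (AlgebraicClosure ℚ) := ⟨inferInstance, inferInstance⟩
  haveI : Normal ℚ (AlgebraicClosure ℚ) := IsAlgClosure.normal ℚ (AlgebraicClosure ℚ)
  -- the normal closure of `F`
  set F' : IntermediateField ℚ (AlgebraicClosure ℚ) :=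
    IntermediateField.normalClosure ℚ F (AlgebraicClosure ℚ) with hF'
  haveI : FiniteDimensional ℚ F' := normalClosure.is_finiteDimensional ℚ F (AlgebraicClosure ℚ)
  haveI : Normal ℚ F' := normalClosure.normal ℚ F (AlgebraicClosure ℚ)
  have hFF' : F ≤ F' := IntermediateField.le_normalClosure F
  have hfix : F'.fixingSubgroup ≤ F.fixingSubgroup :=
    IntermediateField.fixingSubgroup_antitone hFF'
  have hfixL : F.fixingSubgroup ≤ L.fixingSubgroup :=
    IntermediateField.fixingSubgroup_antitone hLF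
  -- extend `χ` by zero outside `U`
  let χ' : (AlgebraicClosure ℚ ≃ₐ[ℚ] AlgebraicClosure ℚ) → ZMod p :=
    fun g => if g ∈ L.fixingSubgroup then χ g else 0
  have hχ'U : ∀ g ∈ L.fixingSubgroup, χ' g = χ g := fun g hg => if_pos hg
  obtain ⟨τ, hτ, hτχ⟩ := hχ
  obtain ⟨q, A, σ, h1, h2, h3, h4, h5, h6, h7, -⟩ :=
    h93k_cheb (p := p) L.fixingSubgroup F' (hfix.trans hfixL) χ'
      (fun g hg h hh => by
        rw [hχ'U _ (L.fixingSubgroup.mul_mem hg hh), hχ'U g hg, hχ'U h hh]
        exact hadd g hg h hh)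
      (fun g s hs => by
        have hsU : s ∈ L.fixingSubgroup := hfixL (hfix hs)
        by_cases hg : g ∈ L.fixingSubgroup
        · rw [hχ'U _ (L.fixingSubgroup.mul_mem hg hsU), hχ'U g hg]
          exact hlc g hg s (hfix hs)
        · have hgs : g * s ∉ L.fixingSubgroup := fun h =>
            hg ((Subgroup.mul_mem_cancel_right _ hsU).mp h)
          simp only [χ', if_neg hg, if_neg hgs])
      τ hτ (by rw [hχ'U τ hτ]; exact hτχ) T
  refine ⟨q, A, σ, h1, h2, h3, h6, h4, ?_, ?_⟩
  · rw [← hχ'U σ h6]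
    exact h7
  · intro g hg
    rw [IntermediateField.mem_fixingSubgroup_iff]
    intro x hx
    exact h5 g hg x (hFF' hx)

end Fermat.Agent.PT.Glob
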