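import Mathlib
import Fermat.Agent.PT.Glob.GIface
import Fermat.Agent.PT.Bridge.Inertia
import Fermat.Agent.PT.Bridge.LocGrpD
import Fermat.Agent.PT.Bridge.LocGrpE
import Fermat.Agent.PT.Loc.H36Unr

/-!
# W3-PT / PT-GLOB-BR, leaf GLOB-UNR0 (helper36): `GUnr0`

A continuous `2`-cocycle of level `S` of `G_L` is a local coboundary at every place above a prime
`q ∉ S`: its localisation is a continuous `2`-cocycle of the local Galois group which is right
invariant under the inertia group (the level is unramified at `q`), hence a coboundary by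
`h36n_locUnr` (LOC-UNR, `H²(Ẑ, 𝔽_p) = 0`).

Main result: `h36g_gUnr0 : GUnr0`.  Reusable dictionary lemmas: `h36g_gConj_mul`,
`h36g_gConj_mem_GU_iff`, `h36g_gLoc2_acoc2`, `h36g_gLoc2_cont2`.
-/

set_option autoImplicit false
set_option linter.style.haveILetI false

open scoped Classical

noncomputable section

namespace Fermat.Agent.PT.Glob

open Fermat.Agent.Bridge Fermat.Agent.PT.Bridge

variable (q : ℕ) [Fact q.Prime]

theorem h36g_gConj_mul (g : GQ) (h h' : Loc.Gq q) :
    gConj q g (h * h') = gConj q g h * gConj q g h' := by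
  unfold gConj
  rw [map_mul]
  group

theorem h36g_gConj_mem_GU_iff (L : NFd) (g : GQ) (h : Loc.Gq q) :
    gConj q g h ∈ GU L ↔ h ∈ Loc.GK (gLocField q g L) :=
  h23b_conj_mem_fixingSubgroup_iff q L g h

theorem h36g_finiteDimensional_gLocField (g : GQ) (L : NFd) [FiniteDimensional ℚ L] :
    FiniteDimensional ℚ_[q] (gLocField q g L) := by
  haveI : FiniteDimensional ℚ (L.map ((g : Qb ≃ₐ[ℚ] Qb) : Qb →ₐ[ℚ] Qb)) :=
    LinearEquiv.finiteDimensional
      (IntermediateField.equivMap L ((g : Qb ≃ₐ[ℚ] Qb) : Qb →ₐ[ℚ] Qb)).toLinearEquiv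
  exact h23b_finiteDimensional_localField q _

theorem h36g_gLocField_mono (g : GQ) {L F : NFd} (h : L ≤ F) :
    gLocField q g L ≤ gLocField q g F :=
  h23b_localField_mono q (IntermediateField.map_mono _ h)

/-- the localisation of a `2`-cocycle is a `2`-cocycle. -/
theorem h36g_gLoc2_acoc2 {p : ℕ} (L : NFd) (g : GQ) (y : GQ × GQ → ZMod p) (hy : GACoc2 L y) :
    Loc.ACoc2 (gLocField q g L) (gLoc2 q g y) := by
  intro a ha b hb c hc
  have h := hy _ ((h36g_gConj_mem_GU_iff q L g a).2 ha) _ ((h36g_gConj_mem_GU_iff q L g b).2 hb)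
    _ ((h36g_gConj_mem_GU_iff q L g c).2 hc)
  show y (gConj q g b, gConj q g c) - y (gConj q g (a * b), gConj q g c)
    + y (gConj q g a, gConj q g (b * c)) - y (gConj q g a, gConj q g b) = 0
  rw [h36g_gConj_mul, h36g_gConj_mul]
  exact h

/-- the localisation of a continuous `2`-cochain is continuous. -/
theorem h36g_gLoc2_cont2 {X : Type*} (L : NFd) (g : GQ) (y : GQ × GQ → X) (hy : GCont2 L y) :
    Loc.Cont2 (gLocField q g L) (gLoc2 q g y) := by
  obtain ⟨F, hFfin, hLF, hF⟩ := hy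
  haveI := hFfin
  refine ⟨gLocField q g F, h36g_finiteDimensional_gLocField q g F, h36g_gLocField_mono q g hLF, ?_⟩
  intro a ha a' ha' s hs s' hs'
  show y (gConj q g (a * s), gConj q g (a' * s')) = y (gConj q g a, gConj q g a')
  rw [h36g_gConj_mul, h36g_gConj_mul]
  exact hF _ ((h36g_gConj_mem_GU_iff q L g a).2 ha) _ ((h36g_gConj_mem_GU_iff q L g a').2 ha')
    _ ((h36g_gConj_mem_GU_iff q F g s).2 hs) _ ((h36g_gConj_mem_GU_iff q F g s').2 hs')

/-- **GLOB-UNR0.** -/
theorem h36g_gUnr0 : GUnr0 := by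
  intro p _ S L _ y hy hS q _ g hq
  obtain ⟨F, hFunr, hLF, hF⟩ := hS
  have hFfin : FiniteDimensional ℚ F := hFunr.1
  haveI := h36g_finiteDimensional_gLocField q g L
  have hqS : (⟨q, Fact.out⟩ : Nat.Primes) ∉ S := fun h => hq _ h rfl
  refine Loc.h36n_locUnr q p (gLocField q g L) (gLoc2 q g y) (h36g_gLoc2_acoc2 q L g y hy)
    (h36g_gLoc2_cont2 q L g y ⟨F, hFfin, hLF, hF⟩) ?_
  intro a ha a' ha' i i' hi hi'
  show y (gConj q g (a * i), gConj q g (a' * i')) = y (gConj q g a, gConj q g a')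
  rw [h36g_gConj_mul, h36g_gConj_mul]
  exact hF _ ((h36g_gConj_mem_GU_iff q L g a).2 ha) _ ((h36g_gConj_mem_GU_iff q L g a').2 ha')
    _ (h23b_conj_mem_fixingSubgroup_of_inert q hFunr hqS g hi.2)
    _ (h23b_conj_mem_fixingSubgroup_of_inert q hFunr hqS g hi'.2)

end Fermat.Agent.PT.Glob
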