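import Fermat.Agent.PT.Glob.GIface

/-!
# W3-PT / PT-GLOB-BR, row GLOB-HASSE (helper39): the Hasse principle from the three descents

`gHasse_of : GHTower → GHCoprime → GHCyc → GHasse`.

Proof.  Let `y` be a continuous `2`-cocycle of `G_L`, locally trivial at every finite place.
`GHTower` gives a tower `L ≤ T 0 ≤ … ≤ T m` with `[T 0 : L]` prime to `p`, cyclic steps of degree
`p`, and `y` constant on `G_{T m} × G_{T m}`; a constant cochain is the coboundary of a constant.
The cocycle identity, continuity and local triviality pass from `L` to every `T i` (restriction is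
the identity on functions), so `GHCyc` descends the coboundary property from `T (i + 1)` to `T i`,
and `GHCoprime` from `T 0` to `L`.
-/

set_option autoImplicit false
set_option linter.style.haveILetI false

open scoped Classical

noncomputable section

namespace Fermat.Agent.PT.Glob

open Fermat.Agent.Bridge

/-! ## Monotonicity in the field: global side -/

theorem h39gh_GU_anti {L L' : NFd} (h : L ≤ L') : GU L' ≤ GU L := by
  intro g hg
  rw [IntermediateField.mem_fixingSubgroup_iff] at hg ⊢
  exact fun x hx => hg x (h hx)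

theorem h39gh_GACoc2_mono {p : ℕ} {L L' : NFd} (h : L ≤ L') {y : GQ × GQ → ZMod p}
    (hy : GACoc2 L y) : GACoc2 L' y :=
  fun g hg k hk j hj =>
    hy g (h39gh_GU_anti h hg) k (h39gh_GU_anti h hk) j (h39gh_GU_anti h hj)

theorem h39gh_GCont2_mono {L L' : NFd} [FiniteDimensional ℚ L'] (h : L ≤ L') {X : Type*}
    {f : GQ × GQ → X} (hf : GCont2 L f) : GCont2 L' f := by
  obtain ⟨F, hF, -, hinv⟩ := hf
  haveI := hF
  refine ⟨F ⊔ L', inferInstance, le_sup_right, ?_⟩
  intro g hg g' hg' s hs s' hs'
  exact hinv g (h39gh_GU_anti h hg) g' (h39gh_GU_anti h hg') s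
    (h39gh_GU_anti le_sup_left hs) s' (h39gh_GU_anti le_sup_left hs')

/-- A cochain which is constant on `G_L × G_L` is the coboundary of a constant. -/
theorem h39gh_cohom_of_const {p : ℕ} (L : NFd) [FiniteDimensional ℚ L] (y : GQ × GQ → ZMod p)
    (hy : ∀ g ∈ GU L, ∀ h ∈ GU L, y (g, h) = y (1, 1)) : GACohom L y 0 := by
  refine ⟨fun _ => y (1, 1), ⟨L, inferInstance, le_rfl, fun _ _ _ _ => rfl⟩, ?_⟩
  intro g hg h hh
  rw [hy g hg h hh]
  simp [gacob]

/-! ## Monotonicity in the field: local side -/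

section Local

variable {q : ℕ} [Fact q.Prime]

theorem h39gh_GK_anti {K K' : Loc.LF q} (h : K ≤ K') : Loc.GK K' ≤ Loc.GK K := by
  intro g hg
  rw [IntermediateField.mem_fixingSubgroup_iff] at hg ⊢
  exact fun x hx => hg x (h hx)

theorem h39gh_LocCont1_mono {K K' : Loc.LF q} [FiniteDimensional ℚ_[q] K'] (h : K ≤ K')
    {X : Type*} {f : Loc.Gq q → X} (hf : Loc.Cont1 K f) : Loc.Cont1 K' f := by
  obtain ⟨F, hF, -, hinv⟩ := hf
  haveI := hF
  refine ⟨F ⊔ K', inferInstance, le_sup_right, ?_⟩
  intro g hg s hs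
  exact hinv g (h39gh_GK_anti h hg) s (h39gh_GK_anti le_sup_left hs)

theorem h39gh_LocACohom_mono {p : ℕ} {K K' : Loc.LF q} [FiniteDimensional ℚ_[q] K']
    (h : K ≤ K') {c c' : Loc.Gq q × Loc.Gq q → ZMod p} (hc : Loc.ACohom K c c') :
    Loc.ACohom K' c c' := by
  obtain ⟨f, hf, hrel⟩ := hc
  exact ⟨f, h39gh_LocCont1_mono h hf,
    fun g hg k hk => hrel g (h39gh_GK_anti h hg) k (h39gh_GK_anti h hk)⟩

variable (q)

theorem h39gh_gLocField_mono (g : GQ) {L L' : NFd} (h : L ≤ L') :
    gLocField q g L ≤ gLocField q g L' :=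
  Fermat.Agent.PT.Bridge.h23b_localField_mono q (IntermediateField.map_mono _ h)

theorem h39gh_gLocField_finiteDimensional (g : GQ) (L : NFd) [FiniteDimensional ℚ L] :
    FiniteDimensional ℚ_[q] (gLocField q g L) := by
  haveI : FiniteDimensional ℚ (L.map ((g : Qb ≃ₐ[ℚ] Qb) : Qb →ₐ[ℚ] Qb)) :=
    LinearEquiv.finiteDimensional
      (IntermediateField.equivMap L ((g : Qb ≃ₐ[ℚ] Qb) : Qb →ₐ[ℚ] Qb)).toLinearEquiv
  exact Fermat.Agent.PT.Bridge.h23b_finiteDimensional_localField q _

end Local

/-- Local triviality passes to larger number fields. -/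
theorem h39gh_GLocTriv_mono {p : ℕ} {L L' : NFd} [FiniteDimensional ℚ L'] (h : L ≤ L')
    {y : GQ × GQ → ZMod p} (hy : GLocTriv L y) : GLocTriv L' y := by
  intro q _ g
  haveI := h39gh_gLocField_finiteDimensional q g L'
  exact h39gh_LocACohom_mono (h39gh_gLocField_mono q g h) (hy q g)

/-! ## The assembly -/

/-- **GLOB-HASSE.** The Hasse principle for `H²(G_L, 𝔽_p)` from the Sylow tower and the two
descent steps. -/
theorem gHasse_of (hT : GHTower) (hC : GHCoprime) (hCyc : GHCyc) : GHasse := by
  intro p _ hp2 L _ ζ hζL hζ y hcoc hcont hloc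
  obtain ⟨m, T, σ, hL0, hfin, hidx, hcyc, hconst⟩ := hT p L y hcont
  -- the tower is increasing
  have hle : ∀ i, i ≤ m → L ≤ T i := by
    intro i
    induction i with
    | zero => exact fun _ => hL0
    | succ i ih =>
      intro hi
      exact (ih (Nat.le_of_succ_le hi)).trans (hcyc i hi).le
  -- downward induction
  have hdown : ∀ k, k ≤ m → GACohom (T (m - k)) y 0 := by
    intro k
    induction k with
    | zero =>
      intro _
      haveI := hfin m le_rfl
      exact h39gh_cohom_of_const (T m) y hconst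
    | succ k ih =>
      intro hk
      have hk' : k ≤ m := Nat.le_of_succ_le hk
      have hi : m - (k + 1) < m := by omega
      have hi' : m - (k + 1) ≤ m := hi.le
      have hsucc : m - (k + 1) + 1 = m - k := by omega
      haveI := hfin (m - (k + 1)) hi'
      have hstep := hcyc (m - (k + 1)) hi
      rw [hsucc] at hstep
      exact hCyc p hp2 (T (m - (k + 1))) (T (m - k)) (σ (m - (k + 1))) ζ
        (hle _ hi' hζL) hζ hstep y (h39gh_GACoc2_mono (hle _ hi') hcoc)
        (h39gh_GCont2_mono (hle _ hi') hcont) (h39gh_GLocTriv_mono (hle _ hi') hloc)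
        (ih hk')
  have h0 : GACohom (T 0) y 0 := by
    have := hdown m le_rfl
    rwa [Nat.sub_self] at this
  haveI := hfin 0 (Nat.zero_le m)
  exact hC p L (T 0) hL0 hidx y hcoc hcont h0

end Fermat.Agent.PT.Glob
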