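import Mathlib
import Fermat.Agent.PT.Glob.BrMain
import Fermat.Agent.PT.Glob.H98BrAlg
import Fermat.Agent.PT.Glob.H66BrDUGood
import Fermat.Agent.PT.Glob.H56KGlob
import Fermat.Agent.PT.Glob.H83KAsm
import Fermat.Agent.PT.Glob.H93KDAsm
import Fermat.Agent.PT.Glob.H36SumPlc
import Fermat.Agent.PT.Glob.H93KLeaves
import Fermat.Agent.PT.Glob.H82HasseMain
import Fermat.Agent.PT.Glob.Sha.H11Sha
import Fermat.Agent.PT.Glob.Sha.Class67
import Fermat.Agent.PT.Glob.Rec.H79RecQFor
import Fermat.Agent.PT.Shap.GlobAsm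
import Fermat.Agent.PT.Loc.H23KDimW
import Fermat.Agent.PT.Loc.H48LocBase
import Fermat.Agent.PT.Loc.H95InvTotalFinal
import Fermat.Agent.PT.Arith.Wire2

/-!
# W3-PT / PT-GLOB (helper14): the final wiring of the arithmetic inputs

`h14g_arithInputs_of` : `ArithInputs` (hence S55 by `s55_of_arithInputs`) from the leaves which
were open at 02:15Z:

* `hSD   : GShaBound → BrCountH`            (BR2-SHADICT)
* `hW    : KInvW`, `hInj : LocInjW (invFam p)`, `hNd : LocNondegW (invFam p)`   (K-INVW, LOC3-K-*)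
* `hRec  : RecQHasInv`                        (GLOB-REC)
* `hLeft : KLeftFor (invFam p)`               (K-DP-ASM)

Everything else is a landed theorem: the Hasse principle `h82m_gHasse`, `h67s_classBound`,
`h11s_gShaBound`, the count `brCount` (`BrVV`, `BrEq`, `BrHyperFor`), (N1), (N2), the tower,
ALG-CHI2, `h93d_kCountDAsm`, `h56k_kGlobAsm`, `h56k_kGlobShap`, PT-LOC (`h48_locBase`), PT-SHAP.
-/

set_option autoImplicit false

open ExtCitation NumberField IsDedekindDomain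

namespace Fermat.Agent.PT.Glob

open Fermat.Agent.PT Fermat.Agent.PT.Shap

/-- (h) in relative form, unconditional. -/
theorem h14g_gShaBound : GShaBound := h11s_gShaBound h82m_gHasse h67s_classBound

/-- The reciprocity law in the form of `ArithInputs`. -/
theorem h14g_recQFor (hRec : RecQHasInv) (p : ℕ) [Fact p.Prime] (hp2 : p ≠ 2) :
    RecQFor p (Loc.invFam p) :=
  h79r_recQFor_of hRec Loc.h95l_invTotal Loc.h48f_invEx p hp2

/-- The global base case of `ArithInputs` from the open leaves. -/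
theorem h14g_globBaseFor (hSD : GShaBound → BrCountH) (hW : KInvW)
    (hInj : ∀ (p : ℕ) [Fact p.Prime], p ≠ 2 → LocInjW (Loc.invFam p))
    (hNd : ∀ (p : ℕ) [Fact p.Prime], p ≠ 2 → LocNondegW (Loc.invFam p))
    (hRec : RecQHasInv)
    (hLeft : ∀ (p : ℕ) [Fact p.Prime], p ≠ 2 → KLeftFor (Loc.invFam p))
    (p : ℕ) [Fact p.Prime] (hp2 : p ≠ 2) : GlobBaseFor p (Loc.invFam p) := by
  have hH : BrCountH := hSD h14g_gShaBound
  have hR : ∀ (p : ℕ) [Fact p.Prime], p ≠ 2 → RecQFor p (Loc.invFam p) :=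
    fun p _ hp2 => h14g_recQFor hRec p hp2
  obtain ⟨hVV, -, hHyp⟩ := h14f_main h98b_brAlgA h98b_brAlgC h66b_brDUGood hH hW hInj hR
  have hD : KCountD :=
    h93d_kCountDAsm
      (fun p _ hp2 => ⟨Loc.invFam p, Loc.h48_locInvOK_final p, hR p hp2, hNd p hp2⟩)
      h97s_shapTrOK Bridge.dqGood hW h36s_kSumPlc (Loc.h23k_locDimW Loc.h39d_h1DimRel)
      h23_placesCard h93_kIso h14f_kN1
  exact h56k_kGlobShap p (Loc.invFam p) hp2 h69g_shapGlobal Bridge.dqGood
    (h56k_kGlobAsm p (Loc.invFam p) h83a_kPerfAsm h97s_shapTrOK Bridge.dqGood hW hVV hH hD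
      (hHyp p hp2) (hInj p hp2) (hLeft p hp2))

/-- **The arithmetic inputs of S55** from the open leaves. -/
theorem h14g_arithInputs_of (hSD : GShaBound → BrCountH) (hW : KInvW)
    (hInj : ∀ (p : ℕ) [Fact p.Prime], p ≠ 2 → LocInjW (Loc.invFam p))
    (hNd : ∀ (p : ℕ) [Fact p.Prime], p ≠ 2 → LocNondegW (Loc.invFam p))
    (hRec : RecQHasInv)
    (hLeft : ∀ (p : ℕ) [Fact p.Prime], p ≠ 2 → KLeftFor (Loc.invFam p)) : ArithInputs :=
  fun p _ hp2 => ⟨Loc.invFam p, Loc.h48_locInvOK_final p, Loc.h48_locBaseFor_final p hp2,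
    h14g_recQFor hRec p hp2, h14g_globBaseFor hSD hW hInj hNd hRec hLeft p hp2⟩

end Fermat.Agent.PT.Glob
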