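import Mathlib
import Fermat.Agent.PT.Glob.GIface
import Fermat.Agent.PT.Glob.KIface2
import Fermat.Agent.PT.Glob.H36GUnr0
import Fermat.Agent.PT.Bridge.RelDictDU

/-!
# W3-PT / PT-GLOB-BR, leaf BR2-SHADICT (helper12): `GShaBound → BrCountH`

The dictionary between the abstract Tate–Shafarevich group `Ш²` of the restricted datum
`D_U = DU p S U u` (trivial coefficients) and the relative language of `Glob/GBasic.lean`
(`GACoc2`, `GContS2`, `GLocTrivS`, `GACohomS` for total cochains on `G_ℚ`, `L = fieldOf U`).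

* `h12s_ext U z`            : extension by zero of a `2`-cochain of `↥U` to `G_ℚ`;
* `h12s_acohom_transport`   : local triviality at the place `(q, x)` implies local triviality at
                              every place `(q, r_q(h₀) · x · u₀)`, `u₀ ∈ G_L` (conjugation by `u₀`
                              acts trivially on cohomology; translation by the local group is a
                              relabelling);
* `h12s_gLocTrivS`          : a cocycle of `ZSha2 (D_U)` is `GLocTrivS`;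
* `h12s_finrank_le_of_indep`: linear algebra (a space in which all independent families are
                              bounded is finite dimensional);
* `h12s_brCountH_of : GShaBound → BrCountH`.
-/

set_option autoImplicit false
set_option linter.style.haveILetI false
set_option linter.unusedSectionVars false

open ExtCitation NumberField IsDedekindDomain
open scoped Classical

noncomputable section

namespace Fermat.Agent.PT.Glob

open Fermat.Agent.Bridge Fermat.Agent.PT Fermat.Agent.PT.Bridge Fermat.Agent.PT.Shap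

/-! ## Conjugation of a `2`-cocycle by an element of the group -/

section Conj

variable {p : ℕ}

/-- The homotopy for the conjugation by `u`: `t(a) = y(u, u⁻¹ a u) - y(a, u)`. -/
def h12s_tw (y : GQ × GQ → ZMod p) (u : GQ) : GQ → ZMod p :=
  fun a => y (u, u⁻¹ * a * u) - y (a, u)

/-- Inner automorphisms act trivially on `H²`: `y(u⁻¹ a u, u⁻¹ b u) = y(a, b) + (∂ t)(a, b)`. -/
theorem h12s_conj_eq {L : NFd} {y : GQ × GQ → ZMod p} (hy : GACoc2 L y) {u : GQ}
    (hu : u ∈ GU L) {a b : GQ} (ha : a ∈ GU L) (hb : b ∈ GU L) :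
    y (u⁻¹ * a * u, u⁻¹ * b * u) = y (a, b) + gacob (h12s_tw y u) (a, b) := by
  have ha' : u⁻¹ * a * u ∈ GU L := mul_mem (mul_mem (inv_mem hu) ha) hu
  have hb' : u⁻¹ * b * u ∈ GU L := mul_mem (mul_mem (inv_mem hu) hb) hu
  have h1 := hy a ha b hb u hu
  have h2 := hy u hu _ ha' _ hb'
  have h3 := hy a ha u hu _ hb'
  have e1 : u * (u⁻¹ * a * u) = a * u := by group
  have e2 : u * (u⁻¹ * b * u) = b * u := by group
  have e3 : u⁻¹ * (a * b) * u = u⁻¹ * a * u * (u⁻¹ * b * u) := by group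
  rw [e1] at h2
  rw [e2] at h3
  simp only [gacob, h12s_tw]
  rw [e3]
  linear_combination h1 + h2 - h3

end Conj

/-! ## Transport of local triviality along a double coset -/

section Transport

variable (q : ℕ) [Fact q.Prime] {p : ℕ}

theorem h12s_gConj_trans (h₀ : Loc.Gq q) (x u₀ : GQ) (h : Loc.Gq q) :
    gConj q (localGaloisToGlobal q h₀ * x * u₀) h =
      u₀⁻¹ * gConj q x (h₀⁻¹ * h * h₀) * u₀ := by
  unfold gConj
  rw [map_mul, map_mul, map_inv]
  group

theorem h12s_mem_GK_trans (L : NFd) (h₀ : Loc.Gq q) (x u₀ : GQ) (hu₀ : u₀ ∈ GU L)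
    (h : Loc.Gq q) :
    h ∈ Loc.GK (gLocField q (localGaloisToGlobal q h₀ * x * u₀) L) ↔
      h₀⁻¹ * h * h₀ ∈ Loc.GK (gLocField q x L) := by
  rw [← h36g_gConj_mem_GU_iff, ← h36g_gConj_mem_GU_iff, h12s_gConj_trans]
  constructor
  · intro hm
    have := mul_mem (mul_mem hu₀ hm) (inv_mem hu₀)
    simpa [mul_assoc] using this
  · intro hm
    exact mul_mem (mul_mem (inv_mem hu₀) hm) hu₀

/-- Galois correspondence (local): `G_F ≤ G_K` implies `K ≤ F`. -/
theorem h12s_le_of_GK_le {K F : Loc.LF q} (h : Loc.GK F ≤ Loc.GK K) : K ≤ F := by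
  haveI := h23b_isGalois_padicAlgCl q
  intro x hx
  rw [h23b_mem_iff_forall_fixed F x]
  intro s hs
  exact (h hs) ⟨x, hx⟩

/-- Galois correspondence (global): `G_F ≤ G_K` implies `K ≤ F`. -/
theorem h12s_le_of_GU_le {K F : NFd} (h : GU F ≤ GU K) : K ≤ F := by
  haveI := h23b_isGalois_Qb
  intro x hx
  rw [h23b_mem_iff_forall_fixed F x]
  intro s hs
  exact (h hs) ⟨x, hx⟩

theorem h12s_mem_GK_map (F : Loc.LF q) (h₀ s : Loc.Gq q) :
    s ∈ Loc.GK (F.map (h₀ : Loc.Om q →ₐ[ℚ_[q]] Loc.Om q)) ↔ h₀⁻¹ * s * h₀ ∈ Loc.GK F := by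
  rw [IntermediateField.mem_fixingSubgroup_iff, IntermediateField.mem_fixingSubgroup_iff]
  constructor
  · intro h a ha
    have h1 := h (h₀ a) ⟨a, ha, rfl⟩
    show h₀⁻¹ (s (h₀ a)) = a
    rw [h1]
    exact h₀.symm_apply_apply a
  · rintro h _ ⟨a, ha, rfl⟩
    have h1 := h a ha
    have h2 : h₀ ((h₀⁻¹ * s * h₀) a) = h₀ a := by rw [h1]
    simpa [AlgEquiv.mul_apply] using h2

/-- **Transport.** Local triviality at the place `(q, x)` implies local triviality at the place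
`(q, r_q(h₀) · x · u₀)`, `u₀ ∈ G_L`, for a cocycle which is invariant under a normal subgroup
`G_{F₁}`. -/
theorem h12s_acohom_transport (L F₁ : NFd) (y : GQ × GQ → ZMod p) (hy : GACoc2 L y)
    (hF₁ : FiniteDimensional ℚ F₁) (hnorm : (GU F₁).Normal)
    (hinv : ∀ g ∈ GU L, ∀ g' ∈ GU L, ∀ s ∈ GU F₁, ∀ s' ∈ GU F₁, y (g * s, g' * s') = y (g, g'))
    (x : GQ) (h₀ : Loc.Gq q) (u₀ : GQ) (hu₀ : u₀ ∈ GU L)
    (hx : Loc.ACohom (gLocField q x L) (gLoc2 q x y) 0) :
    Loc.ACohom (gLocField q (localGaloisToGlobal q h₀ * x * u₀) L)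
      (gLoc2 q (localGaloisToGlobal q h₀ * x * u₀) y) 0 := by
  obtain ⟨f₀, ⟨F₀, hF₀fin, hKF₀, hf₀c⟩, hf₀⟩ := hx
  haveI := hF₀fin
  haveI := hF₁
  haveI : FiniteDimensional ℚ_[q] (gLocField q x F₁) := h36g_finiteDimensional_gLocField q x F₁
  have hkmul : ∀ h h' : Loc.Gq q, h₀⁻¹ * (h * h') * h₀ = (h₀⁻¹ * h * h₀) * (h₀⁻¹ * h' * h₀) := by
    intro h h'
    group
  refine ⟨fun h => f₀ (h₀⁻¹ * h * h₀) + h12s_tw y u₀ (gConj q x (h₀⁻¹ * h * h₀)), ?_, ?_⟩
  · -- continuity
    haveI : FiniteDimensional ℚ_[q] ↥(F₀ ⊔ gLocField q x F₁) :=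
      IntermediateField.finiteDimensional_sup _ _
    refine ⟨(F₀ ⊔ gLocField q x F₁).map (h₀ : Loc.Om q →ₐ[ℚ_[q]] Loc.Om q), ?_, ?_, ?_⟩
    · exact LinearEquiv.finiteDimensional
        (IntermediateField.equivMap (F₀ ⊔ gLocField q x F₁)
          (h₀ : Loc.Om q →ₐ[ℚ_[q]] Loc.Om q)).toLinearEquiv
    · apply h12s_le_of_GK_le
      intro s hs
      rw [h12s_mem_GK_map] at hs
      rw [h12s_mem_GK_trans q L h₀ x u₀ hu₀]
      exact IntermediateField.fixingSubgroup_antitone (hKF₀.trans le_sup_left) hs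
    · intro h hh s hs
      rw [h12s_mem_GK_map] at hs
      rw [h12s_mem_GK_trans q L h₀ x u₀ hu₀] at hh
      have hs0 : h₀⁻¹ * s * h₀ ∈ Loc.GK F₀ :=
        IntermediateField.fixingSubgroup_antitone le_sup_left hs
      have hs1 : h₀⁻¹ * s * h₀ ∈ Loc.GK (gLocField q x F₁) :=
        IntermediateField.fixingSubgroup_antitone le_sup_right hs
      have hσ : gConj q x (h₀⁻¹ * s * h₀) ∈ GU F₁ := (h36g_gConj_mem_GU_iff q F₁ x _).2 hs1
      have hA : gConj q x (h₀⁻¹ * h * h₀) ∈ GU L := (h36g_gConj_mem_GU_iff q L x _).2 hh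
      show f₀ (h₀⁻¹ * (h * s) * h₀) + h12s_tw y u₀ (gConj q x (h₀⁻¹ * (h * s) * h₀)) =
        f₀ (h₀⁻¹ * h * h₀) + h12s_tw y u₀ (gConj q x (h₀⁻¹ * h * h₀))
      rw [hkmul, hf₀c _ hh _ hs0, h36g_gConj_mul]
      congr 1
      simp only [h12s_tw]
      have e : u₀⁻¹ * (gConj q x (h₀⁻¹ * h * h₀) * gConj q x (h₀⁻¹ * s * h₀)) * u₀ =
          (u₀⁻¹ * gConj q x (h₀⁻¹ * h * h₀) * u₀) * (u₀⁻¹ * gConj q x (h₀⁻¹ * s * h₀) * u₀) := by
        group
      have hσ' : u₀⁻¹ * gConj q x (h₀⁻¹ * s * h₀) * u₀ ∈ GU F₁ := by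
        have := hnorm.conj_mem _ hσ u₀⁻¹
        simpa using this
      have hA' : u₀⁻¹ * gConj q x (h₀⁻¹ * h * h₀) * u₀ ∈ GU L :=
        mul_mem (mul_mem (inv_mem hu₀) hA) hu₀
      have i1 := hinv u₀ hu₀ _ hA' 1 (one_mem _) _ hσ'
      have i2 := hinv _ hA u₀ hu₀ _ hσ 1 (one_mem _)
      rw [mul_one] at i1 i2
      rw [e, i1, i2]
  · intro h hh h' hh'
    rw [h12s_mem_GK_trans q L h₀ x u₀ hu₀] at hh hh'
    have hA : gConj q x (h₀⁻¹ * h * h₀) ∈ GU L := (h36g_gConj_mem_GU_iff q L x _).2 hh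
    have hB : gConj q x (h₀⁻¹ * h' * h₀) ∈ GU L := (h36g_gConj_mem_GU_iff q L x _).2 hh'
    have h1 := hf₀ _ hh _ hh'
    have h2 := h12s_conj_eq hy hu₀ hA hB
    simp only [gLoc2, Loc.acob, Pi.zero_apply, zero_add] at h1
    show y (gConj q _ h, gConj q _ h') = 0 + Loc.acob _ (h, h')
    rw [h12s_gConj_trans, h12s_gConj_trans, h2, h1]
    simp only [Loc.acob, gacob, hkmul, h36g_gConj_mul]
    ring

end Transport

/-! ## Linear algebra -/

section LinAlg

/-- A vector space in which every linearly independent family `Fin n → V` satisfies `n ≤ C` is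
finite dimensional. -/
theorem h12s_finite_of_indep_bound {K V : Type*} [Field K] [AddCommGroup V] [Module K V] (C : ℕ)
    (h : ∀ (n : ℕ) (v : Fin n → V), LinearIndependent K v → n ≤ C) : Module.Finite K V := by
  have hr : Module.rank K V ≤ C := by
    apply rank_le
    intro s hs
    have := h s.card (fun i => ((s.equivFin.symm i : s) : V))
      (hs.comp _ (Equiv.injective _))
    exact this
  rw [← Module.rank_lt_aleph0_iff]
  exact lt_of_le_of_lt hr (Cardinal.natCast_lt_aleph0)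

/-- The counting principle: if `b ^ n ≤ C` for every linearly independent family of `n` vectors
(`1 < b`), then `V` is finite dimensional and `b ^ dim V ≤ C`. -/
theorem h12s_finrank_le_of_indep {K V : Type*} [Field K] [AddCommGroup V] [Module K V]
    (b C : ℕ) (hb : 1 < b)
    (h : ∀ (n : ℕ) (v : Fin n → V), LinearIndependent K v → b ^ n ≤ C) :
    Module.Finite K V ∧ b ^ Module.finrank K V ≤ C := by
  have hfin : Module.Finite K V :=
    h12s_finite_of_indep_bound C fun n v hv => (Nat.lt_pow_self hb).le.trans (h n v hv)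
  exact ⟨hfin, h _ _ (Module.finBasis K V).linearIndependent⟩

end LinAlg

/-! ## Extension by zero -/

section Ext

variable {p : ℕ} (U : Subgroup GQ)

/-- Extension by zero of a `2`-cochain of `↥U`. -/
def h12s_ext (z : ↥U × ↥U → ZMod p) : GQ × GQ → ZMod p :=
  fun g => if h : g.1 ∈ U ∧ g.2 ∈ U then z (⟨g.1, h.1⟩, ⟨g.2, h.2⟩) else 0

theorem h12s_ext_mk (z : ↥U × ↥U → ZMod p) {g h : GQ} (hg : g ∈ U) (hh : h ∈ U) :
    h12s_ext U z (g, h) = z (⟨g, hg⟩, ⟨h, hh⟩) := by
  have hc : (g, h).1 ∈ U ∧ (g, h).2 ∈ U := ⟨hg, hh⟩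
  simp only [h12s_ext]
  rw [dif_pos hc]

theorem h12s_ext_apply (z : ↥U × ↥U → ZMod p) (a b : ↥U) :
    h12s_ext U z ((a : GQ), (b : GQ)) = z (a, b) :=
  h12s_ext_mk U z a.2 b.2

end Ext

/-! ## The dictionary for `D_U` -/

section Dict

attribute [local instance] locActQ

/-- local instance: the prime `q : Nat.Primes` as a `Fact`. -/
local instance h12s_factPrimes (q : Nat.Primes) : Fact (q : ℕ).Prime := ⟨q.2⟩

variable {p : ℕ} [Fact p.Prime] {S : Finset Nat.Primes} {U : Subgroup GQ} [U.FiniteIndex]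
  (u : USD U)

/-- cocycles. -/
theorem h12s_gacoc2 (hadm : Adm p S U) (z : ↥U × ↥U → ZMod p)
    (hz : z ∈ Z2 (DU p S U u).lev (trivU p S U u)) :
    GACoc2 (fieldOf U) (h12s_ext U z) := by
  have hU : GU (fieldOf U) = U := h23r_fixingSubgroup_fieldOf hadm
  obtain ⟨hd, -⟩ := (mem_Z2 _ _ _).1 hz
  intro g hg h hh j hj
  rw [hU] at hg hh hj
  have h1 := congrFun hd ((⟨g, hg⟩ : ↥U), (⟨h, hh⟩ : ↥U), (⟨j, hj⟩ : ↥U))
  rw [h12s_ext_mk U z hh hj, h12s_ext_mk U z (mul_mem hg hh) hj,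
    h12s_ext_mk U z hg (mul_mem hh hj), h12s_ext_mk U z hg hh]
  exact h1

/-- a common normal level, unramified outside `S`, containing `L`. -/
theorem h12s_exists_level (hadm : Adm p S U) (z : ↥U × ↥U → ZMod p)
    (hz : IsLC2 ((levQ S).comap U.subtype) z) :
    ∃ F : NFd, F.IsUnramifiedOutside S ∧ Normal ℚ F ∧ fieldOf U ≤ F ∧
      ∀ g ∈ U, ∀ g' ∈ U, ∀ s ∈ GU F, ∀ s' ∈ GU F,
        h12s_ext U z (g * s, g' * s') = h12s_ext U z (g, g') := by
  have hU : GU (fieldOf U) = U := h23r_fixingSubgroup_fieldOf hadm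
  obtain ⟨N', ⟨N, ⟨F, hF, hn, rfl⟩, rfl⟩, hinv⟩ := hz
  obtain ⟨N₀, ⟨F₀, hF₀, hn₀, rfl⟩, hle⟩ := hadm.isOpen
  have hsup : GU (F ⊔ F₀) = GU F ⊓ GU F₀ := IntermediateField.fixingSubgroup_sup
  refine ⟨F ⊔ F₀, hF.sup hF₀, @IntermediateField.normal_sup ℚ _ _ _ _ F F₀ hn hn₀, ?_, ?_⟩
  · apply h12s_le_of_GU_le
    rw [hU, hsup]
    exact inf_le_right.trans hle
  · intro g hg g' hg' s hs s' hs'
    rw [hsup] at hs hs'
    have hsU : s ∈ U := hle hs.2
    have hsU' : s' ∈ U := hle hs'.2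
    rw [h12s_ext_mk U z (mul_mem hg hsU) (mul_mem hg' hsU'), h12s_ext_mk U z hg hg']
    exact hinv ⟨g, hg⟩ ⟨g', hg'⟩ ⟨s, hsU⟩ ⟨s', hsU'⟩ hs.1 hs'.1

/-- continuity of level `S`. -/
theorem h12s_gcontS2 (hadm : Adm p S U) (z : ↥U × ↥U → ZMod p)
    (hz : z ∈ Z2 (DU p S U u).lev (trivU p S U u)) :
    GContS2 S (fieldOf U) (h12s_ext U z) := by
  have hU : GU (fieldOf U) = U := h23r_fixingSubgroup_fieldOf hadm
  obtain ⟨-, hc⟩ := (mem_Z2 _ _ _).1 hz
  obtain ⟨F, hF, -, hle, hinv⟩ := h12s_exists_level hadm z hc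
  refine ⟨F, hF, hle, ?_⟩
  rw [hU]
  exact hinv

/-- local triviality at the orbit representatives. -/
theorem h12s_acohom_rep (hadm : Adm p S U) (z : (DU p S U u).G × (DU p S U u).G → ZMod p)
    (hz : z ∈ (DU p S U u).ZSha2 (trivU p S U u)) (P : (DU p S U u).P) :
    Loc.ACohom (gLocField (P.1.1 : ℕ) (u.sec.gsec (P.2.1 : GQ ⧸ U)) (fieldOf U))
      (gLoc2 (P.1.1 : ℕ) (u.sec.gsec (P.2.1 : GQ ⧸ U)) (h12s_ext U z)) 0 := by
  have h2 : res2 (ZMod p) (ZMod p) ((DU p S U u).loc P) z ∈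
      B2 ((DU p S U u).levH P) ((DU p S U u).repAt (trivU p S U u) P) := by
    have h1 := (Submodule.mem_inf.1 hz).2
    simp only [Submodule.mem_iInf, Submodule.mem_comap] at h1
    exact h1 P
  have h3 : res2 (ZMod p) (ZMod p) ((DU p S U u).loc P) z =
      h23r_pb2 (h23r_incl S U u P)
        (gLoc2 (P.1.1 : ℕ) (u.sec.gsec (P.2.1 : GQ ⧸ U)) (h12s_ext U z)) := by
    funext ⟨h, h'⟩
    exact (h12s_ext_apply U z ((DU p S U u).loc P h) ((DU p S U u).loc P h')).symm
  rw [h3] at h2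
  exact (h23r_DU_mem_B2_iff u hadm P _).1 h2

/-- local triviality at every place above `S`. -/
theorem h12s_gLocTrivS (hadm : Adm p S U) (z : (DU p S U u).G × (DU p S U u).G → ZMod p)
    (hz : z ∈ (DU p S U u).ZSha2 (trivU p S U u)) :
    GLocTrivS S (fieldOf U) (h12s_ext U z) := by
  have hU : GU (fieldOf U) = U := h23r_fixingSubgroup_fieldOf hadm
  have hZ2 : z ∈ Z2 (DU p S U u).lev (trivU p S U u) := (Submodule.mem_inf.1 hz).1
  obtain ⟨F₁, hF₁, hn₁, hle₁, hinv₁⟩ := h12s_exists_level hadm z ((mem_Z2 _ _ _).1 hZ2).2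
  haveI := hF₁.1
  have hnorm : (GU F₁).Normal := (h23b_fixingSubgroup_good F₁ hn₁).1
  rintro q hq g ⟨q', hq'S, rfl⟩
  have hx := h12s_acohom_rep u hadm z hz
    ⟨(⟨q', hq'S⟩ : (DQ p S).P), (u.od q').repW (QuotientGroup.mk g : GQ ⧸ U)⟩
  -- `g = r(h₀) x u₀`
  have hc : (QuotientGroup.mk (localGaloisToGlobal (q' : ℕ)
        ((u.od q').sec (QuotientGroup.mk g : GQ ⧸ U)) *
        u.sec.gsec ((u.od q').rep (QuotientGroup.mk g : GQ ⧸ U))) : GQ ⧸ U) =
      QuotientGroup.mk g := by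
    have h1 : (u.od q').sec (QuotientGroup.mk g : GQ ⧸ U) •
        (u.od q').rep (QuotientGroup.mk g : GQ ⧸ U) = QuotientGroup.mk g :=
      (u.od q').sec_smul _
    have h2 : (QuotientGroup.mk (u.sec.gsec ((u.od q').rep (QuotientGroup.mk g : GQ ⧸ U))) :
        GQ ⧸ U) = (u.od q').rep (QuotientGroup.mk g : GQ ⧸ U) := u.sec.gsec_mk _
    rw [← h2] at h1
    exact h1
  have hu₀ := QuotientGroup.eq.1 hc
  have hg : g = localGaloisToGlobal (q' : ℕ) ((u.od q').sec (QuotientGroup.mk g : GQ ⧸ U)) *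
      u.sec.gsec ((u.od q').rep (QuotientGroup.mk g : GQ ⧸ U)) *
      ((localGaloisToGlobal (q' : ℕ) ((u.od q').sec (QuotientGroup.mk g : GQ ⧸ U)) *
        u.sec.gsec ((u.od q').rep (QuotientGroup.mk g : GQ ⧸ U)))⁻¹ * g) := by
    group
  rw [hg]
  exact h12s_acohom_transport (q' : ℕ) (fieldOf U) F₁ (h12s_ext U z)
    (h12s_gacoc2 u hadm z hZ2) hF₁.1 hnorm (by rw [hU]; exact hinv₁) _ _ _
    (by rw [hU]; exact hu₀) hx

/-- coboundaries of level `S`. -/
theorem h12s_mem_B2_of_gacohomS (hadm : Adm p S U)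
    (z : (DU p S U u).G × (DU p S U u).G → ZMod p)
    (h : GACohomS S (fieldOf U) (h12s_ext U z) 0) :
    z ∈ B2 (DU p S U u).lev (trivU p S U u) := by
  have hU : GU (fieldOf U) = U := h23r_fixingSubgroup_fieldOf hadm
  obtain ⟨f, ⟨F, hF, hle, hfc⟩, hf⟩ := h
  rw [mem_B2]
  refine ⟨fun a : ↥U => f a, ?_, ?_⟩
  · haveI := hF.1
    refine ⟨((pt79_galClosure F).fixingSubgroup).comap U.subtype,
      ⟨_, ⟨pt79_galClosure F, pt79_isUnramifiedOutside_galClosure hF,
        pt79_galClosure_normal F, rfl⟩, rfl⟩, ?_⟩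
    intro (g : ↥U) (s : ↥U) hs
    have hs' : (s : GQ) ∈ GU F :=
      IntermediateField.fixingSubgroup_antitone (pt79_le_galClosure F) hs
    exact hfc g (by rw [hU]; exact g.2) s hs'
  · funext ⟨(a : ↥U), (b : ↥U)⟩
    have h1 := hf a (by rw [hU]; exact a.2) b (by rw [hU]; exact b.2)
    have h0 : h12s_ext U z ((a : GQ), (b : GQ)) = z (a, b) := h12s_ext_apply U z a b
    rw [h0] at h1
    simp only [Pi.zero_apply, zero_add, gacob] at h1
    rw [h1]
    rfl

end Dict

/-! ## The theorem -/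

section Main

theorem h12s_gPrimesAbove_eq (S : Finset Nat.Primes) (L : NFd) :
    gPrimesAbove S L = primesAbove L S := by
  ext v
  simp only [gPrimesAbove, primesAbove, Set.mem_ofPred_eq, Int.cast_natCast]

/-- **BR2-SHADICT.** The bound `dim Ш²_S(L, 𝔽_p) ≤ dim Cl_S(L)/p` in the language of the
restricted datum `D_U`, from its relative form `GShaBound`. -/
theorem h12s_brCountH_of (hG : GShaBound) : BrCountH := by
  intro p _ S U _ _ u hadm
  have hU : GU (fieldOf U) = U := h23r_fixingSubgroup_fieldOf hadm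
  have hp : p.Prime := Fact.out
  have key : ∀ (n : ℕ) (v : Fin n → (DU p S U u).Sha2 (trivU p S U u)),
      LinearIndependent (ZMod p) v →
        p ^ n ≤ clSmodP (fieldOf U) (primesAbove (fieldOf U) S) p := by
    intro n v hv
    have hsurj : ∀ i, ∃ z : ↥((DU p S U u).ZSha2 (trivU p S U u)),
        Submodule.Quotient.mk z = v i := fun i => Submodule.Quotient.mk_surjective _ (v i)
    choose z hz using hsurj
    have hmain := hG p hadm.odd S hadm.mem (fieldOf U) (Loc.zetaG p)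
      (h23r_isUnramifiedOutside_fieldOf hadm) (h23r_zetaG_mem_fieldOf hadm)
      (h23r_zetaG_primitive p) n (fun i => h12s_ext U (z i).1) ?_ ?_
    · rw [← h12s_gPrimesAbove_eq]
      exact hmain
    · intro i
      exact ⟨h12s_gacoc2 u hadm _ (Submodule.mem_inf.1 (z i).2).1,
        h12s_gcontS2 u hadm _ (Submodule.mem_inf.1 (z i).2).1,
        h12s_gLocTrivS u hadm _ (z i).2⟩
    · intro a ha
      have e : ∀ w : (DU p S U u).G × (DU p S U u).G,
          (∑ i, a i • (z i).1) w = ∑ i, a i • (z i).1 w := fun w => by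
        simp only [Finset.sum_apply, Pi.smul_apply]
      have h1 : GACohomS S (fieldOf U) (h12s_ext U (∑ i, a i • (z i).1)) 0 := by
        obtain ⟨f, hfc, hf⟩ := ha
        refine ⟨f, hfc, fun g hg h hh => ?_⟩
        rw [← hf g hg h hh]
        rw [hU] at hg hh
        rw [h12s_ext_mk U _ hg hh]
        refine (e _).trans ?_
        simp only [Finset.sum_apply, Pi.smul_apply]
        refine Finset.sum_congr rfl fun i _ => ?_
        exact congrArg (fun t => a i • t) (h12s_ext_mk U (z i).1 hg hh).symm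
      have h2 := h12s_mem_B2_of_gacohomS u hadm _ h1
      have h3 : ∑ i, a i • v i = 0 := by
        have h4 : ∑ i, a i • v i =
            Submodule.mkQ ((B2 (DU p S U u).lev (trivU p S U u)).comap
              ((DU p S U u).ZSha2 (trivU p S U u)).subtype) (∑ i, a i • z i) := by
          rw [map_sum]
          refine Finset.sum_congr rfl fun i _ => ?_
          rw [map_smul, Submodule.mkQ_apply, hz]
        rw [h4, Submodule.mkQ_apply, Submodule.Quotient.mk_eq_zero, Submodule.mem_comap]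
        have h5 : ((DU p S U u).ZSha2 (trivU p S U u)).subtype (∑ i, a i • z i) =
            ∑ i, a i • (z i).1 := by
          rw [map_sum]
          rfl
        rw [h5]
        exact h2
      exact funext (Fintype.linearIndependent_iff.1 hv a h3)
  exact h12s_finrank_le_of_indep p _ hp.one_lt key

end Main

end Fermat.Agent.PT.Glob
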