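import Mathlib
import Fermat.Agent.PT.Glob.KIface4

/-!
# W3-PT / PT-GLOB-K (helper47): frozen interface, part 5 — (d') by `S`-variation

Target: `KLeftFor inv` (KIface3.lean): left nondegeneracy of `Ш¹ × Ш² → 𝔽_p` over `L = fieldOf U`.

Proof. Let `z = (a, b) ∈ ZC¹` be orthogonal to `ZШ²` and `a ≠ 0`.
* `KCheb`    : a prime `q0 ∉ S`, `A0` over `q0`, a Frobenius `σ ∈ U` at `A0` with `a σ ≠ 0`.
* `KClassEx` : `α ∈ L` with `v(α) = p^k h'` at the prime under `A0` (`p ∤ h'`), `α` a unit at the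
               other primes outside `S`.
* `y = d¹ ζ'`, `ζ' = zetaP p k ξ γ`, `γ^{p^{k+1}} = α` : `y ∈ ZШ²` (`KBockLoc`), `ζ'` has level
               `S' = insert q0 S`.
* `KPairFormula` : `⟨z, y⟩ = ∑_{w ∣ q0} inv_w (res_w ω)`, `ω = ε + a ∪ ζ'` a `2`-cocycle of level
               `S'`, `ε` of level `S` (Tate's formula + `H³ = 0` + reciprocity at level `S'`).
* `KLocEval` : `inv_w (res_w ω) = 0` if `α` is a unit at `w`, and `= h' · inv_w (a_w ∪ κ_Pr)` if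
               `α = ϖ^{p^k h'} · unit`, `Prᵖ = ϖ` (`KUnrW`, `KInertGam`, `KInertUnit`, `KZetaInert`).
* `KFrobW`   : the orbit representative `w0` over the prime under `A0`, a Frobenius `φ` in the
               local group at `w0` with `a (loc φ) = a σ`.
* `KTameW` + `LocInjW` : `inv_{w0} (a_{w0} ∪ κ_Pr) ≠ 0` (tame symbol).
Hence `⟨z, y⟩ ≠ 0`, a contradiction.
-/

set_option autoImplicit false

open ExtCitation NumberField IsDedekindDomain MulAction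
open scoped Pointwise

namespace Fermat.Agent.PT.Glob

open Fermat.Agent.PT Fermat.Agent.PT.Shap Fermat.Agent.Bridge

local notation "GQ₀" => (AlgebraicClosure ℚ ≃ₐ[ℚ] AlgebraicClosure ℚ)

noncomputable section

attribute [local instance] locActQ

/-! ## Vocabulary -/

/-- `a` is a unit of `A`. -/
def IsUnitAt (A : ValuationSubring Qb) (a : Qb) : Prop := a ∈ A ∧ a⁻¹ ∈ A

/-- `ϖ ∈ L` is a uniformizer at the place of `L` below `A`. -/
def IsUnifAt (L : IntermediateField ℚ Qb) (A : ValuationSubring Qb) (ϖ : Qb) : Prop :=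
  ϖ ∈ L ∧ ϖ ≠ 0 ∧ ϖ ∈ A.nonunits ∧ ∀ x ∈ L, x ∈ A.nonunits → x / ϖ ∈ A

variable {U : Subgroup GQ₀}

/-- The valuation subring of `ℚ̄` attached to the orbit representative `w`:
`(gsec w)⁻¹ • padicPlace q` (the place `x ↦ ι_q (gsec w · x)`). -/
def plcRing (u : USD U) (q : Nat.Primes) (w : (u.od q).W) : ValuationSubring Qb :=
  (u.sec.gsec w.1)⁻¹ • primeLocalPlace q

/-- The inertia subgroup of the local group at `w`. -/
def IW (u : USD U) (q : Nat.Primes) (w : (u.od q).W) : Subgroup ↥(VW u q w) :=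
  ((primeLocalPlace q).inertiaSubgroupIn ℚ).comap
    ((primeLocalToGlobal q).comp (VW u q w).subtype)

/-! ## Class group data -/

/-- Abstract number field: for a prime `v0 ∉ S` there is `α` with `v0(α) = p^k h'`, `p ∤ h'`,
and `v(α) = 0` for all other `v ∉ S` (`[v0]^{p^k h'} = 1` in the finite group `Cl_S`). -/
def KClassExAbs : Prop :=
  ∀ (p : ℕ) [Fact p.Prime] (K : Type) [Field K] [NumberField K]
    (S : Set (HeightOneSpectrum (𝓞 K))) (v0 : HeightOneSpectrum (𝓞 K)), v0 ∉ S →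
    ∃ (k h' : ℕ) (α ϖ : K), ¬ p ∣ h' ∧ 0 < h' ∧ α ≠ 0 ∧
      v0.valuation K ϖ = WithZero.exp (-1 : ℤ) ∧
      v0.valuation K α = WithZero.exp (-((p ^ k * h' : ℕ) : ℤ)) ∧
      ∀ v : HeightOneSpectrum (𝓞 K), v ∉ S → v ≠ v0 → v.valuation K α = 1

/-- `ℚ̄`-language: for `A0` over `q0 ∉ S` there are `α, ϖ ∈ L`, `ϖ` a uniformizer at `A0`,
`α = ϖ^{p^k h'} · unit` at `A0`, `p ∤ h'`, and `α` is a unit at every `A` over a prime outside `S`
lying over another prime of `L`. -/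
def KClassEx : Prop :=
  ∀ (p : ℕ) [Fact p.Prime] (S : Finset Nat.Primes) (L : IntermediateField ℚ Qb)
    [NumberField L] (q0 : Nat.Primes) (A0 : ValuationSubring Qb), q0 ∉ S →
    A0.LiesOverPrime (q0 : ℕ) →
    ∃ (k h' : ℕ) (α ϖ : Qb), ¬ p ∣ h' ∧ α ∈ L ∧ α ≠ 0 ∧ IsUnifAt L A0 ϖ ∧
      (∃ x : Qb, IsUnitAt A0 x ∧ α = ϖ ^ (p ^ k * h') * x) ∧
      ∀ q : Nat.Primes, q ∉ S → ∀ A : ValuationSubring Qb, A.LiesOverPrime (q : ℕ) →
        primeUnder A L ≠ primeUnder A0 L → IsUnitAt A α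

/-! ## Tame inertia -/

/-- A `p`-th root of an inertia-fixed unit is inertia-fixed (`q ≠ p`). -/
def KInertUnit : Prop :=
  ∀ (p : ℕ) [Fact p.Prime] (q : ℕ) (A : ValuationSubring Qb) (x : Qb),
    q.Prime → q ≠ p → A.LiesOverPrime q → IsUnitAt A x →
    ∀ ι ∈ A.inertiaSubgroupIn ℚ, ι (x ^ p) = x ^ p → ι x = x

/-- The action of inertia on `γ`, `γ^{p^{k+1}} = ϖ^{p^k h'} · unit`: it fixes `γᵖ` and acts on
`γ` as on `Pr^{h'}`, `Prᵖ = ϖ`. -/
def KInertGam : Prop :=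
  ∀ (p : ℕ) [Fact p.Prime] (q : ℕ) (A : ValuationSubring Qb) (L : IntermediateField ℚ Qb)
    (k h' : ℕ) (ζ γ Pr ϖ : Qb),
    q.Prime → q ≠ p → A.LiesOverPrime q → A.inertiaSubgroupIn ℚ ≤ L.fixingSubgroup →
    IsPrimitiveRoot ζ p → γ ≠ 0 → γ ^ p ^ (k + 1) ∈ L → IsUnifAt L A ϖ → Pr ^ p = ϖ →
    (∃ x : Qb, IsUnitAt A x ∧ γ ^ p ^ (k + 1) = ϖ ^ (p ^ k * h') * x) →
    ∀ ι ∈ A.inertiaSubgroupIn ℚ,
      ι (γ ^ p) = γ ^ p ∧ kumQ p ζ γ ι = (h' : ZMod p) * kumQ p ζ Pr ι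

/-- The Bockstein–Kummer cochain under right multiplication by an element fixing `γᵖ`. -/
def KZetaInert : Prop :=
  ∀ (p : ℕ) [Fact p.Prime] (U : Subgroup GQ₀) (k : ℕ) (ξ γ : Qb),
    (∀ u ∈ U, cycloChar p u = 1) → IsPrimitiveRoot ξ (p ^ (k + 1)) → γ ≠ 0 →
    γ ^ p ^ (k + 1) ∈ fieldOf U →
    ∀ g ∈ U, ∀ ι ∈ U, ι (γ ^ p) = γ ^ p →
      zetaP p k ξ γ (g * ι) = zetaP p k ξ γ g + kumQ p (ξ ^ p ^ k) γ ι

/-! ## Places and Frobenius -/

/-- The orbit representative over the prime of `L` under `A0`, and a Frobenius in its local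
group. -/
def KFrobW : Prop :=
  ∀ (p : ℕ) [Fact p.Prime] (S : Finset Nat.Primes) (U : Subgroup GQ₀) [U.FiniteIndex]
    (u : USD U) (q0 : Nat.Primes) (A0 : ValuationSubring Qb) (σ : GQ₀),
    Adm p S U → A0.LiesOverPrime (q0 : ℕ) → σ ∈ U → A0.IsFrobeniusAt σ (q0 : ℕ) →
    ∃ (w0 : (u.od q0).W) (φ : ↥(VW u q0 w0)) (x : GQ₀), x ∈ U ∧
      plcRing u q0 w0 = x • A0 ∧
      ((locW u q0 w0 φ : ↥U) : GQ₀) = x * σ * x⁻¹ ∧
      (primeLocalPlace q0).IsFrobeniusAt (primeLocalToGlobal q0 φ) (q0 : ℕ) ∧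
      ∀ w : (u.od q0).W, w ≠ w0 →
        primeUnder (plcRing u q0 w) (fieldOf U) ≠ primeUnder A0 (fieldOf U)

/-! ## Local inputs at `w` (frame language) -/

/-- Unramified `2`-cocycles of the local group at `w` are coboundaries
(frame form of `Loc.H36LocUnr`). -/
def KUnrW : Prop :=
  ∀ (p : ℕ) [Fact p.Prime] (U : Subgroup GQ₀) [U.FiniteIndex] (u : USD U), AdmU p U →
    ∀ (q : Nat.Primes) (w : (u.od q).W), ∀ c ∈ Z2 (levW u q w) (trivW p u q w),
      (∀ g g' ι ι' : ↥(VW u q w), ι ∈ IW u q w → ι' ∈ IW u q w →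
        c (g * ι, g' * ι') = c (g, g')) →
      c ∈ B2 (levW u q w) (trivW p u q w)

/-- The tame symbol: an unramified character which is nonzero on a Frobenius, cup the Kummer
character of a `p`-th root of a uniformizer, is not a coboundary
(frame form of `Loc.B0Gen` + anticommutativity). -/
def KTameW : Prop :=
  ∀ (p : ℕ) [Fact p.Prime] (U : Subgroup GQ₀) [U.FiniteIndex] (u : USD U), AdmU p U →
    ∀ (q : Nat.Primes) (w : (u.od q).W) (ζ Pr : Qb) (χ : ↥(VW u q w) → ZMod p)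
      (φ : ↥(VW u q w)),
      (q : ℕ) ≠ p → IsPrimitiveRoot ζ p → IsUnifAt (fieldOf U) (plcRing u q w) (Pr ^ p) →
      χ ∈ Z1 (levW u q w) (trivW p u q w) → (∀ ι ∈ IW u q w, χ ι = 0) →
      (primeLocalPlace q).IsFrobeniusAt (primeLocalToGlobal q φ) (q : ℕ) → χ φ ≠ 0 →
      cup11 (LinearMap.mul (ZMod p) (ZMod p)) (trivW p u q w) χ
        (fun h => kumQ p ζ Pr (locW u q w h)) ∉ B2 (levW u q w) (trivW p u q w)

/-! ## The `S`-variation formula -/

/-- `⟨z, d¹ζ'⟩ = ∑_{w ∣ q0} inv_w (res_w (ε + a ∪ ζ'))` for a cochain `ζ'` of level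
`S' = insert q0 S` with `d¹ζ' ∈ ZШ²_S`; `ε` of level `S`, `ε + a ∪ ζ'` a cocycle of level `S'`. -/
def KPairFormula : Prop :=
  ∀ (p : ℕ) [Fact p.Prime] (inv : InvFam p), LocInvOK p inv → RecQFor p inv →
    h56s_ShapTrOK → DQGood → KInvW → KSumPlc → InvWOK inv → BrVV →
    ∀ (S : Finset Nat.Primes) (U : Subgroup GQ₀) [U.FiniteIndex] (u : USD U)
      (tr : (DQ p S).CC3 (ZMod p) →ₗ[ZMod p] ZMod p), Adm p S U → TrFor inv S tr →
    ∀ q0 : Nat.Primes, q0 ∉ S →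
    ∀ z ∈ (DU p S U u).ZC1 (trivU p S U u),
    ∀ ζ' : ↥U → ZMod p, IsLC1 (levU (insert q0 S) U) ζ' →
      d1 (trivF p U) ζ' ∈ (DU p S U u).ZSha2 (trivU p S U u) →
      ∃ ε : ↥U × ↥U → ZMod p, IsLC2 (levU S U) ε ∧
        (ε + cup11 (LinearMap.mul (ZMod p) (ZMod p)) (trivF p U) z.1 ζ') ∈
          Z2 (levU (insert q0 S) U) (trivF p U) ∧
        (DU p S U u).pair1 (trivU p S U u) (trUt S U u tr) (LinearMap.mul (ZMod p) (ZMod p)) z
            (d1 (trivF p U) ζ') =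
          ∑ w : (u.od q0).W, invW inv u q0 w
            (res2 (ZMod p) (ZMod p) (locW u q0 w)
              (ε + cup11 (LinearMap.mul (ZMod p) (ZMod p)) (trivF p U) z.1 ζ'))

/-- The local evaluation at the places above `q0 ∉ S`. -/
def KLocEval : Prop :=
  ∀ (p : ℕ) [Fact p.Prime] (inv : InvFam p), KUnrW → InvWOK inv → KInertGam → KInertUnit →
    KZetaInert → KKumBasic → DQGood →
    ∀ (S : Finset Nat.Primes) (U : Subgroup GQ₀) [U.FiniteIndex] (u : USD U), Adm p S U →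
    ∀ q0 : Nat.Primes, q0 ∉ S →
    ∀ (k h' : ℕ) (ξ γ : Qb) (a : ↥U → ZMod p) (ε : ↥U × ↥U → ZMod p),
      IsPrimitiveRoot ξ (p ^ (k + 1)) → γ ≠ 0 → γ ^ p ^ (k + 1) ∈ fieldOf U →
      a ∈ Z1 (levU S U) (trivF p U) → IsLC2 (levU S U) ε →
      (ε + cup11 (LinearMap.mul (ZMod p) (ZMod p)) (trivF p U) a
          (fun g : ↥U => zetaP p k ξ γ g)) ∈ Z2 (levU (insert q0 S) U) (trivF p U) →
      ∀ w : (u.od q0).W,
        (IsUnitAt (plcRing u q0 w) (γ ^ p ^ (k + 1)) →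
          invW inv u q0 w (res2 (ZMod p) (ZMod p) (locW u q0 w)
            (ε + cup11 (LinearMap.mul (ZMod p) (ZMod p)) (trivF p U) a
              (fun g : ↥U => zetaP p k ξ γ g))) = 0) ∧
        (∀ ϖ Pr : Qb, IsUnifAt (fieldOf U) (plcRing u q0 w) ϖ → Pr ^ p = ϖ →
          (∃ x : Qb, IsUnitAt (plcRing u q0 w) x ∧ γ ^ p ^ (k + 1) = ϖ ^ (p ^ k * h') * x) →
          invW inv u q0 w (res2 (ZMod p) (ZMod p) (locW u q0 w)
            (ε + cup11 (LinearMap.mul (ZMod p) (ZMod p)) (trivF p U) a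
              (fun g : ↥U => zetaP p k ξ γ g))) =
            (h' : ZMod p) * invW inv u q0 w
              (cup11 (LinearMap.mul (ZMod p) (ZMod p)) (trivW p u q0 w)
                (res1 (ZMod p) (ZMod p) (locW u q0 w) a)
                (fun h => kumQ p (ξ ^ p ^ k) Pr (locW u q0 w h))))

/-! ## The assembly of (d') -/

/-- **(d')** from the leaves. -/
def KLeftAsm : Prop :=
  ∀ (p : ℕ) [Fact p.Prime] (inv : InvFam p), LocInvOK p inv → RecQFor p inv →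
    h56s_ShapTrOK → DQGood → KInvW → KSumPlc → InvWOK inv → LocInjW inv → BrVV →
    KUnrW → KTameW → KInertGam → KInertUnit → KZetaInert → KKumBasic → KKumRam →
    KCheb → KClassEx → KBockLoc → KFrobW → KPairFormula → KLocEval → KLeftFor inv

end

end Fermat.Agent.PT.Glob
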