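/-
W3-PT (S55), K-DP-FROBW (helper23): `h23f_kFrobW : KFrobW` (PT/Glob/KIface5.lean).

For a valuation subring `A0` of `ℚ̄` over `q0` and a Frobenius `σ ∈ U = G_L` at `A0`:
the orbit representative `w0` over the prime of `L` under `A0`, `x ∈ U` with
`plcRing w0 = x • A0`, a Frobenius `φ` of the local group at `w0` with `locW φ = x σ x⁻¹`;
the other orbit representatives lie over other primes of `L`.
-/
import Mathlib
import Fermat.Agent.PT.Glob.KIface5
import Fermat.Agent.PT.Bridge.RelDictDU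
import Fermat.Agent.PT.Bridge.Frob

set_option autoImplicit false
set_option linter.style.haveILetI false
set_option linter.unusedSectionVars false

open ExtCitation NumberField IsDedekindDomain MulAction
open scoped Pointwise

namespace Fermat.Agent.PT.Glob

open Fermat.Agent.Bridge Fermat.Agent.PT Fermat.Agent.PT.Bridge Fermat.Agent.PT.Shap

attribute [local instance] locActQ

noncomputable section

/-- local instance: the prime `q : Nat.Primes` as a `Fact`. -/
local instance h23f_factPrimes (q : Nat.Primes) : Fact (q : ℕ).Prime := ⟨q.2⟩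

variable {U : Subgroup GQ}

theorem h23f_plcRing (u : USD U) (q : Nat.Primes) (w : (u.od q).W) :
    plcRing u q w = (u.sec.gsec (w.1 : GQ ⧸ U))⁻¹ • padicPlace (q : ℕ) := rfl

theorem h23f_smul_mk (q : Nat.Primes) (h : primeLocalGaloisGroup q) (x : GQ) :
    h • (QuotientGroup.mk x : GQ ⧸ U) = QuotientGroup.mk (localGaloisToGlobal (q : ℕ) h * x) :=
  rfl

/-- Two orbit representatives over the same prime of `L` are equal. -/
theorem h23f_rep_unique (hU : (fieldOf U).fixingSubgroup = U) (u : USD U) (q : Nat.Primes)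
    (w w' : (u.od q).W)
    (h : primeUnder (plcRing u q w) (fieldOf U) = primeUnder (plcRing u q w') (fieldOf U)) :
    w = w' := by
  rw [h23f_plcRing, h23f_plcRing] at h
  obtain ⟨τ, y, hy, hyw⟩ := (h23b_primeUnder_eq_iff (q : ℕ) (fieldOf U) _ _).mp h
  rw [hU] at hy
  let τ' : primeLocalGaloisGroup q := τ
  have h1 : (w'.1 : GQ ⧸ U) = τ' • (w.1 : GQ ⧸ U) := by
    conv_lhs => rw [← u.sec.gsec_mk w'.1, hyw]
    conv_rhs => rw [← u.sec.gsec_mk w.1, h23f_smul_mk]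
    apply QuotientGroup.eq.mpr
    have : (localGaloisToGlobal (q : ℕ) τ * u.sec.gsec (w.1 : GQ ⧸ U) * y)⁻¹ *
        (localGaloisToGlobal (q : ℕ) τ' * u.sec.gsec (w.1 : GQ ⧸ U)) = y⁻¹ := by
      show (localGaloisToGlobal (q : ℕ) τ * u.sec.gsec (w.1 : GQ ⧸ U) * y)⁻¹ *
        (localGaloisToGlobal (q : ℕ) τ * u.sec.gsec (w.1 : GQ ⧸ U)) = y⁻¹
      group
    rw [this]
    exact inv_mem hy
  apply Subtype.ext
  have h2 : (u.od q).rep (w'.1 : GQ ⧸ U) = (u.od q).rep (w.1 : GQ ⧸ U) := by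
    rw [h1, (u.od q).rep_smul]
  rw [w'.2, w.2] at h2
  exact h2.symm

/-- **K-DP-FROBW.** -/
theorem h23f_kFrobW : KFrobW := by
  intro p _ S U _ u q0 A0 σ hadm hA0 hσU hσ
  have hq : (q0 : ℕ).Prime := q0.2
  have hU : (fieldOf U).fixingSubgroup = U := h23r_fixingSubgroup_fieldOf hadm
  -- `A0 = g⁻¹ • P`
  obtain ⟨g, hg⟩ := h23b_exists_smul_padicPlace (q0 : ℕ) hA0
  -- the orbit representative
  let t : GQ ⧸ U := QuotientGroup.mk g
  let w0 : (u.od q0).W := (u.od q0).repW t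
  let s : primeLocalGaloisGroup q0 := (u.od q0).sec t
  let gs : GQ := u.sec.gsec (w0.1 : GQ ⧸ U)
  have hs : s • (w0.1 : GQ ⧸ U) = t := (u.od q0).sec_smul t
  obtain ⟨v, hv, hgv⟩ : ∃ v ∈ U, g = localGaloisToGlobal (q0 : ℕ) s * gs * v := by
    have h1 : (QuotientGroup.mk (localGaloisToGlobal (q0 : ℕ) s * gs) : GQ ⧸ U) =
        QuotientGroup.mk g := by
      rw [← h23f_smul_mk q0 s gs, u.sec.gsec_mk]
      exact hs
    refine ⟨(localGaloisToGlobal (q0 : ℕ) s * gs)⁻¹ * g, QuotientGroup.eq.mp h1, ?_⟩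
    group
  have hsP : (localGaloisToGlobal (q0 : ℕ) s)⁻¹ • padicPlace (q0 : ℕ) = padicPlace (q0 : ℕ) :=
    MulAction.mem_stabilizer_iff.1
      (inv_mem (localGaloisToGlobal_mem_decompositionSubgroup (q0 : ℕ) s))
  -- `plcRing w0 = v • A0`
  have hplc : plcRing u q0 w0 = v • A0 := by
    rw [h23f_plcRing, ← hg]
    have e : v • g⁻¹ • padicPlace (q0 : ℕ) =
        gs⁻¹ • (localGaloisToGlobal (q0 : ℕ) s)⁻¹ • padicPlace (q0 : ℕ) := by
      rw [← mul_smul, ← mul_smul]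
      congr 1
      rw [hgv]
      group
    rw [e, hsP]
  -- the Frobenius at `plcRing w0`
  have hF : (gs⁻¹ • padicPlace (q0 : ℕ)).IsFrobeniusAt (v * σ * v⁻¹) (q0 : ℕ) := by
    have h1 := isFrobeniusAt_conj hq hA0 hσ v
    rw [← hplc, h23f_plcRing] at h1
    exact h1
  obtain ⟨φ0, hφ0, hconj⟩ := (h23b_isFrobeniusAt_conj_iff (q0 : ℕ) gs (v * σ * v⁻¹)).mp hF
  have hmemU : v * σ * v⁻¹ ∈ U := mul_mem (mul_mem hv hσU) (inv_mem hv)
  -- `φ0` stabilises `w0`
  let φ0' : primeLocalGaloisGroup q0 := φ0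
  have hstab : φ0' ∈ VW u q0 w0 := by
    rw [MulAction.mem_stabilizer_iff]
    conv_lhs => rw [← u.sec.gsec_mk (w0.1 : GQ ⧸ U), h23f_smul_mk]
    conv_rhs => rw [← u.sec.gsec_mk (w0.1 : GQ ⧸ U)]
    apply QuotientGroup.eq.mpr
    have : (localGaloisToGlobal (q0 : ℕ) φ0' * gs)⁻¹ * gs = (v * σ * v⁻¹)⁻¹ := by
      rw [hconj]
      show (localGaloisToGlobal (q0 : ℕ) φ0 * gs)⁻¹ * gs = _
      group
    rw [this]
    exact inv_mem hmemU
  refine ⟨w0, ⟨φ0', hstab⟩, v, hv, hplc, ?_, ?_, ?_⟩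
  · show gs⁻¹ * localGaloisToGlobal (q0 : ℕ) φ0 * gs = v * σ * v⁻¹
    exact hconj.symm
  · exact (h23b_isFrobeniusAt_iff (q0 : ℕ) φ0).mpr hφ0
  · intro w hw hprime
    apply hw
    apply h23f_rep_unique hU u q0
    rw [hprime, hplc]
    have hvL : v ∈ (fieldOf U).fixingSubgroup := by rw [hU]; exact hv
    exact (h23b_primeUnder_smul_of_mem_fixingSubgroup (fieldOf U) A0 hvL).symm

end

end Fermat.Agent.PT.Glob
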