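import Fermat.Agent.PT.Glob.H24InvWGen
import Fermat.Agent.PT.Glob.KIface3

/-!
# W3-PT / PT-GLOB-K, row K-INVW (helper24): `KInvW` and the formula for `invW`

* `h24w_invAt_DU` : for every trace `tr` of `DQ p S` with local invariants `inv`,
  `invAt (trUt S U u tr) ⟨⟨q,_⟩, w⟩ c = χ(gsec w) * h56s_invR (h24w_sec (u.od q) w) χ_q (inv q) c`;
* `h24w_invW_eq`  : the same formula for `invW inv u q w c`;
* `h24w_kInvW : KInvW` (unconditional).
-/

set_option autoImplicit false
set_option linter.unusedSectionVars false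

open ExtCitation NumberField IsDedekindDomain MulAction

namespace Fermat.Agent.PT.Glob

open Fermat.Agent.PT Fermat.Agent.PT.Shap

local notation "GQ₀" => (AlgebraicClosure ℚ ≃ₐ[ℚ] AlgebraicClosure ℚ)

noncomputable section

attribute [local instance] locActQ

variable {p : ℕ} [Fact p.Prime] {U : Subgroup GQ₀}

/-- the stabilisers of the local groups acting on `G_ℚ ⧸ U` have finite index. -/
instance h24w_vwFI [U.FiniteIndex] (u : USD U) (q : Nat.Primes) (w : (u.od q).W) :
    (VW u q w).FiniteIndex :=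
  h24w_stab_finiteIndex w.1

/-- the local invariants of the purely local trace. -/
theorem h24w_invAt_trLoc (inv : InvFam p) (S : Finset Nat.Primes) (v : (DQ p S).P) :
    (DQ p S).invAt (trLoc inv S) v = inv v.1 := by
  classical
  ext c
  have h0 : (DQ p S).invAt (trLoc inv S) v c
      = h98a_Sig (DQ p S) (fun v => inv v.1)
          (LinearMap.single (ZMod p) (fun v : (DQ p S).P => (DQ p S).H v × (DQ p S).H v → ZMod p)
            v c) := rfl
  rw [h0, h98a_Sig_apply, Finset.sum_eq_single v]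
  · rw [LinearMap.single_apply, Pi.single_eq_same]
  · intro v' _ hv
    rw [LinearMap.single_apply, Pi.single_eq_of_ne hv, map_zero]
  · intro h
    exact absurd (Finset.mem_univ v) h

/-- **The local invariants of `D_U`**, for an arbitrary functional `tr`. -/
theorem h24w_invAt_DU_gen [hU : U.FiniteIndex] (u : USD U) (S : Finset Nat.Primes)
    (tr : (DQ p S).CC3 (ZMod p) →ₗ[ZMod p] ZMod p) (q : Nat.Primes) (hq : q ∈ S)
    (w : (u.od q).W) (c : ↥(VW u q w) × ↥(VW u q w) → ZMod p) :
    (DU p S U u).invAt (trUt S U u tr) (plc u S q hq w) c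
      = ((cycloChar p (u.sec.gsec w.1) : (ZMod p)ˣ) : ZMod p)
          * h56s_invR (h24w_sec (u.od q) w) (chiLoc p q) ((DQ p S).invAt tr ⟨q, hq⟩) c :=
  @h24w_invAt_restr (ZMod p) _ (DQ p S) U hU (u.sd p S) tr ⟨q, hq⟩ w c

/-- **The local invariants of `D_U`**, for a trace with local invariants `inv`. -/
theorem h24w_invAt_DU [U.FiniteIndex] (inv : InvFam p) (u : USD U) (S : Finset Nat.Primes)
    (tr : (DQ p S).CC3 (ZMod p) →ₗ[ZMod p] ZMod p)
    (hinv : ∀ q : (DQ p S).P, (DQ p S).invAt tr q = inv q.1) (q : Nat.Primes) (hq : q ∈ S)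
    (w : (u.od q).W) (c : ↥(VW u q w) × ↥(VW u q w) → ZMod p) :
    (DU p S U u).invAt (trUt S U u tr) (plc u S q hq w) c
      = ((cycloChar p (u.sec.gsec w.1) : (ZMod p)ˣ) : ZMod p)
          * h56s_invR (h24w_sec (u.od q) w) (chiLoc p q) (inv q) c := by
  rw [h24w_invAt_DU_gen, hinv ⟨q, hq⟩]

/-- **The formula for `invW`**: `invW inv u q w = χ(gsec w) · (inv q ∘ cor)`. -/
theorem h24w_invW_eq [U.FiniteIndex] (inv : InvFam p) (u : USD U) (q : Nat.Primes)
    (w : (u.od q).W) (c : ↥(VW u q w) × ↥(VW u q w) → ZMod p) :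
    invW inv u q w c
      = ((cycloChar p (u.sec.gsec w.1) : (ZMod p)ˣ) : ZMod p)
          * h56s_invR (h24w_sec (u.od q) w) (chiLoc p q) (inv q) c :=
  h24w_invAt_DU inv u {q} (trLoc inv {q}) (h24w_invAt_trLoc inv {q}) q
    (Finset.mem_singleton_self q) w c

/-- `invW` vanishes iff the restricted invariant `inv q ∘ cor` does. -/
theorem h24w_invW_eq_zero_iff [U.FiniteIndex] (inv : InvFam p) (u : USD U) (q : Nat.Primes)
    (w : (u.od q).W) (c : ↥(VW u q w) × ↥(VW u q w) → ZMod p) :
    invW inv u q w c = 0 ↔ h56s_invR (h24w_sec (u.od q) w) (chiLoc p q) (inv q) c = 0 := by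
  rw [h24w_invW_eq, mul_eq_zero]
  constructor
  · rintro (h | h)
    · exact absurd h (Units.ne_zero _)
    · exact h
  · exact fun h => Or.inr h

/-- **K-INVW.** -/
theorem h24w_kInvW : KInvW := by
  intro p _ inv U _ u S tr hinv q hq w c
  rw [h24w_invAt_DU inv u S tr hinv q hq w c, h24w_invW_eq]

end

end Fermat.Agent.PT.Glob
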