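import Mathlib
import Fermat.Agent.PT.Glob.KIface3

/-!
# W3-PT / LOC3-K-NONDEG (helper2), part (A): the explicit formula for `invW`

* `h2k_invAt_trR`  : the local invariant of the restricted trace `h56s_trR sd tr` at a place `P`
  of the restricted datum is `tr (0, Σ_x ex₂ (untw₂ (single P c')))`  (general datum);
* `h2k_exL2_single`: the Shapiro extension of a cochain supported at the place `⟨v₀, w⟩`, on
  restrictions of total cochains;
* `h2k_invW_eq`    : for a total cochain `c` of `Gal(ℚ̄_q/ℚ_q)`,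
  `invW inv u q w (c|_{VW}) = inv q (g ↦ Σ_{x ∈ orbit of w} χ(loc (sec x)) χ(gsec w) c(..))`.
-/

set_option autoImplicit false

open ExtCitation NumberField IsDedekindDomain MulAction

namespace Fermat.Agent.PT.Glob

open Fermat.Agent.PT Fermat.Agent.PT.Shap

local notation "GQ₀" => (AlgebraicClosure ℚ ≃ₐ[ℚ] AlgebraicClosure ℚ)

noncomputable section

section General

variable {k : Type} [Field k] {D : Datum k} {U : Subgroup D.G}

attribute [local instance] h56s_locAct

/-- (A), general form: the local invariant of the restricted trace at a place `P` of the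
restricted datum. -/
theorem h2k_invAt_trR [U.FiniteIndex] (sd : h56s_ShapData D U) (tr : D.CC3 k →ₗ[k] k)
    (P : (h56s_restr D U sd).P)
    (c' : (h56s_restr D U sd).H P × (h56s_restr D U sd).H P → k) :
    (h56s_restr D U sd).invAt (h56s_trR sd tr) P c' =
      tr (0, fun v g => ∑ᶠ x : D.G ⧸ U,
        sd.exL2 (chiRep D.chi) v (sd.untw2 (chiRep D.chi)
          (@Pi.single _ _ _ (h56s_restr D U sd).dec P c') v) g x) := by
  simp only [Datum.invAt, LinearMap.coe_comp, Function.comp_apply, LinearMap.coe_inr,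
    LinearMap.coe_single, h56s_trR_apply]
  congr 1
  refine Prod.ext ?_ ?_
  · funext g
    simp [h56s_sumC3, h56s_ShapData.E3, h56s_Sec.exU3]
  · funext v g
    simp only [h56s_sumC3, h56s_ShapData.E3]
    refine finsum_congr fun x => ?_
    simp only [h56s_OrbitData.hh3, h56s_Sec.exU3, res3_apply, Pi.sub_apply, Pi.zero_apply,
      map_zero, sub_zero, add_zero]

/-- evaluation of `Pi.single` at a place over the same `v₀`, on restrictions of total
functions. -/
theorem h2k_single_total [U.FiniteIndex] (sd : h56s_ShapData D U) (v₀ : D.P)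
    (w w' : (sd.od v₀).W) (cT : D.H v₀ × D.H v₀ → k)
    (h : stabilizer (D.H v₀) w'.1 × stabilizer (D.H v₀) w'.1) [Decidable (w' = w)] :
    (@Pi.single (h56s_restr D U sd).P
      (fun P => (h56s_restr D U sd).H P × (h56s_restr D U sd).H P → k) _
      (h56s_restr D U sd).dec (⟨v₀, w⟩ : (h56s_restr D U sd).P)
        (fun y => cT (y.1.1, y.2.1))) ⟨v₀, w'⟩ h =
      if w' = w then cT (h.1.1, h.2.1) else 0 := by
  by_cases hw : w' = w
  · subst hw
    rw [if_pos rfl]
    exact congrFun (@Pi.single_eq_same (h56s_restr D U sd).P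
      (fun P => (h56s_restr D U sd).H P × (h56s_restr D U sd).H P → k)
      _ (h56s_restr D U sd).dec ⟨v₀, w'⟩ (fun y => cT (y.1.1, y.2.1))) h
  · rw [if_neg hw]
    have hne : (⟨v₀, w'⟩ : (h56s_restr D U sd).P) ≠ ⟨v₀, w⟩ := by
      intro hh
      exact hw (eq_of_heq (Sigma.mk.inj_iff.1 hh).2)
    exact congrFun (@Pi.single_eq_of_ne (h56s_restr D U sd).P
      (fun P => (h56s_restr D U sd).H P × (h56s_restr D U sd).H P → k)
      _ (h56s_restr D U sd).dec _ _ hne (fun y => cT (y.1.1, y.2.1))) h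

/-- the Shapiro extension of a cochain supported at the place `⟨v₀, w⟩`. -/
theorem h2k_exL2_single [U.FiniteIndex] (sd : h56s_ShapData D U) (v₀ : D.P)
    (w : (sd.od v₀).W) (cT : D.H v₀ × D.H v₀ → k) (g : D.H v₀ × D.H v₀) (x : D.G ⧸ U)
    [Decidable ((sd.od v₀).repW x = w)] :
    sd.exL2 (chiRep D.chi) v₀ (sd.untw2 (chiRep D.chi)
      (@Pi.single (h56s_restr D U sd).P
        (fun P => (h56s_restr D U sd).H P × (h56s_restr D U sd).H P → k) _
        (h56s_restr D U sd).dec (⟨v₀, w⟩ : (h56s_restr D U sd).P)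
          (fun y => cT (y.1.1, y.2.1))) v₀) g x =
      if (sd.od v₀).repW x = w then
        ((D.chi (D.loc v₀ ((sd.od v₀).sec x)) : kˣ) : k) *
          (((D.chi (sd.sec.gsec w.1) : kˣ) : k) *
            cT ((sd.od v₀).c g.1 x, (sd.od v₀).c g.2 (g.1⁻¹ • x))) else 0 := by
  simp only [h56s_ShapData.exL2, h56s_ShapData.untw2]
  rw [h2k_single_total]
  by_cases hw : (sd.od v₀).repW x = w
  · rw [if_pos hw, if_pos hw, chiRep_apply, chiRep_apply]
    have hw' : ((sd.od v₀).repW x).1 = w.1 := congrArg Subtype.val hw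
    have e1 : D.chi (sd.sec.gsec ((sd.od v₀).repW x).1) = D.chi (sd.sec.gsec w.1) := by
      rw [hw']
    show _ * (((D.chi (sd.sec.gsec ((sd.od v₀).repW x).1) : kˣ) : k) *
      cT ((sd.od v₀).c g.1 x, (sd.od v₀).c g.2 (g.1⁻¹ • x))) = _
    rw [e1]
  · rw [if_neg hw, if_neg hw, map_zero, map_zero]

end General

attribute [local instance] locActQ

variable {p : ℕ} [Fact p.Prime] {U : Subgroup GQ₀}

theorem h2k_trLoc_apply (inv : InvFam p) (S : Finset Nat.Primes)
    (z : (DQ p S).CC3 (ZMod p)) :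
    trLoc inv S z = ∑ v : ↥S, inv v.1 (z.2 v) := by
  unfold trLoc
  rw [LinearMap.comp_apply]
  exact h98a_Sig_apply _ _ _

/-- (A): the explicit formula for `invW` on restrictions of total cochains. -/
theorem h2k_invW_eq [U.FiniteIndex] (inv : InvFam p) (u : USD U) (q : Nat.Primes)
    (w : (u.od q).W) (c : primeLocalGaloisGroup q × primeLocalGaloisGroup q → ZMod p)
    [hdec : ∀ x, Decidable ((u.od q).repW x = w)] :
    invW inv u q w (fun y => c (y.1.1, y.2.1)) =
      inv q (fun g => ∑ᶠ x : GQ₀ ⧸ U, if (u.od q).repW x = w then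
        ((cycloChar p (primeLocalToGlobal q ((u.od q).sec x)) : (ZMod p)ˣ) : ZMod p) *
          (((cycloChar p (u.sec.gsec w.1) : (ZMod p)ˣ) : ZMod p) *
            c ((u.od q).c g.1 x, (u.od q).c g.2 (g.1⁻¹ • x))) else 0) := by
  have h1 := @h2k_invAt_trR (ZMod p) _ (DQ p {q}) U ‹_› (u.sd p {q}) (trLoc inv {q})
    (plc u {q} q (Finset.mem_singleton_self q) w) (fun y => c (y.1.1, y.2.1))
  refine (show invW inv u q w (fun y => c (y.1.1, y.2.1)) = _ from h1).trans ?_
  rw [h2k_trLoc_apply]
  rw [Fintype.sum_eq_single (⟨q, Finset.mem_singleton_self q⟩ : ↥({q} : Finset Nat.Primes))]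
  · congr 1
    funext g
    refine finsum_congr fun x => ?_
    exact @h2k_exL2_single (ZMod p) _ (DQ p {q}) U ‹_› (u.sd p {q})
      ⟨q, Finset.mem_singleton_self q⟩ w c g x (hdec x)
  · intro v hv
    exact absurd (Subtype.ext (Finset.mem_singleton.1 v.2)) hv

end

end Fermat.Agent.PT.Glob
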