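import Mathlib
import Fermat.Agent.PT.Glob.H2KInvW
import Fermat.Agent.PT.Loc.H2KOrbit
import Fermat.Agent.PT.Loc.Iface3
import Fermat.Agent.PT.Loc.H48Wire
import Fermat.Agent.PT.Bridge.RelDict
import Fermat.Agent.PT.Bridge.Places

/-!
# W3-PT / LOC3-K-NONDEG (helper2): `LocNondegRel → LocNondegW (invFam p)`

* `h2k_field`       : the local field `E_{q,w}` of `L = ℚ̄^U` at the orbit representative `w`;
* `h2k_GK_eq`       : `GK E_{q,w} = VW u q w` (the stabiliser of `w`);
* `h2k_zeta_mem`    : `ζ_p ∈ E_{q,w}` if `χ|_U = 1`;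
* `h2k_invW_acor`   : **the dictionary**: for every total `2`-cochain `c` of `Gal(ℚ̄_q/ℚ_q)`,
  `invW inv u q w (c|_{VW}) = χ(gsec w) * inv q (acor E s (chiL p q) c)`;
* `h2k_locNondegW`  : `LocNondegRel → LocNondegW (invFam p)`.
-/

set_option autoImplicit false
set_option linter.style.haveILetI false

open ExtCitation NumberField IsDedekindDomain MulAction
open scoped Classical

namespace Fermat.Agent.PT.Glob

open Fermat.Agent.PT Fermat.Agent.PT.Shap Fermat.Agent.PT.Bridge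

local notation "GQ₀" => (AlgebraicClosure ℚ ≃ₐ[ℚ] AlgebraicClosure ℚ)

noncomputable section

attribute [local instance] locActQ

/-- the primes are prime. -/
theorem h2k_fact (q : Nat.Primes) : Fact (q : ℕ).Prime := ⟨q.2⟩

attribute [local instance] h2k_fact

variable {p : ℕ} [Fact p.Prime] {U : Subgroup GQ₀}

/-- The local field of `L = ℚ̄^U` at the orbit representative `w`. -/
def h2k_field (u : USD U) (q : Nat.Primes) (w : (u.od q).W) : Loc.LF (q : ℕ) :=
  h23b_localField (q : ℕ) ((IntermediateField.fixedField U).map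
    ((u.sec.gsec w.1 : GQ₀) : AlgebraicClosure ℚ →ₐ[ℚ] AlgebraicClosure ℚ))

theorem h2k_fixedField_eq (hU : levFin.IsOpen U) :
    ∃ L : IntermediateField ℚ (AlgebraicClosure ℚ), FiniteDimensional ℚ L ∧
      U = L.fixingSubgroup ∧ IntermediateField.fixedField U = L := by
  haveI := h23b_isGalois_Qb
  obtain ⟨L, hL, rfl⟩ := (h23b_isOpen_levFin_iff U).1 hU
  exact ⟨L, hL, rfl, InfiniteGalois.fixedField_fixingSubgroup L⟩

/-- membership in the stabiliser of `w`. -/
theorem h2k_mem_VW_iff (u : USD U) (q : Nat.Primes) (w : (u.od q).W)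
    (h : primeLocalGaloisGroup q) :
    h ∈ VW u q w ↔ (u.sec.gsec w.1)⁻¹ * primeLocalToGlobal q h * u.sec.gsec w.1 ∈ U := by
  rw [mem_stabilizer_iff]
  show primeLocalToGlobal q h • w.1 = w.1 ↔ _
  conv_lhs => rw [← u.sec.gsec_mk w.1]
  rw [MulAction.Quotient.smul_mk, smul_eq_mul, eq_comm, QuotientGroup.eq, mul_assoc]

theorem h2k_GK_eq (hU : levFin.IsOpen U) (u : USD U) (q : Nat.Primes) (w : (u.od q).W) :
    Loc.GK (h2k_field u q w) = VW u q w := by
  obtain ⟨L, hL, hUL, hfix⟩ := h2k_fixedField_eq hU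
  subst hUL
  have e1 : Loc.GK (h2k_field u q w) = L.fixingSubgroup.comap
      ((MulAut.conj (u.sec.gsec w.1)⁻¹).toMonoidHom.comp (localGaloisToGlobal (q : ℕ))) := by
    unfold h2k_field
    rw [hfix]
    exact (h23b_stabilizer_eq (q : ℕ) L (u.sec.gsec w.1)).symm
  apply Subgroup.ext
  intro h
  rw [e1, Subgroup.mem_comap]
  refine Iff.trans ?_ (h2k_mem_VW_iff u q w h).symm
  show (u.sec.gsec w.1)⁻¹ * localGaloisToGlobal (q : ℕ) h * (u.sec.gsec w.1)⁻¹⁻¹ ∈ _ ↔ _
  rw [inv_inv]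
  rfl

theorem h2k_field_finite (hU : levFin.IsOpen U) (u : USD U) (q : Nat.Primes) (w : (u.od q).W) :
    FiniteDimensional ℚ_[(q : ℕ)] (h2k_field u q w) := by
  obtain ⟨L, hL, hUL, hfix⟩ := h2k_fixedField_eq hU
  unfold h2k_field
  rw [hfix]
  haveI := hL
  haveI : FiniteDimensional ℚ (L.map
      ((u.sec.gsec w.1 : GQ₀) : AlgebraicClosure ℚ →ₐ[ℚ] AlgebraicClosure ℚ)) :=
    Module.Finite.equiv (IntermediateField.equivMap L _).toLinearEquiv
  exact h23b_finiteDimensional_localField (q : ℕ) _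

theorem h2k_zetaG_primitive (p : ℕ) [Fact p.Prime] : IsPrimitiveRoot (Loc.zetaG p) p := by
  have h := h23b_exists_primitiveRoot p
  unfold Loc.zetaG
  rw [dif_pos h]
  exact h.choose_spec

theorem h2k_zeta_mem (hU : AdmU p U) (u : USD U) (q : Nat.Primes) (w : (u.od q).W) :
    Loc.zetaL p (q : ℕ) ∈ h2k_field u q w := by
  unfold Loc.zetaL
  rw [← h23b_cycloChar_loc_trivial_iff (q : ℕ) p (h2k_field u q w) (h2k_zetaG_primitive p)]
  intro h hh
  have h1 : h ∈ Loc.GK (h2k_field u q w) := hh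
  rw [h2k_GK_eq hU.isOpen] at h1
  have h2 := hU.chi _ ((h2k_mem_VW_iff u q w h).1 h1)
  rw [map_mul, map_mul, map_inv, mul_comm, ← mul_assoc, mul_inv_cancel, one_mul] at h2
  exact h2

/-- **The dictionary**: the local invariant at `w` is `χ(gsec w) · inv q ∘ acor`. -/
theorem h2k_invW_acor [U.FiniteIndex] (inv : InvFam p) (hU : levFin.IsOpen U) (u : USD U)
    (q : Nat.Primes) (w : (u.od q).W) (c : Loc.Gq (q : ℕ) × Loc.Gq (q : ℕ) → ZMod p) :
    invW inv u q w (fun y => c (y.1.1, y.2.1)) =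
      ((cycloChar p (u.sec.gsec w.1) : (ZMod p)ˣ) : ZMod p) *
        inv q (Loc.acor (h2k_field u q w)
          (Loc.h2k_sec (u.od q) w (Loc.GK (h2k_field u q w))) (Loc.chiL p (q : ℕ)) c) := by
  refine (h2k_invW_eq inv u q w c (hdec := fun x => Classical.propDecidable _)).trans ?_
  have hE := h2k_GK_eq hU u q w
  have hfun := fun g => @Loc.h2k_acor_eq (q : ℕ) _ p _ (GQ₀ ⧸ U) (locActQ U q) (u.od q) w
    (h2k_field u q w) hE (Loc.chiL p (q : ℕ))
    ((cycloChar p (u.sec.gsec w.1) : (ZMod p)ˣ) : ZMod p) c g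
    (fun x => Classical.propDecidable _)
  exact (congrArg (inv q) (funext hfun)).trans
    (map_smul (inv q) ((cycloChar p (u.sec.gsec w.1) : (ZMod p)ˣ) : ZMod p) _)

/-- the orbit section is a normalised section. -/
theorem h2k_isSec_field (hU : levFin.IsOpen U) (u : USD U) (q : Nat.Primes) (w : (u.od q).W) :
    Loc.IsSec (h2k_field u q w) (Loc.h2k_sec (u.od q) w (Loc.GK (h2k_field u q w))) :=
  @Loc.h2k_isSec (q : ℕ) _ (GQ₀ ⧸ U) (locActQ U q) (u.od q) w (h2k_field u q w)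
    (h2k_GK_eq hU u q w)

/-- the inclusion of the stabiliser of `w` identifies it with `GK E_{q,w}`. -/
theorem h2k_isEmb (hU : levFin.IsOpen U) (u : USD U) (q : Nat.Primes) (w : (u.od q).W) :
    @h23r_IsEmb (q : ℕ) _ ↥(VW u q w) _ (VW u q w).subtype (h2k_field u q w) :=
  h23r_isEmb_subtype_of_eq (h2k_field u q w) (VW u q w) (h2k_GK_eq hU u q w).symm

/-- **LOC3-K-NONDEG**: the local cup product pairing at every place of `L = ℚ̄^U` has trivial
left kernel (from the relative form `LocNondegRel`). -/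
theorem h2k_locNondegW_of (hND : Loc.LocNondegRel) (p : ℕ) [Fact p.Prime] :
    LocNondegW (Loc.invFam p) := by
  intro U _ u hU q w χ hχ hψ
  haveI := h2k_field_finite hU.isOpen u q w
  have hι := h2k_isEmb hU.isOpen u q w
  have hρ : ∀ (h : ↥(VW u q w)) (v : ZMod p), trivW p u q w h v = v := fun _ _ => rfl
  -- the extension by zero of `χ`
  obtain ⟨χT, hχT⟩ := h23r_exists_pb1 hι (trivW p u q w) hρ χ
  have hZ := (h23r_mem_Z1_iff hι (trivW p u q w) hρ χT).1 (by rw [hχT]; exact hχ)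
  have key := hND (q : ℕ) p (h2k_field u q w) _ (h2k_isSec_field hU.isOpen u q w)
    (h2k_zeta_mem hU u q w) χT hZ.1 hZ.2 ?_
  · funext h
    rw [← hχT]
    exact key h.1 ((h2k_GK_eq hU.isOpen u q w).symm ▸ h.2)
  · intro ψ hψA hψC
    have hψZ : h23r_pb1 (VW u q w).subtype ψ ∈ Z1 (levW u q w) (trivW p u q w) :=
      (h23r_mem_Z1_iff hι (trivW p u q w) hρ ψ).2 ⟨hψA, hψC⟩
    have h1 := hψ _ hψZ
    rw [← hχT] at h1
    have e := @h23r_cup11_pb (q : ℕ) _ p ↥(VW u q w) _ (VW u q w).subtype (trivW p u q w) hρ χT ψ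
    replace h1 := (congrArg (invW (Loc.invFam p) u q w) e).symm.trans h1
    have h2 := h2k_invW_acor (Loc.invFam p) hU.isOpen u q w (Loc.acup χT ψ)
    have h3 : ((cycloChar p (u.sec.gsec w.1) : (ZMod p)ˣ) : ZMod p) *
        Loc.invFam p q (Loc.acor (h2k_field u q w)
          (Loc.h2k_sec (u.od q) w (Loc.GK (h2k_field u q w))) (Loc.chiL p (q : ℕ))
          (Loc.acup χT ψ)) = 0 := h2.symm.trans h1
    exact (mul_eq_zero.1 h3).resolve_left (Units.ne_zero _)

end

end Fermat.Agent.PT.Glob
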