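import Mathlib
import Fermat.Agent.PT.Glob.H2KNondeg
import Fermat.Agent.PT.Loc.H48Final2

/-!
# W3-PT / LOC3-K-NONDEG (helper2): `LocNondegW (invFam p)`, unconditional

`h2k_locNondegW : LocNondegW (Loc.invFam p)` — the local cup product pairing
`H¹(L_w, 𝔽_p) × H¹(L_w, 𝔽_p) → 𝔽_p` at every place `w` of `L = ℚ̄^U` (`U` open, `χ|_U = 1`) has
trivial left kernel, for the local invariants `invW (invFam p)`.
-/

set_option autoImplicit false

namespace Fermat.Agent.PT.Glob

open Fermat.Agent.PT

/-- **LOC3-K-NONDEG**, unconditional. -/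
theorem h2k_locNondegW (p : ℕ) [Fact p.Prime] : LocNondegW (Loc.invFam p) :=
  h2k_locNondegW_of Loc.h48f_locNondegRel p

end Fermat.Agent.PT.Glob
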