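import Mathlib
import Fermat.Agent.PT.Glob.KIface5
import Fermat.Agent.PT.Bridge.Inertia
import Fermat.Agent.Bridge.H47Inertia

/-!
# W3-PT / PT-GLOB-K, leaf K-DP-INERTUNIT (helper36): `KInertUnit`

A `p`-th root of an inertia-fixed unit is inertia-fixed (`q ≠ p`): for `ι` in the inertia group of
`A` (over `q`) and a unit `x` of `A` with `ι (x ^ p) = x ^ p`, the quotient `w = ι x / x` is a
`p`-th root of unity congruent to `1` modulo the maximal ideal, hence `w = 1`.

Main result: `h36u2_kInertUnit : KInertUnit`.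
-/

set_option autoImplicit false

namespace Fermat.Agent.PT.Glob

open Fermat.Agent.Bridge Fermat.Agent.PT.Bridge

/-- the nonunits of a valuation subring are stable under multiplication by elements of `A`. -/
theorem h36u2_mul_mem_nonunits {L : Type*} [Field L] (A : ValuationSubring L) {a b : L}
    (ha : a ∈ A.nonunits) (hb : b ∈ A) : a * b ∈ A.nonunits := by
  rw [ValuationSubring.mem_nonunits_iff_exists_mem_maximalIdeal] at ha ⊢
  obtain ⟨haA, ham⟩ := ha
  exact ⟨A.mul_mem _ _ haA hb, Ideal.mul_mem_right (⟨b, hb⟩ : A) _ ham⟩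

/-- **K-DP-INERTUNIT.** -/
theorem h36u2_kInertUnit : KInertUnit := by
  intro p _ q A x hq hqp hA hx ι hι hfix
  have hp : p.Prime := Fact.out
  rcases eq_or_ne x 0 with rfl | hx0
  · exact map_zero ι
  obtain ⟨-, hsub⟩ := (Fermat.Agent.Bridge.H47.mem_inertiaSubgroupIn_iff A).1 hι
  have h1 : ι x - x ∈ A.nonunits := hsub x hx.1
  have hw : (ι x * x⁻¹) ^ p = 1 := by
    rw [mul_pow, ← map_pow, hfix, inv_pow, mul_inv_cancel₀ (pow_ne_zero p hx0)]
  have hw1 : ι x * x⁻¹ - 1 ∈ A.nonunits := by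
    have e : ι x * x⁻¹ - 1 = (ι x - x) * x⁻¹ := by
      rw [sub_mul, mul_inv_cancel₀ hx0]
    rw [e]
    exact h36u2_mul_mem_nonunits A h1 hx.2
  have hnd : ¬ q ∣ p := fun h => hqp ((Nat.prime_dvd_prime_iff_eq hq hp).1 h)
  have h2 : ι x * x⁻¹ = 1 :=
    h23b_eq_of_sub_mem_nonunits_of_not_dvd A hp.pos hq hnd hA hw (one_pow p) hw1
  have h3 : ι x = (ι x * x⁻¹) * x := by
    rw [mul_assoc, inv_mul_cancel₀ hx0, mul_one]
  rw [h3, h2, one_mul]

end Fermat.Agent.PT.Glob
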