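import Mathlib
import Fermat.Agent.PT.Glob.KIface
import Fermat.Agent.Cheb.Final

/-!
# W3-PT / PT-GLOB-K leaf K-CHEB (helper47): Chebotarev-lite for a character of `G_L`
-/

set_option autoImplicit false

namespace Fermat.Agent.PT.Glob

open Fermat.Agent.Bridge

/-- A function which is additive on a subgroup is compatible with powers there. -/
theorem h47_add_pow {G : Type*} [Group G] {M : Type*} [AddCommGroup M] (U : Subgroup G)
    (χ : G → M) (hadd : ∀ g ∈ U, ∀ h ∈ U, χ (g * h) = χ g + χ h) (g : G) (hg : g ∈ U) (k : ℕ) :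
    χ (g ^ k) = k • χ g := by
  have h1 : χ 1 = 0 := by
    have := hadd 1 U.one_mem 1 U.one_mem
    rw [mul_one] at this
    simpa using this
  induction k with
  | zero => simp [h1]
  | succ k ih =>
    rw [pow_succ, hadd _ (U.pow_mem hg k) _ hg, ih, succ_nsmul]

theorem h47_kCheb : KCheb := by
  intro p hp L F hF hLF χ hadd hinv ⟨g, hgU, hg⟩ T
  haveI : FiniteDimensional ℚ F := hF
  haveI : Algebra.IsAlgebraic ℚ (AlgebraicClosure ℚ) := AlgebraicClosure.isAlgebraic ℚ
  haveI : IsAlgClosure ℚ (AlgebraicClosure ℚ) := ⟨inferInstance, inferInstance⟩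
  haveI : Normal ℚ (AlgebraicClosure ℚ) := IsAlgClosure.normal ℚ (AlgebraicClosure ℚ)
  let N : IntermediateField ℚ Qb := IntermediateField.normalClosure ℚ F Qb
  haveI hNfin : FiniteDimensional ℚ N := normalClosure.is_finiteDimensional ℚ F Qb
  haveI hNnor : Normal ℚ N := normalClosure.normal ℚ F Qb
  haveI hNgal : IsGalois ℚ N := ⟨⟩
  have hFN : F ≤ N := IntermediateField.le_normalClosure F
  obtain ⟨q, A, σ, k, hq, hqT, hA, hFrob, hin, hk, hσ⟩ :=
    Fermat.Agent.Cheb.WC_exists_isFrobeniusAt_pow N g T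
  have h1 : χ 1 = 0 := by
    have := hadd 1 (Subgroup.one_mem _) 1 (Subgroup.one_mem _)
    rw [mul_one] at this
    simpa using this
  have hgk : g ^ k ∈ L.fixingSubgroup := Subgroup.pow_mem _ hgU k
  have hσU : σ ∈ L.fixingSubgroup := by
    rw [IntermediateField.mem_fixingSubgroup_iff]
    intro x hx
    rw [hσ x (hFN (hLF hx))]
    exact (IntermediateField.mem_fixingSubgroup_iff L (g ^ k)).1 hgk x hx
  have hs : (g ^ k)⁻¹ * σ ∈ F.fixingSubgroup := by
    rw [IntermediateField.mem_fixingSubgroup_iff]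
    intro x hx
    rw [AlgEquiv.mul_apply, hσ x (hFN hx)]
    exact (g ^ k).symm_apply_apply x
  have hχσ : χ σ = k • χ g := by
    have := hinv (g ^ k) hgk _ hs
    rw [mul_inv_cancel_left] at this
    rw [this, h47_add_pow _ χ hadd g hgU k]
  set m := orderOf (AlgEquiv.restrictNormalHom N g) with hm
  have hgm : g ^ m ∈ F.fixingSubgroup := by
    rw [IntermediateField.mem_fixingSubgroup_iff]
    intro x hx
    have h2 : (AlgEquiv.restrictNormalHom N g) ^ m = 1 := pow_orderOf_eq_one _
    rw [← map_pow] at h2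
    have h3 := AlgEquiv.restrictNormal_commutes (g ^ m) N ⟨x, hFN hx⟩
    have h4 : (g ^ m).restrictNormal N = 1 := h2
    rw [h4] at h3
    simpa using h3.symm
  have hχm : m • χ g = 0 := by
    rw [← h47_add_pow _ χ hadd g hgU m]
    have := hinv 1 (Subgroup.one_mem _) _ hgm
    rw [one_mul] at this
    rw [this, h1]
  have hpm : p ∣ m := by
    rw [nsmul_eq_mul] at hχm
    rcases mul_eq_zero.1 hχm with h | h
    · exact (ZMod.natCast_eq_zero_iff m p).1 h
    · exact absurd h hg
  have hpk : ¬ p ∣ k := by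
    intro hpk
    have := Nat.eq_one_of_dvd_coprimes hk hpk hpm
    exact hp.out.one_lt.ne' this
  refine ⟨q, A, σ, hq, hqT, hA, hσU, hFrob, ?_, ?_⟩
  · rw [hχσ, nsmul_eq_mul]
    intro h
    rcases mul_eq_zero.1 h with h | h
    · exact hpk ((ZMod.natCast_eq_zero_iff k p).1 h)
    · exact hg h
  · intro g' hg'
    rw [IntermediateField.mem_fixingSubgroup_iff]
    intro x hx
    exact hin g' hg' x (hFN hx)

end Fermat.Agent.PT.Glob
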