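import Mathlib
import Fermat.Agent.PT.Glob.H2KNondeg
import Fermat.Agent.PT.Loc.H48Final2

/-!
# W3-PT / K-INVW, second seat (helper48): `InvWOK` and `LocInjW` for `Loc.invFam p`

From helper2's dictionary `h2k_invW_acor`
(`invW inv u q w (c|_{VW}) = χ(gsec w) · inv q (acor E s χ_L c)`), the relative dictionary of
helper23 (`Bridge/RelDict.lean`) and the unconditional local theorems `h48f_invCob`,
`h48f_locPerfRel`, `h48f_invEx`:

* `h48w_invWOK p   : InvWOK (Loc.invFam p)`  — the invariant at `w` kills the coboundaries;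
* `h48w_locInjW p  : LocInjW (Loc.invFam p)` — the invariant at `w` is injective on `H²`.
-/

set_option autoImplicit false
set_option linter.style.haveILetI false

open ExtCitation NumberField IsDedekindDomain MulAction
open scoped Classical

namespace Fermat.Agent.PT.Glob

open Fermat.Agent.PT Fermat.Agent.PT.Shap Fermat.Agent.PT.Bridge

local notation "GQ₀" => (AlgebraicClosure ℚ ≃ₐ[ℚ] AlgebraicClosure ℚ)

noncomputable section

attribute [local instance] locActQ
attribute [local instance] h2k_fact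

variable {p : ℕ} [Fact p.Prime] {U : Subgroup GQ₀}

/-- the specification of `invQ`. -/
theorem h48w_invSpec (q : ℕ) [Fact q.Prime] (p : ℕ) [Fact p.Prime] :
    Loc.InvSpec p q (Loc.invQ p q) := by
  unfold Loc.invQ
  rw [dif_pos (Loc.h48f_invEx q p)]
  exact (Loc.h48f_invEx q p).choose_spec

/-- the invariant of the corestriction of a relative coboundary vanishes. -/
theorem h48w_inv_acor_cob [U.FiniteIndex] (hU : AdmU p U) (u : USD U) (q : Nat.Primes)
    (w : (u.od q).W) (c : Loc.Gq (q : ℕ) × Loc.Gq (q : ℕ) → ZMod p)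
    (hc : Loc.ACohom (h2k_field u q w) c 0) :
    Loc.invFam p q (Loc.acor (h2k_field u q w)
      (Loc.h2k_sec (u.od q) w (Loc.GK (h2k_field u q w))) (Loc.chiL p (q : ℕ)) c) = 0 := by
  haveI := h2k_field_finite hU.isOpen u q w
  exact h48w_invSpec (q : ℕ) p _ _
    (Loc.h48f_invCob (q : ℕ) p (h2k_field u q w) _ c (h2k_isSec_field hU.isOpen u q w)
      (h2k_zeta_mem hU u q w) hc)

/-- **W-OK** for the family `Loc.invFam p`. -/
theorem h48w_invWOK (p : ℕ) [Fact p.Prime] : InvWOK (Loc.invFam p) := by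
  intro U _ u hU q w c hc
  haveI := h2k_field_finite hU.isOpen u q w
  have hι := h2k_isEmb hU.isOpen u q w
  have hρ : ∀ (h : ↥(VW u q w)) (v : ZMod p), trivW p u q w h v = v := fun _ _ => rfl
  obtain ⟨cT, hcT⟩ := h23r_exists_pb2 hι (trivW p u q w) hρ c
  have hB : Loc.ACohom (h2k_field u q w) cT 0 :=
    (h23r_mem_B2_iff hι (trivW p u q w) hρ cT).1 (by rw [hcT]; exact hc)
  have h2 := h2k_invW_acor (Loc.invFam p) hU.isOpen u q w cT
  rw [← hcT]
  refine h2.trans ?_
  rw [h48w_inv_acor_cob hU u q w cT hB, mul_zero]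

/-- **W-INJ** for the family `Loc.invFam p`. -/
theorem h48w_locInjW (p : ℕ) [Fact p.Prime] : LocInjW (Loc.invFam p) := by
  intro U _ u hU q w c hc hinv
  haveI := h2k_field_finite hU.isOpen u q w
  have hι := h2k_isEmb hU.isOpen u q w
  have hρ : ∀ (h : ↥(VW u q w)) (v : ZMod p), trivW p u q w h v = v := fun _ _ => rfl
  obtain ⟨cT, hcT⟩ := h23r_exists_pb2 hι (trivW p u q w) hρ c
  have hZ := (h23r_mem_Z2_iff hι (trivW p u q w) hρ cT).1 (by rw [hcT]; exact hc)
  have h2 := h2k_invW_acor (Loc.invFam p) hU.isOpen u q w cT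
  have h3 : ((cycloChar p (u.sec.gsec w.1) : (ZMod p)ˣ) : ZMod p) *
      Loc.invFam p q (Loc.acor (h2k_field u q w)
        (Loc.h2k_sec (u.od q) w (Loc.GK (h2k_field u q w))) (Loc.chiL p (q : ℕ)) cT) = 0 := by
    rw [← h2]
    have : (fun y : ↥(VW u q w) × ↥(VW u q w) => cT (y.1.1, y.2.1)) = c := hcT
    rw [this]
    exact hinv
  have h4 := (mul_eq_zero.1 h3).resolve_left (Units.ne_zero _)
  have h5 := (Loc.h48f_locPerfRel (q : ℕ) p (h2k_field u q w) _
    (h2k_isSec_field hU.isOpen u q w) (h2k_zeta_mem hU u q w)).1 cT hZ.1 hZ.2 h4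
  rw [← hcT]
  exact (h23r_mem_B2_iff hι (trivW p u q w) hρ cT).2 h5

end

end Fermat.Agent.PT.Glob
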