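import Mathlib
import Fermat.Agent.PT.Glob.KIface5

/-!
# W3-PT / PT-GLOB-K (d'), leaf K-DP-CLASSABS (helper52): `KClassExAbs`

For a prime `v0` of a number field `K` there are `α, ϖ ∈ K`, `ϖ` a uniformizer at `v0`,
`v0(α) = p^k h'` with `p ∤ h'`, and `α` a unit at all other primes.

Proof: the class group of `K` is finite of order `h = p^k h'`; `v0^h = (α)` is principal; the
valuation of `α` at `v0` is `h`, and `α` is a unit at every other prime (no use of `S`).

* `h52k_exists_gen` : `∃ α : 𝓞 K, span {α} = v0 ^ classNumber`;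
* `h52k_intValuation_self`, `h52k_intValuation_other` : the valuations of a generator of `v0 ^ h`;
* `h52k_kClassExAbs : KClassExAbs`.
-/

set_option autoImplicit false

open NumberField IsDedekindDomain

noncomputable section

namespace Fermat.Agent.PT.Glob

variable {K : Type} [Field K] [NumberField K]

/-- `v0 ^ h` is principal for `h` the class number. -/
theorem h52k_exists_gen (v0 : HeightOneSpectrum (𝓞 K)) :
    ∃ α : 𝓞 K, Ideal.span {α} = v0.asIdeal ^ Fintype.card (ClassGroup (𝓞 K)) := by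
  set h := Fintype.card (ClassGroup (𝓞 K)) with hh
  have hne : v0.asIdeal ^ h ≠ 0 := pow_ne_zero _ v0.ne_bot
  have hmem : v0.asIdeal ^ h ∈ nonZeroDivisors (Ideal (𝓞 K)) :=
    mem_nonZeroDivisors_of_ne_zero hne
  have hmem0 : v0.asIdeal ∈ nonZeroDivisors (Ideal (𝓞 K)) :=
    mem_nonZeroDivisors_of_ne_zero v0.ne_bot
  have h1 : ClassGroup.mk0 ⟨v0.asIdeal ^ h, hmem⟩ = 1 := by
    have h2 : (⟨v0.asIdeal ^ h, hmem⟩ : nonZeroDivisors (Ideal (𝓞 K)))
        = (⟨v0.asIdeal, hmem0⟩ : nonZeroDivisors (Ideal (𝓞 K))) ^ h := by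
      ext
      simp
    rw [h2, map_pow, hh]
    exact pow_card_eq_one
  obtain ⟨α, hα⟩ := ((ClassGroup.mk0_eq_one_iff hmem).mp h1).principal
  exact ⟨α, by rw [hα]⟩

/-- the valuation at `v0` of a generator of `v0 ^ h`. -/
theorem h52k_intValuation_self (v0 : HeightOneSpectrum (𝓞 K)) (h : ℕ) (α : 𝓞 K)
    (hα : Ideal.span {α} = v0.asIdeal ^ h) :
    v0.intValuation α = WithZero.exp (-(h : ℤ)) := by
  have hα0 : α ≠ 0 := by
    rintro rfl
    have h0 : v0.asIdeal ^ h = ⊥ := by rw [← hα]; simp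
    exact pow_ne_zero _ v0.ne_bot h0
  rw [HeightOneSpectrum.intValuation_eq_exp_neg_multiplicity v0 hα0, hα,
    multiplicity_pow_self v0.ne_bot
      (by
        intro hu
        exact v0.isPrime.ne_top (Ideal.isUnit_iff.mp hu))]

/-- a generator of `v0 ^ h` is a unit at every other prime. -/
theorem h52k_intValuation_other (v0 v : HeightOneSpectrum (𝓞 K)) (hv : v ≠ v0) (h : ℕ)
    (α : 𝓞 K) (hα : Ideal.span {α} = v0.asIdeal ^ h) :
    v.intValuation α = 1 := by
  refine le_antisymm (v.intValuation_le_one α) (not_lt.mp ?_)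
  intro hlt
  rw [HeightOneSpectrum.intValuation_lt_one_iff_dvd, hα] at hlt
  have hle : v0.asIdeal ^ h ≤ v.asIdeal := Ideal.le_of_dvd hlt
  have hle' : v0.asIdeal ≤ v.asIdeal := v.isPrime.le_of_pow_le hle
  have heq : v0.asIdeal = v.asIdeal := (v0.isMaximal.eq_of_le v.isPrime.ne_top hle')
  exact hv (HeightOneSpectrum.ext heq.symm)

/-- **K-DP-CLASSABS**. -/
theorem h52k_kClassExAbs : KClassExAbs := by
  intro p _ K _ _ S v0 _
  have hp : p.Prime := Fact.out
  set h := Fintype.card (ClassGroup (𝓞 K)) with hh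
  have hpos : h ≠ 0 := Fintype.card_ne_zero
  obtain ⟨k, h', hph', hk⟩ := Nat.exists_eq_pow_mul_and_not_dvd hpos p hp.ne_one
  obtain ⟨α, hα⟩ := h52k_exists_gen v0
  obtain ⟨ϖ, hϖ⟩ := HeightOneSpectrum.valuation_exists_uniformizer K v0
  have hα0 : α ≠ 0 := by
    rintro rfl
    have h0 : v0.asIdeal ^ h = ⊥ := by rw [← hα]; simp
    exact pow_ne_zero _ v0.ne_bot h0
  have hh'pos : 0 < h' := by
    rcases Nat.eq_zero_or_pos h' with h0 | h0
    · rw [h0, mul_zero] at hk
      exact absurd hk hpos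
    · exact h0
  refine ⟨k, h', (α : K), ϖ, hph', hh'pos, ?_, hϖ, ?_, ?_⟩
  · exact fun h0 => hα0 (by exact_mod_cast h0)
  · rw [HeightOneSpectrum.valuation_of_algebraMap, h52k_intValuation_self v0 h α hα, hk]
  · intro v _ hv
    rw [HeightOneSpectrum.valuation_of_algebraMap]
    exact h52k_intValuation_other v0 v hv h α hα

end Fermat.Agent.PT.Glob
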