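/-
W3-PT (S55), PT-GLOB-K (d'), assembly K-DP-ASM (helper64).

`h64l_kLeftAsm : KLeftAsm` : left nondegeneracy of `Ш¹ × Ш² → 𝔽_p` over `L = fieldOf U` from the
leaves of `KIface5.lean`, by `S`-variation.

Proof.  Let `z = (a, b) ∈ ZC¹` be orthogonal to `ZШ²` and suppose `a ≠ 0`.  `a` is a character of
`U` of level `S`.  `KCheb` gives a prime `q0 ∉ S`, `A0` over `q0` and a Frobenius `σ ∈ U` at `A0`
with `a σ ≠ 0`; `KClassEx` gives `α ∈ L` with valuation `p^k h'` (`p ∤ h'`) at the prime under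
`A0` and a unit at the other primes outside `S`.  For `γ^{p^{k+1}} = α` the Bockstein–Kummer
cochain `ζ' = zetaP p k ξ γ` has level `S' = insert q0 S` (`KKumRam`) and `y = d¹ ζ' ∈ ZШ²`
(`KBockLoc`).  By `KPairFormula` `0 = ⟨z, y⟩ = ∑_{w ∣ q0} inv_w (res_w ω)`; by `KLocEval` and
`KFrobW` only the term at `w0` survives and it is `h' · inv_{w0} (a_{w0} ∪ κ_Pr)`, so
`a_{w0} ∪ κ_Pr` is a coboundary (`LocInjW`), which contradicts `KTameW`.
-/
import Mathlib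
import Fermat.Agent.PT.Glob.KIface5
import Fermat.Agent.PT.Glob.H56KGlob
import Fermat.Agent.PT.Glob.K.H29BockLoc
import Fermat.Agent.PT.Bridge.Open
import Fermat.Agent.PT.Bridge.NFDict
import Fermat.Agent.S54.FrobValuation

set_option autoImplicit false
set_option linter.style.haveILetI false

open ExtCitation NumberField IsDedekindDomain MulAction
open scoped Pointwise

namespace Fermat.Agent.PT.Glob

open Fermat.Agent.PT Fermat.Agent.PT.Shap Fermat.Agent.Bridge Fermat.Agent.PT.Bridge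

local notation "GQ₀" => (AlgebraicClosure ℚ ≃ₐ[ℚ] AlgebraicClosure ℚ)

noncomputable section

attribute [local instance] locActQ

/-! ## Valuation subrings and primes of `L` -/

/-- Membership in `A` of an element of `L` only depends on the prime of `L` under `A`. -/
theorem h64l_mem_iff_of_primeUnder_eq (L : IntermediateField ℚ Qb) [NumberField L]
    {A A0 : ValuationSubring Qb} {q0 : ℕ} (hq0 : q0.Prime) (hA0 : A0.LiesOverPrime q0)
    (h : primeUnder A L = primeUnder A0 L) {x : Qb} (hx : x ∈ L) : x ∈ A ↔ x ∈ A0 := by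
  have hv0 : (h23b_placeUnder L A0 hq0 hA0).asIdeal = primeUnder A0 L := rfl
  have hv : (h23b_placeUnder L A0 hq0 hA0).asIdeal = primeUnder A L := hv0.trans h.symm
  have h1 := h23b_mem_iff_valuation_le_one (h23b_placeUnder L A0 hq0 hA0) hv ⟨x, hx⟩
  have h2 := h23b_mem_iff_valuation_le_one (h23b_placeUnder L A0 hq0 hA0) hv0 ⟨x, hx⟩
  exact h1.trans h2.symm

/-- Valuation subrings over different prime numbers cut out different primes of `L`. -/
theorem h64l_primeUnder_ne (L : IntermediateField ℚ Qb) {A A0 : ValuationSubring Qb}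
    {q q0 : ℕ} (hq : q.Prime) (hq0 : q0.Prime) (hne : q ≠ q0) (hA : A.LiesOverPrime q)
    (hA0 : A0.LiesOverPrime q0) : primeUnder A L ≠ primeUnder A0 L := by
  intro h
  have h1 : ((q0 : ℕ) : 𝓞 L) ∈ primeUnder A0 L := by
    rw [mem_primeUnder]
    have h2 : ((((q0 : ℕ) : 𝓞 L) : L) : Qb) = ((q0 : ℕ) : Qb) := by simp
    rw [h2]
    exact hA0
  rw [← h, mem_primeUnder] at h1
  have h2 : ((((q0 : ℕ) : 𝓞 L) : L) : Qb) = (((q0 : ℕ) : ℤ) : Qb) := by simp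
  rw [h2] at h1
  refine Fermat.Agent.S54.intCast_not_mem_nonunits A hq hA (n := ((q0 : ℕ) : ℤ)) ?_ h1
  intro hd
  have hd' : q ∣ q0 := by exact_mod_cast hd
  exact hne ((Nat.prime_dvd_prime_iff_eq hq hq0).mp hd')

/-- Translation by an element fixing `L` does not change the membership of elements of `L`. -/
theorem h64l_mem_smul_iff (L : IntermediateField ℚ Qb) (A : ValuationSubring Qb) {x : GQ₀}
    (hx : x ∈ L.fixingSubgroup) {y : Qb} (hy : y ∈ L) : y ∈ x • A ↔ y ∈ A := by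
  rw [mem_smul_iff]
  have h := (IntermediateField.mem_fixingSubgroup_iff L _).1 (inv_mem hx) y hy
  rw [h]

theorem h64l_mem_nonunits_smul_iff (L : IntermediateField ℚ Qb) (A : ValuationSubring Qb)
    {x : GQ₀} (hx : x ∈ L.fixingSubgroup) {y : Qb} (hy : y ∈ L) :
    y ∈ (x • A).nonunits ↔ y ∈ A.nonunits := by
  rw [mem_nonunits_smul_iff]
  have h := (IntermediateField.mem_fixingSubgroup_iff L _).1 (inv_mem hx) y hy
  rw [h]

/-- A uniformizer at `A` is a uniformizer at `x • A`, `x` fixing `L`. -/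
theorem h64l_isUnifAt_smul (L : IntermediateField ℚ Qb) (A : ValuationSubring Qb) {x : GQ₀}
    (hx : x ∈ L.fixingSubgroup) {ϖ : Qb} (h : IsUnifAt L A ϖ) : IsUnifAt L (x • A) ϖ := by
  obtain ⟨h1, h2, h3, h4⟩ := h
  refine ⟨h1, h2, (h64l_mem_nonunits_smul_iff L A hx h1).2 h3, fun y hy hyn => ?_⟩
  exact (h64l_mem_smul_iff L A hx (div_mem hy h1)).2
    (h4 y hy ((h64l_mem_nonunits_smul_iff L A hx hy).1 hyn))

/-- A unit of `A` in `L` is a unit of `x • A`, `x` fixing `L`. -/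
theorem h64l_isUnitAt_smul (L : IntermediateField ℚ Qb) (A : ValuationSubring Qb) {x : GQ₀}
    (hx : x ∈ L.fixingSubgroup) {y : Qb} (hy : y ∈ L) (h : IsUnitAt A y) :
    IsUnitAt (x • A) y :=
  ⟨(h64l_mem_smul_iff L A hx hy).2 h.1, (h64l_mem_smul_iff L A hx (inv_mem hy)).2 h.2⟩

/-- The valuation subring attached to an orbit representative over `q` lies over `q`. -/
theorem h64l_plcRing_liesOver {U : Subgroup GQ₀} (u : USD U) (q : Nat.Primes)
    (w : (u.od q).W) : (plcRing u q w).LiesOverPrime (q : ℕ) := by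
  haveI : Fact (q : ℕ).Prime := ⟨q.2⟩
  exact (liesOverPrime_smul_iff _ _ _).mpr (h23b_padicPlace_liesOver (q : ℕ))

/-- `primeLocalPlace q` lies over `q`. -/
theorem h64l_primeLocalPlace_liesOver (q : Nat.Primes) :
    (primeLocalPlace q).LiesOverPrime (q : ℕ) := by
  haveI : Fact (q : ℕ).Prime := ⟨q.2⟩
  exact h23b_padicPlace_liesOver (q : ℕ)

/-! ## Cup products of characters -/

/-- The cup product of two characters is a `2`-cocycle. -/
theorem h64l_d2_cup {G : Type} [Group G] (p : ℕ) (χ ψ : G → ZMod p)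
    (hχ : ∀ g h, χ (g * h) = χ g + χ h) (hψ : ∀ g h, ψ (g * h) = ψ g + ψ h) :
    d2 (Representation.trivial (ZMod p) G (ZMod p))
      (cup11 (LinearMap.mul (ZMod p) (ZMod p)) (Representation.trivial (ZMod p) G (ZMod p))
        χ ψ) = 0 := by
  funext ⟨g, h, j⟩
  simp only [d2_apply, cup11_apply, Representation.trivial_apply, LinearMap.mul_apply',
    Pi.zero_apply, hχ, hψ]
  ring

/-- The cup product of two level-constant cochains is level-constant. -/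
theorem h64l_isLC2_cup {G : Type} [Group G] (L : Lev G) (p : ℕ) (χ ψ : G → ZMod p)
    (hχ : IsLC1 L χ) (hψ : IsLC1 L ψ) :
    IsLC2 L (cup11 (LinearMap.mul (ZMod p) (ZMod p))
      (Representation.trivial (ZMod p) G (ZMod p)) χ ψ) := by
  obtain ⟨N₁, h₁, hχ⟩ := hχ
  obtain ⟨N₂, h₂, hψ⟩ := hψ
  obtain ⟨N, hN, hle⟩ := L.directed N₁ h₁ N₂ h₂
  refine ⟨N, hN, fun g g' s s' hs hs' => ?_⟩
  simp only [cup11_apply, Representation.trivial_apply, LinearMap.mul_apply']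
  rw [hχ g s (hle hs).1, hψ g' s' (hle hs').2]

/-! ## The assembly -/

/-- **K-DP-ASM.** -/
theorem h64l_kLeftAsm : KLeftAsm := by
  intro p _ inv hLocInv hRec hShTr hDQ hInvW hSum hWOK hInj hVV hUnr hTame hIG hIU hZI hKB hKR
    hCheb hClass hBock hFrob hPair hEval S U hfi u tr hAdm hTr z hz horth
  classical
  by_contra hne
  have hp : p.Prime := Fact.out
  haveI hNZp : NeZero p := ⟨hp.ne_zero⟩
  haveI hIsGal : IsGalois ℚ Qb := h23b_isGalois_Qb
  -- the field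
  obtain ⟨L₀, hL₀, hUL₀⟩ := (h23b_isOpen_levQ_iff S U).mp hAdm.isOpen
  have hfield : fieldOf U = L₀ := by
    rw [hUL₀]
    exact InfiniteGalois.fixedField_fixingSubgroup L₀
  have hLur : (fieldOf U).IsUnramifiedOutside S := by rw [hfield]; exact hL₀
  have hUfix : (fieldOf U).fixingSubgroup = U := by rw [hfield]; exact hUL₀.symm
  haveI hNF : NumberField (fieldOf U) := h56k_numberField hAdm.isOpen
  have hAU : AdmU p U := h56k_admU hAdm
  have hLfin : FiniteDimensional ℚ (fieldOf U) := hLur.1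
  have hpS : ∀ j : ℕ, ∀ q : Nat.Primes, (q : ℕ) ∣ p ^ j → q ∈ S := by
    intro j q hq
    have h1 : (q : ℕ) = p := (Nat.prime_dvd_prime_iff_eq q.2 hp).mp (q.2.dvd_of_dvd_pow hq)
    have h2 : q = pPrime p := Subtype.ext h1
    rw [h2]
    exact hAdm.mem
  -- the character `a`
  obtain ⟨a, ha⟩ : ∃ a : ↥U → ZMod p, a = z.1 := ⟨_, rfl⟩
  have hzker : (DU p S U u).coneD1 (trivU p S U u) z = 0 := LinearMap.mem_ker.1 hz.1
  have halc : IsLC1 (levU S U) a := by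
    rw [ha]
    exact hz.2.1
  have hd1 : d1 (trivF p U) a = 0 := by
    rw [ha]
    exact congrArg Prod.fst hzker
  have haZ1 : a ∈ Z1 (levU S U) (trivF p U) := ⟨LinearMap.mem_ker.2 hd1, halc⟩
  have hadd : ∀ g h : ↥U, a (g * h) = a g + a h := by
    intro g h
    have h1 := congrFun hd1 (g, h)
    simp only [d1_apply, Representation.trivial_apply, Pi.zero_apply] at h1
    linear_combination -h1
  have ha1 : a 1 = 0 := by
    have h1 := hadd 1 1
    rw [mul_one] at h1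
    exact left_eq_add.mp h1
  obtain ⟨g₀, hg₀⟩ : ∃ g : ↥U, a g ≠ 0 := by
    by_contra hcon
    apply hne
    rw [← ha]
    funext g
    by_contra hg
    exact hcon ⟨g, hg⟩
  obtain ⟨N', ⟨N, ⟨F₀, hF₀, hF₀n, rfl⟩, rfl⟩, haN⟩ := halc
  have hF₀fin : FiniteDimensional ℚ F₀ := hF₀.1
  have hF₀N : F₀.fixingSubgroup.Normal := h29k_fixingSubgroup_normal F₀ hF₀n
  -- the extension of `a` by zero
  obtain ⟨χ, hχ⟩ : ∃ χ : GQ₀ → ZMod p, ∀ (g : GQ₀) (hg : g ∈ U), χ g = a ⟨g, hg⟩ :=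
    ⟨fun g => if h : g ∈ U then a ⟨g, h⟩ else 0, fun g hg => dif_pos hg⟩
  obtain ⟨F, hF⟩ : ∃ F : IntermediateField ℚ Qb, F = fieldOf U ⊔ F₀ := ⟨_, rfl⟩
  have hFfin : FiniteDimensional ℚ F := by
    rw [hF]
    infer_instance
  have hLF : fieldOf U ≤ F := by
    rw [hF]
    exact le_sup_left
  have hF₀F : F₀ ≤ F := by
    rw [hF]
    exact le_sup_right
  have hχadd : ∀ g ∈ (fieldOf U).fixingSubgroup, ∀ h ∈ (fieldOf U).fixingSubgroup,
      χ (g * h) = χ g + χ h := by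
    intro g hg h hh
    rw [hUfix] at hg hh
    rw [hχ _ (mul_mem hg hh), hχ g hg, hχ h hh]
    exact hadd ⟨g, hg⟩ ⟨h, hh⟩
  have hχinv : ∀ g ∈ (fieldOf U).fixingSubgroup, ∀ s ∈ F.fixingSubgroup,
      χ (g * s) = χ g := by
    intro g hg s hs
    rw [hUfix] at hg
    have hsU : s ∈ U := by
      rw [← hUfix]
      exact IntermediateField.fixingSubgroup_antitone hLF hs
    have hsF₀ : s ∈ F₀.fixingSubgroup := IntermediateField.fixingSubgroup_antitone hF₀F hs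
    rw [hχ _ (mul_mem hg hsU), hχ g hg]
    exact haN ⟨g, hg⟩ ⟨s, hsU⟩ hsF₀
  have hχne : ∃ g ∈ (fieldOf U).fixingSubgroup, χ g ≠ 0 := by
    refine ⟨g₀.1, by rw [hUfix]; exact g₀.2, ?_⟩
    rw [hχ g₀.1 g₀.2]
    exact hg₀
  -- Chebotarev
  obtain ⟨q, A0, σ, hq, hqT, hA0, hσL, hσF, hχσ, -⟩ :=
    hCheb p (fieldOf U) F hFfin hLF χ hχadd hχinv hχne
      (S.image (fun q : Nat.Primes => (q : ℕ)))
  obtain ⟨q0, rfl⟩ : ∃ q0 : Nat.Primes, (q0 : ℕ) = q := ⟨⟨q, hq⟩, rfl⟩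
  have hq0S : q0 ∉ S := fun h => hqT (Finset.mem_image_of_mem _ h)
  have hq0p : (q0 : ℕ) ≠ p := by
    intro h
    apply hq0S
    have h2 : q0 = pPrime p := Subtype.ext h
    rw [h2]
    exact hAdm.mem
  have hσU : σ ∈ U := by
    rw [← hUfix]
    exact hσL
  have haσ : a ⟨σ, hσU⟩ ≠ 0 := by
    rw [← hχ σ hσU]
    exact hχσ
  -- the class group datum
  obtain ⟨k, h', α, ϖ, hph', hαL, hα0, hϖ, ⟨x₁, hx₁u, hαx₁⟩, hαunit⟩ :=
    hClass p S (fieldOf U) q0 A0 hq0S hA0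
  have hϖ0 : ϖ ≠ 0 := hϖ.2.1
  have hx₁L : x₁ ∈ fieldOf U := by
    have h1 : x₁ = α / ϖ ^ (p ^ k * h') := by
      rw [hαx₁]
      field_simp
    rw [h1]
    exact div_mem hαL (pow_mem hϖ.1 _)
  haveI hNZ : NeZero (p ^ (k + 1)) := ⟨pow_ne_zero _ hp.ne_zero⟩
  obtain ⟨ξ, hξ⟩ : ∃ ξ : Qb, IsPrimitiveRoot ξ (p ^ (k + 1)) := by
    have : NeZero ((p ^ (k + 1) : ℕ) : Qb) :=
      ⟨Nat.cast_ne_zero.mpr (pow_ne_zero _ hp.ne_zero)⟩
    exact HasEnoughRootsOfUnity.exists_primitiveRoot Qb (p ^ (k + 1))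
  have hζ : IsPrimitiveRoot (ξ ^ p ^ k) p := hξ.pow (pow_pos hp.pos _) (pow_succ p k)
  have hζU : ∀ g ∈ U, g (ξ ^ p ^ k) = ξ ^ p ^ k := fun g hg =>
    (h23b_cycloChar_eq_one_iff p hζ g).mp (hAdm.chi g hg)
  have hζL : ξ ^ p ^ k ∈ fieldOf U := fun g => hζU g.1 g.2
  obtain ⟨γ, hγpow⟩ : ∃ γ : Qb, γ ^ p ^ (k + 1) = α :=
    IsAlgClosed.exists_pow_nat_eq α (pow_pos hp.pos _)
  have hγ0 : γ ≠ 0 := fun h0 =>
    hα0 (by rw [← hγpow, h0, zero_pow (pow_ne_zero _ hp.ne_zero)])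
  have hγL : γ ^ p ^ (k + 1) ∈ fieldOf U := by
    rw [hγpow]
    exact hαL
  -- `p^k` divides the valuations of `α` outside `S`
  have hdv : DvdValOut (p ^ k) S (fieldOf U) (γ ^ p ^ (k + 1)) := by
    intro q' hq' A hA
    rw [hγpow]
    by_cases hPP : primeUnder A (fieldOf U) = primeUnder A0 (fieldOf U)
    · refine ⟨ϖ ^ h', pow_mem hϖ.1 _, pow_ne_zero _ hϖ0, x₁, ?_, ?_, ?_⟩
      · exact (h64l_mem_iff_of_primeUnder_eq _ q0.2 hA0 hPP hx₁L).2 hx₁u.1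
      · exact (h64l_mem_iff_of_primeUnder_eq _ q0.2 hA0 hPP (inv_mem hx₁L)).2 hx₁u.2
      · rw [hαx₁, ← pow_mul, mul_comm h' (p ^ k)]
    · have hu := hαunit q' hq' A hA hPP
      exact ⟨1, one_mem _, one_ne_zero, α, hu.1, hu.2, by rw [one_pow, one_mul]⟩
  have hy := hBock p S U u k ξ γ hAdm hξ hγ0 hγL hdv
  -- the level of `ζ'`
  have hdv' : ∀ q : Nat.Primes, q ∉ insert q0 S → ∀ A : ValuationSubring Qb,
      A.LiesOverPrime (q : ℕ) → DvdValAt (p ^ (k + 1)) (fieldOf U) A (γ ^ p ^ (k + 1)) := by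
    intro q' hq' A hA
    have hq'S : q' ∉ S := fun h => hq' (Finset.mem_insert_of_mem h)
    have hq'q0 : (q' : ℕ) ≠ (q0 : ℕ) := fun h =>
      hq' (by rw [Subtype.ext h]; exact Finset.mem_insert_self _ _)
    have hPP : primeUnder A (fieldOf U) ≠ primeUnder A0 (fieldOf U) :=
      h64l_primeUnder_ne _ q'.2 q0.2 hq'q0 hA hA0
    have hu := hαunit q' hq'S A hA hPP
    rw [hγpow]
    exact ⟨1, one_mem _, one_ne_zero, α, hu.1, hu.2, by rw [one_pow, one_mul]⟩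
  obtain ⟨F', hF'ur, hF'n, hLF', hγF'⟩ :=
    hKR (p ^ (k + 1)) (insert q0 S) (fieldOf U) γ (pow_pos hp.pos _)
      (fun q hq => Finset.mem_insert_of_mem (hpS (k + 1) q hq))
      (hLur.mono (Finset.subset_insert _ _)) hγ0 hγL hdv'
  have hζlc : IsLC1 (levU (insert q0 S) U) (fun g : ↥U => zetaP p k ξ γ g) := by
    refine ⟨F'.fixingSubgroup.comap U.subtype,
      ⟨F'.fixingSubgroup, ⟨F', hF'ur, hF'n, rfl⟩, rfl⟩, ?_⟩
    intro g s hs
    have hsγ : (s : GQ₀) γ = γ :=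
      (IntermediateField.mem_fixingSubgroup_iff _ _).mp hs γ hγF'
    show zetaP p k ξ γ ((g * s : ↥U) : GQ₀) = zetaP p k ξ γ (g : GQ₀)
    rw [Subgroup.coe_mul]
    exact h29k_zetaP_mul_of_fix p k ξ γ _ _ hsγ
  -- the pairing formula
  obtain ⟨ε, hε, hω, hpair⟩ := hPair p inv hLocInv hRec hShTr hDQ hInvW hSum hWOK hVV S U u tr
    hAdm hTr q0 hq0S z hz (fun g : ↥U => zetaP p k ξ γ g) hζlc hy
  have h0 := horth _ hy
  rw [hpair] at h0
  rw [← ha] at hω h0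
  -- the places above `q0`
  obtain ⟨w0, φ, x, hxU, hplc, hlocφ, hFrobφ, hother⟩ :=
    hFrob p S U u q0 A0 σ hAdm hA0 hσU hσF
  have hxL : x ∈ (fieldOf U).fixingSubgroup := by
    rw [hUfix]
    exact hxU
  have hEv := hEval p inv hUnr hWOK hIG hIU hZI hKB hDQ S U u hAdm q0 hq0S k h' ξ γ a ε hξ hγ0
    hγL haZ1 hε hω
  have hsum : ∑ w : (u.od q0).W, invW inv u q0 w
      (res2 (ZMod p) (ZMod p) (locW u q0 w)
        (ε + cup11 (LinearMap.mul (ZMod p) (ZMod p)) (trivF p U) a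
          (fun g : ↥U => zetaP p k ξ γ g))) =
      invW inv u q0 w0
        (res2 (ZMod p) (ZMod p) (locW u q0 w0)
          (ε + cup11 (LinearMap.mul (ZMod p) (ZMod p)) (trivF p U) a
            (fun g : ↥U => zetaP p k ξ γ g))) := by
    refine Finset.sum_eq_single w0 (fun w _ hw => ?_) (fun h => absurd (Finset.mem_univ _) h)
    refine (hEv w).1 ?_
    rw [hγpow]
    exact hαunit q0 hq0S (plcRing u q0 w) (h64l_plcRing_liesOver u q0 w) (hother w hw)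
  obtain ⟨Pr, hPr⟩ : ∃ Pr : Qb, Pr ^ p = ϖ := IsAlgClosed.exists_pow_nat_eq ϖ hp.pos
  have hPr0 : Pr ≠ 0 := fun h0 => hϖ0 (by rw [← hPr, h0, zero_pow hp.ne_zero])
  have hPrL : Pr ^ p ∈ fieldOf U := by
    rw [hPr]
    exact hϖ.1
  have hϖ' : IsUnifAt (fieldOf U) (plcRing u q0 w0) ϖ := by
    rw [hplc]
    exact h64l_isUnifAt_smul _ _ hxL hϖ
  have hx₁' : IsUnitAt (plcRing u q0 w0) x₁ := by
    rw [hplc]
    exact h64l_isUnitAt_smul _ _ hxL hx₁L hx₁u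
  have hw0 := (hEv w0).2 ϖ Pr hϖ' hPr ⟨x₁, hx₁', by rw [hγpow]; exact hαx₁⟩
  rw [hsum, hw0] at h0
  have hh' : (h' : ZMod p) ≠ 0 := by
    rw [Ne, ZMod.natCast_eq_zero_iff]
    exact hph'
  have hinv0 := (mul_eq_zero.mp h0).resolve_left hh'
  -- the local characters at `w0`
  have hconj : ∀ (M : IntermediateField ℚ Qb), Normal ℚ M → ∀ s : ↥(VW u q0 w0),
      primeLocalToGlobal q0 (s : primeLocalGaloisGroup q0) ∈ M.fixingSubgroup →
      ((locW u q0 w0 s : ↥U) : GQ₀) ∈ M.fixingSubgroup := by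
    intro M hMn s hs
    have h2 := (h29k_fixingSubgroup_normal M hMn).conj_mem _ hs ((u.sec.gsec w0.1)⁻¹)
    rw [inv_inv] at h2
    exact h2
  have hχadd' : ∀ g h : ↥(VW u q0 w0),
      res1 (ZMod p) (ZMod p) (locW u q0 w0) a (g * h) =
        res1 (ZMod p) (ZMod p) (locW u q0 w0) a g +
          res1 (ZMod p) (ZMod p) (locW u q0 w0) a h := by
    intro g h
    simp only [res1_apply, map_mul, hadd]
  have hχlc : IsLC1 (levW u q0 w0) (res1 (ZMod p) (ZMod p) (locW u q0 w0) a) := by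
    refine ⟨(F₀.fixingSubgroup.comap (primeLocalToGlobal q0)).comap (Subgroup.subtype _),
      ⟨F₀.fixingSubgroup.comap (primeLocalToGlobal q0),
        ⟨F₀.fixingSubgroup, ⟨F₀, hF₀fin, hF₀n, rfl⟩, rfl⟩, rfl⟩, ?_⟩
    intro g s hs
    simp only [res1_apply, map_mul]
    exact haN _ _ (hconj F₀ hF₀n s hs)
  have hχZ1 : res1 (ZMod p) (ZMod p) (locW u q0 w0) a ∈ Z1 (levW u q0 w0) (trivW p u q0 w0) := by
    refine ⟨LinearMap.mem_ker.2 ?_, hχlc⟩
    funext ⟨g, h⟩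
    simp only [d1_apply, Representation.trivial_apply, Pi.zero_apply, hχadd']
    ring
  obtain ⟨hKBspec, hKBadd, -, -⟩ := hKB p (fieldOf U) (ξ ^ p ^ k) Pr hζL hζ hPr0 hPrL
  have hψadd' : ∀ g h : ↥(VW u q0 w0),
      kumQ p (ξ ^ p ^ k) Pr (locW u q0 w0 (g * h)) =
        kumQ p (ξ ^ p ^ k) Pr (locW u q0 w0 g) + kumQ p (ξ ^ p ^ k) Pr (locW u q0 w0 h) := by
    intro g h
    rw [map_mul, Subgroup.coe_mul]
    exact hKBadd _ (by rw [hUfix]; exact (locW u q0 w0 g).2) _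
      (by rw [hUfix]; exact (locW u q0 w0 h).2)
  obtain ⟨M, hMfin, hMn, hPrM⟩ := h29k_exists_normal_mem Pr
  have hψlc : IsLC1 (levW u q0 w0) (fun h : ↥(VW u q0 w0) =>
      kumQ p (ξ ^ p ^ k) Pr (locW u q0 w0 h)) := by
    refine ⟨(M.fixingSubgroup.comap (primeLocalToGlobal q0)).comap (Subgroup.subtype _),
      ⟨M.fixingSubgroup.comap (primeLocalToGlobal q0),
        ⟨M.fixingSubgroup, ⟨M, hMfin, hMn, rfl⟩, rfl⟩, rfl⟩, ?_⟩
    intro g s hs
    have hfix : ((locW u q0 w0 s : ↥U) : GQ₀) Pr = Pr :=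
      (IntermediateField.mem_fixingSubgroup_iff _ _).mp (hconj M hMn s hs) Pr hPrM
    show kumQ p (ξ ^ p ^ k) Pr ((locW u q0 w0 (g * s) : ↥U) : GQ₀) =
      kumQ p (ξ ^ p ^ k) Pr ((locW u q0 w0 g : ↥U) : GQ₀)
    rw [map_mul, Subgroup.coe_mul]
    exact h29k_kumQ_congr p (ξ ^ p ^ k) Pr (by rw [AlgEquiv.mul_apply, hfix])
  have hcZ2 : cup11 (LinearMap.mul (ZMod p) (ZMod p)) (trivW p u q0 w0)
      (res1 (ZMod p) (ZMod p) (locW u q0 w0) a)
      (fun h => kumQ p (ξ ^ p ^ k) Pr (locW u q0 w0 h)) ∈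
      Z2 (levW u q0 w0) (trivW p u q0 w0) :=
    ⟨LinearMap.mem_ker.2 (h64l_d2_cup p _ _ hχadd' hψadd'), h64l_isLC2_cup _ p _ _ hχlc hψlc⟩
  have hcB2 := hInj U u hAU q0 w0 _ hcZ2 hinv0
  -- the tame symbol
  refine hTame p U u hAU q0 w0 (ξ ^ p ^ k) Pr (res1 (ZMod p) (ZMod p) (locW u q0 w0) a) φ hq0p
    hζ (by rw [hPr]; exact hϖ') hχZ1 ?_ hFrobφ ?_ hcB2
  · intro ι hι
    have h1 : primeLocalToGlobal q0 (ι : primeLocalGaloisGroup q0) ∈ F₀.fixingSubgroup :=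
      hF₀.2 q0 hq0S (primeLocalPlace q0) (h64l_primeLocalPlace_liesOver q0) hι
    have h2 := haN 1 (locW u q0 w0 ι) (hconj F₀ hF₀n ι h1)
    rw [one_mul] at h2
    rw [res1_apply, h2, ha1]
  · have h1 : locW u q0 w0 φ = ⟨x, hxU⟩ * ⟨σ, hσU⟩ * ⟨x, hxU⟩⁻¹ := Subtype.ext hlocφ
    have h2 : a (⟨x, hxU⟩ * ⟨x, hxU⟩⁻¹) = 0 := by rw [mul_inv_cancel, ha1]
    rw [hadd] at h2
    rw [res1_apply, h1, hadd, hadd]
    intro h3
    apply haσ
    linear_combination h3 - h2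

end

end Fermat.Agent.PT.Glob
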