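/-
W3-PT (S55), PT-GLOB-K (d'), leaf K-DP-CLASS (helper96).

`h96x_kClassEx : KClassExAbs → KClassEx` : translation of the class group datum from the abstract
number field `↥L` (`HeightOneSpectrum`) to valuation subrings of `ℚ̄`, by the dictionary of
`PT/Bridge/NFDict.lean` (helper23).
-/
import Mathlib
import Fermat.Agent.PT.Glob.KIface5
import Fermat.Agent.PT.Bridge.NFDict
import Fermat.Agent.S54.FrobValuation

set_option autoImplicit false

open NumberField IsDedekindDomain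

namespace Fermat.Agent.PT.Glob

open Fermat.Agent.Bridge Fermat.Agent.PT.Bridge

/-- An element of `ℤᵐ⁰` which is `< 1` is `≤ exp (-1)`. -/
theorem h96x_le_exp_neg_one {x : WithZero (Multiplicative ℤ)} (hx : x < 1) :
    x ≤ WithZero.exp (-1 : ℤ) := by
  rcases eq_or_ne x 0 with rfl | hx0
  · exact zero_le
  have h1 : WithZero.exp (WithZero.log x) < WithZero.exp (0 : ℤ) := by
    rw [WithZero.exp_log hx0, WithZero.exp_zero]
    exact hx
  have h2 : WithZero.log x < 0 := WithZero.exp_lt_exp.mp h1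
  rw [← WithZero.exp_log hx0, WithZero.exp_le_exp]
  omega

/-- The place under a valuation subring over `q ∉ S` is not above `S`. -/
theorem h96x_placeUnder_notMem (S : Finset Nat.Primes) (L : IntermediateField ℚ Qb)
    [NumberField L] (q : Nat.Primes) (A : ValuationSubring Qb) (hqS : q ∉ S)
    (hA : A.LiesOverPrime (q : ℕ)) (v : HeightOneSpectrum (𝓞 L))
    (hv : v.asIdeal = primeUnder A L) : v ∉ primesAbove L S := by
  rintro ⟨q', hq'S, hq'⟩
  rw [hv] at hq'
  have h1 : (((((q' : ℕ) : 𝓞 L) : L)) : Qb) ∈ A.nonunits := mem_primeUnder.mp hq'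
  have h2 : (((q' : ℕ) : ℤ) : Qb) ∈ A.nonunits := by
    have e : (((((q' : ℕ) : 𝓞 L) : L)) : Qb) = (((q' : ℕ) : ℤ) : Qb) := by simp
    rwa [e] at h1
  by_cases hqq : (q : ℕ) ∣ (q' : ℕ)
  · have h3 : (q : ℕ) = q' := (Nat.prime_dvd_prime_iff_eq q.2 q'.2).mp hqq
    have h4 : q = q' := Subtype.ext h3
    rw [h4] at hqS
    exact hqS hq'S
  · exact Fermat.Agent.S54.intCast_not_mem_nonunits A q.2 hA
      (n := ((q' : ℕ) : ℤ)) (by exact_mod_cast hqq) h2

/-- Units of `A` from the valuation. -/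
theorem h96x_isUnitAt_of_valuation (L : IntermediateField ℚ Qb) [NumberField L]
    (A : ValuationSubring Qb) (v : HeightOneSpectrum (𝓞 L)) (hv : v.asIdeal = primeUnder A L)
    (a : L) (ha : v.valuation L a = 1) : IsUnitAt A (a : Qb) := by
  refine ⟨(h23b_mem_iff_valuation_le_one v hv a).mpr ha.le, ?_⟩
  have h1 : ((a : Qb))⁻¹ = ((a⁻¹ : L) : Qb) := by simp
  rw [h1]
  refine (h23b_mem_iff_valuation_le_one v hv a⁻¹).mpr ?_
  rw [map_inv₀, ha, inv_one]

/-- **K-DP-CLASS.** -/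
theorem h96x_kClassEx : KClassExAbs → KClassEx := by
  intro hAbs p _ S L _ q0 A0 hq0S hA0
  obtain ⟨v0, hv0⟩ : ∃ v0 : HeightOneSpectrum (𝓞 L), v0.asIdeal = primeUnder A0 L :=
    ⟨h23b_placeUnder L A0 q0.2 hA0, rfl⟩
  have hv0S : v0 ∉ primesAbove L S := h96x_placeUnder_notMem S L q0 A0 hq0S hA0 v0 hv0
  obtain ⟨k, h', α, ϖ, hph', -, hα0, hϖ, hα, hother⟩ := hAbs p L (primesAbove L S) v0 hv0S
  have hϖ0 : ϖ ≠ 0 := by
    rintro rfl
    rw [map_zero] at hϖ
    exact WithZero.exp_ne_zero hϖ.symm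
  have hϖ0' : (ϖ : Qb) ≠ 0 := by
    intro h
    apply hϖ0
    exact_mod_cast h
  have hα0' : (α : Qb) ≠ 0 := by
    intro h
    apply hα0
    exact_mod_cast h
  refine ⟨k, h', (α : Qb), (ϖ : Qb), hph', α.2, hα0', ⟨ϖ.2, hϖ0', ?_, ?_⟩, ?_, ?_⟩
  · -- `ϖ` is a nonunit
    rw [h23b_mem_nonunits_iff_valuation_lt_one v0 hv0 ϖ, hϖ, ← WithZero.exp_zero,
      WithZero.exp_lt_exp]
    omega
  · -- `ϖ` generates the maximal ideal
    intro x hxL hx
    have h1 : v0.valuation L ⟨x, hxL⟩ < 1 :=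
      (h23b_mem_nonunits_iff_valuation_lt_one v0 hv0 ⟨x, hxL⟩).mp hx
    have h2 := h96x_le_exp_neg_one h1
    have h3 : x / (ϖ : Qb) = (((⟨x, hxL⟩ / ϖ : L)) : Qb) := by simp
    rw [h3, h23b_mem_iff_valuation_le_one v0 hv0, map_div₀, hϖ]
    exact div_le_one_of_le₀ h2 zero_le
  · -- `α = ϖ ^ (p^k h') · unit`
    refine ⟨((α / ϖ ^ (p ^ k * h') : L) : Qb), ?_, ?_⟩
    · apply h96x_isUnitAt_of_valuation L A0 v0 hv0
      rw [map_div₀, map_pow, hα, hϖ, ← WithZero.exp_nsmul, nsmul_eq_mul]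
      have e : ((p ^ k * h' : ℕ) : ℤ) * (-1 : ℤ) = -((p ^ k * h' : ℕ) : ℤ) := by ring
      rw [e]
      exact div_self WithZero.exp_ne_zero
    · push_cast
      field_simp
  · -- `α` is a unit at the other primes outside `S`
    intro q hqS A hA hne
    obtain ⟨v, hv⟩ : ∃ v : HeightOneSpectrum (𝓞 L), v.asIdeal = primeUnder A L :=
      ⟨h23b_placeUnder L A q.2 hA, rfl⟩
    have hvS : v ∉ primesAbove L S := h96x_placeUnder_notMem S L q A hqS hA v hv
    have hvv0 : v ≠ v0 := by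
      rintro rfl
      exact hne (hv.symm.trans hv0)
    exact h96x_isUnitAt_of_valuation L A v hv α (hother v hvS hvv0)

end Fermat.Agent.PT.Glob
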