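import Mathlib

/-!
# W3-PT / PT-GLOB: Kummer independence of distinct primes over `ℚ(ζ_p)` (helper79)

Let `ζ ∈ ℚ̄` be a primitive `p`-th root of unity, `S` a finite set of prime numbers and
`r q ∈ ℚ̄` a `p`-th root of `q` for `q ∈ S`.

* `h79r_exists_tau` : there is `τ ∈ Gal(ℚ̄/ℚ)` with `τ ζ = ζ` and `τ (r q) = ζ * r q` for
  all `q ∈ S` (the Galois group of `ℚ(ζ, r_q : q ∈ S)/ℚ(ζ)` is all of `(ℤ/p)^S`).

Proof: the set `V` of vectors `x ∈ 𝔽_p^S` realised by some `τ` is a subspace; if it is proper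
there is a non-trivial relation, i.e. `R = ∏ r_q ^ e_q ∈ ℚ(ζ)` with `R ^ p = ∏ q ^ e_q`; taking
the norm to `ℚ` and the `q`-adic valuation gives `p ∣ (p - 1) e_q`, a contradiction.
-/

set_option autoImplicit false
set_option linter.style.haveILetI false

open Polynomial

noncomputable section

namespace Fermat.Agent.PT.Glob

/-- the algebraic closure of `ℚ`. -/
abbrev h79r_Qb : Type := AlgebraicClosure ℚ

/-- the absolute Galois group of `ℚ`. -/
abbrev h79r_GQ : Type := h79r_Qb ≃ₐ[ℚ] h79r_Qb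

theorem h79r_isGalois_Qb : IsGalois ℚ h79r_Qb := by
  haveI : Algebra.IsAlgebraic ℚ h79r_Qb := AlgebraicClosure.isAlgebraic ℚ
  haveI : IsAlgClosure ℚ h79r_Qb := ⟨inferInstance, inferInstance⟩
  haveI : Normal ℚ h79r_Qb := IsAlgClosure.normal ℚ h79r_Qb
  exact ⟨⟩

variable {p : ℕ} [Fact p.Prime]

section Roots

variable {M : Type*} [CommMonoid M] {ζ : M}

theorem h79r_pow_val_injective (hζ : IsPrimitiveRoot ζ p) {a b : ZMod p}
    (h : ζ ^ a.val = ζ ^ b.val) : a = b := by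
  have hp : p.Prime := Fact.out
  haveI : NeZero p := ⟨hp.ne_zero⟩
  exact ZMod.val_injective p (hζ.pow_inj (ZMod.val_lt a) (ZMod.val_lt b) h)

theorem h79r_pow_val_natCast (hζ : IsPrimitiveRoot ζ p) (k : ℕ) :
    ζ ^ ((k : ZMod p)).val = ζ ^ k := by
  rw [ZMod.val_natCast]
  conv_rhs => rw [← Nat.mod_add_div k p]
  rw [pow_add, pow_mul, hζ.pow_eq_one, one_pow, mul_one]

theorem h79r_pow_val_add (hζ : IsPrimitiveRoot ζ p) (a b : ZMod p) :
    ζ ^ (a + b).val = ζ ^ a.val * ζ ^ b.val := by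
  have hp : p.Prime := Fact.out
  haveI : NeZero p := ⟨hp.ne_zero⟩
  rw [← pow_add, ← h79r_pow_val_natCast hζ (a.val + b.val)]
  congr 2
  push_cast
  rw [ZMod.natCast_zmod_val, ZMod.natCast_zmod_val]

theorem h79r_pow_eq_one_of_cast_eq_zero (hζ : IsPrimitiveRoot ζ p) {k : ℕ}
    (h : (k : ZMod p) = 0) : ζ ^ k = 1 := by
  rw [← h79r_pow_val_natCast hζ k, h, ZMod.val_zero, pow_zero]

end Roots

variable {ζ : h79r_Qb}

theorem h79r_inv_apply (τ : h79r_GQ) (y : h79r_Qb) : τ⁻¹ (τ y) = y := by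
  change (τ⁻¹ * τ) y = y
  rw [inv_mul_cancel]
  rfl

/-- an element fixing `ζ` multiplies every `p`-th root of a rational number by a power
of `ζ`. -/
theorem h79r_exists_expo (hζ : IsPrimitiveRoot ζ p) {r : h79r_Qb} {a : ℚ}
    (hr : r ^ p = algebraMap ℚ h79r_Qb a) (ha : a ≠ 0) (τ : h79r_GQ) :
    ∃ k : ZMod p, τ r = ζ ^ k.val * r := by
  have hp : p.Prime := Fact.out
  haveI : NeZero p := ⟨hp.ne_zero⟩
  have hr0 : r ≠ 0 := by
    rintro rfl
    rw [zero_pow hp.ne_zero] at hr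
    exact ha ((map_eq_zero _).mp hr.symm)
  have h1 : (τ r) ^ p = r ^ p := by
    rw [← map_pow, hr, AlgEquiv.commutes]
  have h2 : (τ r / r) ^ p = 1 := by
    rw [div_pow, h1, div_self (pow_ne_zero p hr0)]
  obtain ⟨i, -, hi⟩ := hζ.eq_pow_of_pow_eq_one h2
  refine ⟨(i : ZMod p), ?_⟩
  rw [h79r_pow_val_natCast hζ, hi, div_mul_cancel₀ _ hr0]

section Main

variable (S : Finset ℕ) (hS : ∀ q ∈ S, q.Prime) (r : ℕ → h79r_Qb)
  (hr : ∀ q ∈ S, r q ^ p = (q : h79r_Qb))

/-- the vectors of exponents realised by the elements of the Galois group fixing `ζ`. -/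
def h79r_realised (ζ : h79r_Qb) (S : Finset ℕ) (r : ℕ → h79r_Qb) : Set (↥S → ZMod p) :=
  {x | ∃ τ : h79r_GQ, τ ζ = ζ ∧ ∀ q : ↥S, τ (r q) = ζ ^ (x q).val * r q}

/-- the realised vectors form a subgroup. -/
def h79r_realisedSubgroup (hζ : IsPrimitiveRoot ζ p) (S : Finset ℕ) (r : ℕ → h79r_Qb) :
    AddSubgroup (↥S → ZMod p) where
  carrier := h79r_realised ζ S r
  zero_mem' := ⟨1, rfl, fun q => by simp⟩
  add_mem' := by
    rintro x y ⟨τ, hτ, hx⟩ ⟨τ', hτ', hy⟩
    refine ⟨τ * τ', ?_, fun q => ?_⟩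
    · rw [AlgEquiv.mul_apply, hτ', hτ]
    · rw [AlgEquiv.mul_apply, hy q, map_mul, map_pow, hτ, hx q, Pi.add_apply,
        h79r_pow_val_add hζ]
      ring
  neg_mem' := by
    rintro x ⟨τ, hτ, hx⟩
    have hτ' : τ⁻¹ ζ = ζ := by
      conv_lhs => rw [← hτ]
      exact h79r_inv_apply τ ζ
    refine ⟨τ⁻¹, hτ', fun q => ?_⟩
    have h1 : r q = ζ ^ (x q).val * τ⁻¹ (r q) := by
      have h0 : τ⁻¹ (τ (r q)) = τ⁻¹ (ζ ^ (x q).val * r q) := by rw [hx q]
      rw [h79r_inv_apply, map_mul, map_pow, hτ'] at h0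
      exact h0
    have h2 : ζ ^ (x q).val * ζ ^ ((-x) q).val = 1 := by
      rw [← h79r_pow_val_add hζ, Pi.neg_apply, add_neg_cancel, ZMod.val_zero, pow_zero]
    calc τ⁻¹ (r q) = (ζ ^ (x q).val * ζ ^ ((-x) q).val) * τ⁻¹ (r q) := by rw [h2, one_mul]
      _ = ζ ^ ((-x) q).val * (ζ ^ (x q).val * τ⁻¹ (r q)) := by ring
      _ = ζ ^ ((-x) q).val * r q := by rw [← h1]

/-- the degree of `ℚ(ζ)` over `ℚ`. -/
theorem h79r_finrank_adjoin (hζ : IsPrimitiveRoot ζ p) :
    Module.finrank ℚ (IntermediateField.adjoin ℚ {ζ}) = p - 1 := by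
  have hp : p.Prime := Fact.out
  have hint : IsIntegral ℚ ζ := (hζ.isIntegral hp.pos).tower_top
  rw [IntermediateField.adjoin.finrank hint, ← Polynomial.cyclotomic_eq_minpoly_rat hζ hp.pos,
    Polynomial.natDegree_cyclotomic, Nat.totient_prime hp]

/-- the valuation of a product of prime powers. -/
theorem h79r_factorization_prod (S : Finset ℕ) (hS : ∀ q ∈ S, q.Prime) (e : ↥S → ℕ)
    (q₀ : ↥S) : (∏ q : ↥S, (q : ℕ) ^ e q).factorization q₀ = e q₀ := by
  classical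
  have h0 : ∀ q ∈ (Finset.univ : Finset ↥S), (q : ℕ) ^ e q ≠ 0 :=
    fun q _ => pow_ne_zero _ (hS q.1 q.2).ne_zero
  rw [Nat.factorization_prod h0]
  simp only [Nat.factorization_pow, Finsupp.coe_finsetSum, Finset.sum_apply,
    Finsupp.coe_smul, Pi.smul_apply, smul_eq_mul]
  rw [Finset.sum_eq_single q₀]
  · rw [(hS q₀ q₀.2).factorization, Finsupp.single_eq_same, mul_one]
  · intro q _ hne
    rw [(hS q q.2).factorization, Finsupp.single_eq_of_ne, mul_zero]
    intro h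
    exact hne (Subtype.ext h.symm)
  · intro h
    exact absurd (Finset.mem_univ q₀) h

include hS hr in
/-- **Kummer independence**: every vector of exponents is realised. -/
theorem h79r_realised_eq_top (hζ : IsPrimitiveRoot ζ p) :
    h79r_realisedSubgroup hζ S r = ⊤ := by
  classical
  have hp : p.Prime := Fact.out
  haveI : NeZero p := ⟨hp.ne_zero⟩
  haveI := h79r_isGalois_Qb
  by_contra hne
  have hlt : AddSubgroup.toZModSubmodule p (h79r_realisedSubgroup hζ S r) < ⊤ := by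
    rw [lt_top_iff_ne_top]
    intro h
    apply hne
    have h2 : AddSubgroup.toZModSubmodule p (h79r_realisedSubgroup hζ S r)
        = AddSubgroup.toZModSubmodule p (⊤ : AddSubgroup (↥S → ZMod p)) := by
      rw [h]
      exact (map_top (AddSubgroup.toZModSubmodule p)).symm
    exact (AddSubgroup.toZModSubmodule p).injective h2
  obtain ⟨f, hf0, hle⟩ := Submodule.exists_le_ker_of_lt_top _ hlt
  set e : ↥S → ZMod p := fun q => f (fun j => if q = j then 1 else 0) with he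
  have hfx : ∀ x : ↥S → ZMod p, f x = ∑ q, x q * e q := fun x => by
    rw [LinearMap.pi_apply_eq_sum_univ f x]
    rfl
  obtain ⟨q₀, hq₀⟩ : ∃ q₀, e q₀ ≠ 0 := by
    by_contra hall
    have hall' : ∀ q, e q = 0 := fun q => by
      by_contra hq
      exact hall ⟨q, hq⟩
    apply hf0
    apply LinearMap.ext
    intro x
    rw [hfx]
    simp [hall']
  -- the relation
  set R : h79r_Qb := ∏ q : ↥S, r q ^ (e q).val with hR
  have hfix : ∀ τ : h79r_GQ, τ ζ = ζ → τ R = R := by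
    intro τ hτ
    have hex : ∀ q : ↥S, ∃ k : ZMod p, τ (r q) = ζ ^ k.val * r q := fun q =>
      h79r_exists_expo hζ (a := (q : ℕ)) (by rw [hr q q.2]; simp)
        (by exact_mod_cast (hS q q.2).ne_zero) τ
    choose x hx using hex
    have hxmem : x ∈ AddSubgroup.toZModSubmodule p (h79r_realisedSubgroup hζ S r) :=
      ⟨τ, hτ, hx⟩
    have hfx0 : ∑ q, x q * e q = 0 := by
      rw [← hfx]
      exact hle hxmem
    rw [hR, map_prod]
    have h1 : ∀ q : ↥S, τ (r q ^ (e q).val)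
        = ζ ^ ((x q).val * (e q).val) * r q ^ (e q).val := fun q => by
      rw [map_pow, hx q, mul_pow, ← pow_mul]
    simp only [h1]
    rw [Finset.prod_mul_distrib, Finset.prod_pow_eq_pow_sum]
    have h2 : ζ ^ (∑ q, (x q).val * (e q).val) = 1 := by
      apply h79r_pow_eq_one_of_cast_eq_zero hζ
      push_cast
      simp only [ZMod.natCast_zmod_val]
      exact hfx0
    rw [h2, one_mul]
  have hRmem : R ∈ IntermediateField.adjoin ℚ {ζ} := by
    rw [← InfiniteGalois.fixedField_fixingSubgroup (IntermediateField.adjoin ℚ {ζ}),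
      IntermediateField.mem_fixedField_iff]
    intro τ hτ
    exact hfix τ (hτ ⟨ζ, IntermediateField.mem_adjoin_simple_self ℚ ζ⟩)
  -- its `p`-th power is a natural number
  set m : ℕ := ∏ q : ↥S, (q : ℕ) ^ (e q).val with hm
  have hRp : R ^ p = (m : h79r_Qb) := by
    rw [hR, ← Finset.prod_pow, hm]
    push_cast
    refine Finset.prod_congr rfl fun q _ => ?_
    rw [← pow_mul, mul_comm, pow_mul, hr q q.2]
  have hm0 : m ≠ 0 := by
    rw [hm]
    exact Finset.prod_ne_zero_iff.mpr fun q _ => pow_ne_zero _ (hS q q.2).ne_zero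
  -- the norm
  set R' : IntermediateField.adjoin ℚ {ζ} := ⟨R, hRmem⟩ with hR'
  have hR'p : R' ^ p = algebraMap ℚ (IntermediateField.adjoin ℚ {ζ}) (m : ℚ) := by
    apply Subtype.ext
    change R ^ p = algebraMap ℚ h79r_Qb (m : ℚ)
    rw [hRp]
    simp
  have hnorm : (Algebra.norm ℚ R') ^ p = (m : ℚ) ^ (p - 1) := by
    rw [← map_pow, hR'p, Algebra.norm_algebraMap, h79r_finrank_adjoin hζ]
  haveI : Fact (q₀ : ℕ).Prime := ⟨hS q₀ q₀.2⟩
  have hy0 : Algebra.norm ℚ R' ≠ 0 := by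
    intro h
    rw [h, zero_pow hp.ne_zero] at hnorm
    exact pow_ne_zero _ (by exact_mod_cast hm0) hnorm.symm
  have hval := congrArg (padicValRat (q₀ : ℕ)) hnorm
  rw [padicValRat.pow, padicValRat.pow, padicValRat.of_nat,
    ← Nat.factorization_def m (hS q₀ q₀.2), hm, h79r_factorization_prod S hS _ q₀] at hval
  -- divisibility
  have hdvd : (p : ℤ) ∣ ((p - 1 : ℕ) : ℤ) * ((e q₀).val : ℤ) := ⟨_, hval.symm⟩
  have hdvd' : p ∣ (p - 1) * (e q₀).val := by exact_mod_cast hdvd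
  rcases (Nat.Prime.dvd_mul hp).mp hdvd' with h | h
  · have := Nat.le_of_dvd (Nat.sub_pos_of_lt hp.one_lt) h
    have := hp.one_lt
    omega
  · have hlt' := ZMod.val_lt (e q₀)
    have h0 : (e q₀).val = 0 := Nat.eq_zero_of_dvd_of_lt h hlt'
    exact hq₀ ((ZMod.val_eq_zero _).mp h0)

include hS hr in
/-- **the element `τ`**: it fixes `ζ` and multiplies every `r q`, `q ∈ S`, by `ζ`. -/
theorem h79r_exists_tau (hζ : IsPrimitiveRoot ζ p) :
    ∃ τ : h79r_GQ, τ ζ = ζ ∧ ∀ q ∈ S, τ (r q) = ζ * r q := by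
  have hp : p.Prime := Fact.out
  haveI : Fact (1 < p) := ⟨hp.one_lt⟩
  have h : (fun _ => 1 : ↥S → ZMod p) ∈ h79r_realisedSubgroup hζ S r := by
    rw [h79r_realised_eq_top S hS r hr hζ]
    exact AddSubgroup.mem_top _
  obtain ⟨τ, hτ, hx⟩ := h
  refine ⟨τ, hτ, fun q hq => ?_⟩
  have := hx ⟨q, hq⟩
  simp only [ZMod.val_one, pow_one] at this
  exact this

end Main

end Fermat.Agent.PT.Glob
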