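import Mathlib
import Fermat.Agent.Cheb.Final
import Fermat.Agent.S29.CycChar
import Fermat.Agent.PT.Glob.H79KumIndep

/-!
# W3-PT / PT-GLOB-REC: the auxiliary prime (helper79)

For a prime `p` and finite sets `S` (of primes) and `T` there is a prime `ℓ ∉ T`,
`ℓ ≡ 1 mod p`, such that no `q ∈ S` is a `p`-th power modulo `ℓ`.

* `h79r_exists_aux_frob` : the Galois form: a valuation subring `A` over `ℓ`, a Frobenius
  element `σ` at `A` with `σ ζ = ζ` and `σ (r q) = ζ ^ k * r q` for all `q ∈ S`, `p ∤ k`.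
* `h79r_exists_aux_prime` : the elementary form.

Inputs: Kummer independence (`h79r_exists_tau`) and the weak Chebotarev theorem over `ℚ`
(`Fermat.Agent.Cheb.WC_exists_isFrobeniusAt_pow`).
-/

set_option autoImplicit false
set_option linter.style.haveILetI false

open Polynomial

noncomputable section

namespace Fermat.Agent.PT.Glob

variable {p : ℕ} [Fact p.Prime]

/-- the field generated by `ζ` and the `r q`, `q ∈ S`. -/
def h79r_kumField (ζ : h79r_Qb) (S : Finset ℕ) (r : ℕ → h79r_Qb) :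
    IntermediateField ℚ h79r_Qb :=
  IntermediateField.adjoin ℚ (insert ζ (r '' (S : Set ℕ)))

theorem h79r_zeta_mem_kumField (ζ : h79r_Qb) (S : Finset ℕ) (r : ℕ → h79r_Qb) :
    ζ ∈ h79r_kumField ζ S r :=
  IntermediateField.subset_adjoin ℚ _ (Set.mem_insert _ _)

theorem h79r_root_mem_kumField (ζ : h79r_Qb) (S : Finset ℕ) (r : ℕ → h79r_Qb) {q : ℕ}
    (hq : q ∈ S) : r q ∈ h79r_kumField ζ S r :=
  IntermediateField.subset_adjoin ℚ _ (Set.mem_insert_of_mem _ ⟨q, hq, rfl⟩)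

theorem h79r_kumField_finiteDimensional (ζ : h79r_Qb) (S : Finset ℕ) (r : ℕ → h79r_Qb) :
    FiniteDimensional ℚ (h79r_kumField ζ S r) := by
  haveI : Algebra.IsAlgebraic ℚ h79r_Qb := AlgebraicClosure.isAlgebraic ℚ
  haveI : Finite (insert ζ (r '' (S : Set ℕ)) : Set h79r_Qb) :=
    Set.Finite.insert _ (Set.Finite.image _ S.finite_toSet)
  exact IntermediateField.finiteDimensional_adjoin
    (fun x _ => Algebra.IsIntegral.isIntegral x)

theorem h79r_pow_apply (τ : h79r_GQ) {ζ y : h79r_Qb} (hζ : τ ζ = ζ) (hy : τ y = ζ * y) (k : ℕ) :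
    (τ ^ k) y = ζ ^ k * y := by
  induction k with
  | zero => simp
  | succ n ih =>
    rw [pow_succ', AlgEquiv.mul_apply, ih, map_mul, map_pow, hζ, hy, pow_succ]
    ring

theorem h79r_pow_apply_fix (τ : h79r_GQ) {ζ : h79r_Qb} (hζ : τ ζ = ζ) (k : ℕ) :
    (τ ^ k) ζ = ζ := by
  induction k with
  | zero => simp
  | succ n ih => rw [pow_succ', AlgEquiv.mul_apply, ih, hζ]

/-- **the auxiliary Frobenius element.** -/
theorem h79r_exists_aux_frob (S T : Finset ℕ) (hS : ∀ q ∈ S, q.Prime) {ζ : h79r_Qb}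
    (hζ : IsPrimitiveRoot ζ p) (r : ℕ → h79r_Qb) (hr : ∀ q ∈ S, r q ^ p = (q : h79r_Qb)) :
    ∃ (ℓ : ℕ) (A : ValuationSubring h79r_Qb) (σ : h79r_GQ) (k : ℕ),
      ℓ.Prime ∧ ℓ ∉ T ∧ A.LiesOverPrime ℓ ∧ A.IsFrobeniusAt σ ℓ ∧ ¬ p ∣ k ∧ σ ζ = ζ ∧
        ∀ q ∈ S, σ (r q) = ζ ^ k * r q := by
  classical
  have hp : p.Prime := Fact.out
  haveI := h79r_isGalois_Qb
  haveI : Algebra.IsAlgebraic ℚ h79r_Qb := AlgebraicClosure.isAlgebraic ℚ
  haveI : IsAlgClosure ℚ h79r_Qb := ⟨inferInstance, inferInstance⟩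
  haveI : Normal ℚ h79r_Qb := IsAlgClosure.normal ℚ h79r_Qb
  -- enlarge `S` by the prime `2` (so that it is non-empty), choosing a root for `2`
  obtain ⟨r₂, hr₂⟩ : ∃ z : h79r_Qb, z ^ p = ((2 : ℕ) : h79r_Qb) :=
    IsAlgClosed.exists_pow_nat_eq _ hp.pos
  set S' : Finset ℕ := insert 2 S with hS'
  set r' : ℕ → h79r_Qb := fun q => if q ∈ S then r q else r₂ with hr'
  have hS'p : ∀ q ∈ S', q.Prime := by
    intro q hq
    rcases Finset.mem_insert.mp hq with rfl | h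
    · exact Nat.prime_two
    · exact hS q h
  have hr'p : ∀ q ∈ S', r' q ^ p = (q : h79r_Qb) := by
    intro q hq
    by_cases h : q ∈ S
    · simp only [hr', if_pos h]
      exact hr q h
    · rcases Finset.mem_insert.mp hq with rfl | h'
      · simp only [hr', if_neg h]
        exact hr₂
      · exact absurd h' h
  obtain ⟨τ, hτζ, hτr⟩ := h79r_exists_tau S' hS'p r' hr'p hζ
  -- the Galois closure
  set F := h79r_kumField ζ S' r' with hF
  haveI : FiniteDimensional ℚ F := h79r_kumField_finiteDimensional ζ S' r'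
  set L : IntermediateField ℚ h79r_Qb := IntermediateField.normalClosure ℚ F h79r_Qb with hL
  haveI : Normal ℚ L := normalClosure.normal _ _ _
  haveI : FiniteDimensional ℚ L := normalClosure.is_finiteDimensional _ _ _
  haveI : IsGalois ℚ L := ⟨⟩
  have hFL : F ≤ L := IntermediateField.le_normalClosure F
  obtain ⟨ℓ, A, σ, k, hℓ, hℓT, hA, hfrob, -, hcop, hσ⟩ :=
    Fermat.Agent.Cheb.WC_exists_isFrobeniusAt_pow L τ T
  have hζL : ζ ∈ L := hFL (h79r_zeta_mem_kumField ζ S' r')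
  have h2L : r' 2 ∈ L := hFL (h79r_root_mem_kumField ζ S' r' (Finset.mem_insert_self _ _))
  have hr20 : r' 2 ≠ 0 := by
    intro h
    have := hr'p 2 (Finset.mem_insert_self _ _)
    rw [h, zero_pow hp.ne_zero] at this
    exact two_ne_zero (by exact_mod_cast this.symm)
  -- `p` divides the order of `τ` on `L`
  have hpo : p ∣ orderOf (AlgEquiv.restrictNormalHom L τ) := by
    set n := orderOf (AlgEquiv.restrictNormalHom L τ) with hn
    have h1 : (AlgEquiv.restrictNormalHom L τ) ^ n = 1 := pow_orderOf_eq_one _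
    have h2 : (AlgEquiv.restrictNormalHom L (τ ^ n)) ⟨r' 2, h2L⟩ = ⟨r' 2, h2L⟩ := by
      rw [map_pow, h1]
      rfl
    have h3 : (τ ^ n) (r' 2) = r' 2 := by
      have := AlgEquiv.restrictNormal_commutes (τ ^ n) L ⟨r' 2, h2L⟩
      change algebraMap L h79r_Qb (AlgEquiv.restrictNormalHom L (τ ^ n) ⟨r' 2, h2L⟩) = _ at this
      rw [h2] at this
      exact this.symm
    rw [h79r_pow_apply τ hτζ (hτr 2 (Finset.mem_insert_self _ _))] at h3
    have h4 : ζ ^ n = 1 := by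
      have h5 : ζ ^ n * r' 2 = 1 * r' 2 := by rw [h3, one_mul]
      exact mul_right_cancel₀ hr20 h5
    exact (hζ.pow_eq_one_iff_dvd n).mp h4
  have hpk : ¬ p ∣ k := by
    intro hk
    have h1 : p ∣ Nat.gcd k (orderOf (AlgEquiv.restrictNormalHom L τ)) :=
      Nat.dvd_gcd hk hpo
    rw [hcop] at h1
    exact hp.one_lt.ne' (Nat.dvd_one.mp h1)
  refine ⟨ℓ, A, σ, k, hℓ, hℓT, hA, hfrob, hpk, ?_, fun q hq => ?_⟩
  · rw [hσ ζ hζL, h79r_pow_apply_fix τ hτζ]
  · have hqS' : q ∈ S' := Finset.mem_insert_of_mem hq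
    have hrr : r' q = r q := by simp only [hr', if_pos hq]
    have hqL : r' q ∈ L := hFL (h79r_root_mem_kumField ζ S' r' hqS')
    rw [← hrr, hσ _ hqL, h79r_pow_apply τ hτζ (hτr q hqS')]

/-- a unit-valued `p`-th root: if `y ^ n = u` with `u ∉ A.nonunits`, `y ∈ A`, then
`y ∉ A.nonunits`. -/
theorem h79r_not_mem_nonunits_of_pow (A : ValuationSubring h79r_Qb) {y u : h79r_Qb} {n : ℕ}
    (h : y ^ n = u) (hn : n ≠ 0) (hu : u ∉ A.nonunits) : y ∉ A.nonunits := by
  intro hy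
  apply hu
  rw [ValuationSubring.mem_nonunits_iff] at hy ⊢
  rw [← h, map_pow]
  exact pow_lt_one₀ zero_le hy hn

/-- a multiple of an element of the maximal ideal by an element of `A`. -/
theorem h79r_mul_mem_nonunits (A : ValuationSubring h79r_Qb) {x y : h79r_Qb}
    (hx : x ∈ A.nonunits) (hy : y ∈ A) : x * y ∈ A.nonunits := by
  rw [ValuationSubring.mem_nonunits_iff] at hx ⊢
  rw [map_mul]
  exact mul_lt_one_of_nonneg_of_lt_one_left zero_le hx ((A.valuation_le_one_iff _).mpr hy)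

/-- sums of elements of the maximal ideal. -/
theorem h79r_add_mem_nonunits (A : ValuationSubring h79r_Qb) {x y : h79r_Qb}
    (hx : x ∈ A.nonunits) (hy : y ∈ A.nonunits) : x + y ∈ A.nonunits := by
  rw [ValuationSubring.mem_nonunits_iff] at hx hy ⊢
  exact Valuation.map_add_lt _ hx hy

/-- an integer divisible by `ℓ` lies in the maximal ideal of a valuation ring over `ℓ`. -/
theorem h79r_intCast_mem_nonunits (A : ValuationSubring h79r_Qb) {ℓ : ℕ}
    (hA : A.LiesOverPrime ℓ) {n : ℤ} (h : (ℓ : ℤ) ∣ n) : (n : h79r_Qb) ∈ A.nonunits := by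
  obtain ⟨c, rfl⟩ := h
  push_cast
  exact h79r_mul_mem_nonunits A hA (intCast_mem A c)

/-- **the auxiliary prime**: for finite sets `S` (of primes) and `T` there is a prime
`ℓ ∉ T` with `ℓ ≡ 1 mod p` such that no `q ∈ S` is a `p`-th power modulo `ℓ`. -/
theorem h79r_exists_aux_prime (p : ℕ) [Fact p.Prime] (S T : Finset ℕ)
    (hS : ∀ q ∈ S, q.Prime) :
    ∃ ℓ : ℕ, ℓ.Prime ∧ ℓ ∉ T ∧ ℓ % p = 1 ∧ ∀ q ∈ S, ∀ x : ZMod ℓ, x ^ p ≠ (q : ZMod ℓ) := by
  classical
  have hp : p.Prime := Fact.out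
  haveI : NeZero p := ⟨hp.ne_zero⟩
  obtain ⟨ζ, hζ⟩ := HasEnoughRootsOfUnity.exists_primitiveRoot h79r_Qb p
  have hex : ∀ q : ℕ, ∃ z : h79r_Qb, z ^ p = (q : h79r_Qb) := fun q =>
    IsAlgClosed.exists_pow_nat_eq _ hp.pos
  choose r hr using hex
  obtain ⟨ℓ, A, σ, k, hℓ, hℓT, hA, hfrob, hpk, hσζ, hσr⟩ :=
    h79r_exists_aux_frob S (T ∪ S ∪ {p}) hS hζ r (fun q _ => hr q)
  have hℓT' : ℓ ∉ T := fun h => hℓT (by simp [h])
  have hℓS : ℓ ∉ S := fun h => hℓT (by simp [h])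
  have hℓp : ℓ ≠ p := fun h => hℓT (by simp [h])
  haveI : Fact ℓ.Prime := ⟨hℓ⟩
  have hζA : ζ ∈ A := Fermat.Agent.S54.mem_valuationSubring_of_isIntegral A
    (hζ.isIntegral hp.pos)
  have hζp : ζ ^ p = 1 := hζ.pow_eq_one
  -- `ℓ ≡ 1 mod p`
  have h1 : ζ = ζ ^ ℓ := by
    have h2 := Fermat.Agent.S29.CycChar.frobenius_sub_mem A hfrob hζA
    rw [hσζ] at h2
    refine Fermat.Agent.S29.CycChar.eq_of_sub_mem_nonunits A hp hℓ hℓp hA hζp ?_ h2
    rw [← pow_mul, mul_comm, pow_mul, hζp, one_pow]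
  have hmod : ℓ % p = 1 := by
    have h3 : ζ ^ 1 = ζ ^ ℓ := by rw [pow_one]; exact h1
    have h4 := Fermat.Agent.S29.CycChar.modEq_of_pow_eq hζ hp.pos h3
    have h5 : 1 % p = ℓ % p := h4
    rw [← h5, Nat.mod_eq_of_lt hp.one_lt]
  refine ⟨ℓ, hℓ, hℓT', hmod, fun q hq x hx => ?_⟩
  have hqp : q.Prime := hS q hq
  have hqℓ : q ≠ ℓ := fun h => hℓS (h ▸ hq)
  set m : ℕ := (ℓ - 1) / p with hm
  have hpm : 1 + p * m = ℓ := by
    have h6 : p ∣ ℓ - 1 := (Nat.modEq_iff_dvd' hℓ.one_lt.le).mp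
      (show 1 ≡ ℓ [MOD p] by rw [Nat.ModEq, hmod, Nat.mod_eq_of_lt hp.one_lt])
    rw [hm, Nat.mul_div_cancel' h6]
    have := hℓ.one_lt
    omega
  -- `q ^ m ≡ 1 mod ℓ`
  have hq0 : (q : ZMod ℓ) ≠ 0 := by
    intro h
    rw [ZMod.natCast_eq_zero_iff] at h
    exact hqℓ ((Nat.prime_dvd_prime_iff_eq hℓ hqp).mp h).symm
  have hx0 : x ≠ 0 := by
    rintro rfl
    rw [zero_pow hp.ne_zero] at hx
    exact hq0 hx.symm
  have hqm : ((q : ZMod ℓ)) ^ m = 1 := by
    rw [← hx, ← pow_mul]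
    have h7 : p * m = ℓ - 1 := by omega
    rw [h7]
    exact ZMod.pow_card_sub_one_eq_one hx0
  have hdvd : (ℓ : ℤ) ∣ (q : ℤ) ^ m - 1 := by
    rw [← ZMod.intCast_zmod_eq_zero_iff_dvd]
    push_cast
    rw [hqm, sub_self]
  have hqm' : (q : h79r_Qb) ^ m - 1 ∈ A.nonunits := by
    have := h79r_intCast_mem_nonunits A hA hdvd
    push_cast at this
    exact this
  -- the root `r q`
  have hrint : IsIntegral ℤ (r q) := by
    refine ⟨Polynomial.X ^ p - Polynomial.C (q : ℤ),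
      Polynomial.monic_X_pow_sub_C _ hp.ne_zero, ?_⟩
    simp [hr q]
  have hrA : r q ∈ A := Fermat.Agent.S54.mem_valuationSubring_of_isIntegral A hrint
  have hqu : (q : h79r_Qb) ∉ A.nonunits := by
    have hnd : ¬ (ℓ : ℤ) ∣ (q : ℤ) := by
      intro hd
      have h2 : ℓ ∣ q := Int.natCast_dvd_natCast.mp hd
      exact hqℓ ((Nat.prime_dvd_prime_iff_eq hℓ hqp).mp h2).symm
    have := Fermat.Agent.S54.intCast_not_mem_nonunits A hℓ hA hnd
    simpa using this
  have hru : r q ∉ A.nonunits := h79r_not_mem_nonunits_of_pow A (hr q) hp.ne_zero hqu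
  -- Frobenius
  have h8 := Fermat.Agent.S29.CycChar.frobenius_sub_mem A hfrob hrA
  rw [hσr q hq] at h8
  have h9 : r q ^ ℓ = r q * (q : h79r_Qb) ^ m := by
    rw [← hpm, pow_add, pow_one, pow_mul, hr q]
  rw [h9] at h8
  have h10 : (ζ ^ k - 1) * r q ∈ A.nonunits := by
    have h11 : (ζ ^ k - 1) * r q
        = (ζ ^ k * r q - r q * (q : h79r_Qb) ^ m) + ((q : h79r_Qb) ^ m - 1) * r q := by ring
    rw [h11]
    exact h79r_add_mem_nonunits A h8 (h79r_mul_mem_nonunits A hqm' hrA)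
  have h12 : ζ ^ k - 1 ∈ A.nonunits := by
    rw [ValuationSubring.mem_nonunits_iff] at h10 ⊢
    rw [map_mul] at h10
    have h13 : A.valuation (r q) = 1 := by
      have hle : A.valuation (r q) ≤ 1 := (A.valuation_le_one_iff _).mpr hrA
      have hnl : ¬ A.valuation (r q) < 1 := fun h =>
        hru ((ValuationSubring.mem_nonunits_iff A).mpr h)
      exact le_antisymm hle (not_lt.mp hnl)
    rwa [h13, mul_one] at h10
  have h14 : ζ ^ k = 1 := by
    refine Fermat.Agent.S29.CycChar.eq_of_sub_mem_nonunits A hp hℓ hℓp hA ?_ (one_pow p) h12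
    rw [← pow_mul, mul_comm, pow_mul, hζp, one_pow]
  exact hpk ((hζ.pow_eq_one_iff_dvd k).mp h14)

end Fermat.Agent.PT.Glob
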