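import Mathlib
import Fermat.Agent.PT.Glob.H12ShaDict
import Fermat.Agent.PT.Glob.H82HasseMain
import Fermat.Agent.PT.Glob.Sha.H11Sha
import Fermat.Agent.PT.Glob.Sha.Class67

/-!
# W3-PT / PT-GLOB-BR: `BrCountH`, unconditional (helper12 wiring)

`BrCountH` (`#Ш²_S(L, 𝔽_p) ≤ #(Cl_S(L)/p)` in the language of the restricted datum `D_U`) from

* `h12s_brCountH_of : GShaBound → BrCountH`            (the dictionary, `H12ShaDict.lean`);
* `h11s_gShaBound : GHasse → h67s_ClassBound → GShaBound` (helper11, `Sha/H11Sha.lean`);
* `h82m_gHasse : GHasse`                                 (`H82HasseMain.lean`);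
* `h67s_classBound : h67s_ClassBound`                    (helper67, `Sha/Class67.lean`).
-/

set_option autoImplicit false

namespace Fermat.Agent.PT.Glob

/-- `GShaBound`, unconditional. -/
theorem h12s_gShaBound : GShaBound := h11s_gShaBound h82m_gHasse h67s_classBound

/-- **(h)** `BrCountH`, unconditional. -/
theorem h12s_brCountH : BrCountH := h12s_brCountH_of h12s_gShaBound

end Fermat.Agent.PT.Glob
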