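/-
W3-PT (S55), PT-GLOB-K leaf K-LOCDEG (helper23): `h23_kLocDeg : KLocDeg`.

Direct consequence of the bridge lemmas `h23b_degree_formula` (Places.lean),
`h23b_primeUnder_eq_iff` and `h23b_exists_smul_padicPlace` (LocGrpE.lean).
-/
import Mathlib
import Fermat.Agent.PT.Glob.KIface
import Fermat.Agent.PT.Bridge.Places

set_option autoImplicit false
set_option linter.style.haveILetI false

open NumberField
open scoped Pointwise

namespace Fermat.Agent.PT.Glob

open Fermat.Agent.Bridge Fermat.Agent.PT.Bridge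

/-- **K-LOCDEG.** -/
theorem h23_kLocDeg : KLocDeg := by
  intro q _ L hL
  classical
  haveI := hL
  obtain ⟨T, hT, hsum⟩ := h23b_degree_formula q L
  have hfd : ∀ x : GQ, FiniteDimensional ℚ_[q]
      (h23b_localField q (L.map ((x : Qb ≃ₐ[ℚ] Qb) : Qb →ₐ[ℚ] Qb))) := by
    intro x
    haveI : FiniteDimensional ℚ (L.map ((x : Qb ≃ₐ[ℚ] Qb) : Qb →ₐ[ℚ] Qb)) :=
      LinearEquiv.finiteDimensional
        (IntermediateField.equivMap L ((x : Qb ≃ₐ[ℚ] Qb) : Qb →ₐ[ℚ] Qb)).toLinearEquiv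
    exact h23b_finiteDimensional_localField q _
  refine ⟨T.card, fun i => ((T.equivFin.symm i : T) : GQ), ?_, ?_, fun i => hfd _, ?_⟩
  · intro i j hij
    obtain ⟨τ, u, hu, hji⟩ := (h23b_primeUnder_eq_iff q L _ _).mp hij
    obtain ⟨t, -, huniq⟩ := hT ((T.equivFin.symm j : T) : GQ)
    have h1 : ((T.equivFin.symm j : T) : GQ) = t :=
      huniq _ ⟨(T.equivFin.symm j).2, 1, 1, one_mem _, by simp⟩
    have h2 : ((T.equivFin.symm i : T) : GQ) = t :=
      huniq _ ⟨(T.equivFin.symm i).2, τ, u, hu, hji⟩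
    have h3 : T.equivFin.symm i = T.equivFin.symm j := Subtype.ext (h2.trans h1.symm)
    exact T.equivFin.symm.injective h3
  · intro A hA
    obtain ⟨x, rfl⟩ := h23b_exists_smul_padicPlace q hA
    obtain ⟨t, ⟨ht, h, u, hu, hx⟩, -⟩ := hT x
    refine ⟨T.equivFin ⟨t, ht⟩, ?_⟩
    show primeUnder (x⁻¹ • padicPlace q) L =
      primeUnder (((T.equivFin.symm (T.equivFin ⟨t, ht⟩) : T) : GQ)⁻¹ • padicPlace q) L
    rw [Equiv.symm_apply_apply]
    exact ((h23b_primeUnder_eq_iff q L t x).mpr ⟨h, u, hu, hx⟩).symm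
  · rw [← hsum]
    rw [← Finset.sum_coe_sort T]
    exact Fintype.sum_equiv T.equivFin.symm _ _ (fun i => rfl)

end Fermat.Agent.PT.Glob
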