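import Fermat.Agent.PT.Glob.H24InvWOrbit
import Fermat.Agent.PT.Arith.Glue

/-!
# W3-PT / PT-GLOB-K (helper24): the local invariants of the restricted datum (GEN formula)

For ANY datum `D`, subgroup `U` of finite index, Shapiro data `sd`, functional `tr` on the cone
`3`-cochains, place `⟨v, w⟩` of the restricted datum and local `2`-cochain `c` of the stabiliser
`Stab(w) ≤ D.H v`:

`invAt (h56s_trR sd tr) ⟨v, w⟩ c = χ(gsec w) * h56s_invR (h24w_sec (sd.od v) w) χ_v (invAt tr v) c`,

i.e. the local invariant of `D|_U` at `⟨v, w⟩` is `χ(gsec w) · inv_v ∘ cor`.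
No hypothesis on `tr` (no `TrOK`) is needed.
-/

set_option autoImplicit false
set_option linter.unusedSectionVars false

namespace Fermat.Agent.PT.Glob

open Fermat.Agent.PT Fermat.Agent.PT.Shap MulAction

attribute [local instance] h56s_locAct

/-- the stabiliser of a point of a finite `H`-set has finite index. -/
lemma h24w_stab_finiteIndex {H X : Type} [Group H] [MulAction H X] [Finite X] (x : X) :
    (stabilizer H x).FiniteIndex := by
  have : Finite (H ⧸ stabilizer H x) :=
    Finite.of_injective _ (MulAction.injective_ofQuotientStabilizer H x)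
  exact Subgroup.finiteIndex_of_finite_quotient

section Gen

variable {k : Type} [Field k] (D : Datum k) (U : Subgroup D.G) [U.FiniteIndex]
variable (sd : h56s_ShapData D U) (tr : D.CC3 k →ₗ[k] k)

/-- the stabilisers of the local groups acting on `D.G ⧸ U` have finite index. -/
instance h24w_stabFI (v : D.P) (x : D.G ⧸ U) : (stabilizer (D.H v) x).FiniteIndex :=
  h24w_stab_finiteIndex x

/-- decidable equality on the places of the restricted datum (the one of the datum). -/
@[reducible] noncomputable def h24w_decP : DecidableEq (h56s_restr D U sd).P :=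
  (h56s_restr D U sd).dec

attribute [local instance] h24w_decP

/-- `E₃` on a cochain with vanishing global component. -/
lemma h24w_E3_zero_fst (β' : ∀ P : (h56s_restr D U sd).P,
    (h56s_restr D U sd).H P × (h56s_restr D U sd).H P → k) :
    sd.E3 (chiRep D.chi) ((0, β') : (h56s_restr D U sd).CC3 k)
      = (0, fun v => sd.exL2 (chiRep D.chi) v (sd.untw2 (chiRep D.chi) β' v)) := by
  refine Prod.ext ?_ ?_
  · funext q x
    simp [h56s_ShapData.E3, h56s_Sec.exU3]
  · funext v q x
    simp [h56s_ShapData.E3, h56s_Sec.exU3, h56s_OrbitData.hh3]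

lemma h24w_sumC3_zero_fst (β : ∀ v : D.P, D.H v × D.H v → (D.G ⧸ U) → k) :
    h56s_sumC3 D (D.G ⧸ U) ((0, β) : D.CC3 ((D.G ⧸ U) → k))
      = ((0, fun v q => ∑ᶠ x, β v q x) : D.CC3 k) := by
  refine Prod.ext ?_ rfl
  funext q
  simp [h56s_sumC3]

/-- `invAt` of the restricted trace as a sum over the places of `D`. -/
lemma h24w_invAt_sum (P₀ : (h56s_restr D U sd).P)
    (c : (h56s_restr D U sd).H P₀ × (h56s_restr D U sd).H P₀ → k) :
    (h56s_restr D U sd).invAt (h56s_trR sd tr) P₀ c
      = ∑ v, D.invAt tr v (fun q => ∑ᶠ x, sd.exL2 (chiRep D.chi) v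
          (sd.untw2 (chiRep D.chi) (LinearMap.single k (fun P : (h56s_restr D U sd).P =>
            (h56s_restr D U sd).H P × (h56s_restr D U sd).H P → k) P₀ c) v) q x) := by
  have h0 : (h56s_restr D U sd).invAt (h56s_trR sd tr) P₀ c
      = h56s_trR sd tr ((0, LinearMap.single k (fun P : (h56s_restr D U sd).P =>
            (h56s_restr D U sd).H P × (h56s_restr D U sd).H P → k) P₀ c) :
          (h56s_restr D U sd).CC3 k) := rfl
  rw [h0, h56s_trR_apply, h24w_E3_zero_fst, h24w_sumC3_zero_fst, h98a_tr_snd]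

/-- transport of a family of `2`-cochains of the stabilisers along an equality in `W`. -/
lemma h24w_congr2 {H X B : Type} [Group H] [MulAction H X] (OD : h56s_OrbitData H X)
    (φ : (w : OD.W) → stabilizer H w.1 × stabilizer H w.1 → B) {w w' : OD.W} (h : w = w')
    (a b : stabilizer H w.1) (a' b' : stabilizer H w'.1) (ha : (a : H) = a')
    (hb : (b : H) = b') : φ w (a, b) = φ w' (a', b') := by
  subst h
  rw [Subtype.ext ha, Subtype.ext hb]

variable (v : D.P) (w : (sd.od v).W)
variable (c : ↥(stabilizer (D.H v) w.1) × ↥(stabilizer (D.H v) w.1) → k)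

/-- the single cochain at `⟨v, w⟩`. -/
noncomputable def h24w_single : ∀ P : (h56s_restr D U sd).P,
    (h56s_restr D U sd).H P × (h56s_restr D U sd).H P → k :=
  LinearMap.single k (fun P : (h56s_restr D U sd).P =>
    (h56s_restr D U sd).H P × (h56s_restr D U sd).H P → k) ⟨v, w⟩ c

lemma h24w_single_same : h24w_single D U sd v w c ⟨v, w⟩ = c := by
  unfold h24w_single
  rw [LinearMap.single_apply]
  exact Pi.single_eq_same _ _

lemma h24w_single_ne (P : (h56s_restr D U sd).P) (hP : P ≠ ⟨v, w⟩) :
    h24w_single D U sd v w c P = 0 := by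
  unfold h24w_single
  rw [LinearMap.single_apply]
  exact Pi.single_eq_of_ne hP _

/-- away from `v` the integrand vanishes. -/
lemma h24w_exL2_ne (v' : D.P) (hv : v' ≠ v) :
    sd.exL2 (chiRep D.chi) v' (sd.untw2 (chiRep D.chi) (h24w_single D U sd v w c) v') = 0 := by
  funext q x
  have h : h24w_single D U sd v w c ⟨v', (sd.od v').repW x⟩ = 0 :=
    h24w_single_ne D U sd v w c _ (fun h => hv (congrArg Sigma.fst h))
  simp only [h56s_ShapData.exL2, h56s_ShapData.untw2, h, Pi.zero_apply, map_zero]

/-- at `v`, away from the orbit of `w`, the integrand vanishes. -/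
lemma h24w_exL2_off (q : D.H v × D.H v) (x : D.G ⧸ U) (hx : (sd.od v).repW x ≠ w) :
    sd.exL2 (chiRep D.chi) v (sd.untw2 (chiRep D.chi) (h24w_single D U sd v w c) v) q x = 0 := by
  have h : h24w_single D U sd v w c ⟨v, (sd.od v).repW x⟩ = 0 :=
    h24w_single_ne D U sd v w c _ (fun h => hx (eq_of_heq (Sigma.mk.inj h).2))
  simp only [h56s_ShapData.exL2, h56s_ShapData.untw2, h, Pi.zero_apply, map_zero]

/-- at `v`, on the orbit of `w`, the integrand is the integrand of the corestriction. -/
lemma h24w_exL2_on (q : D.H v × D.H v) (y : D.H v ⧸ stabilizer (D.H v) w.1) :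
    sd.exL2 (chiRep D.chi) v (sd.untw2 (chiRep D.chi) (h24w_single D U sd v w c) v) q
        (h24w_iota (sd.od v) w y)
      = (D.chi (sd.gsec w.1) : k)
          * (h24w_sec (sd.od v) w).exU2 (chiRep (D.chiAt v)) c q y := by
  have h1 : sd.untw2 (chiRep D.chi) (h24w_single D U sd v w c) v
        ((sd.od v).repW (h24w_iota (sd.od v) w y))
        ((sd.od v).cU q.1 (h24w_iota (sd.od v) w y),
          (sd.od v).cAt q.1 q.2 (h24w_iota (sd.od v) w y))
      = sd.untw2 (chiRep D.chi) (h24w_single D U sd v w c) v w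
        ((h24w_sec (sd.od v) w).cc q.1 y, (h24w_sec (sd.od v) w).cc q.2 (q.1⁻¹ • y)) := by
    refine h24w_congr2 (sd.od v) _ (h24w_repW_iota (sd.od v) w y) _ _ _ _ ?_ ?_
    · rw [h56s_OrbitData.coe_cU, h24w_cc_eq]
    · rw [h56s_OrbitData.coe_cAt, h24w_cc_eq, h24w_iota_smul]
  have h2 : sd.exL2 (chiRep D.chi) v (sd.untw2 (chiRep D.chi) (h24w_single D U sd v w c) v) q
        (h24w_iota (sd.od v) w y)
      = chiRep D.chi (D.loc v ((sd.od v).sec (h24w_iota (sd.od v) w y)))
          (sd.untw2 (chiRep D.chi) (h24w_single D U sd v w c) v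
            ((sd.od v).repW (h24w_iota (sd.od v) w y))
            ((sd.od v).cU q.1 (h24w_iota (sd.od v) w y),
              (sd.od v).cAt q.1 q.2 (h24w_iota (sd.od v) w y))) := rfl
  rw [h2, h1]
  simp only [h56s_ShapData.untw2, h24w_single_same, chiRep_apply, h56s_Sec.exU2, h24w_sec_gsec,
    Datum.chiAt, MonoidHom.comp_apply]
  ring

/-- **GEN**: the local invariant of the restricted datum at `⟨v, w⟩` is
`χ(gsec w) · (inv_v ∘ cor)`. -/
theorem h24w_invAt_restr :
    (h56s_restr D U sd).invAt (h56s_trR sd tr) ⟨v, w⟩ c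
      = (D.chi (sd.gsec w.1) : k)
          * h56s_invR (h24w_sec (sd.od v) w) (D.chiAt v) (D.invAt tr v) c := by
  have h0 := h24w_invAt_sum D U sd tr ⟨v, w⟩ c
  change _ = ∑ v', D.invAt tr v' (fun q => ∑ᶠ x, sd.exL2 (chiRep D.chi) v'
          (sd.untw2 (chiRep D.chi) (h24w_single D U sd v w c) v') q x) at h0
  rw [h0, Finset.sum_eq_single v]
  · have h1 : (fun q : D.H v × D.H v => ∑ᶠ x, sd.exL2 (chiRep D.chi) v
          (sd.untw2 (chiRep D.chi) (h24w_single D U sd v w c) v) q x)
        = (D.chi (sd.gsec w.1) : k) • h56s_sum2 (D.H v ⧸ stabilizer (D.H v) w.1)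
            ((h24w_sec (sd.od v) w).exU2 (chiRep (D.chiAt v)) c) := by
      funext q
      rw [h24w_finsum_orbit (sd.od v) w _ (fun x hx => h24w_exL2_off D U sd v w c q x hx)]
      simp only [h24w_exL2_on, Pi.smul_apply, smul_eq_mul, h56s_sum2]
      exact (mul_finsum _ _).symm
    rw [h1, map_smul, smul_eq_mul]
    rfl
  · intro v' _ hv
    rw [h24w_exL2_ne D U sd v w c v' hv]
    have : (fun q : D.H v' × D.H v' => ∑ᶠ x : D.G ⧸ U,
        (0 : D.H v' × D.H v' → (D.G ⧸ U) → k) q x) = 0 := by
      funext q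
      simp
    rw [this, map_zero]
  · intro h
    exact absurd (Finset.mem_univ v) h

end Gen

end Fermat.Agent.PT.Glob
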