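/-
W3-PT (S55), K-LOCNONDEGW (helper23):
`h23n_locNondegW : LocNondegRel → ∀ p, LocNondegW (Loc.invFam p)` (PT/Glob/KIface3.lean).

* `h23n_invAt_trLoc` : the local invariants of the purely local trace `trLoc inv S` are `inv`;
* `h23n_invW_eq`     : `invW inv u q w c = χ(gsec w) · h56s_invR s_w χ_q (inv q) c`
                       (helper24's GEN formula `h24w_invAt_restr`);
* `h23n_adCor_of_eq` : `AdCor` for a subgroup `V = GK E` (transport along the equality);
* `h23n_invW_pb2`    : `invW (invFam p) u q w (pb2 c) = χ(gsec w) · invQ (acor K_w s' χ c)`.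
-/
import Mathlib
import Fermat.Agent.PT.Glob.KIface3
import Fermat.Agent.PT.Glob.H24InvWGen
import Fermat.Agent.PT.Loc.H48Top
import Fermat.Agent.PT.Loc.H48Wire
import Fermat.Agent.PT.Loc.Iface3
import Fermat.Agent.PT.Bridge.RelDictW

set_option autoImplicit false
set_option linter.style.haveILetI false
set_option linter.unusedSectionVars false

open ExtCitation MulAction

namespace Fermat.Agent.PT.Glob

open Fermat.Agent.Bridge Fermat.Agent.PT Fermat.Agent.PT.Bridge Fermat.Agent.PT.Shap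
  Fermat.Agent.PT.Loc

attribute [local instance] locActQ

noncomputable section

/-- local instance: the prime `q : Nat.Primes` as a `Fact`. -/
local instance h23n_factPrimes (q : Nat.Primes) : Fact (q : ℕ).Prime := ⟨q.2⟩

variable {p : ℕ} [Fact p.Prime]

/-- The local invariants of the purely local trace are the given ones. -/
theorem h23n_invAt_trLoc (inv : InvFam p) (S : Finset Nat.Primes) (v : (DQ p S).P) :
    (DQ p S).invAt (trLoc inv S) v = inv v.1 := by
  classical
  apply LinearMap.ext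
  intro c
  have h1 := h98a_Sig_apply (DQ p S) (fun v => inv v.1)
    (Pi.single (M := fun v : (DQ p S).P => (DQ p S).H v × (DQ p S).H v → ZMod p) v c)
  refine Eq.trans (b := h98a_Sig (DQ p S) (fun v => inv v.1)
    (Pi.single (M := fun v : (DQ p S).P => (DQ p S).H v × (DQ p S).H v → ZMod p) v c)) ?_ ?_
  · rfl
  rw [h1, Finset.sum_eq_single v]
  · rw [Pi.single_eq_same]
  · intro v' _ hv'
    rw [Pi.single_eq_of_ne hv']
    exact map_zero _
  · intro h
    exact absurd (Finset.mem_univ v) h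

variable {U : Subgroup GQ} [hUfi : U.FiniteIndex]

/-- local instance: the local groups have finite index. -/
local instance h23n_VW_finiteIndex (u : USD U) (q : Nat.Primes) (w : (u.od q).W) :
    (VW u q w).FiniteIndex :=
  haveI : Finite (GQ ⧸ U) := Subgroup.finite_quotient_of_finiteIndex
  h24w_stab_finiteIndex _

/-- The uniform local invariant in terms of the restricted invariant of PT-SHAP. -/
theorem h23n_invW_eq (inv : InvFam p) (u : USD U) (q : Nat.Primes) (w : (u.od q).W)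
    (c : ↥(VW u q w) × ↥(VW u q w) → ZMod p) :
    invW inv u q w c =
      ((cycloChar p (u.sec.gsec (w.1 : GQ ⧸ U)) : (ZMod p)ˣ) : ZMod p) *
        h56s_invR (h24w_sec (u.od q) w) (chiQ p (q : ℕ)) (inv q) c := by
  have h := @h24w_invAt_restr (ZMod p) _ (DQ p {q}) U hUfi (u.sd p {q}) (trLoc inv {q})
    (⟨q, Finset.mem_singleton_self q⟩ : (DQ p {q}).P) w c
  have e := h23n_invAt_trLoc inv {q} (⟨q, Finset.mem_singleton_self q⟩ : (DQ p {q}).P)
  rw [e] at h
  exact h

/-- `AdCor` for a subgroup `V = GK E`. -/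
theorem h23n_adCor_of_eq {q : ℕ} [Fact q.Prime] (V : Subgroup (Gq q)) (E : LF q)
    [FiniteDimensional ℚ_[q] E] (hV : V = GK E) [V.FiniteIndex] (s : h56s_Sec (Gq q) V) :
    ∃ s' : Gq q ⧸ GK E → Gq q, IsSec E s' ∧
      ∀ (inv : (Gq q × Gq q → ZMod p) →ₗ[ZMod p] ZMod p) (b : Gq q × Gq q → ZMod p),
        h56s_invR s (chiQ p q) inv (h23r_pb2 V.subtype b) = inv (acor E s' (chiL p q) b) := by
  subst hV
  exact ⟨s.gsec, (h48_adCor q p E s 0 0).1, fun inv b => (h48_adCor q p E s inv b).2⟩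

/-- The uniform local invariant of a pull-back is `χ(gsec w) · inv_q (cor c)`. -/
theorem h23n_invW_pb2 (hadm : AdmU p U) (u : USD U) (q : Nat.Primes) (w : (u.od q).W) :
    ∃ s' : Gq (q : ℕ) ⧸ GK (h23w_fieldW u q w) → Gq (q : ℕ), IsSec (h23w_fieldW u q w) s' ∧
      ∀ (inv : InvFam p) (c : Gq (q : ℕ) × Gq (q : ℕ) → ZMod p),
        invW inv u q w (h23r_pb2 (h23w_incl u q w) c) =
          ((cycloChar p (u.sec.gsec (w.1 : GQ ⧸ U)) : (ZMod p)ˣ) : ZMod p) *
            inv q (acor (h23w_fieldW u q w) s' (chiL p (q : ℕ)) c) := by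
  haveI := h23w_finiteDimensional_fieldW u q w hadm
  obtain ⟨s', hs', h⟩ := @h23n_adCor_of_eq p _ (q : ℕ) _ (VW u q w) (h23w_fieldW u q w) _
    (h23r_stabilizer_eq_GK q U (h23w_fixingSubgroup_fieldOf hadm) u (w.1 : GQ ⧸ U))
    (h23n_VW_finiteIndex u q w) (h24w_sec (u.od q) w)
  refine ⟨s', hs', fun inv c => ?_⟩
  rw [h23n_invW_eq]
  exact congrArg (_ * ·) (h (inv q) c)

/-- **K-LOCNONDEGW.** -/
theorem h23n_locNondegW (hN : LocNondegRel) (p : ℕ) [Fact p.Prime] :
    LocNondegW (Loc.invFam p) := by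
  intro U _ u hadm q w χ' hχ' hker
  haveI := h23w_finiteDimensional_fieldW u q w hadm
  have hι := h23w_isEmb u q w hadm
  obtain ⟨s', hs', hinv⟩ := h23n_invW_pb2 hadm u q w
  -- `χ'` is the pull-back of a total cochain
  obtain ⟨χ, rfl⟩ := h23w_exists_pb1 u q w χ'
  have hχ := (h23w_mem_Z1_iff u q w hadm χ).1 hχ'
  have hzero : ∀ g ∈ GK (h23w_fieldW u q w), χ g = 0 := by
    refine hN (q : ℕ) p (h23w_fieldW u q w) s' hs' (h23w_zetaL_mem_fieldW u q w hadm) χ
      hχ.1 hχ.2 (fun ψ hψ hψc => ?_)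
    have hψ' : h23r_pb1 (h23w_incl u q w) ψ ∈ Z1 (levW u q w) (trivW p u q w) :=
      (h23w_mem_Z1_iff u q w hadm ψ).2 ⟨hψ, hψc⟩
    have h1 := hker _ hψ'
    rw [h23w_cup11, hinv] at h1
    have hunit : ((cycloChar p (u.sec.gsec (w.1 : GQ ⧸ U)) : (ZMod p)ˣ) : ZMod p) ≠ 0 :=
      Units.ne_zero _
    exact (mul_eq_zero.1 h1).resolve_left hunit
  funext h
  exact hzero _ ((hι.range _).2 ⟨h, rfl⟩)

end

end Fermat.Agent.PT.Glob
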