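/-
W3-PT (S55), helper23: the local inputs of PT-GLOB-K in the uniform language of
`PT/Glob/KIface3.lean`, UNCONDITIONAL:

* `h23w_locNondegW : LocNondegW (Loc.invFam p)`  (row K-LOCNONDEGW),
* `h23w_locDimW    : LocDimW`                    (row K-LOCDIMW),
* `h23w_locDim     : LocDim`                     (KIface2 form, row LOC3-K-DIM).
-/
import Mathlib
import Fermat.Agent.PT.Glob.H23NondegW
import Fermat.Agent.PT.Loc.H23KDimW
import Fermat.Agent.PT.Loc.H48Final2
import Fermat.Agent.PT.Loc.H39H1Dim

set_option autoImplicit false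

namespace Fermat.Agent.PT.Glob

open Fermat.Agent.PT Fermat.Agent.PT.Loc

/-- **K-LOCNONDEGW**, unconditional. -/
theorem h23w_locNondegW (p : ℕ) [Fact p.Prime] : LocNondegW (Loc.invFam p) :=
  h23n_locNondegW h48f_locNondegRel p

/-- **K-LOCDIMW**, unconditional. -/
theorem h23w_locDimW : LocDimW := h23k_locDimW h39d_h1DimRel

/-- **LOC-DIM** (KIface2 form), unconditional. -/
theorem h23w_locDim : LocDim := h23k_locDim h39d_h1DimRel

end Fermat.Agent.PT.Glob
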