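import Mathlib
import Fermat.Agent.PT.Glob.H24InvW
import Fermat.Agent.PT.Bridge.RelDictW
import Fermat.Agent.PT.Loc.H48Final2
import Fermat.Agent.PT.Loc.H69Triv
import Fermat.Agent.PT.Loc.H48Wire

/-!
# W3-PT / PT-GLOB-K, rows K-INVW + LOC3-K-INJ (helper24): `InvWOK` and `LocInjW` for `invFam p`

For the family `invFam p` of PT-LOC (`PT/Loc/H48Wire.lean`), unconditionally:

* `h24w_invWOK  : InvWOK (invFam p)`  — the local invariant at `w` kills the coboundaries;
* `h24w_locInjW : LocInjW (invFam p)` — the local invariant at `w` is injective on `H²`.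

Both follow from the formula `invW = χ(gsec w) · (invQ ∘ cor)` (`h24w_invW_eq`), the dictionary
`VW u q w = GK E` (helper23) and the local theorems `LocPerfRel`, `InvCob` (PT-LOC).
-/

set_option autoImplicit false
set_option linter.unusedSectionVars false
set_option linter.style.haveILetI false

open ExtCitation NumberField IsDedekindDomain MulAction

namespace Fermat.Agent.PT.Glob

open Fermat.Agent.PT Fermat.Agent.PT.Shap Fermat.Agent.Bridge Fermat.Agent.PT.Bridge
  Fermat.Agent.PT.Loc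

noncomputable section

attribute [local instance] locActQ

/-! ## one open subgroup `V ≤ Gq q` with `χ|_V = 1` -/

section OneGroup

variable {q : ℕ} [Fact q.Prime] {p : ℕ} [Fact p.Prime]

/-- `LPerf2` for the trivial module of an open subgroup `V` with `χ|_V = 1` (no hypothesis
`p ≠ 2`). -/
theorem h24w_loc_lPerf2 (V : Subgroup (Gq q)) [V.FiniteIndex] (hV : (Loc.levLoc q).IsOpen V)
    (hχ : ∀ u ∈ V, chiQ p q u = 1) (s : h56s_Sec (Gq q) V) :
    LPerf2 ((Loc.levLoc q).comap V.subtype) (h56s_invR s (chiQ p q) (invQ p q))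
      (Representation.trivial (ZMod p) ↥V (ZMod p))
      (Representation.trivial (ZMod p) ↥V (ZMod p)) (LinearMap.mul (ZMod p) (ZMod p)) := by
  obtain ⟨E, hE, rfl⟩ := h69t_exists_field q V hV
  have hζ : zetaL p q ∈ E := (h69t_zetaL_mem_iff p q E).1 hχ
  exact h69t_lPerf2 h48f_adCoh h48f_locPerfRel E hζ s

/-- the restricted invariant kills the coboundaries of `V`. -/
theorem h24w_loc_invR_B2 (V : Subgroup (Gq q)) [V.FiniteIndex] (hV : (Loc.levLoc q).IsOpen V)
    (hχ : ∀ u ∈ V, chiQ p q u = 1) (s : h56s_Sec (Gq q) V)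
    (c : ↥V × ↥V → ZMod p)
    (hc : c ∈ B2 ((Loc.levLoc q).comap V.subtype) (Representation.trivial (ZMod p) ↥V (ZMod p))) :
    h56s_invR s (chiQ p q) (invQ p q) c = 0 := by
  obtain ⟨E, hE, rfl⟩ := h69t_exists_field q V hV
  have hζ : zetaL p q ∈ E := (h69t_zetaL_mem_iff p q E).1 hχ
  obtain ⟨-, -, hB2, -, -⟩ := h48f_adCoh q p E
  have hc' : rst2 E (ext2 E c) ∈ B2 (levK E) (Representation.trivial (ZMod p) ↥(GK E) (ZMod p)) := by
    rw [rst2_ext2]
    exact hc
  rw [← rst2_ext2 E c, h69t_invR_rst]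
  exact h70k_invSpec h48f_invEx _ 0
    (h48f_invCob q p E s.gsec _ ⟨s.gsec_mk, s.gsec_one⟩ hζ ((hB2 _).1 hc'))

/-- the restricted invariant is injective on `H²(V, 𝔽_p)`. -/
theorem h24w_loc_invR_inj (V : Subgroup (Gq q)) [V.FiniteIndex] (hV : (Loc.levLoc q).IsOpen V)
    (hχ : ∀ u ∈ V, chiQ p q u = 1) (s : h56s_Sec (Gq q) V)
    (c : ↥V × ↥V → ZMod p)
    (hc : c ∈ Z2 ((Loc.levLoc q).comap V.subtype) (Representation.trivial (ZMod p) ↥V (ZMod p)))
    (h0 : h56s_invR s (chiQ p q) (invQ p q) c = 0) :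
    c ∈ B2 ((Loc.levLoc q).comap V.subtype) (Representation.trivial (ZMod p) ↥V (ZMod p)) := by
  refine (h24w_loc_lPerf2 V hV hχ s).1 c hc (fun w _ => ?_)
  rw [h69l_cup20_mul, map_smul, h0, smul_zero]

end OneGroup

/-! ## the uniform local objects -/

section W

variable {p : ℕ} [Fact p.Prime] {U : Subgroup GQ}

/-- the local group at `w` is open. -/
theorem h24w_vw_isOpen (hadm : AdmU p U) (u : USD U) (q : Nat.Primes) (w : (u.od q).W) :
    letI : Fact (q : ℕ).Prime := ⟨q.2⟩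
    (Loc.levLoc (q : ℕ)).IsOpen (VW u q w) := by
  letI : Fact (q : ℕ).Prime := ⟨q.2⟩
  have hfd := h23w_finiteDimensional_fieldW u q w hadm
  exact (h23b_isOpen_levLoc_iff (q := (q : ℕ)) _).2 ⟨h23w_fieldW u q w, hfd,
    h23r_stabilizer_eq_GK q U (h23w_fixingSubgroup_fieldOf hadm) u (w.1 : GQ ⧸ U)⟩

/-- the cyclotomic character is trivial on the local group at `w`. -/
theorem h24w_vw_chi (hadm : AdmU p U) (u : USD U) (q : Nat.Primes) (w : (u.od q).W) :
    letI : Fact (q : ℕ).Prime := ⟨q.2⟩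
    ∀ h ∈ VW u q w, chiQ p (q : ℕ) h = 1 := by
  letI : Fact (q : ℕ).Prime := ⟨q.2⟩
  intro h hh
  have hVW : (VW u q w : Subgroup (Gq (q : ℕ))) = GK (h23w_fieldW u q w) :=
    h23r_stabilizer_eq_GK q U (h23w_fixingSubgroup_fieldOf hadm) u (w.1 : GQ ⧸ U)
  rw [hVW] at hh
  exact (h69t_zetaL_mem_iff p (q : ℕ) (h23w_fieldW u q w)).2
    (h23w_zetaL_mem_fieldW u q w hadm) h hh

/-- **W-OK** for `invFam p`. -/
theorem h24w_invWOK : InvWOK (invFam p) := by
  intro U _ u hadm q w c hc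
  letI : Fact (q : ℕ).Prime := ⟨q.2⟩
  rw [h24w_invW_eq_zero_iff]
  exact @h24w_loc_invR_B2 (q : ℕ) _ p _ (VW u q w) (h24w_vwFI u q w)
    (h24w_vw_isOpen hadm u q w) (h24w_vw_chi hadm u q w) (h24w_sec (u.od q) w) c hc

/-- **W-INJ** for `invFam p`. -/
theorem h24w_locInjW : LocInjW (invFam p) := by
  intro U _ u hadm q w c hc h0
  letI : Fact (q : ℕ).Prime := ⟨q.2⟩
  rw [h24w_invW_eq_zero_iff] at h0
  exact @h24w_loc_invR_inj (q : ℕ) _ p _ (VW u q w) (h24w_vwFI u q w)
    (h24w_vw_isOpen hadm u q w) (h24w_vw_chi hadm u q w) (h24w_sec (u.od q) w) c hc h0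

end W

end

end Fermat.Agent.PT.Glob
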