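import Fermat.Agent.PT.Shap.Trace

/-!
# W3-PT / PT-GLOB-K (helper24): the section of `H → H ⧸ Stab(w)` induced by orbit data

For orbit data `OD` of a group `H` acting on `X` and an orbit representative `w : OD.W`:

* `h24w_iota OD w : H ⧸ Stab(w) → X`, the orbit map (injective, range = `{x | repW x = w}`);
* `h24w_sec OD w : h56s_Sec H (Stab w)`, `gsec y = OD.sec (ι y)`;
* `h24w_finsum_orbit` : a sum over `X` of a function supported on the orbit of `w` is the sum over
  `H ⧸ Stab(w)`;
* `h24w_c_iota`, `h24w_cc_eq` : the cocycle of `h24w_sec` is the cocycle of `OD` on the orbit.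
-/

set_option autoImplicit false
set_option linter.unusedSectionVars false

namespace Fermat.Agent.PT.Glob

open Fermat.Agent.PT Fermat.Agent.PT.Shap MulAction

section Orbit

variable {H X : Type} [Group H] [MulAction H X] (OD : h56s_OrbitData H X) (w : OD.W)

/-- the orbit map `H ⧸ Stab(w) → X`. -/
def h24w_iota : H ⧸ stabilizer H w.1 → X := MulAction.ofQuotientStabilizer H w.1

lemma h24w_iota_mk (h : H) : h24w_iota OD w (QuotientGroup.mk h) = h • w.1 := rfl

lemma h24w_iota_smul (h : H) (y : H ⧸ stabilizer H w.1) :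
    h24w_iota OD w (h • y) = h • h24w_iota OD w y :=
  MulAction.ofQuotientStabilizer_smul H w.1 h y

lemma h24w_iota_inj : Function.Injective (h24w_iota OD w) :=
  MulAction.injective_ofQuotientStabilizer H w.1

lemma h24w_rep_iota (y : H ⧸ stabilizer H w.1) : OD.rep (h24w_iota OD w y) = w.1 := by
  induction y using QuotientGroup.induction_on with
  | H h => rw [h24w_iota_mk, OD.rep_smul, w.2]

lemma h24w_repW_iota (y : H ⧸ stabilizer H w.1) : OD.repW (h24w_iota OD w y) = w :=
  Subtype.ext (h24w_rep_iota OD w y)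

lemma h24w_mem_range_iff (x : X) : x ∈ Set.range (h24w_iota OD w) ↔ OD.repW x = w := by
  constructor
  · rintro ⟨y, rfl⟩
    exact h24w_repW_iota OD w y
  · intro h
    refine ⟨QuotientGroup.mk (OD.sec x), ?_⟩
    rw [h24w_iota_mk]
    have h1 : OD.rep x = w.1 := congrArg Subtype.val h
    rw [← h1]
    exact OD.sec_smul x

/-- the section of `H → H ⧸ Stab(w)` induced by the orbit data. -/
def h24w_sec : h56s_Sec H (stabilizer H w.1) where
  gsec y := OD.sec (h24w_iota OD w y)
  gsec_mk y := by
    apply h24w_iota_inj OD w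
    rw [h24w_iota_mk]
    have h := OD.sec_smul (h24w_iota OD w y)
    rwa [h24w_rep_iota] at h
  gsec_one := by
    rw [h24w_iota_mk, one_smul]
    have h := OD.sec_rep w.1
    rwa [w.2] at h

@[simp] lemma h24w_sec_gsec (y : H ⧸ stabilizer H w.1) :
    (h24w_sec OD w).gsec y = OD.sec (h24w_iota OD w y) := rfl

/-- a sum over `X` of a function supported on the orbit of `w`. -/
lemma h24w_finsum_orbit {M : Type} [AddCommMonoid M] (f : X → M)
    (hf : ∀ x, OD.repW x ≠ w → f x = 0) :
    ∑ᶠ x, f x = ∑ᶠ y, f (h24w_iota OD w y) := by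
  rw [← finsum_mem_range (h24w_iota_inj OD w), finsum_mem_def]
  refine finsum_congr fun x => ?_
  by_cases hx : x ∈ Set.range (h24w_iota OD w)
  · rw [Set.indicator_of_mem hx]
  · rw [Set.indicator_of_notMem hx]
    exact hf x (fun h => hx ((h24w_mem_range_iff OD w x).2 h))

/-- the cocycle of the induced section is the cocycle of the orbit data on the orbit. -/
lemma h24w_cc_eq (h : H) (y : H ⧸ stabilizer H w.1) :
    (((h24w_sec OD w).cc h y : stabilizer H w.1) : H) = OD.c h (h24w_iota OD w y) := by
  rw [h56s_Sec.coe_cc, h24w_sec_gsec, h24w_sec_gsec, h24w_iota_smul]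
  rfl

end Orbit

end Fermat.Agent.PT.Glob
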