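import Mathlib
import Fermat.Agent.PT.Glob.H24InvWLoc

/-!
# W3-PT / PT-LOC, row LOC3-K-INJ (helper24): `Glob.LocInj TS` (KIface2 form)

`h24w_locInj : ∀ TS : TrSys p, (∀ q, TS.inv q = invFam p q) → LocInj TS` (unconditional), and
the variant `h24w_locInj_of` for an arbitrary family `inv` with `LocInjW inv`.
-/

set_option autoImplicit false
set_option linter.unusedSectionVars false

open ExtCitation NumberField IsDedekindDomain MulAction

namespace Fermat.Agent.PT.Glob

open Fermat.Agent.PT Fermat.Agent.PT.Shap Fermat.Agent.PT.Loc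

local notation "GQ₀" => (AlgebraicClosure ℚ ≃ₐ[ℚ] AlgebraicClosure ℚ)

noncomputable section

attribute [local instance] locActQ

variable {p : ℕ} [Fact p.Prime]

/-- `Adm p S U` gives the standing hypotheses on `U` alone. -/
theorem h24w_admU_of_adm {S : Finset Nat.Primes} {U : Subgroup GQ₀} (h : Adm p S U) :
    AdmU p U := by
  refine ⟨?_, h.chi⟩
  obtain ⟨N, ⟨F, hF, hn, rfl⟩, hle⟩ := h.isOpen
  exact ⟨_, ⟨F, hF.1, hn, rfl⟩, hle⟩

/-- `LocInj TS` from the uniform statement `LocInjW` for the local invariants of `TS`. -/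
theorem h24w_locInj_of (TS : TrSys p) (hW : LocInjW TS.inv) : LocInj TS := by
  intro S U _ u hA v c hc h0
  obtain ⟨⟨q, hq⟩, w⟩ := v
  have h1 : invW TS.inv u q w c = 0 := by
    rw [← h24w_kInvW p TS.inv U u S (TS.tr S) (fun q' => TS.invAt_eq S q') q hq w c]
    exact h0
  exact hW U u (h24w_admU_of_adm hA) q w c hc h1

/-- **LOC3-K-INJ.** -/
theorem h24w_locInj (TS : TrSys p) (h : ∀ q : Nat.Primes, TS.inv q = invFam p q) :
    LocInj TS := by
  have h' : TS.inv = invFam p := funext h
  refine h24w_locInj_of TS ?_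
  rw [h']
  exact h24w_locInjW

end

end Fermat.Agent.PT.Glob
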