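import Mathlib
import Fermat.Agent.PT.Arith.Wire2
import Fermat.Agent.PT.Bridge.DQGood
import Fermat.Agent.PT.Shap.GlobAsm
import Fermat.Agent.PT.Shap.H97TrOK
import Fermat.Agent.PT.Alg.Chi2Asm
import Fermat.Agent.PT.Alg.H87Chi2SES
import Fermat.Agent.PT.Alg.H12Chi2Unip
import Fermat.Agent.PT.Alg.H2Chi2Shap
import Fermat.Agent.PT.Loc.H48Final2
import Fermat.Agent.PT.Loc.H23KDimW
import Fermat.Agent.PT.Loc.H39H1Dim
import Fermat.Agent.PT.Glob.H47KTop
import Fermat.Agent.PT.Glob.KIface5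
import Fermat.Agent.PT.Glob.BrCount
import Fermat.Agent.PT.Glob.H51BrNF
import Fermat.Agent.PT.Glob.H93Tower
import Fermat.Agent.PT.Glob.H64BrN3
import Fermat.Agent.PT.Glob.H68BrHyper
import Fermat.Agent.PT.Glob.H81LocInj
import Fermat.Agent.PT.Glob.H66BrDUGood
import Fermat.Agent.PT.Glob.H23PlacesCard
import Fermat.Agent.PT.Glob.H83KAsm
import Fermat.Agent.PT.Glob.H56KGlob
import Fermat.Agent.PT.Glob.H36SumPlc
import Fermat.Agent.PT.Glob.H93KLeaves
import Fermat.Agent.PT.Glob.H52ClassExAbs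
import Fermat.Agent.PT.Glob.H96KClassEx
import Fermat.Agent.PT.Glob.H23FrobW
import Fermat.Agent.PT.Glob.K.H90UnrW
import Fermat.Agent.PT.Glob.H36InertUnit
import Fermat.Agent.PT.Glob.K.H29DPZeta

/-!
# W3-PT / PT-GLOB (helper47): TOP-LEVEL ASSEMBLY of the arithmetic inputs of S55

`h47_arithInputs_of` : the Props which are still open (hypotheses) `⇒ ArithInputs`
(`PT/Arith/Iface.lean`), with `inv := Loc.invFam p`.  Everything else is instantiated by the
landed theorems.  Purpose: to force all interfaces of PT-LOC / PT-SHAP / PT-GLOB-BR / PT-GLOB-K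
to fit; when a hypothesis lands, it is discharged in a new file.
-/

set_option autoImplicit false

open ExtCitation

namespace Fermat.Agent.PT.Glob

open Fermat.Agent.PT Fermat.Agent.PT.Shap Fermat.Agent.PT.Bridge

/-- Traces with the local invariants `inv` exist (from `LocInvOK` and `RecQFor`). -/
theorem h47_trEx {p : ℕ} [Fact p.Prime] (inv : InvFam p) (hOK : LocInvOK p inv)
    (hRec : RecQFor p inv) : TrEx inv := by
  intro S hpS
  obtain ⟨tr, htr, hinv⟩ := h98a_exists_tr (DQ p S) (fun q => inv q.1) (fun q => hOK q.1)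
    (fun a ha => hRec S hpS a ha)
  exact ⟨tr, htr, hinv⟩

/-- `Chi2Ineq`, unconditional. -/
theorem h47_chi2Ineq : Chi2Ineq := h98c_chi2Ineq (h12u_chi2Unip h87c_chi2SES) h2c_chi2Shap

/-- `Chi2Van`, unconditional. -/
theorem h47_chi2Van : Chi2Van :=
  h98c_chi2Van (h98c_chi2Res (h12u_chi2Unip h87c_chi2SES) h2c_chi2Shap) h2c_chi2Shap

/-- **Top-level assembly.** -/
theorem h47_arithInputs_of
    (hVC : Loc.VanCycAbs)
    (hRec : ∀ (p : ℕ) [Fact p.Prime], p ≠ 2 → RecQFor p (Loc.invFam p))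
    (hInvW : KInvW)
    (hWOK : ∀ (p : ℕ) [Fact p.Prime], InvWOK (Loc.invFam p))
    (hWInj : ∀ (p : ℕ) [Fact p.Prime], LocInjW (Loc.invFam p))
    (hWND : ∀ (p : ℕ) [Fact p.Prime], LocNondegW (Loc.invFam p))
    (hAlgA : BrAlgA) (hAlgC : BrAlgC) (hCH : BrCountH)
    (hCD : KCountDAsm)
    (hLeft : KLeftAsm) (hPair : KPairFormula) (hLE : KLocEval) (hTame : KTameW)
    (hIG : KInertGam) : ArithInputs := by
  intro p _ hp2
  have hOK : LocInvOK p (Loc.invFam p) := Loc.h48f_locInvOK p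
  have hR : RecQFor p (Loc.invFam p) := hRec p hp2
  -- local injectivity in the language of `D_U`
  have hLI : ∀ (p : ℕ) [Fact p.Prime], LocInjFor (Loc.invFam p) :=
    fun p _ => h81b_locInjFor hInvW p (Loc.invFam p) (hWInj p)
  -- (N3)
  have hN3 : BrN3 :=
    h64n_brN3_of hAlgA h66b_brDUGood h97s_shapTrOK dqGood hCH h23_placesCard
      (fun p _ hp => ⟨Loc.invFam p, h47_trEx _ (Loc.h48f_locInvOK p) (hRec p hp), hLI p⟩)
  -- the count
  obtain ⟨hVV, hEq⟩ := brCount dqGood h47_chi2Ineq h47_chi2Van h51n_brNF h51n_brDeg h47_kN1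
    h47_kN2 hN3 h93_tower
  -- (c2)
  have hHy : BrHyperFor (Loc.invFam p) :=
    h68b_brHyperFor_of hAlgC h66b_brDUGood h97s_shapTrOK dqGood h51n_brNF hCH h23_placesCard hEq
      (Loc.invFam p) (hLI p)
  -- (d)
  have hKCD : KCountD :=
    hCD (fun p _ hp => ⟨Loc.invFam p, Loc.h48f_locInvOK p, hRec p hp, hWND p⟩)
      h97s_shapTrOK dqGood hInvW h36s_kSumPlc (Loc.h23k_locDimW Loc.h39d_h1DimRel)
      h23_placesCard h93_kIso h47_kN1
  -- (d')
  have hKL : KLeftFor (Loc.invFam p) :=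
    hLeft p (Loc.invFam p) hOK hR h97s_shapTrOK dqGood hInvW h36s_kSumPlc (hWOK p) (hWInj p)
      hVV h90u_kUnrW hTame hIG h36u2_kInertUnit h29d_kZetaInert h96k_kKumBasic h96k_kKumRam
      h93_kCheb (h96x_kClassEx h52k_kClassExAbs) (h29k_kBockLoc h96v_kBockLev) h23f_kFrobW
      hPair hLE
  -- the global base case
  have hGL : GlobBaseL (Loc.invFam p) :=
    h56k_kGlobAsm p (Loc.invFam p) h83a_kPerfAsm h97s_shapTrOK dqGood hInvW hVV hCH hKCD hHy
      (hWInj p) hKL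
  exact ⟨Loc.invFam p, hOK, Loc.h48f_locBaseFor_of_vanCyc hVC p hp2, hR,
    h56k_kGlobShap p (Loc.invFam p) hp2 h69g_shapGlobal dqGood hGL⟩

end Fermat.Agent.PT.Glob
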