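import Mathlib
import Fermat.Agent.PT.Glob.H47Top
import Fermat.Agent.PT.Loc.H84VanCyc
import Fermat.Agent.PT.Glob.Rec.H79RecQForFinal
import Fermat.Agent.PT.Glob.H98BrAlg
import Fermat.Agent.PT.Glob.H12ShaDict
import Fermat.Agent.PT.Glob.Sha.H11Sha
import Fermat.Agent.PT.Glob.H82HasseMain
import Fermat.Agent.PT.Glob.H93KDAsm
import Fermat.Agent.PT.Glob.H64KLeftAsm
import Fermat.Agent.PT.Glob.K.H69Pair
import Fermat.Agent.PT.Glob.K.H72LocEval
import Fermat.Agent.PT.Glob.K.H65TameW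
import Fermat.Agent.PT.Glob.K.H29DPInertGamU

/-!
# W3-PT / PT-GLOB (helper47): top-level assembly, second round

`h47_arithInputs_of2` : the FIVE Props still open at 02:15Z `⇒ ArithInputs`:
`h67s_ClassBound` (GLOB-SHA part B), `KInvW`, `InvWOK`, `LocInjW`, `LocNondegW` (for
`Loc.invFam p`).
-/

set_option autoImplicit false

open ExtCitation

namespace Fermat.Agent.PT.Glob

open Fermat.Agent.PT Fermat.Agent.PT.Shap Fermat.Agent.PT.Bridge

/-- (h) `#Ш² ≤ #(Cl_S/p)` from the class bound. -/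
theorem h47_brCountH_of (hB : h67s_ClassBound) : BrCountH :=
  h12s_brCountH_of (h11s_gShaBound h82m_gHasse hB)

/-- **Top-level assembly, second round.** -/
theorem h47_arithInputs_of2 (hB : h67s_ClassBound) (hInvW : KInvW)
    (hWOK : ∀ (p : ℕ) [Fact p.Prime], InvWOK (Loc.invFam p))
    (hWInj : ∀ (p : ℕ) [Fact p.Prime], LocInjW (Loc.invFam p))
    (hWND : ∀ (p : ℕ) [Fact p.Prime], LocNondegW (Loc.invFam p)) : ArithInputs :=
  h47_arithInputs_of Loc.h84_vanCycAbs (fun p _ hp => h79r_recQFor p hp) hInvW hWOK hWInj hWND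
    h98b_brAlgA h98b_brAlgC (h47_brCountH_of hB) h93d_kCountDAsm h64l_kLeftAsm
    h69p_kPairFormula h72e_kLocEval h65t_kTameW h29d_kInertGam_holds

end Fermat.Agent.PT.Glob
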