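import Fermat.Agent.PT.Glob.KIface5
import Fermat.Agent.PT.Glob.H36SumPlc
import Fermat.Agent.PT.Glob.H56KGlob
import Fermat.Agent.PT.Shap.GlobAsm
import Fermat.Agent.PT.Shap.H97TrOK
import Fermat.Agent.PT.Bridge.DQGood
import Fermat.Agent.PT.Arith.Glue

/-!
# PT-GLOB-K: reciprocity over `L` in the vocabulary of the restricted datum (helper56)

* `h56k_rec_abs`  : for any datum and any trace with `TrOK`: `∑_v inv_v (res_v ω) = 0` for the
  continuous `2`-cocycles `ω` with values in `k(χ)`.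
* `h56k_exists_trFor` : a trace of `DQ p S` with local invariants `inv` exists (`p ∈ S`) as soon
  as `LocInvOK p inv` and `RecQFor p inv`.
* `h56k_recL`     : reciprocity over `L = fieldOf U`:
  `∑_{q ∈ S} ∑_w invW inv u q w (res_w ω) = 0` for `ω ∈ Z²(G_{L,S}, 𝔽_p)` (with `KInvW`).
* `h56k_adm_mono` : `Adm p S U → S ⊆ S' → Adm p S' U`.
-/

set_option autoImplicit false
set_option linter.style.haveILetI false

open ExtCitation NumberField IsDedekindDomain MulAction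

namespace Fermat.Agent.PT.Glob

open Fermat.Agent.PT Fermat.Agent.PT.Shap

local notation "GQ₀" => (AlgebraicClosure ℚ ≃ₐ[ℚ] AlgebraicClosure ℚ)

attribute [local instance] locActQ

/-- **Abstract reciprocity**: a trace with `TrOK` gives the sum formula for the local
invariants of the global `2`-cocycles. -/
theorem h56k_rec_abs {k : Type} [Field k] (D : Datum k) (tr : D.CC3 k →ₗ[k] k)
    (htr : D.TrOK tr) (ω : D.G × D.G → k) (hω : ω ∈ Z2 D.lev (chiRep D.chi)) :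
    ∑ v, D.invAt tr v (res2 k k (D.loc v) ω) = 0 := by
  have hB : D.coneD2 (chiRep D.chi) ((ω, fun _ => 0) : D.CC2 k) ∈ D.BC3 (chiRep D.chi) := by
    refine ⟨(ω, fun _ => 0), ⟨hω.2, ?_⟩, rfl⟩
    intro v _
    exact (lc1 (D.levH v) k k).zero_mem
  have h0 := htr _ hB
  rw [Datum.coneD2_apply] at h0
  have h1 : ((d2 (chiRep D.chi) ω, fun v => res2 k k (D.loc v) ω
      - d1 (D.repAt (chiRep D.chi) v) ((fun _ => 0 : ∀ v : D.P, D.H v → k) v)) : D.CC3 k)
      = ((0, fun v => res2 k k (D.loc v) ω) : D.CC3 k) := by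
    refine Prod.ext hω.1 ?_
    funext v
    simp
  rw [h1, h98a_tr_snd] at h0
  exact h0

variable {p : ℕ} [Fact p.Prime]

/-- a trace with prescribed local invariants exists. -/
theorem h56k_exists_trFor (inv : InvFam p) (hOK : LocInvOK p inv) (hRec : RecQFor p inv)
    (S : Finset Nat.Primes) (hpS : pPrime p ∈ S) :
    ∃ tr : (DQ p S).CC3 (ZMod p) →ₗ[ZMod p] ZMod p, TrFor inv S tr := by
  obtain ⟨tr, htr, hinv⟩ := h98a_exists_tr (DQ p S) (fun q => inv q.1) (fun q => hOK q.1)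
    (fun a ha => hRec S hpS a ha)
  exact ⟨tr, htr, hinv⟩

/-- **Reciprocity over `L`**. -/
theorem h56k_recL (hInvW : KInvW) (inv : InvFam p) (S : Finset Nat.Primes) (U : Subgroup GQ₀)
    [hfi : U.FiniteIndex] (u : USD U) (tr : (DQ p S).CC3 (ZMod p) →ₗ[ZMod p] ZMod p)
    (hAdm : Adm p S U) (hTr : TrFor inv S tr) (ω : ↥U × ↥U → ZMod p)
    (hω : ω ∈ Z2 (levU S U) (trivF p U)) :
    ∑ q ∈ S, ∑ w : (u.od q).W,
      invW inv u q w (res2 (ZMod p) (ZMod p) (locW u q w) ω) = 0 := by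
  have hgood := Bridge.dqGood p S hAdm.mem
  have htrU : (DU p S U u).TrOK (trUt S U u tr) :=
    @h97s_shapTrOK (ZMod p) _ (DQ p S) tr hgood hTr.ok U hfi hAdm.isOpen (u.sd p S)
  have hchi : chiRep (DU p S U u).chi = trivF p U :=
    h69g_chiRep_eq_trivial _ (fun g => hAdm.chi g.1 g.2)
  have h := h56k_rec_abs (DU p S U u) _ htrU ω (by rw [hchi]; exact hω)
  rw [← h36s_kSumPlc p U u S
    (fun q w => invW inv u q w (res2 (ZMod p) (ZMod p) (locW u q w) ω))
    (fun P => (DU p S U u).invAt (trUt S U u tr) P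
      (res2 (ZMod p) (ZMod p) ((DU p S U u).loc P) ω)) ?_]
  · exact h
  · intro q hq w
    exact hInvW p inv U u S tr hTr.inv_eq q hq w _

/-- the levels unramified outside `S` are levels unramified outside `S' ⊇ S`. -/
lemma h56k_levQ_sets_mono {S S' : Finset Nat.Primes} (h : S ⊆ S') :
    (levQ S).sets ⊆ (levQ S').sets := by
  rintro N ⟨F, hF, hn, rfl⟩
  exact ⟨F, hF.mono h, hn, rfl⟩

/-- the levels of `U`: monotone in `S`. -/
lemma h56k_levU_sets_mono {S S' : Finset Nat.Primes} (h : S ⊆ S') (U : Subgroup GQ₀) :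
    (levU S U).sets ⊆ (levU S' U).sets := by
  rintro N ⟨N', hN', rfl⟩
  exact ⟨N', h56k_levQ_sets_mono h hN', rfl⟩

lemma h56k_isLC1_mono {S S' : Finset Nat.Primes} (h : S ⊆ S') {U : Subgroup GQ₀} {X : Type*}
    {f : ↥U → X} (hf : IsLC1 (levU S U) f) : IsLC1 (levU S' U) f := by
  obtain ⟨N, hN, h1⟩ := hf
  exact ⟨N, h56k_levU_sets_mono h U hN, h1⟩

lemma h56k_isLC2_mono {S S' : Finset Nat.Primes} (h : S ⊆ S') {U : Subgroup GQ₀} {X : Type*}
    {f : ↥U × ↥U → X} (hf : IsLC2 (levU S U) f) : IsLC2 (levU S' U) f := by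
  obtain ⟨N, hN, h1⟩ := hf
  exact ⟨N, h56k_levU_sets_mono h U hN, h1⟩

lemma h56k_Z1_mono {S S' : Finset Nat.Primes} (h : S ⊆ S') {U : Subgroup GQ₀}
    {a : ↥U → ZMod p} (ha : a ∈ Z1 (levU S U) (trivF p U)) :
    a ∈ Z1 (levU S' U) (trivF p U) :=
  ⟨ha.1, h56k_isLC1_mono h ha.2⟩

lemma h56k_Z2_mono {S S' : Finset Nat.Primes} (h : S ⊆ S') {U : Subgroup GQ₀}
    {a : ↥U × ↥U → ZMod p} (ha : a ∈ Z2 (levU S U) (trivF p U)) :
    a ∈ Z2 (levU S' U) (trivF p U) :=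
  ⟨ha.1, h56k_isLC2_mono h ha.2⟩

/-- `Adm` is monotone in `S`. -/
lemma h56k_adm_mono {S S' : Finset Nat.Primes} (h : S ⊆ S') {U : Subgroup GQ₀}
    (hAdm : Adm p S U) : Adm p S' U := by
  obtain ⟨N, hN, hle⟩ := hAdm.isOpen
  exact ⟨hAdm.odd, h hAdm.mem, ⟨N, h56k_levQ_sets_mono h hN, hle⟩, hAdm.chi⟩

/-- **Reciprocity over `L`**, with the trace produced from `LocInvOK` and `RecQFor`. -/
theorem h56k_recL' (hInvW : KInvW) (inv : InvFam p) (hOK : LocInvOK p inv)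
    (hRec : RecQFor p inv) (S : Finset Nat.Primes) (U : Subgroup GQ₀)
    [hfi : U.FiniteIndex] (u : USD U) (hAdm : Adm p S U) (ω : ↥U × ↥U → ZMod p)
    (hω : ω ∈ Z2 (levU S U) (trivF p U)) :
    ∑ q ∈ S, ∑ w : (u.od q).W,
      invW inv u q w (res2 (ZMod p) (ZMod p) (locW u q w) ω) = 0 := by
  obtain ⟨tr, hTr⟩ := h56k_exists_trFor inv hOK hRec S hAdm.mem
  exact h56k_recL hInvW inv S U u tr hAdm hTr ω hω

end Fermat.Agent.PT.Glob
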