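import Mathlib

/-!
# W3-PT / PT-GLOB-K, leaf K-SEL (helper83): abstract index calculus

Pure group theory (Mathlib only) behind the count of the Selmer group `K(S,p)`:
for `pr : G →* J` (`G = Kˣ`, `J` = invertible fractional ideals), a subgroup `JS ≤ J`
(`S`-supported ideals) with `J/JS` free of `p`-torsion,

`[pr⁻¹(Jᵖ·JS) : pr⁻¹(JS)·Gᵖ] = [{I : Iᵖ ∈ N} : N]`, `N = pr(G)·JS`,

and the right-hand side is the number of elements killed by `p` in `J/N`.
-/

set_option autoImplicit false

namespace Fermat.Agent.PT.Glob

section Abs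

variable {G J C : Type*} [CommGroup G] [CommGroup J] [CommGroup C]

/-- comparison of relative indices along a surjection -/
theorem h83k_relIndex_comap_surj {G' G'' : Type*} [Group G'] [Group G''] (f : G' →* G'')
    (hf : Function.Surjective f) (H K : Subgroup G'') :
    (H.comap f).relIndex (K.comap f) = H.relIndex K := by
  rw [Subgroup.relIndex_comap, Subgroup.map_comap_eq_self_of_surjective hf]

/-- the key index identity -/
theorem h83k_relIndex_abs (pr : G →* J) (JS : Subgroup J) (p : ℕ)
    (htf : ∀ I : J, I ^ p ∈ JS → I ∈ JS) :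
    ((JS.comap pr) ⊔ (powMonoidHom p : G →* G).range).relIndex
        (((powMonoidHom p : J →* J).range ⊔ JS).comap pr) =
      (pr.range ⊔ JS).relIndex ((pr.range ⊔ JS).comap (powMonoidHom p : J →* J)) := by
  set a : J →* J ⧸ JS := QuotientGroup.mk' JS with ha
  have hasurj : Function.Surjective a := QuotientGroup.mk'_surjective JS
  have hker : ∀ I : J, a I = 1 ↔ I ∈ JS := fun I => QuotientGroup.eq_one_iff I
  set powA : J ⧸ JS →* J ⧸ JS := powMonoidHom p with hpowA
  have hinj : Function.Injective powA := by
    rw [injective_iff_map_eq_one]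
    intro x hx
    obtain ⟨I, rfl⟩ := hasurj x
    rw [hker]
    apply htf
    rw [← hker, map_pow]
    exact hx
  set f : G →* J ⧸ JS := a.comp pr with hf
  set B : Subgroup (J ⧸ JS) := f.range with hB
  -- the four subgroups as preimages
  have hEP : (JS.comap pr) ⊔ (powMonoidHom p : G →* G).range = (B.map powA).comap f := by
    ext x
    rw [Subgroup.mem_sup, Subgroup.mem_comap, Subgroup.mem_map]
    constructor
    · rintro ⟨e, he, y, ⟨z, rfl⟩, rfl⟩
      refine ⟨f z, ⟨z, rfl⟩, ?_⟩
      rw [Subgroup.mem_comap, ← hker] at he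
      have : f e = 1 := he
      rw [map_mul, this, one_mul]
      simp [hpowA]
    · rintro ⟨b, ⟨z, rfl⟩, hb⟩
      refine ⟨x / z ^ p, ?_, z ^ p, ⟨z, rfl⟩, by simp⟩
      rw [Subgroup.mem_comap, ← hker]
      have h1 : f (x / z ^ p) = 1 := by
        rw [map_div, map_pow, ← hb]
        simp [hpowA]
      exact h1
  have hW : ((powMonoidHom p : J →* J).range ⊔ JS).comap pr = (powA.range).comap f := by
    ext x
    rw [Subgroup.mem_comap, Subgroup.mem_comap, Subgroup.mem_sup]
    constructor
    · rintro ⟨y, ⟨I, rfl⟩, s, hs, hx⟩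
      refine ⟨a I, ?_⟩
      have h1 : a s = 1 := (hker s).2 hs
      have : f x = a (pr x) := rfl
      rw [this, ← hx, map_mul, h1, mul_one]
      simp [hpowA]
    · rintro ⟨y, hy⟩
      obtain ⟨I, rfl⟩ := hasurj y
      refine ⟨I ^ p, ⟨I, rfl⟩, pr x / I ^ p, ?_, by simp⟩
      rw [← hker, map_div, map_pow]
      have : a (pr x) = a I ^ p := by
        have h2 : f x = a (pr x) := rfl
        rw [← h2, ← hy]; simp [hpowA]
      rw [this, div_self']
  have hN : pr.range ⊔ JS = B.comap a := by
    ext I
    rw [Subgroup.mem_sup, Subgroup.mem_comap]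
    constructor
    · rintro ⟨y, ⟨x, rfl⟩, s, hs, rfl⟩
      refine ⟨x, ?_⟩
      have h1 : a s = 1 := (hker s).2 hs
      rw [map_mul, h1, mul_one]; rfl
    · rintro ⟨x, hx⟩
      refine ⟨pr x, ⟨x, rfl⟩, I / pr x, ?_, by simp⟩
      rw [← hker, map_div]
      have : a (pr x) = a I := hx
      rw [this, div_self']
  have hT : (pr.range ⊔ JS).comap (powMonoidHom p : J →* J) = (B.comap powA).comap a := by
    rw [hN]
    ext I
    simp only [Subgroup.mem_comap, powMonoidHom_apply, map_pow, hpowA]
  rw [hEP, hW, hT, hN, h83k_relIndex_comap_surj a hasurj, Subgroup.relIndex_comap,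
    Subgroup.map_comap_eq, ← Subgroup.relIndex_map_map_of_injective B (B.comap powA) hinj,
    Subgroup.map_comap_eq]
  congr 1
  rw [inf_comm]

/-- for a surjection `q : J → C` with kernel `N`, the elements of `C` killed by `p` are counted
by a relative index in `J` -/
theorem h83k_card_ker_pow (q : J →* C) (hq : Function.Surjective q) (p : ℕ) :
    Nat.card (powMonoidHom p : C →* C).ker =
      q.ker.relIndex (q.ker.comap (powMonoidHom p : J →* J)) := by
  have h1 : q.ker.comap (powMonoidHom p : J →* J) = ((powMonoidHom p : C →* C).ker).comap q := by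
    ext I
    simp only [Subgroup.mem_comap, MonoidHom.mem_ker, powMonoidHom_apply, map_pow]
  have h2 : q.ker = (⊥ : Subgroup C).comap q := (MonoidHom.comap_bot q).symm
  rw [h1]
  conv_rhs => rw [h2]
  rw [h83k_relIndex_comap_surj q hq, Subgroup.relIndex_bot_left]

/-- in a finite commutative group, `#(C/p) = #C[p]` -/
theorem h83k_index_range_pow [Finite C] (p : ℕ) :
    (powMonoidHom p : C →* C).range.index = Nat.card (powMonoidHom p : C →* C).ker := by
  have : (powMonoidHom p : C →* C).ker.FiniteIndex := Subgroup.finiteIndex_of_finite_quotient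
  exact Subgroup.index_range

end Abs

end Fermat.Agent.PT.Glob
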