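import Mathlib

/-!
# W3-PT / PT-GLOB-K, leaf K-SEL (helper83): fractional ideals, counts and valuations

For a Dedekind domain `R` with fraction field `K` and `J = (FractionalIdeal R⁰ K)ˣ`:

* `h83k_cnt v : J →* Multiplicative ℤ`, the exponent of `v` (Mathlib `FractionalIdeal.count`);
* `h83k_valuation_eq_count`: `v.valuationOfNeZero x = (cnt v (x))⁻¹` for `x : Kˣ`;
* `h83k_JS S`: the subgroup of ideals supported in `S`; it is the closure of the primes in `S`
  (`h83k_closure_primeU`), and `J / JS` has no torsion (`h83k_JS_tf`);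
* `h83k_mem_pow_sup_JS`: an ideal whose exponents outside `S` are divisible by `p` is a `p`-th
  power times an ideal supported in `S`.
-/

set_option autoImplicit false

open IsDedekindDomain FractionalIdeal
open scoped nonZeroDivisors

namespace Fermat.Agent.PT.Glob

section Dedekind

variable {R : Type*} [CommRing R] [IsDedekindDomain R] (K : Type*) [Field K] [Algebra R K]
  [IsFractionRing R K]

/-- the exponent of `v` in an invertible fractional ideal, as a homomorphism -/
noncomputable def h83k_cnt (v : HeightOneSpectrum R) :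
    (FractionalIdeal R⁰ K)ˣ →* Multiplicative ℤ where
  toFun I := Multiplicative.ofAdd (count K v (I : FractionalIdeal R⁰ K))
  map_one' := by
    rw [Units.val_one, count_one]; rfl
  map_mul' I I' := by
    rw [Units.val_mul, count_mul K v I.ne_zero I'.ne_zero]; rfl

theorem h83k_cnt_apply (v : HeightOneSpectrum R) (I : (FractionalIdeal R⁰ K)ˣ) :
    Multiplicative.toAdd (h83k_cnt K v I) = count K v (I : FractionalIdeal R⁰ K) := rfl

/-- a prime as an invertible fractional ideal -/
noncomputable def h83k_primeU (v : HeightOneSpectrum R) : (FractionalIdeal R⁰ K)ˣ :=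
  FractionalIdeal.mk0 K ⟨v.asIdeal, mem_nonZeroDivisors_of_ne_zero v.ne_bot⟩

theorem h83k_primeU_coe (v : HeightOneSpectrum R) :
    ((h83k_primeU K v : (FractionalIdeal R⁰ K)ˣ) : FractionalIdeal R⁰ K) =
      (v.asIdeal : FractionalIdeal R⁰ K) := rfl

theorem h83k_cnt_primeU_self (v : HeightOneSpectrum R) :
    Multiplicative.toAdd (h83k_cnt K v (h83k_primeU K v)) = 1 := by
  rw [h83k_cnt_apply, h83k_primeU_coe, count_self]

theorem h83k_cnt_primeU_ne {v w : HeightOneSpectrum R} (h : w ≠ v) :
    Multiplicative.toAdd (h83k_cnt K v (h83k_primeU K w)) = 0 := by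
  rw [h83k_cnt_apply, h83k_primeU_coe, count_maximal_coprime K v h]

/-- unique factorisation: an invertible fractional ideal is determined by its exponents -/
theorem h83k_ext_of_cnt {I I' : (FractionalIdeal R⁰ K)ˣ}
    (h : ∀ v : HeightOneSpectrum R, h83k_cnt K v I = h83k_cnt K v I') : I = I' := by
  apply Units.ext
  rw [← finprod_heightOneSpectrum_factorization' K I.ne_zero,
    ← finprod_heightOneSpectrum_factorization' K I'.ne_zero]
  apply finprod_congr
  intro v
  have := congrArg Multiplicative.toAdd (h v)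
  rw [h83k_cnt_apply, h83k_cnt_apply] at this
  rw [this]

/-- the exponents of an invertible fractional ideal are finitely supported -/
theorem h83k_cnt_finite (I : (FractionalIdeal R⁰ K)ˣ) :
    {v : HeightOneSpectrum R | h83k_cnt K v I ≠ 1}.Finite := by
  have h := FractionalIdeal.finite_factors (I : FractionalIdeal R⁰ K)
  rw [Filter.eventually_cofinite] at h
  refine h.subset ?_
  intro v hv hc
  apply hv
  apply Multiplicative.toAdd.injective
  rw [h83k_cnt_apply, hc]; rfl

/-- the valuation of `x ≠ 0` is the inverse of the exponent of the principal ideal `(x)` -/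
theorem h83k_valuation_eq_count (v : HeightOneSpectrum R) (x : Kˣ) :
    Multiplicative.toAdd (v.valuationOfNeZero x) =
      - count K v (spanSingleton R⁰ (x : K)) := by
  obtain ⟨n, d, hd, hx⟩ := IsFractionRing.div_surjective (A := R) (x : K)
  have hd0 : d ≠ 0 := nonZeroDivisors.ne_zero hd
  have hn0 : n ≠ 0 := by
    rintro rfl
    rw [map_zero, zero_div] at hx
    exact x.ne_zero hx.symm
  have hdK : algebraMap R K d ≠ 0 := by
    rwa [ne_eq, FaithfulSMul.algebraMap_eq_zero_iff]
  -- the ideal side
  have h1 : spanSingleton R⁰ (x : K) =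
      spanSingleton R⁰ ((algebraMap R K) d)⁻¹ * ((Ideal.span {n} : Ideal R) :
        FractionalIdeal R⁰ K) := by
    rw [coeIdeal_span_singleton, spanSingleton_mul_spanSingleton, ← hx, div_eq_inv_mul]
  have hne : spanSingleton R⁰ (x : K) ≠ 0 := by
    rw [ne_eq, spanSingleton_eq_zero_iff]; exact x.ne_zero
  rw [count_well_defined K v hne h1]
  -- the valuation side
  have h2 : ((v.valuationOfNeZero x : Multiplicative ℤ) : WithZero (Multiplicative ℤ)) =
      v.intValuation n / v.intValuation d := by
    rw [HeightOneSpectrum.valuationOfNeZero_eq, ← hx, map_div₀,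
      HeightOneSpectrum.valuation_of_algebraMap, HeightOneSpectrum.valuation_of_algebraMap]
  rw [v.intValuation_if_neg hn0, v.intValuation_if_neg hd0, ← WithZero.exp_sub] at h2
  have h3 : v.valuationOfNeZero x = Multiplicative.ofAdd
      (-((Associates.mk v.asIdeal).count (Associates.mk (Ideal.span {n} : Ideal R)).factors : ℤ) -
        -((Associates.mk v.asIdeal).count
          (Associates.mk (Ideal.span {d} : Ideal R)).factors : ℤ)) :=
    WithZero.coe_injective h2
  rw [h3, toAdd_ofAdd]
  ring

/-! ### Ideals supported in `S` -/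

variable (S : Set (HeightOneSpectrum R))

/-- the invertible fractional ideals supported in `S` -/
noncomputable def h83k_JS : Subgroup (FractionalIdeal R⁰ K)ˣ :=
  ⨅ v : {v : HeightOneSpectrum R // v ∉ S}, (h83k_cnt K v.1).ker

theorem h83k_mem_JS {I : (FractionalIdeal R⁰ K)ˣ} :
    I ∈ h83k_JS K S ↔ ∀ v : HeightOneSpectrum R, v ∉ S → h83k_cnt K v I = 1 := by
  rw [h83k_JS, Subgroup.mem_iInf]
  constructor
  · intro h v hv
    exact h ⟨v, hv⟩
  · intro h v
    exact h v.1 v.2

/-- `J / JS` has no `p`-torsion -/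
theorem h83k_JS_tf (p : ℕ) (hp : p ≠ 0) (I : (FractionalIdeal R⁰ K)ˣ)
    (h : I ^ p ∈ h83k_JS K S) : I ∈ h83k_JS K S := by
  rw [h83k_mem_JS] at h ⊢
  intro v hv
  have h1 := h v hv
  rw [map_pow] at h1
  have h2 : p • Multiplicative.toAdd (h83k_cnt K v I) = 0 := congrArg Multiplicative.toAdd h1
  rcases smul_eq_zero.1 h2 with h3 | h3
  · exact absurd h3 hp
  · exact Multiplicative.toAdd.injective h3

theorem h83k_primeU_mem_JS {v : HeightOneSpectrum R} (hv : v ∈ S) :
    h83k_primeU K v ∈ h83k_JS K S := by
  rw [h83k_mem_JS]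
  intro w hw
  apply Multiplicative.toAdd.injective
  rw [h83k_cnt_primeU_ne K (v := w) (w := v)]
  · rfl
  · rintro rfl
    exact hw hv

open Classical in
/-- the exponent of `w` in a finite product of prime powers -/
theorem h83k_cnt_prod (s : Finset (HeightOneSpectrum R)) (e : HeightOneSpectrum R → ℤ)
    (w : HeightOneSpectrum R) :
    Multiplicative.toAdd (h83k_cnt K w (∏ v ∈ s, h83k_primeU K v ^ e v)) =
      if w ∈ s then e w else 0 := by
  classical
  rw [map_prod, toAdd_prod]
  have : ∀ v ∈ s, Multiplicative.toAdd (h83k_cnt K w (h83k_primeU K v ^ e v)) =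
      if v = w then e w else 0 := by
    intro v _
    rw [map_zpow, toAdd_zpow]
    split_ifs with h
    · subst h
      rw [h83k_cnt_primeU_self, smul_eq_mul, mul_one]
    · rw [h83k_cnt_primeU_ne K h, smul_zero]
  rw [Finset.sum_congr rfl this, Finset.sum_ite_eq' s w]

/-- the ideals supported in `S` are generated by the primes in `S` -/
theorem h83k_closure_primeU :
    Subgroup.closure (h83k_primeU K '' S) = h83k_JS K S := by
  classical
  apply le_antisymm
  · rw [Subgroup.closure_le]
    rintro _ ⟨v, hv, rfl⟩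
    exact h83k_primeU_mem_JS K S hv
  · intro I hI
    rw [h83k_mem_JS] at hI
    set s : Finset (HeightOneSpectrum R) := (h83k_cnt_finite K I).toFinset with hs
    have hI' : I = ∏ v ∈ s, h83k_primeU K v ^ (Multiplicative.toAdd (h83k_cnt K v I)) := by
      apply h83k_ext_of_cnt
      intro w
      apply Multiplicative.toAdd.injective
      rw [h83k_cnt_prod]
      split_ifs with h
      · rfl
      · rw [hs, Set.Finite.mem_toFinset, Set.mem_ofPred_eq, not_not] at h
        rw [h]; rfl
    rw [hI']
    apply Subgroup.prod_mem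
    intro v hv
    apply Subgroup.zpow_mem
    apply Subgroup.subset_closure
    refine ⟨v, ?_, rfl⟩
    by_contra hvS
    rw [hs, Set.Finite.mem_toFinset, Set.mem_ofPred_eq] at hv
    exact hv (hI v hvS)

/-- characterisation of `Jᵖ · JS` by the exponents outside `S` -/
theorem h83k_mem_pow_sup_JS (p : ℕ) (hp : p ≠ 0) (I : (FractionalIdeal R⁰ K)ˣ) :
    I ∈ (powMonoidHom p : (FractionalIdeal R⁰ K)ˣ →* (FractionalIdeal R⁰ K)ˣ).range ⊔
        h83k_JS K S ↔
      ∀ v : HeightOneSpectrum R, v ∉ S → (p : ℤ) ∣ Multiplicative.toAdd (h83k_cnt K v I) := by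
  classical
  constructor
  · intro h v hv
    rw [Subgroup.mem_sup] at h
    obtain ⟨y, ⟨I₁, rfl⟩, t, ht, rfl⟩ := h
    rw [h83k_mem_JS] at ht
    rw [map_mul, ht v hv, mul_one, powMonoidHom_apply, map_pow, toAdd_pow]
    exact ⟨_, by rw [nsmul_eq_mul]⟩
  · intro h
    set s : Finset (HeightOneSpectrum R) :=
      (h83k_cnt_finite K I).toFinset.filter (fun v => v ∉ S) with hs
    set I₁ : (FractionalIdeal R⁰ K)ˣ :=
      ∏ v ∈ s, h83k_primeU K v ^ (Multiplicative.toAdd (h83k_cnt K v I) / (p : ℤ)) with hI₁
    rw [Subgroup.mem_sup]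
    refine ⟨I₁ ^ p, ⟨I₁, rfl⟩, I / I₁ ^ p, ?_, by simp⟩
    rw [h83k_mem_JS]
    intro w hw
    apply Multiplicative.toAdd.injective
    rw [map_div, map_pow, toAdd_div, toAdd_pow, hI₁, h83k_cnt_prod]
    have hmem : w ∈ s ↔ h83k_cnt K w I ≠ 1 := by
      rw [hs, Finset.mem_filter, Set.Finite.mem_toFinset, Set.mem_ofPred_eq]
      exact ⟨fun h' => h'.1, fun h' => ⟨h', hw⟩⟩
    split_ifs with hws
    · obtain ⟨c, hc⟩ := h w hw
      rw [hc, Int.mul_ediv_cancel_left c (by exact_mod_cast hp), toAdd_one, nsmul_eq_mul]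
      ring
    · rw [hmem, not_not] at hws
      rw [hws]
      simp

end Dedekind

end Fermat.Agent.PT.Glob
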