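import Mathlib
import Fermat.Agent.PT.Glob.KIface
import Fermat.Agent.PT.Units.Kummer
import Fermat.Agent.PT.Glob.H83KSelAbs
import Fermat.Agent.PT.Glob.H83KSelIdeal

/-!
# W3-PT / PT-GLOB-K, leaf K-SEL (helper83): the order of the Selmer group

`theorem h83k_kSel : KSel`:
`#K(S,p) = p ^ (rank 𝓞ˣ + #S + 1) · #(Cl_S / p)` when `μ_p ⊆ K`.

Route: with `J` the group of invertible fractional ideals, `pr : Kˣ → J`, `JS` the ideals
supported in `S`, `P = Kˣᵖ`, `E = E_S = pr⁻¹(JS)`, `W = pr⁻¹(Jᵖ·JS)` the preimage of the Selmer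
group: `#K(S,p) = [W : P] = [E·P : P] · [W : E·P]`, `[E·P : P] = [E : Eᵖ]` (Dirichlet, helper64)
and `[W : E·P] = #Cl_S[p] = #(Cl_S/p)` (`h83k_relIndex_abs`).
-/

set_option autoImplicit false

open IsDedekindDomain FractionalIdeal NumberField
open scoped nonZeroDivisors

namespace Fermat.Agent.PT.Glob

section Sel

variable (K : Type) [Field K] [NumberField K] (S : Set (HeightOneSpectrum (𝓞 K)))

/-- the projection from ideals to the `S`-class group -/
noncomputable def h83k_q : (FractionalIdeal (𝓞 K)⁰ K)ˣ →* ClS K S :=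
  (QuotientGroup.mk' (clSsub K S)).comp (ClassGroup.mk K)

theorem h83k_mk_surjective : Function.Surjective (ClassGroup.mk (R := 𝓞 K) K) := by
  intro c
  obtain ⟨I, rfl⟩ := ClassGroup.mk0_surjective c
  exact ⟨FractionalIdeal.mk0 K I, ClassGroup.mk_mk0 K I⟩

theorem h83k_q_surjective : Function.Surjective (h83k_q K S) :=
  (QuotientGroup.mk'_surjective _).comp (h83k_mk_surjective K)

theorem h83k_ker_mk :
    (ClassGroup.mk (R := 𝓞 K) K).ker = (toPrincipalIdeal (𝓞 K) K).range := by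
  ext I
  rw [MonoidHom.mem_ker, ClassGroup.mk_eq_one_iff, FractionalIdeal.isPrincipal_iff,
    mem_principal_ideals_iff]
  constructor
  · rintro ⟨x, hx⟩
    exact ⟨x, hx.symm⟩
  · rintro ⟨x, hx⟩
    exact ⟨x, hx.symm⟩

theorem h83k_clSsub_eq :
    clSsub K S = (h83k_JS K S).map (ClassGroup.mk (R := 𝓞 K) K) := by
  rw [← h83k_closure_primeU, MonoidHom.map_closure, clSsub, Set.image_image]
  congr 1
  apply Set.image_congr
  intro v _
  rw [kPrimeClass, h83k_primeU, ClassGroup.mk_mk0]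

theorem h83k_q_ker :
    (h83k_q K S).ker = (toPrincipalIdeal (𝓞 K) K).range ⊔ h83k_JS K S := by
  rw [h83k_q, ← MonoidHom.comap_ker, QuotientGroup.ker_mk', h83k_clSsub_eq,
    Subgroup.comap_map_eq, h83k_ker_mk, sup_comm]

/-- the `S`-units are the elements whose principal ideal is supported in `S` -/
theorem h83k_unit_eq :
    S.unit K = (h83k_JS K S).comap (toPrincipalIdeal (𝓞 K) K) := by
  ext x
  rw [Subgroup.mem_comap, h83k_mem_JS]
  have key : ∀ v : HeightOneSpectrum (𝓞 K),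
      v.valuation K (x : K) = 1 ↔ h83k_cnt K v (toPrincipalIdeal (𝓞 K) K x) = 1 := by
    intro v
    rw [← HeightOneSpectrum.valuationOfNeZero_eq, ← WithZero.coe_one, WithZero.coe_inj]
    constructor
    · intro h
      apply Multiplicative.toAdd.injective
      have h1 := h83k_valuation_eq_count K v x
      rw [h, toAdd_one] at h1
      rw [h83k_cnt_apply, coe_toPrincipalIdeal, toAdd_one]
      omega
    · intro h
      apply Multiplicative.toAdd.injective
      have h1 := h83k_valuation_eq_count K v x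
      have h2 := congrArg Multiplicative.toAdd h
      rw [h83k_cnt_apply, coe_toPrincipalIdeal, toAdd_one] at h2
      rw [h1, h2, toAdd_one, neg_zero]
  constructor
  · intro h v hv
    exact (key v).1 (h v hv)
  · intro h v hv
    exact (key v).2 (h v hv)

theorem h83k_valMod_eq_one_iff (v : HeightOneSpectrum (𝓞 K)) (p : ℕ) (x : Kˣ) :
    v.valuationOfNeZeroMod p (QuotientGroup.mk x : Kˣ ⧸ (powMonoidHom p : Kˣ →* Kˣ).range) = 1 ↔
      (p : ℤ) ∣ Multiplicative.toAdd (v.valuationOfNeZero x) := by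
  have h1 : v.valuationOfNeZeroMod p
      (QuotientGroup.mk x : Kˣ ⧸ (powMonoidHom p : Kˣ →* Kˣ).range) =
      Multiplicative.ofAdd ((Int.quotientZMultiplesNatEquivZMod p)
        (QuotientAddGroup.mk (Multiplicative.toAdd (v.valuationOfNeZero x)))) := rfl
  rw [h1]
  have h2 : (Multiplicative.ofAdd ((Int.quotientZMultiplesNatEquivZMod p)
        (QuotientAddGroup.mk (Multiplicative.toAdd (v.valuationOfNeZero x)))) = 1) ↔
      (Int.quotientZMultiplesNatEquivZMod p)
        (QuotientAddGroup.mk (Multiplicative.toAdd (v.valuationOfNeZero x))) = 0 := Iff.rfl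
  rw [h2, AddEquiv.map_eq_zero_iff, QuotientAddGroup.eq_zero_iff, AddSubgroup.mem_zmultiples_iff]
  constructor
  · rintro ⟨k, hk⟩
    exact ⟨k, by rw [← hk, smul_eq_mul, mul_comm]⟩
  · rintro ⟨k, hk⟩
    exact ⟨k, by rw [hk, smul_eq_mul, mul_comm]⟩

/-- the preimage of the Selmer group in `Kˣ` -/
theorem h83k_comap_selmer (p : ℕ) (hp : p ≠ 0) :
    (selmerGroup (R := 𝓞 K) (K := K) (S := S) (n := p)).comap
        (QuotientGroup.mk' (powMonoidHom p : Kˣ →* Kˣ).range) =
      ((powMonoidHom p : (FractionalIdeal (𝓞 K)⁰ K)ˣ →* (FractionalIdeal (𝓞 K)⁰ K)ˣ).range ⊔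
        h83k_JS K S).comap (toPrincipalIdeal (𝓞 K) K) := by
  ext x
  rw [Subgroup.mem_comap, Subgroup.mem_comap, h83k_mem_pow_sup_JS K S p hp]
  have key : ∀ v : HeightOneSpectrum (𝓞 K),
      v.valuationOfNeZeroMod p (QuotientGroup.mk' (powMonoidHom p : Kˣ →* Kˣ).range x) = 1 ↔
        (p : ℤ) ∣ Multiplicative.toAdd (h83k_cnt K v (toPrincipalIdeal (𝓞 K) K x)) := by
    intro v
    rw [QuotientGroup.mk'_apply, h83k_valMod_eq_one_iff, h83k_valuation_eq_count K v x,
      h83k_cnt_apply, coe_toPrincipalIdeal, dvd_neg]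
  constructor
  · intro h v hv
    exact (key v).1 (h v hv)
  · intro h v hv
    exact (key v).2 (h v hv)

/-- `[E_S : E_Sᵖ] = p ^ (rank + #S + 1)` in multiplicative form -/
theorem h83k_index_unit_pow [Finite S] (p : ℕ) [Fact p.Prime] (ζ : K)
    (hζ : IsPrimitiveRoot ζ p) :
    (powMonoidHom p : S.unit K →* S.unit K).range.index =
      p ^ (Units.rank K + Nat.card S + 1) := by
  rw [← Fermat.Agent.PT.Units.SU_index_sunit_pow K S p ζ hζ, ← Subgroup.index_toAddSubgroup]
  congr 1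
  ext x
  constructor
  · rintro ⟨y, rfl⟩
    exact ⟨Additive.ofMul y, Fermat.Agent.PT.Units.SU_nrm_one_eq K S p _⟩
  · rintro ⟨y, rfl⟩
    exact ⟨Additive.toMul y, (Fermat.Agent.PT.Units.SU_nrm_one_eq K S p y).symm⟩

/-- the `p`-th powers of `Kˣ` which are `S`-units are `p`-th powers of `S`-units -/
theorem h83k_pow_subgroupOf (p : ℕ) (hp : p ≠ 0) :
    ((powMonoidHom p : Kˣ →* Kˣ).range).subgroupOf (S.unit K) =
      (powMonoidHom p : S.unit K →* S.unit K).range := by
  ext x
  rw [Subgroup.mem_subgroupOf]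
  constructor
  · rintro ⟨y, hy⟩
    have hyE : y ∈ S.unit K := by
      rw [h83k_unit_eq, Subgroup.mem_comap]
      apply h83k_JS_tf K S p hp
      rw [← map_pow, ← Subgroup.mem_comap, ← h83k_unit_eq]
      have : y ^ p = (x : Kˣ) := hy
      rw [this]
      exact x.2
    exact ⟨⟨y, hyE⟩, Subtype.ext hy⟩
  · rintro ⟨y, rfl⟩
    exact ⟨(y : Kˣ), rfl⟩

end Sel

/-- **K-SEL**: the order of the Selmer group `K(S,p)`. -/
theorem h83k_kSel : KSel := by
  intro p _ K _ _ ζ hζ S hS
  have hp : p ≠ 0 := (Fact.out : p.Prime).ne_zero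
  have hSfin : Finite S := hS.to_subtype
  have h1 : Nat.card (selmerGroup (R := 𝓞 K) (K := K) (S := S) (n := p)) =
      ((powMonoidHom p : Kˣ →* Kˣ).range).relIndex
        ((selmerGroup (R := 𝓞 K) (K := K) (S := S) (n := p)).comap
          (QuotientGroup.mk' (powMonoidHom p : Kˣ →* Kˣ).range)) := by
    rw [← Subgroup.relIndex_bot_left,
      ← h83k_relIndex_comap_surj (QuotientGroup.mk' (powMonoidHom p : Kˣ →* Kˣ).range)
        (QuotientGroup.mk'_surjective _), MonoidHom.comap_bot, QuotientGroup.ker_mk']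
  rw [h1, h83k_comap_selmer K S p hp]
  have hPE : (powMonoidHom p : Kˣ →* Kˣ).range ≤
      (h83k_JS K S).comap (toPrincipalIdeal (𝓞 K) K) ⊔ (powMonoidHom p : Kˣ →* Kˣ).range :=
    le_sup_right
  have hEW : (h83k_JS K S).comap (toPrincipalIdeal (𝓞 K) K) ⊔
      (powMonoidHom p : Kˣ →* Kˣ).range ≤
      ((powMonoidHom p : (FractionalIdeal (𝓞 K)⁰ K)ˣ →* (FractionalIdeal (𝓞 K)⁰ K)ˣ).range ⊔
        h83k_JS K S).comap (toPrincipalIdeal (𝓞 K) K) := by
    apply sup_le
    · exact Subgroup.comap_mono le_sup_right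
    · rintro _ ⟨y, rfl⟩
      rw [Subgroup.mem_comap]
      apply Subgroup.mem_sup_left
      exact ⟨toPrincipalIdeal (𝓞 K) K y, by simp⟩
  rw [← Subgroup.relIndex_mul_relIndex _ _ _ hPE hEW]
  congr 1
  · rw [Subgroup.relIndex_sup_right, ← h83k_unit_eq, Subgroup.relIndex, h83k_pow_subgroupOf K S p hp,
      h83k_index_unit_pow K S p ζ hζ]
  · rw [h83k_relIndex_abs _ _ p (h83k_JS_tf K S p hp), ← h83k_q_ker,
      ← h83k_card_ker_pow (h83k_q K S) (h83k_q_surjective K S) p, clSmodP,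
      h83k_index_range_pow]

end Fermat.Agent.PT.Glob
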