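/-
W3-PT (S55), PT-GLOB-K (N2), final wiring (helper89): `KN2Core`, `KN2`, `KN2Sha` unconditional.

* `h89k_kN2Core : KN2Core` = `h89k_kN2Asm` applied to the landed leaves
  `h49k_kClassIndep h90k_kClassIndepAbs`, `h29k_kBockLoc h96v_kBockLev`, `h96k_kKumClass`,
  `h96k_kKumBasic`, `h96k_kKumRam`, `h55v_kInertVal`;
* `h89k_kN2 : KN2`, `h89k_kN2Sha : KN2Sha` by `h29k_kN2Lin`, `h29k_kN2ShaLin`.
-/
import Mathlib
import Fermat.Agent.PT.Glob.H89KN2Asm
import Fermat.Agent.PT.Glob.H96KKumClass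
import Fermat.Agent.PT.Glob.H96KKumRam
import Fermat.Agent.PT.Glob.H96KBockLev
import Fermat.Agent.PT.Glob.K.H29BockLoc
import Fermat.Agent.PT.Glob.K.H29N2Lin
import Fermat.Agent.PT.Glob.H55InertVal
import Fermat.Agent.PT.Glob.H49KClassIndep
import Fermat.Agent.PT.Glob.H90KClassAbs

set_option autoImplicit false

namespace Fermat.Agent.PT.Glob

/-- The core of (N2), unconditional. -/
theorem h89k_kN2Core : KN2Core :=
  h89k_kN2Asm (h49k_kClassIndep h90k_kClassIndepAbs) (h29k_kBockLoc h96v_kBockLev)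
    h96k_kKumClass h96k_kKumBasic h96k_kKumRam h55v_kInertVal

/-- **(N2)**, unconditional. -/
theorem h89k_kN2 : KN2 := h29k_kN2Lin h89k_kN2Core

/-- (N2) for `Ш²`, unconditional. -/
theorem h89k_kN2Sha : KN2Sha := h29k_kN2ShaLin h89k_kN2Core

end Fermat.Agent.PT.Glob
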