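import Mathlib
import Fermat.Agent.PT.Glob.BrIface2
import Fermat.Agent.PT.Alg.H93CountPair

/-!
# W3-PT / PT-GLOB-BR leaf BR2-ALG-B (helper8)

`h8bb_brAlgB : BrAlgB`: for a good datum with trivial character and a trace with `TrOK`, left
nondegeneracy (d') of `Ш¹ × Ш² → k` gives `dim Ш¹ ≤ dim Ш²`.

Proof: `χ ∈ ZШ¹` (trivial coefficients, so `res_v χ = 0`) gives the cone cocycle `(χ, 0)`;
`y ↦ pair1 (χ, 0) y` kills `B²` (`h93c_pair1_d1`), so it defines a linear map
`ZШ¹ → Dual Ш²`, injective by (d').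
-/

set_option autoImplicit false

namespace Fermat.Agent.PT.Glob

open Fermat.Agent.PT Fermat.Agent.PT.Datum

noncomputable section

section

variable {k : Type} [Field k] (D : Datum k) (tr : D.CC3 k →ₗ[k] k)

/-- `(χ, 0)` is a cone cocycle for `χ ∈ ZШ¹` (trivial coefficients). -/
theorem h8bb_mem_ZC1 {χ : D.G → k} (hχ : χ ∈ D.ZSha1 (Representation.trivial k D.G k)) :
    ((χ, 0) : D.CC1 k) ∈ D.ZC1 (Representation.trivial k D.G k) := by
  obtain ⟨hZ, hloc⟩ := hχ
  rw [SetLike.mem_coe, mem_Z1] at hZ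
  have hloc' : χ ∈ ⨅ v, Submodule.comap (res1 k k (D.loc v))
      (B1 (D.repAt (Representation.trivial k D.G k) v)) := hloc
  refine ⟨?_, ⟨hZ.2, trivial⟩⟩
  show D.coneD1 (Representation.trivial k D.G k) ((χ, 0) : D.CC1 k) = 0
  rw [coneD1_apply]
  refine Prod.ext hZ.1 (funext fun v => ?_)
  have hv : res1 k k (D.loc v) χ ∈ B1 (D.repAt (Representation.trivial k D.G k) v) := by
    have := (Submodule.mem_iInf _).1 hloc' v
    exact this
  obtain ⟨b, hb⟩ := hv
  have hb0 : d0 (D.repAt (Representation.trivial k D.G k) v) b = 0 := by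
    funext g
    simp [d0, repAt, resRep]
  show res1 k k (D.loc v) χ - d0 (D.repAt (Representation.trivial k D.G k) v) 0 = 0
  rw [map_zero, sub_zero, ← hb, hb0]

/-- The pairing `ZШ¹ × Z² → k`, `(χ, y) ↦ pair1 (χ, 0) y`. -/
def h8bb_P : ↥(D.ZSha1 (Representation.trivial k D.G k)) →ₗ[k] (D.G × D.G → k) →ₗ[k] k :=
  ((h93c_pairL D (Representation.trivial k D.G k) tr (LinearMap.mul k k)).comp
    (LinearMap.inl k (D.G → k) (D.P → k))).comp
    (D.ZSha1 (Representation.trivial k D.G k)).subtype

theorem h8bb_P_apply (χ : ↥(D.ZSha1 (Representation.trivial k D.G k))) (y : D.G × D.G → k) :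
    h8bb_P D tr χ y
      = D.pair1 (Representation.trivial k D.G k) tr (LinearMap.mul k k) ((χ.1, 0) : D.CC1 k) y :=
  rfl

end

/-- **BR2-ALG-B.** -/
theorem h8bb_brAlgB : BrAlgB := by
  intro k _ D tr hg htr hchi hleft hfin1 hfin2
  classical
  -- equivariance and discreteness for the trivial module
  have hβ : IsEquivariant D.chi (Representation.trivial k D.G k)
      (Representation.trivial k D.G k) (LinearMap.mul k k) := by
    intro g v w
    simp [hchi g]
  have hσ : IsDisc D.lev (Representation.trivial k D.G k) := by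
    obtain ⟨N, hN, -⟩ := hg.2.2.2.2
    intro v
    exact ⟨N, hN, fun s _ => by simp⟩
  -- the pairing kills `B²`
  have hkill : ∀ (χ : ↥(D.ZSha1 (Representation.trivial k D.G k))) (y : D.G × D.G → k),
      y ∈ B2 D.lev (Representation.trivial k D.G k) → h8bb_P D tr χ y = 0 := by
    intro χ y hy
    obtain ⟨x, hx, rfl⟩ := (mem_B2 _ _ _).1 hy
    rw [h8bb_P_apply]
    exact h93c_pair1_d1 D (Representation.trivial k D.G k) (Representation.trivial k D.G k) tr
      (LinearMap.mul k k) hg hβ hσ htr (h8bb_mem_ZC1 D χ.2) hx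
  -- the induced map `Ш² → Dual ZШ¹`
  let Q : ↥(D.ZSha2 (Representation.trivial k D.G k)) →ₗ[k]
      (↥(D.ZSha1 (Representation.trivial k D.G k)) →ₗ[k] k) :=
    (h8bb_P D tr).flip.comp (D.ZSha2 (Representation.trivial k D.G k)).subtype
  have hQ : (B2 D.lev (Representation.trivial k D.G k)).comap
      (D.ZSha2 (Representation.trivial k D.G k)).subtype ≤ LinearMap.ker Q := by
    intro y hy
    rw [LinearMap.mem_ker]
    ext χ
    exact hkill χ y.1 hy
  let R : D.Sha2 (Representation.trivial k D.G k) →ₗ[k]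
      (↥(D.ZSha1 (Representation.trivial k D.G k)) →ₗ[k] k) :=
    Submodule.liftQ _ Q hQ
  let Ψ : ↥(D.ZSha1 (Representation.trivial k D.G k)) →ₗ[k]
      (D.Sha2 (Representation.trivial k D.G k) →ₗ[k] k) := R.flip
  have hΨ : ∀ (χ : ↥(D.ZSha1 (Representation.trivial k D.G k)))
      (y : ↥(D.ZSha2 (Representation.trivial k D.G k))),
      Ψ χ (Submodule.Quotient.mk y) = h8bb_P D tr χ y.1 := fun χ y => rfl
  have hinj : Function.Injective Ψ := by
    rw [injective_iff_map_eq_zero]
    intro χ hχ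
    have h0 : χ.1 = 0 := by
      have := hleft ((χ.1, 0) : D.CC1 k) (h8bb_mem_ZC1 D χ.2) (fun y hy => by
        have h1 := hΨ χ ⟨y, hy⟩
        rw [hχ] at h1
        rw [← h8bb_P_apply, ← h1]
        rfl)
      exact this
    exact Subtype.ext h0
  have hfinD : Module.Finite k (D.Sha2 (Representation.trivial k D.G k) →ₗ[k] k) :=
    inferInstance
  have hfinZ : Module.Finite k ↥(D.ZSha1 (Representation.trivial k D.G k)) :=
    Module.Finite.of_injective Ψ hinj
  calc Module.finrank k (D.Sha1 (Representation.trivial k D.G k))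
      ≤ Module.finrank k ↥(D.ZSha1 (Representation.trivial k D.G k)) :=
        Submodule.finrank_quotient_le _
    _ ≤ Module.finrank k (D.Sha2 (Representation.trivial k D.G k) →ₗ[k] k) :=
        LinearMap.finrank_le_finrank_of_injective hinj
    _ = Module.finrank k (D.Sha2 (Representation.trivial k D.G k)) :=
        Subspace.dual_finrank_eq

end

end Fermat.Agent.PT.Glob
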