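import Mathlib
import Fermat.Agent.PT.Glob.KIface5
import Fermat.Agent.PT.Glob.K.H72LocEval
import Fermat.Agent.PT.Glob.H89KN2Asm
import Fermat.Agent.PT.Glob.H49KClassIndep

/-!
# W3-PT / PT-GLOB-K, assembly K-DP-ASM (helper8, second seat): `KLeftAsm`

`h8la_kLeftAsm : KLeftAsm` : the left nondegeneracy (d') of `Ш¹ × Ш² → 𝔽_p` over `L = fieldOf U`
from the leaves of `KIface5.lean`, by `S`-variation.

Let `z = (a, b) ∈ ZC¹` be orthogonal to `ZШ²` with `a ≠ 0`.  Chebotarev gives `q0 ∉ S`, `A0` over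
`q0` and a Frobenius `σ ∈ U` at `A0` with `a σ ≠ 0`; the class group gives `α ∈ L` with
`α = ϖ^{p^k h'} · unit` at `A0`, `p ∤ h'`, and `α` a unit at the other primes outside `S`.  For
`γ^{p^{k+1}} = α` the class `y = d¹ ζ'`, `ζ' = zetaP p k ξ γ`, lies in `ZШ²`, and `ζ'` has level
`insert q0 S`.  The pairing formula gives `0 = ⟨z, y⟩ = ∑_{w ∣ q0} inv_w (res_w ω)`; all the terms
vanish except the one at the place `w0` under `A0`, which is `h' · inv_{w0} (a_{w0} ∪ κ_Pr)`.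
Hence `a_{w0} ∪ κ_Pr` is a coboundary, contradicting the tame symbol.
-/

set_option autoImplicit false

open ExtCitation NumberField IsDedekindDomain MulAction
open scoped Pointwise

namespace Fermat.Agent.PT.Glob

open Fermat.Agent.PT Fermat.Agent.PT.Shap Fermat.Agent.Bridge Fermat.Agent.PT.Bridge

local notation "GQ₀" => (AlgebraicClosure ℚ ≃ₐ[ℚ] AlgebraicClosure ℚ)

noncomputable section

attribute [local instance] locActQ

/-! ## Valuation subrings with the same prime of `L` -/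

/-- Two valuation subrings of `ℚ̄` with the same prime of `𝓞 L` contain the same elements
of `L`. -/
theorem h8la_mem_iff (L : IntermediateField ℚ Qb) [NumberField L]
    (A A' : ValuationSubring Qb) {q : ℕ} (hq : q.Prime) (hA : A.LiesOverPrime q)
    (h : primeUnder A L = primeUnder A' L) (a : Qb) (ha : a ∈ L) : a ∈ A ↔ a ∈ A' := by
  have hv : (h23b_placeUnder L A hq hA).asIdeal = primeUnder A L := rfl
  have h1 := h23b_mem_iff_valuation_le_one (A := A) (h23b_placeUnder L A hq hA) hv ⟨a, ha⟩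
  have h2 := h23b_mem_iff_valuation_le_one (A := A') (h23b_placeUnder L A hq hA)
    (hv.trans h) ⟨a, ha⟩
  exact h1.trans h2.symm

/-- Units of `L` transfer. -/
theorem h8la_isUnitAt (L : IntermediateField ℚ Qb) [NumberField L]
    (A A' : ValuationSubring Qb) {q : ℕ} (hq : q.Prime) (hA : A.LiesOverPrime q)
    (h : primeUnder A L = primeUnder A' L) (a : Qb) (ha : a ∈ L) (hu : IsUnitAt A a) :
    IsUnitAt A' a :=
  ⟨(h8la_mem_iff L A A' hq hA h a ha).mp hu.1,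
    (h8la_mem_iff L A A' hq hA h a⁻¹ (inv_mem ha)).mp hu.2⟩

/-- Nonunits of `L` transfer. -/
theorem h8la_mem_nonunits (L : IntermediateField ℚ Qb) [NumberField L]
    (A A' : ValuationSubring Qb) {q : ℕ} (hq : q.Prime) (hA : A.LiesOverPrime q)
    (h : primeUnder A L = primeUnder A' L) (a : Qb) (ha : a ∈ L) (hn : a ∈ A.nonunits) :
    a ∈ A'.nonunits := by
  by_cases h0 : a = 0
  · rw [h0, ValuationSubring.mem_nonunits_iff, map_zero]
    exact zero_lt_one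
  rw [ValuationSubring.mem_nonunits_iff] at hn ⊢
  by_contra hlt
  have h1 : A'.valuation a⁻¹ ≤ 1 := by
    rw [map_inv₀]
    exact inv_le_one_of_one_le₀ (not_lt.mp hlt)
  have h2 : a⁻¹ ∈ A := (h8la_mem_iff L A A' hq hA h a⁻¹ (inv_mem ha)).mpr
    ((ValuationSubring.valuation_le_one_iff A' _).mp h1)
  have h3 : A.valuation a⁻¹ ≤ 1 := (ValuationSubring.valuation_le_one_iff A _).mpr h2
  rw [map_inv₀] at h3
  have h4 : A.valuation a ≠ 0 := (map_ne_zero _).mpr h0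
  have h5 : 1 ≤ A.valuation a := (inv_le_one₀ (zero_lt_iff.mpr h4)).mp h3
  exact absurd hn (not_lt.mpr h5)

/-- Uniformizers transfer. -/
theorem h8la_isUnifAt (L : IntermediateField ℚ Qb) [NumberField L]
    (A A' : ValuationSubring Qb) {q q' : ℕ} (hq : q.Prime) (hA : A.LiesOverPrime q)
    (hq' : q'.Prime) (hA' : A'.LiesOverPrime q')
    (h : primeUnder A L = primeUnder A' L) (ϖ : Qb) (hu : IsUnifAt L A ϖ) :
    IsUnifAt L A' ϖ := by
  obtain ⟨h1, h2, h3, h4⟩ := hu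
  refine ⟨h1, h2, h8la_mem_nonunits L A A' hq hA h ϖ h1 h3, fun x hx hxn => ?_⟩
  have hx' : x ∈ A.nonunits := h8la_mem_nonunits L A' A hq' hA' h.symm x hx hxn
  exact (h8la_mem_iff L A A' hq hA h (x / ϖ) (div_mem hx h1)).mp (h4 x hx hx')

/-- Valuation subrings over different primes have different primes of `𝓞 L`. -/
theorem h8la_primeUnder_ne (L : IntermediateField ℚ Qb)
    (A A' : ValuationSubring Qb) {q q' : ℕ} (hq : q.Prime) (hq' : q'.Prime)
    (hA : A.LiesOverPrime q) (hA' : A'.LiesOverPrime q') (hne : q ≠ q') :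
    primeUnder A L ≠ primeUnder A' L := by
  intro h
  have h1 : ((q : ℕ) : 𝓞 L) ∈ primeUnder A L := by
    rw [mem_primeUnder, h49k_natCast_coe]
    exact hA
  rw [h, mem_primeUnder, h49k_natCast_coe] at h1
  exact hne (h49k_prime_unique A' hq hq' h1 hA')

/-! ## Restriction of cocycles to the local group at `w` -/

/-- restriction of a `1`-cocycle (trivial coefficients) is a `1`-cocycle. -/
theorem h8la_res1_mem_Z1 (p : ℕ) [Fact p.Prime] {S : Finset Nat.Primes} {U : Subgroup GQ₀}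
    (u : USD U) (q : Nat.Primes) (w : (u.od q).W) (a : ↥U → ZMod p)
    (ha : a ∈ Z1 (levU S U) (trivF p U)) :
    res1 (ZMod p) (ZMod p) (locW u q w) a ∈ Z1 (levW u q w) (trivW p u q w) := by
  obtain ⟨hd, hlc⟩ := (mem_Z1 _ _ _).mp ha
  refine (mem_Z1 _ _ _).mpr ⟨?_, h72e_isLC1_res u q w a hlc⟩
  funext x
  obtain ⟨g, h⟩ := x
  have e := congrFun hd (locW u q w g, locW u q w h)
  simp only [d1_apply, Pi.zero_apply, Representation.trivial_apply,
    res1_apply, map_mul] at e ⊢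
  exact e

/-! ## The assembly -/

/-- **K-DP-ASM.** -/
theorem h8la_kLeftAsm : KLeftAsm := by
  intro p _ inv hLocInvOK hRec hTr hDQ hKI hKS hWOK hInj hVV hUnr hTame hGam hUnit hZeta hKum
    hRam hCheb hClass hBock hFrob hPair hEval S U _ u tr hAdm hT z hz horth
  classical
  by_contra hne
  have hp : p.Prime := Fact.out
  have hNZp : NeZero p := ⟨hp.ne_zero⟩
  -- the field
  have hUfix : (fieldOf U).fixingSubgroup = U := h23r_fixingSubgroup_fieldOf hAdm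
  have hLur : (fieldOf U).IsUnramifiedOutside S := h23r_isUnramifiedOutside_fieldOf hAdm
  have hLfin : FiniteDimensional ℚ (fieldOf U) := h23r_finiteDimensional_fieldOf hAdm
  have hNF : NumberField (fieldOf U) := h23b_numberField (fieldOf U)
  have hAdmU : AdmU p U := h72e_admU hAdm
  -- the cocycle `a`
  have hz' := Submodule.mem_inf.1 hz
  have hz0 : (DU p S U u).coneD1 (trivU p S U u) z = 0 := hz'.1
  rw [Datum.coneD1_apply, Prod.mk_eq_zero] at hz0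
  have ha : d1 (trivF p U) z.1 = 0 := hz0.1
  have haL : IsLC1 (levU S U) z.1 := hz'.2.1
  obtain ⟨a, haz⟩ : ∃ a : ↥U → ZMod p, a = z.1 := ⟨_, rfl⟩
  rw [← haz] at ha haL
  have haZ1 : a ∈ Z1 (levU S U) (trivF p U) := (mem_Z1 _ _ _).mpr ⟨ha, haL⟩
  have hadd : ∀ g h : ↥U, a (g * h) = a g + a h := by
    intro g h
    have h1 := congrFun ha (g, h)
    simp only [d1_apply, Representation.trivial_apply, Pi.zero_apply] at h1
    linear_combination -h1
  have ha1 : a 1 = 0 := by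
    have h1 := hadd 1 1
    rw [mul_one] at h1
    exact left_eq_add.mp h1
  have hainv : ∀ g : ↥U, a g⁻¹ = - a g := by
    intro g
    have h1 := hadd g g⁻¹
    rw [mul_inv_cancel, ha1] at h1
    exact eq_neg_of_add_eq_zero_right h1.symm
  obtain ⟨g₀, hg₀⟩ : ∃ g₀ : ↥U, a g₀ ≠ 0 := by
    by_contra hcon
    push Not at hcon
    apply hne
    rw [← haz]
    funext g
    exact hcon g
  -- the character of `G_ℚ`
  obtain ⟨χ, hχ⟩ : ∃ χ : GQ → ZMod p, ∀ (g : GQ) (hg : g ∈ U), χ g = a ⟨g, hg⟩ :=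
    ⟨fun g => if h : g ∈ U then a ⟨g, h⟩ else 0, fun g hg => dif_pos hg⟩
  obtain ⟨N', ⟨N, ⟨F₀, hF₀, hF₀n, rfl⟩, rfl⟩, haN⟩ := haL
  have hF₀fin : FiniteDimensional ℚ F₀ := hF₀.1
  obtain ⟨F, hF⟩ : ∃ F : IntermediateField ℚ Qb, F = fieldOf U ⊔ F₀ := ⟨_, rfl⟩
  have hFfin : FiniteDimensional ℚ F := by
    rw [hF]
    infer_instance
  have hLF : fieldOf U ≤ F := by
    rw [hF]
    exact le_sup_left
  have hF₀F : F₀ ≤ F := by
    rw [hF]
    exact le_sup_right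
  have hχadd : ∀ g ∈ (fieldOf U).fixingSubgroup, ∀ h ∈ (fieldOf U).fixingSubgroup,
      χ (g * h) = χ g + χ h := by
    intro g hg h hh
    rw [hUfix] at hg hh
    rw [hχ _ (mul_mem hg hh), hχ g hg, hχ h hh]
    exact hadd ⟨g, hg⟩ ⟨h, hh⟩
  have hχinv : ∀ g ∈ (fieldOf U).fixingSubgroup, ∀ s ∈ F.fixingSubgroup,
      χ (g * s) = χ g := by
    intro g hg s hs
    rw [hUfix] at hg
    have hsU : s ∈ U := by
      rw [← hUfix]
      exact IntermediateField.fixingSubgroup_antitone hLF hs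
    have hsF₀ : s ∈ F₀.fixingSubgroup := IntermediateField.fixingSubgroup_antitone hF₀F hs
    rw [hχ _ (mul_mem hg hsU), hχ g hg]
    exact haN ⟨g, hg⟩ ⟨s, hsU⟩ hsF₀
  have hχne : ∃ g ∈ (fieldOf U).fixingSubgroup, χ g ≠ 0 := by
    refine ⟨g₀.1, by rw [hUfix]; exact g₀.2, ?_⟩
    rw [hχ g₀.1 g₀.2]
    exact hg₀
  -- Chebotarev
  obtain ⟨q, A0, σ, hq, hqT, hA0', hσL, hFr', hχσ, -⟩ :=
    hCheb p (fieldOf U) F hFfin hLF χ hχadd hχinv hχne (S.image fun q : Nat.Primes => (q : ℕ))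
  obtain ⟨q0, hq0q⟩ : ∃ q0 : Nat.Primes, (q0 : ℕ) = q := ⟨⟨q, hq⟩, rfl⟩
  have hq0 : q0 ∉ S := by
    intro h
    apply hqT
    rw [Finset.mem_image]
    exact ⟨q0, h, hq0q⟩
  have hA0 : A0.LiesOverPrime (q0 : ℕ) := by rw [hq0q]; exact hA0'
  have hFr : A0.IsFrobeniusAt σ (q0 : ℕ) := by rw [hq0q]; exact hFr'
  have hσU : σ ∈ U := by rw [← hUfix]; exact hσL
  have haσ : a ⟨σ, hσU⟩ ≠ 0 := by rw [← hχ σ hσU]; exact hχσ
  have hq0p : (q0 : ℕ) ≠ p := by
    intro h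
    apply hq0
    have h2 : q0 = pPrime p := Subtype.ext h
    rw [h2]
    exact hAdm.mem
  -- the class group
  obtain ⟨k, h', α, ϖ, hph', hαL, hα0, hϖ, ⟨x, hx, hαx⟩, hunit⟩ :=
    hClass p S (fieldOf U) q0 A0 hq0 hA0
  have hϖL : ϖ ∈ fieldOf U := hϖ.1
  have hϖ0 : ϖ ≠ 0 := hϖ.2.1
  have hxL : x ∈ fieldOf U := by
    have e : x = α / ϖ ^ (p ^ k * h') := by
      rw [hαx]
      field_simp
    rw [e]
    exact div_mem hαL (pow_mem hϖL _)
  -- roots
  have hNZ : NeZero (p ^ (k + 1)) := ⟨pow_ne_zero _ hp.ne_zero⟩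
  obtain ⟨ξ, hξ⟩ : ∃ ξ : Qb, IsPrimitiveRoot ξ (p ^ (k + 1)) := by
    have : NeZero ((p ^ (k + 1) : ℕ) : Qb) :=
      ⟨Nat.cast_ne_zero.mpr (pow_ne_zero _ hp.ne_zero)⟩
    exact HasEnoughRootsOfUnity.exists_primitiveRoot Qb (p ^ (k + 1))
  have hζ : IsPrimitiveRoot (ξ ^ p ^ k) p := hξ.pow (pow_pos hp.pos _) (pow_succ p k)
  have hζU : ∀ g ∈ U, g (ξ ^ p ^ k) = ξ ^ p ^ k := fun g hg =>
    (h23b_cycloChar_eq_one_iff p hζ g).mp (hAdm.chi g hg)
  have hζL : ξ ^ p ^ k ∈ fieldOf U := fun g => hζU g.1 g.2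
  obtain ⟨γ, hγ⟩ : ∃ γ : Qb, γ ^ p ^ (k + 1) = α :=
    IsAlgClosed.exists_pow_nat_eq α (pow_pos hp.pos _)
  have hγ0 : γ ≠ 0 := fun h0 =>
    hα0 (by rw [← hγ, h0, zero_pow (pow_ne_zero _ hp.ne_zero)])
  have hγL : γ ^ p ^ (k + 1) ∈ fieldOf U := by rw [hγ]; exact hαL
  obtain ⟨Pr, hPr⟩ : ∃ Pr : Qb, Pr ^ p = ϖ := IsAlgClosed.exists_pow_nat_eq ϖ hp.pos
  have hPr0 : Pr ≠ 0 := fun h0 => hϖ0 (by rw [← hPr, h0, zero_pow hp.ne_zero])
  -- divisibility of the valuations of `α` outside `S`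
  have hDvd : DvdValOut (p ^ k) S (fieldOf U) (γ ^ p ^ (k + 1)) := by
    intro q' hq' A hA
    rw [hγ]
    by_cases hPA : primeUnder A (fieldOf U) = primeUnder A0 (fieldOf U)
    · have hxA : IsUnitAt A x :=
        h8la_isUnitAt (fieldOf U) A0 A q0.2 hA0 hPA.symm x hxL hx
      refine ⟨ϖ ^ h', pow_mem hϖL _, pow_ne_zero _ hϖ0, x, hxA.1, hxA.2, ?_⟩
      rw [hαx, ← pow_mul, mul_comm h' (p ^ k)]
    · have hu := hunit q' hq' A hA hPA
      exact ⟨1, one_mem _, one_ne_zero, α, hu.1, hu.2, by rw [one_pow, one_mul]⟩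
  -- the class `y`
  obtain ⟨ζ', hζ'⟩ : ∃ ζ' : ↥U → ZMod p, ζ' = fun g : ↥U => zetaP p k ξ γ g := ⟨_, rfl⟩
  have hy : d1 (trivF p U) ζ' ∈ (DU p S U u).ZSha2 (trivU p S U u) := by
    rw [hζ']
    exact hBock p S U u k ξ γ hAdm hξ hγ0 hγL hDvd
  -- the level of `ζ'`
  have hsub : S ⊆ insert q0 S := Finset.subset_insert q0 S
  have hpS : ∀ q' : Nat.Primes, (q' : ℕ) ∣ p ^ (k + 1) → q' ∈ insert q0 S := by
    intro q' hq'
    have h1 : (q' : ℕ) = p := (Nat.prime_dvd_prime_iff_eq q'.2 hp).mp (q'.2.dvd_of_dvd_pow hq')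
    have h2 : q' = pPrime p := Subtype.ext h1
    rw [h2]
    exact hsub hAdm.mem
  have hζ'lev : IsLC1 (levU (insert q0 S) U) ζ' := by
    obtain ⟨F₁, hF₁, hF₁n, -, hγF₁⟩ := hRam (p ^ (k + 1)) (insert q0 S) (fieldOf U) γ
      (pow_pos hp.pos _) hpS (hLur.mono hsub) hγ0 hγL (by
        intro q' hq' A hA
        rw [hγ]
        have hq'0 : q' ≠ q0 := fun h => hq' (by rw [h]; exact Finset.mem_insert_self q0 S)
        have hq'S : q' ∉ S := fun h => hq' (Finset.mem_insert_of_mem h)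
        have hPA : primeUnder A (fieldOf U) ≠ primeUnder A0 (fieldOf U) :=
          h8la_primeUnder_ne (fieldOf U) A A0 q'.2 q0.2 hA hA0
            (fun h => hq'0 (Subtype.ext h))
        have hu := hunit q' hq'S A hA hPA
        exact ⟨1, one_mem _, one_ne_zero, α, hu.1, hu.2, by rw [one_pow, one_mul]⟩)
    refine ⟨_, ⟨F₁.fixingSubgroup, ⟨F₁, hF₁, hF₁n, rfl⟩, rfl⟩, fun g s hs => ?_⟩
    have hsγ : (s : GQ) γ = γ :=
      (IntermediateField.mem_fixingSubgroup_iff _ (s : GQ)).mp hs γ hγF₁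
    rw [hζ']
    show zetaP p k ξ γ ((g : GQ) * (s : GQ)) = zetaP p k ξ γ (g : GQ)
    exact h89k_zetaP_congr hsγ
  -- the pairing formula
  obtain ⟨ε, hε, hω, hpair⟩ := hPair p inv hLocInvOK hRec hTr hDQ hKI hKS hWOK hVV S U u tr
    hAdm hT q0 hq0 z hz ζ' hζ'lev hy
  rw [horth _ hy, ← haz] at hpair
  rw [← haz] at hω
  -- the place under `A0`
  obtain ⟨w0, φ, x₀, hx₀U, hplc, hlocφ, hFrφ, hw0⟩ := hFrob p S U u q0 A0 σ hAdm hA0 hσU hFr
  have hx₀L : x₀ ∈ (fieldOf U).fixingSubgroup := by rw [hUfix]; exact hx₀U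
  have hPw0 : primeUnder A0 (fieldOf U) = primeUnder (plcRing u q0 w0) (fieldOf U) := by
    rw [hplc]
    exact (h23b_primeUnder_smul_of_mem_fixingSubgroup (fieldOf U) A0 hx₀L).symm
  have hAw0 : (plcRing u q0 w0).LiesOverPrime (q0 : ℕ) := h72e_plcRing_liesOver u q0 w0
  have hϖw0 : IsUnifAt (fieldOf U) (plcRing u q0 w0) ϖ :=
    h8la_isUnifAt (fieldOf U) A0 (plcRing u q0 w0) q0.2 hA0 q0.2 hAw0 hPw0 ϖ hϖ
  have hxw0 : IsUnitAt (plcRing u q0 w0) x :=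
    h8la_isUnitAt (fieldOf U) A0 (plcRing u q0 w0) q0.2 hA0 hPw0 x hxL hx
  -- the local evaluation
  have hev := hEval p inv hUnr hWOK hGam hUnit hZeta hKum hDQ S U u hAdm q0 hq0 k h' ξ γ a ε
    hξ hγ0 hγL haZ1 hε (by rw [← hζ']; exact hω)
  have hsum : ∑ w : (u.od q0).W, invW inv u q0 w
      (res2 (ZMod p) (ZMod p) (locW u q0 w)
        (ε + cup11 (LinearMap.mul (ZMod p) (ZMod p)) (trivF p U) a ζ')) =
      (h' : ZMod p) * invW inv u q0 w0
        (cup11 (LinearMap.mul (ZMod p) (ZMod p)) (trivW p u q0 w0)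
          (res1 (ZMod p) (ZMod p) (locW u q0 w0) a)
          (fun h => kumQ p (ξ ^ p ^ k) Pr (locW u q0 w0 h))) := by
    rw [Finset.sum_eq_single w0]
    · rw [hζ']
      exact (hev w0).2 ϖ Pr hϖw0 hPr ⟨x, hxw0, by rw [hγ]; exact hαx⟩
    · intro w _ hw
      rw [hζ']
      refine (hev w).1 ?_
      rw [hγ]
      exact hunit q0 hq0 (plcRing u q0 w) (h72e_plcRing_liesOver u q0 w) (hw0 w hw)
    · intro h
      exact absurd (Finset.mem_univ w0) h
  rw [hsum] at hpair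
  have hh'0 : (h' : ZMod p) ≠ 0 := by
    intro h
    exact hph' ((ZMod.natCast_eq_zero_iff h' p).mp h)
  have hinv0 : invW inv u q0 w0
      (cup11 (LinearMap.mul (ZMod p) (ZMod p)) (trivW p u q0 w0)
        (res1 (ZMod p) (ZMod p) (locW u q0 w0) a)
        (fun h => kumQ p (ξ ^ p ^ k) Pr (locW u q0 w0 h))) = 0 := by
    rcases mul_eq_zero.mp hpair.symm with h | h
    · exact absurd h hh'0
    · exact h
  -- the tame symbol
  have hPrL : Pr ^ p ∈ fieldOf U := by rw [hPr]; exact hϖL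
  have haLC : IsLC1 (levU S U) a := ((mem_Z1 _ _ _).mp haZ1).2
  have hχwZ1 : res1 (ZMod p) (ZMod p) (locW u q0 w0) a ∈ Z1 (levW u q0 w0) (trivW p u q0 w0) :=
    h8la_res1_mem_Z1 p u q0 w0 a haZ1
  have hχwadd : ∀ g h : ↥(VW u q0 w0),
      res1 (ZMod p) (ZMod p) (locW u q0 w0) a (g * h) =
        res1 (ZMod p) (ZMod p) (locW u q0 w0) a g +
          res1 (ZMod p) (ZMod p) (locW u q0 w0) a h := by
    intro g h
    simp only [res1_apply, map_mul]
    exact hadd _ _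
  obtain ⟨-, hKadd, -, -⟩ := hKum p (fieldOf U) (ξ ^ p ^ k) Pr hζL hζ hPr0 hPrL
  have hψwadd : ∀ g h : ↥(VW u q0 w0),
      (fun h : ↥(VW u q0 w0) => kumQ p (ξ ^ p ^ k) Pr (locW u q0 w0 h)) (g * h) =
        (fun h : ↥(VW u q0 w0) => kumQ p (ξ ^ p ^ k) Pr (locW u q0 w0 h)) g +
          (fun h : ↥(VW u q0 w0) => kumQ p (ξ ^ p ^ k) Pr (locW u q0 w0 h)) h := by
    intro g h
    show kumQ p (ξ ^ p ^ k) Pr ((locW u q0 w0 (g * h) : ↥U) : GQ) =
      kumQ p (ξ ^ p ^ k) Pr ((locW u q0 w0 g : ↥U) : GQ) +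
        kumQ p (ξ ^ p ^ k) Pr ((locW u q0 w0 h : ↥U) : GQ)
    rw [map_mul, Subgroup.coe_mul]
    exact hKadd _ (by rw [hUfix]; exact (locW u q0 w0 g).2) _
      (by rw [hUfix]; exact (locW u q0 w0 h).2)
  have hψwLC : IsLC1 (levW u q0 w0)
      (fun h : ↥(VW u q0 w0) => kumQ p (ξ ^ p ^ k) Pr ((locW u q0 w0 h : ↥U) : GQ)) :=
    h72e_isLC1_kum hKum hAdm u q0 w0 (ξ ^ p ^ k) Pr hζL hζ hPr0 hPrL
  have hcZ2 : cup11 (LinearMap.mul (ZMod p) (ZMod p)) (trivW p u q0 w0)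
      (res1 (ZMod p) (ZMod p) (locW u q0 w0) a)
      (fun h => kumQ p (ξ ^ p ^ k) Pr (locW u q0 w0 h)) ∈
        Z2 (levW u q0 w0) (trivW p u q0 w0) :=
    h72e_cup_mem_Z2 (levW u q0 w0) _ _ hχwadd hψwadd ((mem_Z1 _ _ _).mp hχwZ1).2 hψwLC
  have hcB2 := hInj U u hAdmU q0 w0 _ hcZ2 hinv0
  have hχI : ∀ ι ∈ IW u q0 w0, res1 (ZMod p) (ZMod p) (locW u q0 w0) a ι = 0 := by
    intro ι hι
    have h1 := h72e_lc1_inertia a haLC q0 hq0 (plcRing u q0 w0) hAw0 1 (locW u q0 w0 ι)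
      (h72e_locW_mem_inertia u q0 w0 ι hι)
    rw [one_mul, ha1] at h1
    exact h1
  have hχφ : res1 (ZMod p) (ZMod p) (locW u q0 w0) a φ ≠ 0 := by
    have e : locW u q0 w0 φ = (⟨x₀, hx₀U⟩ : ↥U) * ⟨σ, hσU⟩ * (⟨x₀, hx₀U⟩ : ↥U)⁻¹ :=
      Subtype.ext hlocφ
    rw [res1_apply, e, hadd, hadd, hainv]
    intro h
    apply haσ
    linear_combination h
  exact hTame p U u hAdmU q0 w0 (ξ ^ p ^ k) Pr _ φ hq0p hζ (by rw [hPr]; exact hϖw0) hχwZ1 hχI
    hFrφ hχφ hcB2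

end

end Fermat.Agent.PT.Glob
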