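/-
W3-PT (S55), PT-GLOB-K, K-D-ASM (helper93): abstract core of the isotropy count.

For a good datum `D` with trivial character and trivial coefficients `k`, a trace `tr` with
`TrOK` whose local cup product pairings `Z¹_v × Z¹_v → k` have trivial left kernel:
`2 h¹ ≤ 2 dim Ш¹ + ∑_v dim Z¹_v`.
-/
import Mathlib
import Fermat.Agent.PT.Glob.KIface
import Fermat.Agent.PT.Arith.Glue
import Fermat.Agent.PT.Alg.H93CountLC

set_option autoImplicit false
set_option linter.style.haveILetI false

namespace Fermat.Agent.PT.Glob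

open Fermat.Agent.PT Fermat.Agent.PT.Datum

section Gen

variable {k : Type} [Field k] {G : Type} [Group G]

/-- `B¹ = 0` for a trivial action. -/
lemma h93d_B1_eq_bot {V : Type} [AddCommGroup V] [Module k V] (ρ : Representation k G V)
    (hρ : ∀ g v, ρ g v = v) : B1 ρ = ⊥ := by
  rw [eq_bot_iff]
  rintro f ⟨v, rfl⟩
  rw [Submodule.mem_bot]
  funext g
  simp [hρ]

/-- the quotient by the preimage of `⊥` under a subtype. -/
noncomputable def h93d_quotEquiv {M : Type} [AddCommGroup M] [Module k M] (Z : Submodule k M)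
    (B : Submodule k M) (hB : B = ⊥) : (↥Z ⧸ B.comap Z.subtype) ≃ₗ[k] ↥Z :=
  Submodule.quotEquivOfEqBot _ (by
    rw [hB, eq_bot_iff]
    intro x hx
    rw [Submodule.mem_comap, Submodule.mem_bot] at hx
    rw [Submodule.mem_bot]
    exact Subtype.ext hx)

/-- the cup product of two cocycles with trivial coefficients is a cocycle. -/
lemma h93d_d2_cup (ρ : Representation k G k) (hρ : ∀ g t, ρ g t = t)
    (τ : Representation k G k) (hτ : ∀ g t, τ g t = t) {a a' : G → k} (ha : d1 ρ a = 0)
    (ha' : d1 ρ a' = 0) : d2 τ (cup11 (LinearMap.mul k k) ρ a a') = 0 := by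
  have h1 : ∀ g h, a (g * h) = a g + a h := by
    intro g h
    have := congrFun ha (g, h)
    simp only [d1_apply, hρ, Pi.zero_apply] at this
    linear_combination -this
  have h2 : ∀ g h, a' (g * h) = a' g + a' h := by
    intro g h
    have := congrFun ha' (g, h)
    simp only [d1_apply, hρ, Pi.zero_apply] at this
    linear_combination -this
  funext ⟨g, h, j⟩
  simp only [d2_apply, cup11_apply, hρ, hτ, LinearMap.mul_apply', Pi.zero_apply, h1, h2]
  ring

section CupLin

variable {V W : Type} [AddCommGroup V] [Module k V] [AddCommGroup W] [Module k W]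
variable (β : V →ₗ[k] W →ₗ[k] k) (σ : Representation k G W)

lemma h93d_cup11_add_left (b b' : G → V) (y : G → W) :
    cup11 β σ (b + b') y = cup11 β σ b y + cup11 β σ b' y := by
  funext ⟨g, h⟩
  simp

lemma h93d_cup11_smul_left (c : k) (b : G → V) (y : G → W) :
    cup11 β σ (c • b) y = c • cup11 β σ b y := by
  funext ⟨g, h⟩
  simp

lemma h93d_cup11_add_right (b : G → V) (y y' : G → W) :
    cup11 β σ b (y + y') = cup11 β σ b y + cup11 β σ b y' := by
  funext ⟨g, h⟩
  simp

lemma h93d_cup11_smul_right (c : k) (b : G → V) (y : G → W) :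
    cup11 β σ b (c • y) = c • cup11 β σ b y := by
  funext ⟨g, h⟩
  simp

lemma h93d_cup11_zero_right (b : G → V) : cup11 β σ b (0 : G → W) = 0 := by
  funext ⟨g, h⟩
  simp

end CupLin

end Gen

section Core

variable {k : Type} [Field k] (D : Datum k) (tr : D.CC3 k →ₗ[k] k)

/-- the local cocycles with trivial coefficients. -/
abbrev h93d_Zv (v : D.P) : Submodule k (D.H v → k) :=
  Z1 (D.levH v) (D.repAt (Representation.trivial k D.G k) v)

lemma h93d_repAt_triv (v : D.P) (g : D.H v) (t : k) :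
    D.repAt (Representation.trivial k D.G k) v g t = t := by
  simp [repAt]

lemma h93d_res_mem (hg : D.Good) (v : D.P) {z : D.G → k}
    (hz : z ∈ Z1 D.lev (Representation.trivial k D.G k)) :
    res1 k k (D.loc v) z ∈ h93d_Zv D v := by
  rw [mem_Z1] at hz ⊢
  refine ⟨?_, h93c_lc_res1 D hg v hz.2⟩
  rw [h93c_d1_res, hz.1, map_zero]

/-- the restriction map `Z¹ → ∏_v Z¹_v`. -/
noncomputable def h93d_res (hg : D.Good) :
    ↥(Z1 D.lev (Representation.trivial k D.G k)) →ₗ[k] (∀ v : D.P, ↥(h93d_Zv D v)) :=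
  LinearMap.pi fun v =>
    LinearMap.codRestrict (h93d_Zv D v)
      (res1 k k (D.loc v) ∘ₗ (Z1 D.lev (Representation.trivial k D.G k)).subtype)
      (fun z => h93d_res_mem D hg v z.2)

@[simp] lemma h93d_res_apply (hg : D.Good) (z : ↥(Z1 D.lev (Representation.trivial k D.G k)))
    (v : D.P) : ((h93d_res D hg z v : ↥(h93d_Zv D v)) : D.H v → k) = res1 k k (D.loc v) z.1 :=
  rfl

/-- the sum of the local cup product pairings. -/
noncomputable def h93d_form :
    (∀ v : D.P, ↥(h93d_Zv D v)) →ₗ[k] (∀ v : D.P, ↥(h93d_Zv D v)) →ₗ[k] k :=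
  LinearMap.mk₂ k
    (fun x x' => ∑ v, D.invAt tr v (cup11 (LinearMap.mul k k)
      (D.repAt (Representation.trivial k D.G k) v) (x v : D.H v → k) (x' v : D.H v → k)))
    (fun x y x' => by
      rw [← Finset.sum_add_distrib]
      refine Finset.sum_congr rfl fun v _ => ?_
      rw [← map_add, ← h93d_cup11_add_left]
      rfl)
    (fun c x x' => by
      rw [Finset.smul_sum]
      refine Finset.sum_congr rfl fun v _ => ?_
      rw [← map_smul, ← h93d_cup11_smul_left]
      rfl)
    (fun x x' y' => by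
      rw [← Finset.sum_add_distrib]
      refine Finset.sum_congr rfl fun v _ => ?_
      rw [← map_add, ← h93d_cup11_add_right]
      rfl)
    (fun c x x' => by
      rw [Finset.smul_sum]
      refine Finset.sum_congr rfl fun v _ => ?_
      rw [← map_smul, ← h93d_cup11_smul_right]
      rfl)

lemma h93d_form_apply (x x' : ∀ v : D.P, ↥(h93d_Zv D v)) :
    h93d_form D tr x x' = ∑ v, D.invAt tr v (cup11 (LinearMap.mul k k)
      (D.repAt (Representation.trivial k D.G k) v) (x v : D.H v → k) (x' v : D.H v → k)) :=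
  rfl

/-- the left kernel of the form is trivial if the local pairings have trivial left kernel. -/
lemma h93d_form_left
    (hnd : ∀ v, ∀ χ ∈ h93d_Zv D v, (∀ ψ ∈ h93d_Zv D v,
      D.invAt tr v (cup11 (LinearMap.mul k k) (D.repAt (Representation.trivial k D.G k) v)
        χ ψ) = 0) → χ = 0)
    (x : ∀ v : D.P, ↥(h93d_Zv D v)) (hx : ∀ x', h93d_form D tr x x' = 0) : x = 0 := by
  classical
  funext v
  apply Subtype.ext
  apply hnd v _ (x v).2
  intro ψ hψ
  have h1 := hx (Pi.single v ⟨ψ, hψ⟩)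
  rw [h93d_form_apply, Finset.sum_eq_single v] at h1
  · simpa using h1
  · intro w _ hw
    rw [Pi.single_eq_of_ne hw]
    have : ((0 : ↥(h93d_Zv D w)) : D.H w → k) = 0 := rfl
    rw [this, h93d_cup11_zero_right, map_zero]
  · intro h
    exact absurd (Finset.mem_univ v) h

/-- the image of the restriction map is isotropic (reciprocity). -/
lemma h93d_form_iso (hg : D.Good) (htr : D.TrOK tr) (hchi : ∀ g, D.chi g = 1)
    (z z' : ↥(Z1 D.lev (Representation.trivial k D.G k))) :
    h93d_form D tr (h93d_res D hg z) (h93d_res D hg z') = 0 := by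
  have hρ : ∀ g t, Representation.trivial k D.G k g t = t := fun g t => by simp
  have hτ : ∀ g t, chiRep D.chi g t = t := fun g t => by simp [hchi]
  have hz := (mem_Z1 _ _ _).1 z.2
  have hz' := (mem_Z1 _ _ _).1 z'.2
  have hdisc : IsDisc D.lev (Representation.trivial k D.G k) := by
    intro t
    obtain ⟨N, hN⟩ := D.lev.nonempty
    exact ⟨N, hN, fun s _ => hρ s t⟩
  have hcLC : IsLC2 D.lev (cup11 (LinearMap.mul k k) (Representation.trivial k D.G k) z.1 z'.1) :=
    h93c_lc_cup11 (Representation.trivial k D.G k) (LinearMap.mul k k) hg.1 hdisc hz.2 hz'.2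
  have hcd : d2 (chiRep D.chi)
      (cup11 (LinearMap.mul k k) (Representation.trivial k D.G k) z.1 z'.1) = 0 :=
    h93d_d2_cup (Representation.trivial k D.G k) hρ _ hτ hz.1 hz'.1
  generalize hc : cup11 (LinearMap.mul k k) (Representation.trivial k D.G k) z.1 z'.1 = c
    at hcLC hcd
  have hB : D.coneD2 (chiRep D.chi) ((c, fun _ => 0) : D.CC2 k) ∈ D.BC3 (chiRep D.chi) := by
    refine ⟨(c, fun _ => 0), ⟨hcLC, ?_⟩, rfl⟩
    intro v _
    exact (lc1 (D.levH v) k k).zero_mem
  have h0 := htr _ hB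
  rw [Datum.coneD2_apply] at h0
  have h1 : ((d2 (chiRep D.chi) c, fun v => res2 k k (D.loc v) c
      - d1 (D.repAt (chiRep D.chi) v) ((fun _ => 0 : ∀ v : D.P, D.H v → k) v)) : D.CC3 k)
      = ((0, fun v => res2 k k (D.loc v) c) : D.CC3 k) := by
    refine Prod.ext hcd ?_
    funext v
    simp
  rw [h1, h98a_tr_snd] at h0
  rw [h93d_form_apply, ← h0]
  refine Finset.sum_congr rfl fun v _ => ?_
  congr 1
  funext ⟨g, h⟩
  simp [← hc, repAt]

/-- `ZШ¹` is the image of the kernel of the restriction map. -/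
lemma h93d_ZSha1_eq (hg : D.Good) :
    D.ZSha1 (Representation.trivial k D.G k) =
      (LinearMap.ker (h93d_res D hg)).map (Z1 D.lev (Representation.trivial k D.G k)).subtype := by
  ext z
  rw [ZSha1, Submodule.mem_inf, Submodule.mem_iInf, Submodule.mem_map]
  constructor
  · rintro ⟨hz, hloc⟩
    refine ⟨⟨z, hz⟩, ?_, rfl⟩
    rw [LinearMap.mem_ker]
    funext v
    apply Subtype.ext
    have h1 := hloc v
    rw [Submodule.mem_comap, h93d_B1_eq_bot _ (h93d_repAt_triv D v), Submodule.mem_bot] at h1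
    exact h1
  · rintro ⟨y, hy, rfl⟩
    refine ⟨y.2, fun v => ?_⟩
    rw [Submodule.mem_comap, h93d_B1_eq_bot _ (h93d_repAt_triv D v), Submodule.mem_bot]
    rw [LinearMap.mem_ker] at hy
    have h1 := congrArg (fun x : (∀ v : D.P, ↥(h93d_Zv D v)) => ((x v : ↥(h93d_Zv D v)) :
      D.H v → k)) hy
    exact h1

/-- **The abstract isotropy count.** -/
theorem h93d_core (hiso : KIso) (hg : D.Good) (htr : D.TrOK tr) (hchi : ∀ g, D.chi g = 1)
    (hfin : Module.Finite k (HH1 D.lev (Representation.trivial k D.G k)))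
    (hfinv : ∀ v, Module.Finite k ↥(h93d_Zv D v))
    (hnd : ∀ v, ∀ χ ∈ h93d_Zv D v, (∀ ψ ∈ h93d_Zv D v,
      D.invAt tr v (cup11 (LinearMap.mul k k) (D.repAt (Representation.trivial k D.G k) v)
        χ ψ) = 0) → χ = 0) :
    Module.Finite k (D.Sha1 (Representation.trivial k D.G k)) ∧
    2 * Module.finrank k (HH1 D.lev (Representation.trivial k D.G k)) ≤
      2 * Module.finrank k (D.Sha1 (Representation.trivial k D.G k)) +
        ∑ v, Module.finrank k ↥(h93d_Zv D v) := by
  classical
  have hB1 : B1 (Representation.trivial k D.G k) = ⊥ :=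
    h93d_B1_eq_bot _ (fun g t => by simp)
  -- `H¹ ≃ Z¹`
  have eH := h93d_quotEquiv (Z1 D.lev (Representation.trivial k D.G k)) _ hB1
  haveI hZfin : Module.Finite k ↥(Z1 D.lev (Representation.trivial k D.G k)) :=
    Module.Finite.equiv eH
  -- `Ш¹ ≃ ZШ¹ ≃ ker res`
  have eS := h93d_quotEquiv (D.ZSha1 (Representation.trivial k D.G k)) _ hB1
  have eK : ↥(LinearMap.ker (h93d_res D hg)) ≃ₗ[k]
      ↥(D.ZSha1 (Representation.trivial k D.G k)) :=
    (Submodule.equivMapOfInjective _ (Submodule.injective_subtype _) _).trans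
      (LinearEquiv.ofEq _ _ (h93d_ZSha1_eq D hg).symm)
  have eSK : D.Sha1 (Representation.trivial k D.G k) ≃ₗ[k]
      ↥(LinearMap.ker (h93d_res D hg)) := eS.trans eK.symm
  haveI : Module.Finite k (D.Sha1 (Representation.trivial k D.G k)) :=
    Module.Finite.equiv eSK.symm
  refine ⟨inferInstance, ?_⟩
  haveI : ∀ v, Module.Finite k ↥(h93d_Zv D v) := hfinv
  have h1 := hiso k (∀ v : D.P, ↥(h93d_Zv D v)) (h93d_form D tr)
    (LinearMap.range (h93d_res D hg)) (h93d_form_left D tr hnd) (by
      rintro _ ⟨z, rfl⟩ _ ⟨z', rfl⟩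
      exact h93d_form_iso D tr hg htr hchi z z')
  rw [Module.finrank_pi_fintype] at h1
  have h2 := LinearMap.finrank_range_add_finrank_ker (h93d_res D hg)
  rw [eH.finrank_eq, eSK.finrank_eq]
  omega

end Core

end Fermat.Agent.PT.Glob
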